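import Fermat.Agent.NebLocal.Eisen
import Fermat.Agent.Level.Gamma0
import Fermat.Agent.HeckeH1.Diamond

/-!
# The level `Γ_H(M)` with rational structure

Its separating function is the sum over `H` of the Eisenstein functions plus a multiple of
`j(Mz)`; the field is generated by all rational series of functions of the level.
-/

set_option autoImplicit false
set_option linter.unusedSectionVars false
set_option maxHeartbeats 1000000

noncomputable section

namespace FA.NebLocal

open UpperHalfPlane hiding I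
open Complex hiding Gamma
open CongruenceSubgroup ModularCurve FA.ModField FA.Level FA.HeckeH1
open scoped MatrixGroups Manifold

variable {M : ℕ} [NeZero M]

/-- The weight `-4` factor `E₄²/Δ`. -/
def bb (z : ℍ) : ℂ := ModularForm.E₄ z ^ 2 / ModularForm.discriminant z

/-- Its series after removing `q⁻¹`. -/
def bbSer : PowerSeries ℤ := ModularCurve.eisenstein4 ^ 2 * ModularCurve.dedekindEtaUnitInv

theorem bb_mul_pow (g : SL(2, ℤ)) (z : ℍ) :
    denom g z ^ (4 : ℤ) * bb (g • z) = bb z := by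
  have hd : denom g z ≠ 0 := denom_ne_zero _ _
  have hD : ModularForm.discriminant z ≠ 0 := ModularForm.discriminant_ne_zero z
  rw [bb, bb, E4_smul, discriminant_smul]
  field_simp

theorem mdiff_bb : MDiff bb := by
  rw [UpperHalfPlane.mdifferentiable_iff]
  exact ((UpperHalfPlane.mdifferentiable_iff.1 (ModularForm.E₄).holo').pow 2).div
    (UpperHalfPlane.mdifferentiable_iff.1 CuspForm.discriminant.holo')
    (fun z _ => ModularForm.discriminant_ne_zero _)

theorem hasExp_bb : HasExp (qp 1) bb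
    (HahnSeries.single (-1 : ℤ) 1 * HahnSeries.ofPowerSeries ℤ ℂ (bbSer.map (Int.castRingHom ℂ))) := by
  have h := (hasExp_single (T := qp 1) (-1) 1).mul (qp_ne_zero 1)
    ((hasExp_E4.pow (qp_ne_zero 1) 2).mul (qp_ne_zero 1) hasExp_inv_etaUnit)
  rw [show bbSer.map (Int.castRingHom ℂ) = (ModularCurve.eisenstein4.map (Int.castRingHom ℂ)) ^ 2 *
    ModularCurve.dedekindEtaUnitInv.map (Int.castRingHom ℂ) by rw [bbSer, map_mul, map_pow],
    map_mul, map_pow]
  convert h using 1
  funext z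
  symm
  have hq : qp 1 z = Function.Periodic.qParam (1 : ℝ) (z : ℂ) := by simp [qp]
  simp only [Pi.mul_apply, Pi.pow_apply, one_mul, zpow_neg_one, bb]
  rw [ModularForm.discriminant_eq_q_prod, ← hq]
  simp only [ModularForm.eta_q, ← hq]
  rw [(ModularForm.multipliable_one_sub_pow (norm_qp_lt_one 1 z)).tprod_pow 24]
  rw [inv_pow]
  field_simp

theorem exists_hasExp_bb_width : ∃ L, HasExp (qp M) bb L :=
  ⟨_, hasExp_bb.comp id M 1 fun z => by simp [qp_pow_self]⟩

/-- The function of a set of residues. -/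
def eisF (P : Set (Fin 2 → ZMod M)) (z : ℍ) : ℂ := eisG M P z / eisConst * bb z

theorem eisF_smul (P : Set (Fin 2 → ZMod M)) (g : SL(2, ℤ)) (z : ℍ) :
    eisF P (g • z) = eisF (pulled g P) z := by
  rw [eisF, eisF, eisG_smul, ← bb_mul_pow g z]
  ring

theorem mdiff_eisF (P : Set (Fin 2 → ZMod M)) : MDiff (eisF P) := by
  rw [UpperHalfPlane.mdifferentiable_iff]
  exact ((UpperHalfPlane.mdifferentiable_iff.1 (mdiff_eisG P)).div_const _).mul
    (UpperHalfPlane.mdifferentiable_iff.1 mdiff_bb)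

theorem exists_hasExp_eisF (P : Set (Fin 2 → ZMod M)) (g : SL(2, ℤ)) :
    ∃ L, HasExp (qp M) (fun z => eisF P (g • z)) L := by
  obtain ⟨A, hA⟩ := exists_hasExp_eisG (pulled g P)
  obtain ⟨B, hB⟩ := exists_hasExp_bb_width (M := M)
  refine ⟨HahnSeries.C eisConst⁻¹ * A * B,
    (((hasExp_C eisConst⁻¹).mul (qp_ne_zero M) hA).mul (qp_ne_zero M) hB).congr (funext fun z => ?_)⟩
  simp only [Pi.mul_apply]
  rw [eisF_smul, eisF, div_eq_inv_mul]

variable (M) in
/-- The series of the function of a residue, after removing `q⁻¹`. -/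
def fPS (k : ZMod M) : PowerSeries ℤ := bbSer * PowerSeries.mk fun n => (gCoeff M k n : ℤ)

variable (M) in
/-- The series of the function of a residue. -/
def fSer (k : ZMod M) : LaurentSeries ℤ :=
  HahnSeries.single (-1 : ℤ) 1 * HahnSeries.ofPowerSeries ℤ ℤ (fPS M k)

theorem coeffMap_fSer (R : Type) [CommRing R] (k : ZMod M) :
    coeffMap (Int.castRingHom R) (fSer M k) = HahnSeries.single (-1 : ℤ) 1 *
      HahnSeries.ofPowerSeries ℤ R ((fPS M k).map (Int.castRingHom R)) := by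
  rw [fSer, map_mul, coeffMap_single, map_one, coeffMap_ofPowerSeries]

theorem hasExp_eisF (k : ZMod M) (hk : k ≠ 0) :
    HasExp (qp 1) (eisF (firstIs M k)) (coeffMap (Int.castRingHom ℂ) (fSer M k)) := by
  rw [coeffMap_fSer, fPS, map_mul, map_mul, ← mul_assoc]
  exact (hasExp_bb.mul (qp_ne_zero 1) (hasExp_eisG_firstIs k hk)).congr
    (funext fun z => by simp only [Pi.mul_apply, eisF]; ring)

theorem fSer_coeff_zero (k : ZMod M) (_hk : k ≠ 0) : (fSer M k).coeff 0 = hits M k 1 := by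
  have h0 : gCoeff M k 0 = 0 := by simp [gCoeff]
  rw [fSer, show (0 : ℤ) = (1 : ℤ) + (-1) by norm_num, HahnSeries.coeff_single_mul_add, one_mul,
    show (1 : ℤ) = ((1 : ℕ) : ℤ) from rfl, HahnSeries.ofPowerSeries_apply_coeff, fPS,
    PowerSeries.coeff_mul, Finset.Nat.antidiagonal_succ]
  simp [gCoeff_one, h0, bbSer, ModularCurve.eisenstein4, ModularCurve.dedekindEtaUnitInv]

/-! ### Translates by `Γ₀(M)` -/

theorem pulled_firstIs {g : SL(2, ℤ)} (hg : g ∈ Gamma0 M) (k : ZMod M) :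
    pulled g (firstIs M k) = firstIs M (k * (g.1 0 0 : ZMod M)) := by
  rw [Gamma0_mem] at hg
  have h1 : (g.1 0 0 : ZMod M) * (g.1 1 1 : ZMod M) = 1 := by
    have := congrArg (fun x : ℤ => (x : ZMod M)) g.2
    simp only [Matrix.det_fin_two, Int.cast_sub, Int.cast_mul, Int.cast_one] at this
    rwa [hg, mul_zero, sub_zero] at this
  ext w
  simp only [pulled, firstIs, Set.mem_ofPred_eq]
  rw [Matrix.SpecialLinearGroup.coe_inv, Matrix.adjugate_fin_two]
  simp [Matrix.vecMul, dotProduct, Fin.sum_univ_two, hg]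
  constructor
  · intro h; rw [← h]; linear_combination (-(w 0)) * h1
  · intro h; rw [h]; linear_combination k * h1

theorem pulled_Gamma {g : SL(2, ℤ)} (hg : g ∈ Gamma M) (P : Set (Fin 2 → ZMod M)) :
    pulled g P = P := by
  ext w
  show Matrix.vecMul w _ ∈ P ↔ _
  have h : ((g⁻¹ : SL(2, ℤ)).1.map (Int.cast : ℤ → ZMod M)) = 1 := by
    have := inv_mem hg
    rw [Gamma_mem] at this
    ext i j
    fin_cases i <;> fin_cases j <;>
      simp_all
  rw [h, Matrix.vecMul_one]

/-! ### The level -/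

variable [Fact (1 < M)] (H : Subgroup (ZMod M)ˣ)

variable (M) in
/-- The elements of `H`. -/
def elts : Finset (ZMod M)ˣ := (Set.toFinite (H : Set (ZMod M)ˣ)).toFinset

theorem mem_elts {h : (ZMod M)ˣ} : h ∈ elts M H ↔ h ∈ H := Set.Finite.mem_toFinset _

variable (M) in
/-- The sum over `H`, moved by a unit. -/
def sumH (u : (ZMod M)ˣ) (z : ℍ) : ℂ :=
  ∑ h ∈ elts M H, eisF (firstIs M ((h * u : (ZMod M)ˣ) : ZMod M)) z

variable (M) in
/-- Its series. -/
def sumSer (u : (ZMod M)ˣ) : LaurentSeries ℤ :=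
  ∑ h ∈ elts M H, fSer M ((h * u : (ZMod M)ˣ) : ZMod M)

theorem hasExp_sumH (u : (ZMod M)ˣ) :
    HasExp (qp 1) (sumH M H u) (coeffMap (Int.castRingHom ℂ) (sumSer M H u)) := by
  rw [sumSer, map_sum]
  exact (hasExp_sum _ fun h _ => hasExp_eisF _ (Units.ne_zero _)).congr
    (funext fun z => by rw [sumH, Finset.sum_apply])

theorem sumSer_coeff_zero (u : (ZMod M)ˣ) :
    (sumSer M H u).coeff 0 ≠ 0 ↔ (u ∈ H ∨ -u ∈ H) := by
  classical
  rw [sumSer, HahnSeries.coeff_sum, Finset.sum_congr rfl fun h _ => fSer_coeff_zero _ (Units.ne_zero _),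
    ← Nat.cast_sum, Nat.cast_ne_zero, Ne, Finset.sum_eq_zero_iff, not_forall]
  constructor
  · rintro ⟨h, hh⟩
    obtain ⟨hm, hh⟩ := Classical.not_imp.1 hh
    rw [mem_elts] at hm
    simp only [hits, Nat.cast_one] at hh
    by_cases h1 : (1 : ZMod M) = ((h * u : (ZMod M)ˣ) : ZMod M)
    · left
      have : h * u = 1 := Units.ext h1.symm
      rw [← inv_eq_of_mul_eq_one_right this]
      exact inv_mem hm
    · right
      rw [if_neg h1, zero_add] at hh
      have h2 : (-1 : ZMod M) = ((h * u : (ZMod M)ˣ) : ZMod M) := by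
        by_contra h2; exact hh (if_neg h2)
      have : h * (-u) = 1 := Units.ext (by
        rw [mul_neg, Units.val_neg, ← h2, neg_neg, Units.val_one])
      rw [← inv_eq_of_mul_eq_one_right this]
      exact inv_mem hm
  · rintro (h | h)
    · refine ⟨u⁻¹, fun h' => ?_⟩
      have := h' ((mem_elts H).2 (inv_mem h))
      simp [hits] at this
    · refine ⟨(-u)⁻¹, fun h' => ?_⟩
      have := h' ((mem_elts H).2 (inv_mem h))
      have e : (((-u)⁻¹ * u : (ZMod M)ˣ) : ZMod M) = -1 := by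
        rw [show (-u)⁻¹ * u = -1 from by
          rw [inv_mul_eq_iff_eq_mul, neg_mul_neg, mul_one]]
        simp
      rw [e] at this
      simp [hits] at this

theorem sumH_smul (u : (ZMod M)ˣ) (g : GamH M ⊤) (z : ℍ) :
    sumH M H u ((g : SL(2, ℤ)) • z) = sumH M H (u * ulHom M g) z := by
  simp only [sumH, eisF_smul]
  refine Finset.sum_congr rfl fun h _ => ?_
  rw [pulled_firstIs (GamH_le_Gamma0 g.2), ← mul_assoc, Units.val_mul _ (ulHom M g), ulHom_val]

theorem sumH_congr {u u' : (ZMod M)ˣ} (h : u' * u⁻¹ ∈ H) : sumH M H u' = sumH M H u := by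
  classical
  funext z
  simp only [sumH]
  refine Finset.sum_equiv (Equiv.mulRight (u' * u⁻¹))
    (fun x => by rw [mem_elts, mem_elts, Equiv.coe_mulRight, Subgroup.mul_mem_cancel_right _ h])
    fun x _ => ?_
  simp [mul_assoc]

theorem sumH_Gamma {g : SL(2, ℤ)} (hg : g ∈ Gamma M) (u : (ZMod M)ˣ) (z : ℍ) :
    sumH M H u (g • z) = sumH M H u z := by
  simp only [sumH, eisF_smul, pulled_Gamma hg]

theorem mdiff_sumH (u : (ZMod M)ˣ) : MDiff (sumH M H u) := by
  rw [UpperHalfPlane.mdifferentiable_iff]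
  refine DifferentiableOn.congr (DifferentiableOn.fun_sum (u := elts M H) fun h _ =>
    UpperHalfPlane.mdifferentiable_iff.1
      (mdiff_eisF (firstIs M ((h * u : (ZMod M)ˣ) : ZMod M)))) fun w _ => ?_
  rfl

theorem exists_hasExp_sumH (u : (ZMod M)ˣ) (g : SL(2, ℤ)) :
    ∃ L, HasExp (qp M) (fun z => sumH M H u (g • z)) L := by
  choose L hL using fun h : (ZMod M)ˣ =>
    exists_hasExp_eisF (firstIs M ((h * u : (ZMod M)ˣ) : ZMod M)) g
  exact ⟨_, (hasExp_sum (elts M H) fun h _ => hL h).congr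
    (funext fun z => by rw [sumH, Finset.sum_apply])⟩

/-- `j(Mz)`. -/
def jMF (M : ℕ) [NeZero M] (z : ℍ) : ℂ := jfun (scaleH M z)

theorem jM_Gamma0 {g : SL(2, ℤ)} (hg : g ∈ Gamma0 M) (z : ℍ) : jMF M (g • z) = jMF M z :=
  scale_smul_Gamma0 M M dvd_rfl hg z

variable (M) in
/-- Candidates for the separating function. -/
def sepCand (t : ℕ) (z : ℍ) : ℂ := sumH M H 1 z + (t : ℂ) * jMF M z

theorem ext_GamH_of_invariant (hH : (-1 : (ZMod M)ˣ) ∈ H) :
    ∃ t : ℕ, ∀ g : SL(2, ℤ), (∀ z, sepCand M H t (g • z) = sepCand M H t z) → g ∈ GamH M H := by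
  classical
  have : Finite (SL(2, ℤ) ⧸ Gamma M) := Subgroup.finite_quotient_of_finiteIndex
  have key : ∀ g : SL(2, ℤ), g ∉ GamH M H → {t : ℕ | ∀ z, sepCand M H t (g • z) = sepCand M H t z}.Subsingleton := by
    intro g hg t ht t' ht'
    by_cases h0 : ∀ z, jMF M (g • z) = jMF M z
    · exfalso
      refine hg ?_
      have hg0 : g ∈ GamH M ⊤ := by rw [GamH_top]; exact mem_Gamma0_of_scale_invariant M h0
      rw [mem_GamH_iff ⟨g, hg0⟩]
      by_contra hu
      have hfun : sumH M H (ulHom M ⟨g, hg0⟩) = sumH M H 1 := funext fun z => by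
        have h1 := ht z
        simp only [sepCand, h0 z] at h1
        have h2 := sumH_smul H 1 ⟨g, hg0⟩ z
        rw [one_mul] at h2
        rw [← h2]
        linear_combination h1
      have h1 := hasExp_sumH H (ulHom M ⟨g, hg0⟩)
      rw [hfun] at h1
      have h2 := congrArg (fun s : LaurentSeries ℂ => s.coeff 0)
        (h1.unique (covers_qp 1) (hasExp_sumH H 1))
      simp only [coeffMap_coeff, eq_intCast, Int.cast_inj] at h2
      have h3 := (sumSer_coeff_zero H 1).2 (Or.inl (one_mem H))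
      rw [← h2] at h3
      rcases (sumSer_coeff_zero H _).1 h3 with h | h
      · exact hu h
      · exact hu (by simpa using mul_mem hH h)
    · push Not at h0
      obtain ⟨z, hz⟩ := h0
      have h1 := ht z
      have h2 := ht' z
      simp only [sepCand] at h1 h2
      have h3 : ((t : ℂ) - t') * (jMF M (g • z) - jMF M z) = 0 := by linear_combination h1 - h2
      exact_mod_cast sub_eq_zero.1 ((mul_eq_zero.1 h3).resolve_right (sub_ne_zero.2 hz))
  let bad : Set ℕ := ⋃ x : SL(2, ℤ) ⧸ Gamma M,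
    {t | Quotient.out x ∉ GamH M H ∧
      ∀ z, sepCand M H t (Quotient.out x • z) = sepCand M H t z}
  have hfin : bad.Finite := Set.finite_iUnion fun x => by
    by_cases hx : Quotient.out x ∈ GamH M H
    · exact Set.Finite.subset Set.finite_empty fun t ht => absurd hx ht.1
    · exact (key _ hx).finite.subset fun t ht => ht.2
  obtain ⟨t, ht⟩ := hfin.exists_notMem
  refine ⟨t, fun g hg => ?_⟩
  by_contra hgH
  obtain ⟨k, hk⟩ := QuotientGroup.mk_out_eq_mul (Gamma M) g
  refine ht (Set.mem_iUnion.2 ⟨QuotientGroup.mk g, ?_, fun z => ?_⟩)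
  · show Quotient.out (QuotientGroup.mk g : SL(2, ℤ) ⧸ Gamma M) ∉ _
    rw [show Quotient.out (QuotientGroup.mk g : SL(2, ℤ) ⧸ Gamma M) = g * k from hk]
    exact fun h => hgH ((Subgroup.mul_mem_cancel_right _ (Gamma_le_GamH k.2)).1 h)
  · rw [show Quotient.out (QuotientGroup.mk g : SL(2, ℤ) ⧸ Gamma M) = g * k from hk, mul_smul, hg]
    simp only [sepCand]
    rw [sumH_Gamma H k.2, jM_Gamma0 (GamH_le_Gamma0 (Gamma_le_GamH (H := H) k.2))]

variable (hH : (-1 : (ZMod M)ˣ) ∈ H)

/-- The multiple of `j(Mz)` used. -/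
def sepT : ℕ := (ext_GamH_of_invariant H hH).choose

/-- The rational series of the separating function. -/
def sepSerH : LaurentSeries ℤ :=
  sumSer M H 1 + (sepT H hH : LaurentSeries ℤ) * qExpand ℤ M (jqModC ℤ)

theorem coeffMap_intCast_rat (s : LaurentSeries ℤ) :
    coeffMap (algebraMap ℚ ℂ) (coeffMap (Int.castRingHom ℚ) s) = coeffMap (Int.castRingHom ℂ) s := by
  ext n; simp

theorem sumH_mem (u : (ZMod M)ˣ) : sumH M H u ∈ modFunsG (GamH M H) M := by
  refine ⟨mdiff_sumH H u, fun g hg z => ?_, ⟨_, hasExp_sumH H u⟩, exists_hasExp_sumH H u⟩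
  have h := (mem_GamH_iff ⟨g, GamH_le_top hg⟩).1 hg
  refine (sumH_smul H u ⟨g, GamH_le_top hg⟩ z).trans (congrFun (sumH_congr H ?_) z)
  rwa [mul_right_comm, mul_inv_cancel, one_mul]

theorem jM_mem : jMF M ∈ modFunsG (GamH M H) M := by
  obtain ⟨h1, h2, h3, h4⟩ := scale_mem_modFuns M M dvd_rfl
  exact ⟨h1, fun g hg z => h2 g (GamH_le_Gamma0 hg) z, h3, h4⟩

theorem sepCand_mem (t : ℕ) : sepCand M H t ∈ modFunsG (GamH M H) M :=
  (funext fun z => by simp [sepCand] : sepCand M H t = sumH M H 1 + (t : ℍ → ℂ) * jMF M) ▸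
    add_mem (sumH_mem H 1) (mul_mem (natCast_mem _ t) (jM_mem H))

theorem hasExp_sepCand : HasExp (qp 1) (sepCand M H (sepT H hH))
    (coeffMap (algebraMap ℚ ℂ) (coeffMap (Int.castRingHom ℚ) (sepSerH H hH))) := by
  rw [coeffMap_intCast_rat, sepSerH, map_add, map_mul, map_natCast, coeffMap_qExpand,
    coeffMap_jqModC]
  refine ((hasExp_sumH H 1).add ((?_ : HasExp (qp 1) (fun _ => ((sepT H hH : ℕ) : ℂ))
    ((sepT H hH : ℕ) : LaurentSeries ℂ)).mul (qp_ne_zero 1) (hasExp_scale M))).congr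
      (funext fun z => by simp [sepCand, jMF])
  rw [← map_natCast (HahnSeries.C : ℂ →+* LaurentSeries ℂ)]
  exact hasExp_C _

/-- The level `Γ_H(M)`; its field is generated by the rational series of its functions. -/
def lvlH : Lvl where
  M := M
  M_ne := NeZero.ne M
  grp := GamH M H
  gamma_le := Gamma_le_GamH
  neg_one_mem := neg_one_mem_GamH hH
  T_mem := by
    have hT : ModularGroup.T ∈ GamH M ⊤ := by
      rw [GamH_top, Gamma0_mem]; simp [ModularGroup.T]
    rw [mem_GamH_iff ⟨_, hT⟩, show ulHom M ⟨_, hT⟩ = 1 from Units.ext (by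
      rw [ulHom_val]; simp [ModularGroup.T])]
    exact one_mem H
  F₀ := IntermediateField.adjoin ℚ
    {a | ∃ f ∈ modFunsG (GamH M H) M, HasExp (qp 1) f (coeffMap (algebraMap ℚ ℂ) a)}
  gen := {a | ∃ f ∈ modFunsG (GamH M H) M, HasExp (qp 1) f (coeffMap (algebraMap ℚ ℂ) a)}
  F₀_eq := rfl
  gen_mem := fun _ ha => ha
  j_mem := by
    obtain ⟨h1, h2, h3, h4⟩ := scale_mem_modFuns M 1 (one_dvd M)
    refine ⟨_, ⟨h1, fun g hg z => h2 g (GamH_le_Gamma0 hg) z, h3, h4⟩, ?_⟩
    have h := hasExp_scale 1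
    rw [qExpand_one_apply] at h
    rwa [coeffMap_jqModC]
  sepSer := coeffMap (Int.castRingHom ℚ) (sepSerH H hH)
  sep_mem := ⟨_, sepCand_mem H _, hasExp_sepCand H hH⟩
  sepFun := sepCand M H (sepT H hH)
  sep_exp := hasExp_sepCand H hH
  sep_spec := (ext_GamH_of_invariant H hH).choose_spec

end FA.NebLocal
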