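import Fermat.Agent.NebLocal.Galois
import Fermat.Agent.NebLocal.LvlH

/-!
# Diamond operators are rational

An element of `Γ₀(M)` fixes `j` and moves the separating function to another combination of
rational series, so it carries functions with series over a field to such functions; on rational
generators it gives rational series, hence commutes with the arithmetic action.
-/

set_option autoImplicit false
set_option linter.unusedSectionVars false
set_option linter.style.haveILetI false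
set_option synthInstance.maxHeartbeats 200000
set_option maxHeartbeats 1600000

noncomputable section

namespace FA.NebLocal

open UpperHalfPlane hiding I
open AlgebraicCurve ModularCurve FA.ModField FA.Level
open FA.HeckeH1 (gl glQ Corr GamH conjGam dia ulHom Hom1 hv)
open scoped MatrixGroups Manifold

variable (M : ℕ) [NeZero M] [Fact (1 < M)] (H : Subgroup (ZMod M)ˣ)
  (hH : (-1 : (ZMod M)ˣ) ∈ H) (g : GamH M (⊤ : Subgroup (ZMod M)ˣ))

/-- Conjugation by an element of `Γ₀(M)` as a correspondence of `Γ_H(M)`. -/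
def iDia : ICorr (lvlH H hH) (lvlH H hH) where
  C := Corr.single (glQ ((g⁻¹ : GamH M ⊤) : SL(2, ℤ))) fun γ hγ =>
    ⟨_, (conjGam M H g⁻¹ ⟨γ, hγ⟩).2, by simp [conjGam]⟩
  X _ := ((g⁻¹ : GamH M ⊤) : SL(2, ℤ)).1
  det_pos _ := by rw [((g⁻¹ : GamH M ⊤) : SL(2, ℤ)).2]; exact one_pos
  α_eq _ := (FA.HeckeH1.gl_coe _).symm
  nonempty := ⟨()⟩

theorem iDia_act {A : Type*} [CommRing A] (z : Hom1 (GamH M H) A) :
    (iDia M H hH g).C.act z = dia M H A g z := by
  apply AddMonoidHom.ext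
  intro x
  show hv ((iDia M H hH g).C.act z) x.toMul = hv (dia M H A g z) x.toMul
  refine Eq.trans ?_ (FA.HeckeH1.dia_apply g z x.toMul).symm
  have h : ∀ γ ∈ GamH M H, ∃ δ ∈ GamH M H, glQ ((g⁻¹ : GamH M ⊤) : SL(2, ℤ)) * glQ γ =
      glQ δ * glQ ((g⁻¹ : GamH M ⊤) : SL(2, ℤ)) :=
    fun γ hγ => ⟨_, (conjGam M H g⁻¹ ⟨γ, hγ⟩).2, by simp [conjGam]⟩
  exact Corr.single_act _ h z x.toMul _ (by simp [conjGam])

theorem iDia_mer (x : Mer) : (iDia M H hH g).mer x = merComp ((iDia M H hH g).good ()) x :=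
  Fintype.prod_unique (ι := Unit) _

theorem iDia_pull (f : ℍ → ℂ) :
    (iDia M H hH g).pull f = fun z => f (((g⁻¹ : GamH M ⊤) : SL(2, ℤ)) • z) := funext fun z => by
  refine (Fintype.prod_unique (ι := Unit) _).trans ?_
  show f (mob (gl ((g⁻¹ : GamH M ⊤) : SL(2, ℤ)).1) z) = _
  rw [FA.HeckeH1.gl_coe, mob_glQ]

theorem coeffMap_coeffEmb' (L : Type) [Field L] [Algebra ℚ L] [Algebra L ℂ] (s : LaurentSeries ℚ) :
    coeffMap (algebraMap L ℂ) (coeffEmb L s) = coeffMap (algebraMap ℚ ℂ) s := by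
  rw [coeffEmb, coeffMap_coeffMap]
  exact coeffMap_congr (Subsingleton.elim _ _) s

variable (L : Type) [Field L] [Algebra ℚ L] [Algebra L ℂ]

theorem hasExp_sepFun_smul : ∃ s : LaurentSeries ℚ,
    HasExp (qp 1) (fun z => (lvlH H hH).sepFun (((g⁻¹ : GamH M ⊤) : SL(2, ℤ)) • z))
      (coeffMap (algebraMap ℚ ℂ) s) := by
  refine ⟨coeffMap (Int.castRingHom ℚ)
    (sumSer M H (ulHom M g⁻¹) + (sepT H hH : LaurentSeries ℤ) * qExpand ℤ M (jqModC ℤ)), ?_⟩
  rw [coeffMap_intCast_rat, map_add, map_mul, map_natCast, coeffMap_qExpand, coeffMap_jqModC]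
  refine ((hasExp_sumH H (ulHom M g⁻¹)).add ((?_ : HasExp (qp 1) (fun _ => ((sepT H hH : ℕ) : ℂ))
    ((sepT H hH : ℕ) : LaurentSeries ℂ)).mul (qp_ne_zero 1) (hasExp_scale M))).congr
      (funext fun z => ?_)
  · rw [← map_natCast (HahnSeries.C : ℂ →+* LaurentSeries ℂ)]
    exact hasExp_C _
  · have h := sumH_smul H 1 g⁻¹ z
    rw [one_mul] at h
    show _ = sepCand M H (sepT H hH) (((g⁻¹ : GamH M ⊤) : SL(2, ℤ)) • z)
    rw [sepCand, h, jM_Gamma0 (FA.HeckeH1.GamH_le_Gamma0 (g⁻¹ : GamH M ⊤).2)]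
    simp [jMF]

theorem exists_series_smul_pair {a : LaurentSeries L} (ha : a ∈ (lvlH H hH).pairAlg L) :
    ∃ f ∈ (lvlH H hH).mf, HasExp (qp 1) f (coeffMap (algebraMap L ℂ) a) ∧ ∃ r : LaurentSeries L,
      HasExp (qp 1) (fun z => f (((g⁻¹ : GamH M ⊤) : SL(2, ℤ)) • z))
        (coeffMap (algebraMap L ℂ) r) := by
  induction ha using Algebra.adjoin_induction with
  | mem x hx =>
    obtain ⟨y, rfl | rfl, rfl⟩ := hx
    · have hj : HasExp (qp 1) jfun (coeffMap (algebraMap L ℂ) (coeffEmb L (jqModC ℚ))) := by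
        rw [coeffMap_coeffEmb', coeffMap_jqModC]; exact hasExp_jfun
      exact ⟨jfun, (lvlH H hH).jfun_mem, hj, _, hj.congr (funext fun z => (jfun_smul _ z).symm)⟩
    · obtain ⟨s, hs⟩ := hasExp_sepFun_smul M H hH g
      refine ⟨_, (lvlH H hH).sepFun_mem, ?_, coeffEmb L s, ?_⟩
      · rw [coeffMap_coeffEmb']; exact (lvlH H hH).sep_exp
      · rw [coeffMap_coeffEmb']; exact hs
  | algebraMap c =>
    have hc : HasExp (qp 1) (fun _ : ℍ => algebraMap L ℂ c)
        (coeffMap (algebraMap L ℂ) (algebraMap L (LaurentSeries L) c)) := by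
      rw [algebraMap_laurentSeries_eq_single, coeffMap_single, ← HahnSeries.C_apply]
      exact hasExp_C _
    exact ⟨_, Subalgebra.algebraMap_mem _ (algebraMap L ℂ c), hc, _, hc⟩
  | add x y _ _ hx hy =>
    obtain ⟨f, hf, hf', r, hr⟩ := hx
    obtain ⟨f₂, hf₂, hf₂', r₂, hr₂⟩ := hy
    exact ⟨f + f₂, add_mem hf hf₂, by rw [map_add]; exact hf'.add hf₂', r + r₂,
      by rw [map_add]; exact hr.add hr₂⟩
  | mul x y _ _ hx hy =>
    obtain ⟨f, hf, hf', r, hr⟩ := hx
    obtain ⟨f₂, hf₂, hf₂', r₂, hr₂⟩ := hy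
    exact ⟨f * f₂, mul_mem hf hf₂, by rw [map_mul]; exact hf'.mul (qp_ne_zero 1) hf₂', r * r₂,
      by rw [map_mul]; exact hr.mul (qp_ne_zero 1) hr₂⟩

theorem exists_series_smul {f : ℍ → ℂ} (hf : f ∈ (lvlH H hH).mf) {x : LaurentSeries L}
    (hx : HasExp (qp 1) f (coeffMap (algebraMap L ℂ) x)) :
    ∃ r : LaurentSeries L, HasExp (qp 1) (fun z => f (((g⁻¹ : GamH M ⊤) : SL(2, ℤ)) • z))
      (coeffMap (algebraMap L ℂ) r) := by
  obtain ⟨a, ha, b, hb, hb0, hab⟩ := (lvlH H hH).exists_pair_quotient hf x hx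
  obtain ⟨A, -, hA, ra, hra⟩ := exists_series_smul_pair M H hH g L ha
  obtain ⟨B, -, hB, rb, hrb⟩ := exists_series_smul_pair M H hH g L hb
  have hfun : f * B = A := (hx.mul (qp_ne_zero 1) hB).fun_unique (by rw [← map_mul, hab]; exact hA)
  obtain ⟨S, hS⟩ := (iDia M H hH g).exists_hasExp_pull_one hf
  rw [iDia_pull] at hS
  have hrb0 : rb ≠ 0 := fun h0 => hb0 (by
    have hB0 : B = fun _ => (0 : ℂ) := funext fun z => by
      have h1 := hrb.fun_unique (g := fun _ : ℍ => (0 : ℂ))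
        (by rw [h0, map_zero]; exact hasExp_zero)
      simpa using congrFun h1 (((g⁻¹ : GamH M ⊤) : SL(2, ℤ))⁻¹ • z)
    rw [hB0] at hB
    have h2 := hB.unique (covers_qp 1) hasExp_zero
    exact HahnSeries.ext (funext fun k => (algebraMap L ℂ).injective (by
      simpa using congrArg (fun s : LaurentSeries ℂ => s.coeff k) h2)))
  refine ⟨ra / rb, ?_⟩
  have h2 := (hS.mul (qp_ne_zero 1) hrb).unique (covers_qp 1) (hra.congr (funext fun z => by
    show A _ = f _ * B _
    rw [← hfun]; rfl))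
  rwa [map_div₀, ← h2, mul_div_cancel_right₀ _ ((_root_.map_ne_zero _).2 hrb0)]

theorem iDia_rational : (iDia M H hH g).Rational L := fun x => by
  obtain ⟨r, hr⟩ := exists_series_smul M H hH g L ((lvlH H hH).funHom_mem L x)
    ((lvlH H hH).funHom_exp L x)
  exact ⟨r, by rw [iDia_pull]; exact hr⟩

/-- The diamond on functions is additive. -/
def diaRing : (lvlH H hH).fld L →+* (lvlH H hH).fld L :=
  { (iDia M H hH g).cpull (iDia_rational M H hH g L) with
    map_zero' := map_zero ((iDia M H hH g).cpull (iDia_rational M H hH g L))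
    map_add' := fun x y => theta_inj (by
      show theta ((iDia M H hH g).cpull _ (x + y)) =
        theta ((iDia M H hH g).cpull _ x + (iDia M H hH g).cpull _ y)
      simp only [map_add, ICorr.theta_cpull, iDia_mer]) }

local notation "Qb" => AlgebraicClosure ℚ
local notation "GQ" => AlgebraicClosure ℚ ≃ₐ[ℚ] AlgebraicClosure ℚ

theorem galComm_iDia [Algebra Qb ℂ] (σ : GQ) :
    GalComm σ (iDia M H hH g) (iDia M H hH g) (iDia_rational M H hH g Qb)
      (iDia_rational M H hH g Qb) := by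
  let s : (lvlH H hH).fld Qb →+* (lvlH H hH).fld Qb :=
    (SemilinearAut.toRingAut (galF (lvlH H hH) σ)).toRingHom
  suffices h : s.comp (diaRing M H hH g Qb) = (diaRing M H hH g Qb).comp s from
    fun f => RingHom.congr_fun h f
  refine fld_ringHom_ext (fun c => ?_) fun x a ha hx => ?_
  · have hc : ∀ d : Qb, diaRing M H hH g Qb (algebraMap Qb _ d) = algebraMap Qb _ d := fun d =>
      theta_inj (by
        show theta ((iDia M H hH g).cpull (iDia_rational M H hH g Qb) _) = _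
        rw [ICorr.theta_cpull, theta_algebraMap, iDia_mer, merComp_merC])
    rw [RingHom.comp_apply, RingHom.comp_apply, hc,
      show s (algebraMap Qb _ c) = algebraMap Qb _ (σ c) from
        SemilinearAut.smul_algebraMap (galF (lvlH H hH) σ) c, hc]
  · have hfix : s x = x := Subtype.ext (by
      show coeffMap (σ : Qb →+* Qb) (x : LaurentSeries Qb) = _
      rw [hx]; exact coeffMap_coeffEmb σ a)
    rw [RingHom.comp_apply, RingHom.comp_apply, hfix]
    obtain ⟨f, hf, hfa⟩ := (lvlH H hH).gen_mem a ha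
    obtain ⟨r, hr⟩ := exists_series_smul M H hH g ℚ hf hfa
    let xA : (lvlH H hH).alg Qb := ⟨coeffEmb Qb a, Algebra.subset_adjoin ⟨a, ha, rfl⟩⟩
    have hxA : x = (lvlH H hH).toFld Qb xA := Subtype.ext hx
    have hfun : (lvlH H hH).funHom Qb xA = f := (lvlH H hH).fn_eq Qb (by
      show HasExp (qp 1) f (coeffMap _ (coeffEmb Qb a))
      rw [coeffMap_coeffEmb']; exact hfa)
    have hval : (diaRing M H hH g Qb x : LaurentSeries Qb) = coeffEmb Qb r := by
      rw [hxA]
      exact (iDia M H hH g).coe_cpull_toFld (iDia_rational M H hH g Qb) xA (r := coeffEmb Qb r) (by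
        rw [iDia_pull, hfun, coeffMap_coeffEmb']; exact hr)
    refine Subtype.ext ?_
    show coeffMap (σ : Qb →+* Qb) (diaRing M H hH g Qb x : LaurentSeries Qb) = _
    rw [hval]; exact coeffMap_coeffEmb σ r

end FA.NebLocal
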