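import Fermat.Agent.HeckeH1.Eigenvector
import Fermat.Agent.HeckeH1.Freeness

/-!
# Invariants modulo the maximal ideal of a free piece, with larger coefficients

In a free piece over the group ring of the diamonds, a class with coefficients in an extension
which is invariant modulo the maximal ideal is the restriction of a corestriction, compatibly with
the Hecke operators.
-/

set_option autoImplicit false
set_option linter.unusedSectionVars false
set_option linter.style.haveILetI false
set_option maxHeartbeats 1000000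

noncomputable section

namespace FA.NebLocal

open IsLocalRing FA.HeckeH1
open scoped MatrixGroups

variable {O O' : Type} [CommRing O] [IsDomain O] [IsDiscreteValuationRing O]
  [IsAdicComplete (maximalIdeal O) O] [CharZero O] [CommRing O'] [IsDomain O']
  [IsDiscreteValuationRing O'] [IsAdicComplete (maximalIdeal O') O'] [CharZero O'] [Algebra O O'] [IsLocalHom (algebraMap O O')]
  {M : ℕ} [NeZero M] {H : Subgroup (ZMod M)ˣ} [Fintype ((ZMod M)ˣ ⧸ H)]

variable (O') in
/-- Extension of the coefficients. -/
abbrev coefExt {Γ : Subgroup SL(2, ℤ)} (v : Hom1 Γ O) : Hom1 Γ O' :=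
  (algebraMap O O').toAddMonoidHom.comp v

omit [IsLocalHom (algebraMap O O')] in
theorem diaHom_coefExt (x : (ZMod M)ˣ ⧸ H) (v : Hom1 (GamH M H) O) :
    diaHom M H O' x (coefExt O' v) = coefExt O' (diaHom M H O x v) :=
  rfl

/-- The translates of a basis stay independent modulo the maximal ideal. -/
theorem indep_of_freeData {e : pairAlg M H O} (D : FreeData M H O e)
    (c : Fin D.d → (ZMod M)ˣ ⧸ H → O)
    (h : (∑ i, ∑ g, c i g • diaHom M H O g (D.u i)) ∈
      maximalIdeal O • (⊤ : Submodule O (Hom1 (GamH M H) O))) (i : Fin D.d) (g : (ZMod M)ˣ ⧸ H) :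
    c i g ∈ maximalIdeal O := by
  classical
  obtain ⟨ϖ, hϖ⟩ := IsDiscreteValuationRing.exists_irreducible O
  rw [hϖ.maximalIdeal_eq, Submodule.ideal_span_singleton_smul] at h
  obtain ⟨y, -, hy⟩ := (Submodule.mem_smul_pointwise_iff_exists _ _ _).1 h
  have hcomb : ∀ b : Fin D.d → MonoidAlgebra O ((ZMod M)ˣ ⧸ H),
      combo (diaHom M H O) D.u b = ∑ i, ∑ g, (b i).coeff g • diaHom M H O g (D.u i) := fun b => by
    rw [combo_apply]
    refine Finset.sum_congr rfl fun i _ => ?_
    rw [MonoidAlgebra.lift_apply, Finsupp.sum_fintype _ _ (by simp), LinearMap.sum_apply]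
    exact Finset.sum_congr rfl fun g _ => rfl
  let a : Fin D.d → MonoidAlgebra O ((ZMod M)ˣ ⧸ H) := fun i =>
    ∑ g, MonoidAlgebra.single g (c i g)
  have ha : ∀ i g, (a i).coeff g = c i g := fun i g => by
    simp [a, MonoidAlgebra.coeff_sum, Finsupp.single_apply]
  have hca : combo (diaHom M H O) D.u a = ϖ • y := by
    rw [hcomb, hy]
    simp only [ha]
  have hfix : e.1.1 (combo (diaHom M H O) D.u a) = combo (diaHom M H O) D.u a := by
    rw [hcomb]
    simp only [map_sum, map_smul]
    refine Finset.sum_congr rfl fun i _ => Finset.sum_congr rfl fun g _ => ?_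
    rw [pair_dia M H O e.2, D.e_u]
  have h1 : ϖ • e.1.1 (e.1.1 y) = ϖ • e.1.1 y := by
    rw [← map_smul, ← map_smul, ← hca, hfix, hfix]
  obtain ⟨b, hb⟩ := D.span _ (smul_right_injective _ hϖ.ne_zero h1)
  have e2 : a = ϖ • b := D.inj (by rw [map_smul, hb, ← map_smul, ← hca, hfix])
  have h2 : (a i).coeff g = ϖ * (b i).coeff g := by
    rw [e2, Pi.smul_apply, MonoidAlgebra.coeff_smul, Finsupp.smul_apply, smul_eq_mul]
  rw [ha] at h2
  rw [hϖ.maximalIdeal_eq, h2]
  exact Ideal.mul_mem_right _ _ (Ideal.mem_span_singleton_self ϖ)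

/-- Independence modulo the maximal ideal survives an extension of the coefficients. -/
theorem indep_coefExt {Γ : Subgroup SL(2, ℤ)} {Y : Type} [Fintype Y] (v : Y → Hom1 Γ O)
    (hv : ∀ c : Y → O, (∑ y, c y • v y) ∈ maximalIdeal O • (⊤ : Submodule O (Hom1 Γ O)) →
      ∀ y, c y ∈ maximalIdeal O)
    (c : Y → O') (h : (∑ y, c y • coefExt O' (v y)) ∈
      maximalIdeal O' • (⊤ : Submodule O' (Hom1 Γ O'))) (y : Y) : c y ∈ maximalIdeal O' := by
  classical
  letI : Algebra (ResidueField O) (ResidueField O') :=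
    (ResidueField.map (algebraMap O O')).toAlgebra
  let vb : Y → Hom1 Γ (ResidueField O) := fun y => (residue O).toAddMonoidHom.comp (v y)
  have hli : LinearIndependent (ResidueField O) vb := by
    rw [Fintype.linearIndependent_iff]
    intro g hg y
    choose s hs using fun y => residue_surjective (g y)
    rw [← hs y, residue_eq_zero_iff]
    refine hv s (mem_smul_top_of_values fun γ => ?_) y
    rw [← residue_eq_zero_iff]
    have h1 := DFunLike.congr_fun hg (Additive.ofMul γ)
    rw [AddMonoidHom.finsetSum_apply] at h1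
    show residue O ((∑ y, s y • v y : Hom1 Γ O) (Additive.ofMul γ)) = 0
    rw [AddMonoidHom.finsetSum_apply, map_sum]
    refine Eq.trans (Finset.sum_congr rfl fun y _ => ?_) h1
    rw [AddMonoidHom.smul_apply, AddMonoidHom.smul_apply, smul_eq_mul, map_mul, hs]
    rfl
  rw [← residue_eq_zero_iff]
  refine congrFun (eq_zero_of_sum_comp (O := ResidueField O) (O' := ResidueField O') vb hli
    (fun y => residue O' (c y)) (AddMonoidHom.ext fun γ => ?_)) y
  have h1 := (residue_eq_zero_iff _).2 (values_of_mem_smul_top h γ.toMul)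
  rw [AddMonoidHom.finsetSum_apply, AddMonoidHom.zero_apply]
  refine Eq.trans ?_ h1
  show _ = residue O' ((∑ y, c y • coefExt O' (v y) : Hom1 Γ O') γ)
  rw [AddMonoidHom.finsetSum_apply, map_sum]
  refine Finset.sum_congr rfl fun y _ => ?_
  rw [AddMonoidHom.smul_apply, AddMonoidHom.smul_apply, smul_eq_mul, smul_eq_mul, map_mul]
  rfl

variable [Finite (GamH M ⊤ ⧸ (GamH M H).subgroupOf (GamH M ⊤))]

/-- **An invariant eigenclass modulo the maximal ideal is a restriction.** -/
theorem exists_top_of_invariant {Y : Type} [Fintype Y] (b : Y → Hom1 (GamH M H) O)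
    (hpar : ∀ i, b i ∈ Par (GamH M H) O)
    (hind : ∀ c : Y → (ZMod M)ˣ ⧸ H → O, (∑ i, ∑ g, c i g • diaHom M H O g (b i)) ∈
      maximalIdeal O • (⊤ : Submodule O (Hom1 (GamH M H) O)) → ∀ i g, c i g ∈ maximalIdeal O)
    {ℓ : ℕ} [hℓ : Fact ℓ.Prime]
    (hop : ∀ j, ∃ a : Y → (ZMod M)ˣ ⧸ H → O,
      (Tc M H ℓ).act (b j) = ∑ i, ∑ g, a i g • diaHom M H O g (b i))
    {z : Hom1 (GamH M H) O'}
    (hspan : ∃ c : Y → (ZMod M)ˣ ⧸ H → O', z = ∑ i, ∑ g, c i g • diaHom M H O' g (coefExt O' (b i)))
    (hinv : ∀ x, diaHom M H O' x z - z ∈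
      maximalIdeal O' • (⊤ : Submodule O' (Hom1 (GamH M H) O')))
    {u : O'} (hU : (Tc M H ℓ).act z = u • z) :
    ∃ y ∈ Par (GamH M (⊤ : Subgroup (ZMod M)ˣ)) O',
      z - (Corr.res GamH_le_top).act y ∈
        maximalIdeal O' • (⊤ : Submodule O' (Hom1 (GamH M H) O')) ∧
      (Tc M ⊤ ℓ).act y - u • y ∈
        maximalIdeal O' • (⊤ : Submodule O' (Hom1 (GamH M ⊤) O')) := by
  classical
  haveI : Fintype (GamH M ⊤ ⧸ (GamH M H).subgroupOf (GamH M ⊤)) := Fintype.ofFinite _
  obtain ⟨c, hc⟩ := hspan
  let be : Y → Hom1 (GamH M H) O' := fun i => coefExt O' (b i)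
  let G := (ZMod M)ˣ ⧸ H
  have hindE : ∀ d : Y → G → O', (∑ i, ∑ g, d i g • diaHom M H O' g (be i)) ∈
      maximalIdeal O' • (⊤ : Submodule O' (Hom1 (GamH M H) O')) →
      ∀ i g, d i g ∈ maximalIdeal O' := fun d hd i g => by
    refine indep_coefExt (Y := Y × G) (fun p => diaHom M H O p.2 (b p.1))
      (fun s hs p => ?_) (fun p => d p.1 p.2) ?_ (i, g)
    · rw [Fintype.sum_prod_type] at hs
      exact hind (fun i g => s (i, g)) hs p.1 p.2
    · rw [Fintype.sum_prod_type]
      convert hd using 1
      exact Finset.sum_congr rfl fun i _ => Finset.sum_congr rfl fun g _ =>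
        congrArg (d i g • ·) (diaHom_coefExt (O' := O') g (b i)).symm
  have hdd : ∀ (x g : G) (v : Hom1 (GamH M H) O'),
      diaHom M H O' x (diaHom M H O' g v) = diaHom M H O' (x * g) v := fun x g v =>
    (LinearMap.congr_fun (map_mul (diaHom M H O') x g) v).symm
  -- the coefficients of an invariant class are constant
  have hconst : ∀ i g, c i g - c i 1 ∈ maximalIdeal O' := fun i g => by
    have hd : (∑ i, ∑ h, (c i (g⁻¹ * h) - c i h) • diaHom M H O' h (be i)) ∈
        maximalIdeal O' • (⊤ : Submodule O' (Hom1 (GamH M H) O')) := by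
      convert hinv g using 1
      rw [hc]
      simp only [sub_smul, Finset.sum_sub_distrib, map_sum, map_smul, hdd]
      congr 1
      refine Finset.sum_congr rfl fun i _ => ?_
      refine (Fintype.sum_equiv (Equiv.mulLeft g) _ _ fun h => ?_).symm
      rw [Equiv.coe_mulLeft, inv_mul_cancel_left]
    have h := hindE _ hd i g
    rw [inv_mul_cancel] at h
    simpa using neg_mem h
  let w : Hom1 (GamH M H) O' := ∑ i, c i 1 • be i
  have hwP : w ∈ Par (GamH M H) O' :=
    Submodule.sum_mem _ fun i _ => Submodule.smul_mem _ _ (Par_comp _ (hpar i))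
  let y := (Corr.cores (Γ := GamH M ⊤)).act w
  have hy : (Corr.res GamH_le_top).act y = ∑ i, ∑ g, c i 1 • diaHom M H O' g (be i) := by
    show (Corr.res GamH_le_top).act ((Corr.cores (Γ := GamH M ⊤)).act w) = _
    rw [res_cores_sum, Finset.sum_comm]
    refine Finset.sum_congr rfl fun g _ => ?_
    simp only [w, map_sum, map_smul]
  refine ⟨y, Par_act _ hwP, ?_, ?_⟩
  · rw [hy, hc, ← Finset.sum_sub_distrib]
    refine Submodule.sum_mem _ fun i _ => ?_
    rw [← Finset.sum_sub_distrib]
    refine Submodule.sum_mem _ fun g _ => ?_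
    rw [← sub_smul]
    exact Submodule.smul_mem_smul (hconst i g) Submodule.mem_top
  · -- the operator
    choose a ha using hop
    have haE : ∀ j, (Tc M H ℓ).act (be j) =
        ∑ i, ∑ g, algebraMap O O' (a j i g) • diaHom M H O' g (be i) := fun j => by
      show (Tc M H ℓ).act ((algebraMap O O').toAddMonoidHom.comp (b j)) = _
      rw [Corr.act_comp_hom, ha]
      refine AddMonoidHom.ext fun γ => ?_
      simp only [AddMonoidHom.coe_comp, Function.comp_apply, AddMonoidHom.finsetSum_apply,
        AddMonoidHom.smul_apply, map_sum, be, diaHom_coefExt]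
      simp [smul_eq_mul, map_mul]
    let d : Y → G → O' := fun i g =>
      (∑ j, c j 1 * algebraMap O O' (a j i g)) - if g = 1 then u * c i 1 else 0
    have hw : (Tc M H ℓ).act w - u • w = ∑ i, ∑ g, d i g • diaHom M H O' g (be i) := by
      simp only [d, sub_smul, Finset.sum_sub_distrib, ite_smul, zero_smul]
      congr 1
      · simp only [w, map_sum, Corr.act_smul, haE, Finset.smul_sum, smul_smul, Finset.sum_smul]
        rw [Finset.sum_comm]
        exact Finset.sum_congr rfl fun i _ => Finset.sum_comm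
      · simp only [w, Finset.smul_sum, smul_smul]
        refine Finset.sum_congr rfl fun i _ => ?_
        rw [Fintype.sum_eq_single (1 : G) fun g hg => if_neg hg, if_pos rfl, map_one,
          Module.End.one_apply]
    have hcomm : ∀ g v, (Tc M H ℓ).act (diaHom M H O' g v) =
        diaHom M H O' g ((Tc M H ℓ).act v) := fun g v => Tc_dia (ℓ := ℓ) _ v
    have hzd : z - ∑ g, diaHom M H O' g w ∈
        maximalIdeal O' • (⊤ : Submodule O' (Hom1 (GamH M H) O')) := by
      have e : ∑ g, diaHom M H O' g w = ∑ i, ∑ g, c i 1 • diaHom M H O' g (be i) := by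
        rw [Finset.sum_comm]
        simp only [w, map_sum, map_smul]
      rw [e, hc, ← Finset.sum_sub_distrib]
      refine Submodule.sum_mem _ fun i _ => ?_
      rw [← Finset.sum_sub_distrib]
      refine Submodule.sum_mem _ fun g _ => ?_
      rw [← sub_smul]
      exact Submodule.smul_mem_smul (hconst i g) Submodule.mem_top
    have hdsum : ∀ i, ∑ g, d i g ∈ maximalIdeal O' := fun i => by
      have h1 : (∑ i, ∑ g, (∑ h, d i h) • diaHom M H O' g (be i)) ∈
          maximalIdeal O' • (⊤ : Submodule O' (Hom1 (GamH M H) O')) := by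
        have h2 : (∑ g, diaHom M H O' g ((Tc M H ℓ).act w - u • w)) ∈
            maximalIdeal O' • (⊤ : Submodule O' (Hom1 (GamH M H) O')) := by
          have h3 := Submodule.smul_top_le_comap_smul_top (maximalIdeal O')
            ((({ toFun := fun v => (Tc M H ℓ).act v
                 map_add' := fun v v' => map_add _ v v'
                 map_smul' := fun r v => (Tc M H ℓ).act_smul r v } :
              Hom1 (GamH M H) O' →ₗ[O'] Hom1 (GamH M H) O')) - u • LinearMap.id) hzd
          convert neg_mem (Submodule.mem_comap.1 h3) using 1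
          show _ = -((Tc M H ℓ).act (z - ∑ g, diaHom M H O' g w) -
            u • (z - ∑ g, diaHom M H O' g w))
          rw [map_sub, smul_sub, hU, map_sum (Tc M H ℓ).act (fun g => diaHom M H O' g w),
            Finset.sum_congr rfl fun g _ => hcomm g w, Finset.smul_sum]
          simp only [map_sub, Finset.sum_sub_distrib]
          rw [show (∑ x, u • c x 1 • be x) = u • w from Finset.smul_sum.symm]
          simp only [map_smul, ← Finset.smul_sum]
          abel
        convert h2 using 1
        rw [hw]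
        simp only [map_sum, map_smul, hdd]
        rw [Finset.sum_comm (s := (Finset.univ : Finset G))]
        refine Finset.sum_congr rfl fun i _ => ?_
        simp only [Finset.sum_smul]
        rw [Finset.sum_comm]
        conv_rhs => rw [Finset.sum_comm]
        refine Finset.sum_congr rfl fun h _ => ?_
        refine (Fintype.sum_equiv (Equiv.mulRight h) _ _ fun g => ?_).symm
        rw [Equiv.coe_mulRight]
      exact hindE _ h1 i 1
    show (Tc M ⊤ ℓ).act ((Corr.cores (Γ := GamH M ⊤)).act w) -
      u • (Corr.cores (Γ := GamH M ⊤)).act w ∈ _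
    rw [cores_Tc_diamond, ← Corr.act_smul, ← map_sub, hw, map_sum]
    refine Submodule.sum_mem _ fun i _ => ?_
    rw [map_sum]
    simp only [Corr.act_smul, cores_diaHom]
    rw [← Finset.sum_smul]
    exact Submodule.smul_mem_smul (hdsum i) Submodule.mem_top

end FA.NebLocal
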