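import Fermat.Agent.NebLocal.Rational
import Fermat.Agent.NebLocal.LvlH
import Fermat.Agent.HeckeH1.Degeneracy

/-!
# Restriction, degeneracy, translations and `U_q` as rational correspondences

All are upper triangular; the arithmetic action multiplies the translations by the exponent of
the action on roots of unity.
-/

set_option autoImplicit false
set_option linter.unusedSectionVars false
set_option linter.style.haveILetI false
set_option synthInstance.maxHeartbeats 200000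
set_option maxHeartbeats 1000000

noncomputable section

namespace FA.NebLocal

open ModularCurve FA.Level
open FA.HeckeH1 (gl glQ MatZ Corr GamH Tc RIdx rep rep_det)
open scoped MatrixGroups

local notation "Qb" => AlgebraicClosure ℚ
local notation "GQ" => AlgebraicClosure ℚ ≃ₐ[ℚ] AlgebraicClosure ℚ

variable {V V' : Lvl}

/-- The upper triangular matrix. -/
def upMat (a : ℕ) (b : ℤ) (D : ℕ) : MatZ := !![(a : ℤ), b; 0, (D : ℤ)]

theorem det_upMat_pos {a D : ℕ} (ha : a ≠ 0) (hD : D ≠ 0) (b : ℤ) : 0 < (upMat a b D).det := by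
  have := Nat.pos_of_ne_zero ha
  have := Nat.pos_of_ne_zero hD
  rw [upMat, Matrix.det_fin_two_of]
  simp
  positivity

/-- The correspondence of one upper triangular matrix. -/
def uSingle (V V' : Lvl) {a D : ℕ} (ha : a ≠ 0) (hD : D ≠ 0) (b : ℤ)
    (h : ∀ γ ∈ V'.grp, ∃ δ ∈ V.grp, gl (upMat a b D) * glQ γ = glQ δ * gl (upMat a b D)) :
    UCorr V V' where
  toI := ⟨Corr.single (gl (upMat a b D)) h, fun _ => upMat a b D,
    fun _ => det_upMat_pos ha hD b, fun _ => rfl, inferInstanceAs (Nonempty Unit)⟩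
  D := D
  D_ne := hD
  a _ := a
  b _ := b
  a_ne _ := ha
  X_eq _ := rfl

theorem gl_upMat_one : gl (upMat 1 0 1) = 1 := by
  have h : upMat 1 0 1 = (1 : SL(2, ℤ)).1 := by
    rw [Matrix.SpecialLinearGroup.coe_one, upMat, Matrix.one_fin_two]; rfl
  rw [h, FA.HeckeH1.gl_coe, map_one]

/-- Restriction. -/
def uRes (V V' : Lvl) (h : V'.grp ≤ V.grp) : UCorr V V' :=
  uSingle V V' one_ne_zero one_ne_zero 0 fun γ hγ => ⟨γ, h hγ, by
    rw [gl_upMat_one, one_mul, mul_one]⟩

theorem uRes_act (h : V'.grp ≤ V.grp) {A : Type*} [AddCommGroup A]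
    (z : FA.HeckeH1.Hom1 V.grp A) : (uRes V V' h).toI.C.act z = (Corr.res h).act z := by
  apply AddMonoidHom.ext
  intro γ
  show FA.HeckeH1.hv _ γ.toMul = FA.HeckeH1.hv _ γ.toMul
  rw [Corr.res_act]
  have h' : ∀ g ∈ V'.grp, ∃ δ ∈ V.grp, gl (upMat 1 0 1) * glQ g = glQ δ * gl (upMat 1 0 1) :=
    fun g hg => ⟨g, h hg, by rw [gl_upMat_one, one_mul, mul_one]⟩
  exact Corr.single_act _ h' z γ.toMul ⟨_, h γ.toMul.2⟩ (by rw [gl_upMat_one, one_mul, mul_one])

section galois

variable [Algebra Qb ℂ]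

theorem galComm_uSingle (σ : GQ) {a D : ℕ} [NeZero D] (ha : a ≠ 0) (hD : D ≠ 0) {b b' : ℤ}
    (h : ∀ γ ∈ V'.grp, ∃ δ ∈ V.grp, gl (upMat a b D) * glQ γ = glQ δ * gl (upMat a b D))
    (h' : ∀ γ ∈ V'.grp, ∃ δ ∈ V.grp, gl (upMat a b' D) * glQ γ = glQ δ * gl (upMat a b' D))
    {c : ℤ} (hc : Units.map (σ : Qb →+* Qb).toMonoidHom (muQ D) = muQ D ^ c)
    (hb : (D : ℤ) ∣ b' - c * b) :
    GalComm σ (uSingle V V' ha hD b h).toI (uSingle V V' ha hD b' h').toI
      (uSingle V V' ha hD b h).rational (uSingle V V' ha hD b' h').rational :=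
  UCorr.galComm (U := uSingle V V' ha hD b h) (U' := uSingle V V' ha hD b' h') (c := c) hc rfl
    (Equiv.refl _) (fun _ => rfl) fun _ => hb

theorem galComm_uSingle_one (σ : GQ) {a : ℕ} (ha : a ≠ 0) (b : ℤ)
    (h : ∀ γ ∈ V'.grp, ∃ δ ∈ V.grp, gl (upMat a b 1) * glQ γ = glQ δ * gl (upMat a b 1)) :
    GalComm σ (uSingle V V' ha one_ne_zero b h).toI (uSingle V V' ha one_ne_zero b h).toI
      (uSingle V V' ha one_ne_zero b h).rational (uSingle V V' ha one_ne_zero b h).rational := by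
  obtain ⟨c, hc⟩ := exists_int_galois_muQ 1 σ
  exact galComm_uSingle σ ha one_ne_zero h h hc (by simp)

theorem galComm_uRes (σ : GQ) (h : V'.grp ≤ V.grp) :
    GalComm σ (uRes V V' h).toI (uRes V V' h).toI (uRes V V' h).rational (uRes V V' h).rational :=
  galComm_uSingle_one σ one_ne_zero 0 _

/-- The exponent of `σ` on roots of unity of prime order is prime to the order. -/
theorem galois_exponent_ne_zero {q : ℕ} [hq : Fact q.Prime] [NeZero q] {σ : GQ} {c : ℤ}
    (hc : Units.map (σ : Qb →+* Qb).toMonoidHom (muQ q) = muQ q ^ c) : (c : ZMod q) ≠ 0 := by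
  intro h0
  obtain ⟨k, hk⟩ := (ZMod.intCast_zmod_eq_zero_iff_dvd c q).1 h0
  have h1 : muQ q ^ c = 1 := by
    rw [hk, zpow_mul, zpow_natCast, show muQ q ^ q = 1 from Units.ext (by
      rw [Units.val_pow_eq_pow_val, (muQ_prim q).pow_eq_one, Units.val_one]), one_zpow]
  rw [h1] at hc
  have h2 : σ (muQ q : Qb) = σ 1 := by
    rw [map_one]; exact congrArg Units.val hc
  exact (muQ_prim q).ne_one hq.out.one_lt (σ.injective h2)

end galois

/-! ### `U_q` -/

section tc

variable (M : ℕ) [NeZero M] [Fact (1 < M)] (H : Subgroup (ZMod M)ˣ)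
  (hH : (-1 : (ZMod M)ˣ) ∈ H) (q : ℕ) [hq : Fact q.Prime]

theorem ridx_eq_some (hqM : q ∣ M) (i : RIdx M q) :
    ∃ j : Fin q, i = ⟨some j, fun h => absurd h (by simp)⟩ := by
  obtain ⟨_ | j, hi⟩ := i
  · exact absurd hqM (hi rfl)
  · exact ⟨j, rfl⟩

/-- The translation of an index. -/
def ridxVal (i : RIdx M q) : ℕ := ((i.1.map fun j : Fin q => (j : ℕ))).getD 0

variable (hqM : q ∣ M)

/-- `U_q` as an upper triangular correspondence of `Γ_H(M)`. -/
def uTc : UCorr (lvlH H hH) (lvlH H hH) where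
  toI := ⟨Tc M H q, rep M q, fun i => lt_of_lt_of_eq (Int.natCast_pos.2 hq.out.pos) (rep_det hq.out i).symm,
    fun _ => rfl, ⟨⟨some ⟨0, hq.out.pos⟩, fun h => absurd h (by simp)⟩⟩⟩
  D := q
  D_ne := hq.out.ne_zero
  a _ := 1
  b i := (ridxVal M q i : ℤ)
  a_ne _ := one_ne_zero
  X_eq i := by
    obtain ⟨j, rfl⟩ := ridx_eq_some M q hqM i
    rfl

variable [Algebra Qb ℂ] [NeZero q]

theorem galComm_uTc (σ : GQ) :
    GalComm σ (uTc M H hH q hqM).toI (uTc M H hH q hqM).toI (uTc M H hH q hqM).rational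
      (uTc M H hH q hqM).rational := by
  obtain ⟨c, hc⟩ := exists_int_galois_muQ q σ
  have hc0 : (c : ZMod q) ≠ 0 := galois_exponent_ne_zero hc
  let f : RIdx M q → RIdx M q := fun i =>
    ⟨some ⟨((c : ZMod q) * (ridxVal M q i : ZMod q)).val, ZMod.val_lt _⟩,
      fun h => absurd h (by simp)⟩
  have hf : Function.Injective f := by
    intro i i' h
    obtain ⟨j, rfl⟩ := ridx_eq_some M q hqM i
    obtain ⟨j', rfl⟩ := ridx_eq_some M q hqM i'
    have h1 := ZMod.val_injective q (congrArg Fin.val (Option.some_injective _ (congrArg Subtype.val h)))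
    have h2 : ((j : ℕ) : ZMod q) = ((j' : ℕ) : ZMod q) := mul_left_cancel₀ hc0 h1
    have h3 := congrArg ZMod.val h2
    rw [ZMod.val_natCast_of_lt j.isLt, ZMod.val_natCast_of_lt j'.isLt] at h3
    exact Subtype.ext (congrArg some (Fin.ext h3))
  refine UCorr.galComm (U := uTc M H hH q hqM) (U' := uTc M H hH q hqM) (c := c) hc rfl
    (Equiv.ofBijective f (Finite.injective_iff_bijective.1 hf)) (fun _ => rfl) fun i => ?_
  show (q : ℤ) ∣ ((((c : ZMod q) * (ridxVal M q i : ZMod q)).val : ℕ) : ℤ) - c * (ridxVal M q i : ℤ)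
  rw [← ZMod.intCast_zmod_eq_zero_iff_dvd, Int.cast_sub, Int.cast_natCast, ZMod.natCast_zmod_val,
    Int.cast_mul, Int.cast_natCast, sub_self]

end tc

end FA.NebLocal
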