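import Fermat.Agent.NebLocal.Base
import Fermat.Agent.NebLocal.Corrs
import Fermat.Agent.NebLocal.Dia
import Fermat.Agent.Twist.System
import Fermat.Agent.Twist.Rep

/-!
# The quadratic relation of Galois on eigen systems with nebentypus

Galois conjugates the translation by `u / q` to the translation by `χ(σ) u / q`, so it twists the
twist by the value of the character at the cyclotomic character. This carries the relation of
degree two from `Γ₀` down to `Γ_H(M)`.
-/

set_option autoImplicit false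
set_option linter.style.haveILetI false
set_option linter.unusedSectionVars false

noncomputable section

namespace FA.NebLocal

open IsLocalRing FA.Level FA.JTorsion ModularCurve
open FA.HeckeH1 (Corr Par Hom1 hv GamH GamH_top GamH_le_top Tc dia ulHom gl glQ)
open FA.Twist (galCharAt galChar twistMat twistMat_apply tw tw_apply Hsq beta toM toQ)
open scoped MatrixGroups

local notation "Qb" => AlgebraicClosure ℚ
local notation "GQ" => AlgebraicClosure ℚ ≃ₐ[ℚ] AlgebraicClosure ℚ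

variable {p : ℕ} [Fact p.Prime] {O : Type} [CommRing O] [IsDomain O] [IsDiscreteValuationRing O]
  [IsAdicComplete (maximalIdeal O) O] [CharZero O] (hpO : (p : O) ∈ maximalIdeal O)
  [Algebra Qb ℂ]

/-- The exponent on roots of unity is the cyclotomic character. -/
theorem cycK_exponent (q : ℕ) [Fact q.Prime] [NeZero q] {σ : GQ} {c : ℤ}
    (hc : Units.map (σ : Qb →+* Qb).toMonoidHom (muQ q) = muQ q ^ c) :
    ((cycK q (ZMod q) σ : (ZMod q)ˣ) : ZMod q) = (c : ZMod q) := by
  have hq : q.Prime := Fact.out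
  haveI : NeZero (q ^ 1) := ⟨by rw [pow_one]; exact hq.ne_zero⟩
  have hmod : (modularCyclotomicCharacter Qb
      (HasEnoughRootsOfUnity.natCard_rootsOfUnity Qb (q ^ 1)) (σ : Qb ≃+* Qb)).val =
      ((c : ZMod (q ^ 1))) := by
    symm
    refine modularCyclotomicCharacter.unique Qb _ _ fun t ht => ?_
    have ht' : t ^ q = 1 := by
      have := (mem_rootsOfUnity _ t).mp ht
      rwa [pow_one] at this
    obtain ⟨i, -, hi⟩ := (muQ_prim q).eq_pow_of_pow_eq_one (ξ := (t : Qb))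
      (by rw [← Units.val_pow_eq_pow_val, ht', Units.val_one])
    have hσt : Units.map (σ : Qb →+* Qb).toMonoidHom t = t ^ c := by
      have e : t = muQ q ^ i := Units.ext (by rw [Units.val_pow_eq_pow_val]; exact hi.symm)
      rw [e, map_pow, hc, ← zpow_natCast, ← zpow_mul, ← zpow_natCast, ← zpow_mul, mul_comm]
    refine (congrArg Units.val hσt).trans ?_
    obtain ⟨k, hk⟩ : ((q ^ 1 : ℕ) : ℤ) ∣ c - ((c : ZMod (q ^ 1)).val : ℤ) := by
      rw [← ZMod.intCast_zmod_eq_zero_iff_dvd, Int.cast_sub, Int.cast_natCast, ZMod.natCast_zmod_val,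
        sub_self]
    have e : t ^ c = t ^ (c : ZMod (q ^ 1)).val := by
      conv_lhs => rw [eq_add_of_sub_eq' hk]
      rw [zpow_add, zpow_mul, zpow_natCast, zpow_natCast, (mem_rootsOfUnity _ t).mp ht, one_zpow,
        mul_one]
    rw [e, Units.val_pow_eq_pow_val]
  rw [cycK_val, cycP_toZModPow, hmod, map_intCast]

theorem smul_comb_zero {R N : Type*} [Ring R] [AddCommGroup N] [Module R N] {r : R} {a b d : N}
    (h : r • a - r • b + r • d = 0) : r • (a - b + d) = 0 := by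
  rw [smul_add, smul_sub]; exact h

variable {M : ℕ} [NeZero M] {H : Subgroup (ZMod M)ˣ}

/-- A parabolic class of the level as a homomorphism on `Γ_H(M)`. -/
abbrev toGam [Fact (1 < M)] (hH : (-1 : (ZMod M)ˣ) ∈ H) (z : Par (lvlH H hH).grp O) :
    Hom1 (GamH M H) O := z.1

theorem neg_one_mem_Hsq {q : ℕ} (hH : (-1 : (ZMod M)ˣ) ∈ H) :
    (-1 : (ZMod (M * q))ˣ) ∈ Hsq M H q := by
  refine ⟨?_, MonoidHom.mem_ker.2 (Units.ext ?_)⟩
  · show toM M q (-1) ∈ H
    convert hH
    exact Units.ext (by simp [toM, ZMod.unitsMap])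
  · simp [toQ, ZMod.unitsMap]

section twist

variable [Fact (1 < M)] (hH : (-1 : (ZMod M)ˣ) ∈ H) (q : ℕ) [hqp : Fact q.Prime] [NeZero q]
  [Fact (q ∣ M)] [NeZero (M * q)] [Fact (1 < M * q)]

theorem beta_conj (u : ℤ) : ∀ γ ∈ (lvlH (Hsq M H q) (neg_one_mem_Hsq hH)).grp,
    ∃ δ ∈ (lvlH H hH).grp, gl (upMat q u q) * glQ γ = glQ δ * gl (upMat q u q) := fun γ hγ => by
  obtain ⟨Y, hY, -, he⟩ := FA.Twist.exists_shift (H := H) (NeZero.ne q) (Fact.out : q ∣ M) hγ
    (FA.Twist.Dl_cast hγ inf_le_left) (FA.Twist.gamH_sq_dvd ⟨γ, hγ⟩ u)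
  obtain ⟨g, hg, rfl⟩ := FA.HeckeH1.Dl.toGamH hY
  exact ⟨g, hg, FA.Twist.gl_xm_mul (NeZero.ne q) he⟩

/-- The translation as an upper triangular correspondence. -/
def uBeta (u : ℤ) : UCorr (lvlH H hH) (lvlH (Hsq M H q) (neg_one_mem_Hsq hH)) :=
  uSingle _ _ (NeZero.ne q) (NeZero.ne q) u (beta_conj hH q u)

theorem uBeta_act {A : Type*} [AddCommGroup A] (u : ℤ) (z : Hom1 (GamH M H) A) :
    (uBeta hH q u).toI.C.act z = (beta M H q u).act z := rfl

/-- The twist as a sum of translations. -/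
theorem coe_sum_parC_beta (η : MulChar (ZMod q) O) (z : Par (lvlH H hH).grp O) :
    toGam (neg_one_mem_Hsq hH) (∑ u : ZMod q, η u • parC (uBeta hH q (u.val : ℤ)).toI.C z) = tw M H q η (toGam hH z) := by
  rw [tw_apply]
  exact Submodule.coe_sum _ _ _

/-- **Galois twists the twist.** -/
theorem parR_twist (η : MulChar (ZMod q) O) (σ : GQ) (z : Par (lvlH H hH).grp O) :
    (galCharAt q η σ : O) • parR (lvlH (Hsq M H q) (neg_one_mem_Hsq hH)) hpO σ
        (∑ u : ZMod q, η u • parC (uBeta hH q (u.val : ℤ)).toI.C z) =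
      ∑ u : ZMod q, η u • parC (uBeta hH q (u.val : ℤ)).toI.C (parR (lvlH H hH) hpO σ z) := by
  obtain ⟨c, hc⟩ := exists_int_galois_muQ q σ
  have hc0 : (c : ZMod q) ≠ 0 := galois_exponent_ne_zero hc
  have hchar : (galCharAt q η σ : O) = η (c : ZMod q) := by
    rw [galCharAt, dif_pos hqp.out, MonoidHom.comp_apply, MulChar.coe_toUnitHom, cycK_exponent q hc]
  rw [map_sum, Finset.smul_sum]
  refine Fintype.sum_equiv (Equiv.mulLeft₀ (c : ZMod q) hc0) _ _ fun u => ?_
  have hcomm := galComm_uSingle (V := lvlH H hH) (V' := lvlH (Hsq M H q) (neg_one_mem_Hsq hH)) σ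
    (NeZero.ne q) (NeZero.ne q) (beta_conj hH q (u.val : ℤ))
    (beta_conj hH q ((((c : ZMod q) * u).val : ℕ) : ℤ)) hc (by
      rw [← ZMod.intCast_zmod_eq_zero_iff_dvd]
      simp)
  rw [map_smul, smul_smul, hchar, ← map_mul]
  show η ((c : ZMod q) * u) • _ = η ((c : ZMod q) * u) • _
  exact congrArg _ (parR_parC hpO hcomm z)

end twist

section descend

variable [Fact (1 < M)] (hH : (-1 : (ZMod M)ˣ) ∈ H) (S : Finset ℕ) (hpS : p ∈ S)
  (hS : ∀ q : ℕ, q.Prime → q ∣ M → q ∈ S) (c : ℕ → O)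

set_option maxHeartbeats 1000000 in
include hpS hS in
/-- The relation of degree two for parabolic classes of level `Γ₀(M)`. -/
theorem parR_relation_zero (m : GQ →* Matrix (Fin 2) (Fin 2) O) (hm : FA.Deform.IsContRep m)
    (hfrob : ∀ ℓ : ℕ, ℓ.Prime → ℓ ∉ S → ∀ A : ValuationSubring Qb, A.LiesOverPrime ℓ →
      ∀ σ : GQ, A.IsFrobeniusAt σ ℓ → (m σ).trace = c ℓ ∧ (m σ).det = (ℓ : O))
    (z : Par (lvlGamma0 M).grp O)
    (hz : ∀ ℓ : ℕ, [Fact ℓ.Prime] → ℓ ∉ S →
      (tcZero M ℓ).act (z : Hom1 (lvlGamma0 M).grp O) = c ℓ • (z : Hom1 (lvlGamma0 M).grp O))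
    (σ : GQ) :
    parR (lvlGamma0 M) hpO σ (parR (lvlGamma0 M) hpO σ z) -
      (m σ).trace • parR (lvlGamma0 M) hpO σ z + (m σ).det • z = 0 := by
  obtain ⟨t, rfl⟩ := (parEquiv O (lvlGamma0 M)).surjective z
  have ht : ∀ ℓ : ℕ, [Fact ℓ.Prime] → ℓ ∉ S → tensC O (tcZero M ℓ) t = c ℓ • t :=
    fun ℓ _ hℓ => (parEquiv O (lvlGamma0 M)).injective (Subtype.ext (by
      rw [parEquiv_tensC, map_smul]
      exact hz ℓ hℓ))
  have h := congrArg (parEquiv O (lvlGamma0 M))
    (galR_relation hpO M S hpS hS c m hm hfrob t ht σ)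
  rw [map_zero, map_add, map_sub, map_smul, map_smul, ← parR_apply hpO, ← parR_apply hpO] at h
  exact h

set_option maxHeartbeats 1000000 in
include hpS hS in
/-- The relation of degree two for diamond invariant classes. -/
theorem parR_relation_top (m : GQ →* Matrix (Fin 2) (Fin 2) O) (hm : FA.Deform.IsContRep m)
    (hfrob : ∀ ℓ : ℕ, ℓ.Prime → ℓ ∉ S → ∀ A : ValuationSubring Qb, A.LiesOverPrime ℓ →
      ∀ σ : GQ, A.IsFrobeniusAt σ ℓ → (m σ).trace = c ℓ ∧ (m σ).det = (ℓ : O))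
    (z : Par (lvlH H hH).grp O)
    (hdia : ∀ g, dia M H O g (toGam hH z) = (toGam hH z))
    (heig : ∀ ℓ : ℕ, [Fact ℓ.Prime] → ℓ ∉ S →
      (Tc M H ℓ).act (toGam hH z) = c ℓ • (toGam hH z))
    (σ : GQ) :
    parR (lvlH H hH) hpO σ (parR (lvlH H hH) hpO σ z) -
      (m σ).trace • parR (lvlH H hH) hpO σ z + (m σ).det • z = 0 := by
  classical
  haveI : ((GamH M H).subgroupOf (GamH M ⊤)).FiniteIndex := inferInstance
  haveI : Finite (GamH M ⊤ ⧸ (GamH M H).subgroupOf (GamH M ⊤)) :=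
    Subgroup.finite_quotient_of_finiteIndex
  haveI := Fintype.ofFinite (GamH M ⊤ ⧸ (GamH M H).subgroupOf (GamH M ⊤))
  let C : Corr (GamH M H) (GamH M ⊤) := Corr.cores (Γ := GamH M ⊤)
  let B : Corr (GamH M ⊤) (lvlGamma0 M).grp := Corr.res (gamH_top_eq M).ge
  let z₀ : Par (lvlGamma0 M).grp O :=
    ⟨B.act (C.act (toGam hH z)), FA.HeckeH1.Par_act B (FA.HeckeH1.Par_act C z.2)⟩
  have hback : (Corr.res (gamH_top_eq M).le).act (B.act (C.act (toGam hH z))) =
      C.act (toGam hH z) := AddMonoidHom.ext fun x => by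
    show hv _ x.toMul = hv _ x.toMul
    rw [Corr.res_act, Corr.res_act]
  have hz₀ : ∀ ℓ : ℕ, [Fact ℓ.Prime] → ℓ ∉ S →
      (tcZero M ℓ).act (z₀ : Hom1 (lvlGamma0 M).grp O) = c ℓ • (z₀ : Hom1 (lvlGamma0 M).grp O) :=
    fun ℓ _ hℓ => by
    have h' : (Tc M ⊤ ℓ).act (C.act (toGam hH z)) = c ℓ • C.act (toGam hH z) :=
      ((FA.HeckeH1.cores_Tc_diamond (M := M) (H := H) (toGam hH z)).trans
        (congrArg C.act (heig ℓ hℓ))).trans (C.act_smul _ _)
    show (tcZero M ℓ).act (B.act (C.act _)) = c ℓ • B.act (C.act _)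
    rw [tcZero, Corr.comp_act, Corr.comp_act, hback, h', Corr.act_smul]
  have hle : (lvlH H hH).grp ≤ (lvlGamma0 M).grp := FA.HeckeH1.GamH_le_Gamma0
  let U := uRes (lvlGamma0 M) (lvlH H hH) hle
  let n : ℕ := Fintype.card (GamH M ⊤ ⧸ (GamH M H).subgroupOf (GamH M ⊤))
  have h1 : (Corr.res FA.HeckeH1.GamH_le_top).act (C.act (toGam hH z)) = (n : O) • (toGam hH z) := by
    refine (FA.HeckeH1.res_cores (M := M) (H := H) (toGam hH z)).trans ?_
    rw [Finset.sum_congr rfl fun x _ => hdia x.out, Finset.sum_const, Finset.card_univ,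
      Nat.cast_smul_eq_nsmul]
  have hres : parC U.toI.C z₀ = (n : O) • z := by
    refine Subtype.ext (Eq.trans ((uRes_act hle (B.act (C.act (toGam hH z)))).trans ?_) h1)
    refine AddMonoidHom.ext fun x => ?_
    show hv _ x.toMul = hv _ x.toMul
    rw [Corr.res_act, Corr.res_act]
    exact (Corr.res_act FA.HeckeH1.GamH_le_top (C.act (toGam hH z)) x.toMul).symm
  have h := congrArg (parC U.toI.C) (parR_relation_zero hpO S hpS hS c m hm hfrob z₀ hz₀ σ)
  rw [map_zero, map_add, map_sub, map_smul, map_smul, ← parR_parC hpO (galComm_uRes σ hle),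
    ← parR_parC hpO (galComm_uRes σ hle), hres, map_smul, map_smul, smul_comm (m σ).trace,
    smul_comm (m σ).det] at h
  replace h := smul_comb_zero h
  refine Subtype.ext (AddMonoidHom.ext fun x => ?_)
  have h2 := DFunLike.congr_fun (congrArg Subtype.val h) x
  rw [Submodule.coe_smul, AddMonoidHom.smul_apply, smul_eq_mul] at h2
  refine (mul_eq_zero.1 h2).resolve_left (Nat.cast_ne_zero.2 ?_)
  exact Fintype.card_ne_zero

end descend

omit [NeZero M]

set_option maxHeartbeats 4000000 in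
include hpO in
/-- **The relation of degree two on an eigen system with nebentypus.** -/
theorem parR_relation (η : ∀ q : ℕ, MulChar (ZMod q) O) (S : Finset ℕ) (hpS : p ∈ S)
    (Q : Finset ℕ) :
    ∀ (M : ℕ) [NeZero M] [Fact (1 < M)] (H : Subgroup (ZMod M)ˣ) (hH : (-1 : (ZMod M)ˣ) ∈ H),
      (∀ q : ℕ, q.Prime → q ∣ M → q ∈ S) →
      (∀ q ∈ Q, q.Prime ∧ q ∣ M ∧ ¬ q * q ∣ M ∧ η q ^ 2 ≠ 1) →
      ∀ (c : ℕ → O) (r : GQ →* Matrix (Fin 2) (Fin 2) O), FA.Deform.IsContRep r →
      (∀ ℓ : ℕ, ℓ.Prime → ℓ ∉ S → ∀ A : ValuationSubring Qb, A.LiesOverPrime ℓ →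
        ∀ σ : GQ, A.IsFrobeniusAt σ ℓ → (r σ).trace = c ℓ ∧
          (r σ).det = (ℓ : O) * ∏ q ∈ Q, η q (ℓ : ZMod q) ^ 2) →
      ∀ z : Par (lvlH H hH).grp O,
      (∀ g : GamH M ⊤, dia M H O g (toGam hH z) =
        (∏ q ∈ Q, η q (ZMod.cast (ulHom M g : ZMod M)) ^ 2) • (toGam hH z)) →
      (∀ ℓ : ℕ, [Fact ℓ.Prime] → ℓ ∉ S →
        (Tc M H ℓ).act (toGam hH z) = c ℓ • (toGam hH z)) →
      ∀ σ : GQ, parR (lvlH H hH) hpO σ (parR (lvlH H hH) hpO σ z) -
        (r σ).trace • parR (lvlH H hH) hpO σ z + (r σ).det • z = 0 := by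
  classical
  induction Q using Finset.induction with
  | empty =>
    intro M _ _ H hH hS _ c r hr hfrob z hdia heig σ
    refine parR_relation_top hpO hH S hpS hS c r hr (fun ℓ hℓ hℓS A hA τ hτ => ?_) z
      (fun g => by rw [hdia, Finset.prod_empty, one_smul]) heig σ
    obtain ⟨h1, h2⟩ := hfrob ℓ hℓ hℓS A hA τ hτ
    exact ⟨h1, by rw [h2, Finset.prod_empty, mul_one]⟩
  | insert q Q hqQ ih =>
    intro M _ _ H hH hS hQ c r hr hfrob z hdia heig σ
    obtain ⟨hq, hqM, hqq, hη2⟩ := hQ q (Finset.mem_insert_self q Q)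
    haveI : Fact q.Prime := ⟨hq⟩
    haveI : NeZero q := ⟨hq.ne_zero⟩
    haveI : Fact (q ∣ M) := ⟨hqM⟩
    haveI : NeZero (M * q) := ⟨mul_ne_zero (NeZero.ne M) hq.ne_zero⟩
    haveI : Fact (1 < M * q) := ⟨lt_of_lt_of_le (Fact.out : 1 < M)
      (Nat.le_mul_of_pos_right M hq.pos)⟩
    obtain ⟨N', hN'⟩ := hqM
    have hcop : q.Coprime N' := hq.coprime_iff_not_dvd.2 fun ⟨d, hd⟩ =>
      hqq ⟨d, by rw [hN', hd, mul_assoc]⟩
    set r' := twistMat ((galCharAt q (η q))⁻¹) r with hr'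
    let T : Par (lvlH H hH).grp O →ₗ[O] Par (lvlH (Hsq M H q) (neg_one_mem_Hsq hH)).grp O :=
      ∑ u : ZMod q, η q u • parC (uBeta hH q (u.val : ℤ)).toI.C
    have hT : ∀ w, T w = ∑ u : ZMod q, η q u • parC (uBeta hH q (u.val : ℤ)).toI.C w := fun w => by
      simp only [T, LinearMap.sum_apply, LinearMap.smul_apply]
    have hTval : ∀ w, toGam (neg_one_mem_Hsq hH) (T w) =
        tw M H q (η q) (toGam hH w) := fun w => by
      rw [hT]; exact coe_sum_parC_beta hH q (η q) w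
    let ψ : (ZMod M)ˣ →* O :=
      ∏ r ∈ insert q Q, if hr : r ∣ M then
        ((powMonoidHom 2).comp ((η r).toMonoidHom.comp
          ((ZMod.castHom hr (ZMod r)).toMonoidHom.comp (Units.coeHom (ZMod M))))) else 1
    have hψ : ∀ u : (ZMod M)ˣ,
        ψ u = ∏ r ∈ insert q Q, η r (ZMod.cast (u : ZMod M)) ^ 2 := fun u => by
      rw [MonoidHom.finsetProd_apply]
      refine Finset.prod_congr rfl fun r hr => ?_
      rw [dif_pos (hQ r hr).2.1]
      rfl
    have hη1 : η q ≠ 1 := fun h => hη2 (by rw [h, one_pow])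
    have hz' : ∀ g, dia M H O g (toGam hH z) =
        ψ (ulHom M g) • (toGam hH z) := fun g => by rw [hdia, hψ]
    -- the relation after twisting
    have hrel : T (parR (lvlH H hH) hpO σ (parR (lvlH H hH) hpO σ z) -
        (r σ).trace • parR (lvlH H hH) hpO σ z + (r σ).det • z) = 0 := by
      have hr'c : FA.Deform.IsContRep r' := by
        refine FA.Twist.isContRep_twistMat hr ?_
        obtain ⟨L, hL, hLfix⟩ := FA.Twist.exists_field_galChar {q} η
        refine ⟨L, hL, fun τ hτ => ?_⟩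
        have := hLfix τ hτ
        rw [galChar, Finset.prod_singleton] at this
        rw [MonoidHom.inv_apply, this, inv_one]
      have hq' : q ∈ S := hS q hq ⟨N', hN'⟩
      have hfrob' : ∀ ℓ : ℕ, ℓ.Prime → ℓ ∉ S → ∀ A : ValuationSubring Qb, A.LiesOverPrime ℓ →
          ∀ τ : GQ, A.IsFrobeniusAt τ ℓ → (r' τ).trace = (η q)⁻¹ (ℓ : ZMod q) * c ℓ ∧
            (r' τ).det = (ℓ : O) * ∏ s ∈ Q, η s (ℓ : ZMod s) ^ 2 := by
        intro ℓ hℓ hℓS A hA τ hτ
        have hℓq : ℓ ≠ q := fun h => hℓS (h ▸ hq')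
        obtain ⟨h1, h2⟩ := hfrob ℓ hℓ hℓS A hA τ hτ
        have hg : (galCharAt q (η q) τ : O) = η q (ℓ : ZMod q) :=
          FA.Twist.galCharAt_frobenius hq _ hℓ hℓq hA hτ
        obtain ⟨l, hl⟩ : IsUnit (ℓ : ZMod q) := (ZMod.isUnit_iff_coprime ℓ q).2
          ((Nat.coprime_primes hℓ hq).2 hℓq)
        have hone : (η q)⁻¹ (ℓ : ZMod q) * η q (ℓ : ZMod q) = 1 := by
          rw [← MulChar.mul_apply, inv_mul_cancel, ← hl, MulChar.one_apply_coe]
        have hinv : (((galCharAt q (η q))⁻¹ τ : Oˣ) : O) = (η q)⁻¹ (ℓ : ZMod q) := by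
          rw [MonoidHom.inv_apply]
          exact Units.inv_eq_of_mul_eq_one_left (by rw [hg]; exact hone)
        rw [hr', twistMat_apply, hinv, Matrix.trace_smul, Matrix.det_smul, h1, h2,
          Fintype.card_fin, smul_eq_mul]
        refine ⟨rfl, ?_⟩
        rw [Finset.prod_insert hqQ]
        linear_combination ((ℓ : O) * ∏ s ∈ Q, η s (ℓ : ZMod s) ^ 2) *
          ((η q)⁻¹ (ℓ : ZMod q) * η q (ℓ : ZMod q) + 1) * hone
      have h := ih (M * q) (Hsq M H q) (neg_one_mem_Hsq hH)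
        (fun s hs h => ((Nat.Prime.dvd_mul hs).1 h).elim (hS s hs) fun h' =>
          hS s hs (h'.trans ⟨N', hN'⟩))
        (fun s hs => by
          obtain ⟨hsp, hsM, hss, hs2⟩ := hQ s (Finset.mem_insert_of_mem hs)
          refine ⟨hsp, hsM.mul_right q, fun h => hss ?_, hs2⟩
          have hne : s ≠ q := fun h' => hqQ (h' ▸ hs)
          exact (Nat.Coprime.mul_left ((Nat.coprime_primes hsp hq).2 hne)
            ((Nat.coprime_primes hsp hq).2 hne)).dvd_of_dvd_mul_right h)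
        (fun ℓ => (η q)⁻¹ (ℓ : ZMod q) * c ℓ) r' hr'c hfrob' (T z)
        (fun g => by
          rw [hTval, FA.Twist.dia_tw (η q) (toGam hH z) ψ hz' g, hψ]
          congr 1
          rw [Finset.prod_insert hqQ, mul_comm (η q (ZMod.cast _) ^ 2), mul_assoc]
          refine Eq.trans (congrArg₂ (· * ·) (Finset.prod_congr rfl fun s hs => ?_) ?_) (mul_one _)
          · have hsM := (hQ s (Finset.mem_insert_of_mem hs)).2.1
            exact congrArg (fun x => η s x ^ 2) (FA.Twist.cast_toM hsM (ulHom (M * q) g))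
          · have e : (ZMod.cast (toM M q (ulHom (M * q) g) : ZMod M) : ZMod q) =
                (toQ M q (ulHom (M * q) g) : ZMod q) :=
              (FA.Twist.cast_toM (Fact.out : q ∣ M) (ulHom (M * q) g))
            rw [e, ← map_pow, ← MulChar.mul_apply, mul_inv_cancel, ← Units.val_pow_eq_pow_val,
              MulChar.one_apply_coe])
        (fun ℓ _ hℓ => by
          rw [hTval]
          refine FA.Twist.Tc_tw_eigen (η q) ℓ (fun h => hℓ ?_) (heig ℓ hℓ)
          rw [(Nat.prime_dvd_prime_iff_eq Fact.out hq).1 h]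
          exact hq') σ
      set a : Oˣ := galCharAt q (η q) σ with ha
      have hG : ∀ w, (a : O) • parR (lvlH (Hsq M H q) (neg_one_mem_Hsq hH)) hpO σ (T w) =
          T (parR (lvlH H hH) hpO σ w) := fun w => by
        rw [hT, hT]; exact parR_twist hpO hH q (η q) σ w
      have ht : (r' σ).trace = ((a⁻¹ : Oˣ) : O) * (r σ).trace := by
        rw [hr', twistMat_apply, Matrix.trace_smul, MonoidHom.inv_apply, smul_eq_mul]
      have hd : (r' σ).det = ((a⁻¹ : Oˣ) : O) ^ 2 * (r σ).det := by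
        rw [hr', twistMat_apply, Matrix.det_smul, MonoidHom.inv_apply, Fintype.card_fin]
      have hG' : ∀ w, parR (lvlH (Hsq M H q) (neg_one_mem_Hsq hH)) hpO σ (T w) =
          ((a⁻¹ : Oˣ) : O) • T (parR (lvlH H hH) hpO σ w) := fun w => by
        rw [← hG, smul_smul, Units.inv_mul, one_smul]
      rw [hG', map_smul, hG', ht, hd, smul_smul, smul_smul, ← pow_two,
        mul_right_comm, ← pow_two, mul_smul _ (r σ).trace, mul_smul _ (r σ).det] at h
      replace h := smul_comb_zero h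
      rw [map_add, map_sub, map_smul, map_smul]
      exact ((IsUnit.smul_eq_zero ((a⁻¹).isUnit.pow 2)).1 h)
    -- the character is nontrivial away from the other primes
    obtain ⟨u, hu, hψu⟩ : ∃ u : (ZMod M)ˣ,
        ZMod.castHom (Dvd.intro_left q hN'.symm) (ZMod N') (u : ZMod M) = 1 ∧ ψ u ≠ 1 := by
      obtain ⟨v, hv⟩ := MulChar.ne_one_iff.1 hη2
      subst hN'
      let u : (ZMod (q * N'))ˣ :=
        (Units.mapEquiv (ZMod.chineseRemainder hcop).toMulEquiv).symm
          (MulEquiv.prodUnits.symm (v, 1))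
      have hu : ZMod.chineseRemainder hcop (u : ZMod (q * N')) = ((v : ZMod q), (1 : ZMod N')) :=
        (ZMod.chineseRemainder hcop).apply_symm_apply ((v : ZMod q), (1 : ZMod N'))
      have h1 : ZMod.castHom (dvd_mul_right q N') (ZMod q) (u : ZMod (q * N')) = v := by
        have := congrArg Prod.fst hu
        simpa [ZMod.chineseRemainder] using this
      have h2 : ZMod.castHom (dvd_mul_left N' q) (ZMod N') (u : ZMod (q * N')) = 1 := by
        have := congrArg Prod.snd hu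
        simpa [ZMod.chineseRemainder] using this
      refine ⟨u, h2, ?_⟩
      rw [hψ, Finset.prod_insert hqQ, Finset.prod_eq_one fun s hs => ?_, mul_one]
      · rw [show (ZMod.cast (u : ZMod (q * N')) : ZMod q) = v from h1]
        rwa [MulChar.pow_apply_coe] at hv
      · obtain ⟨hsp, hsM, -, -⟩ := hQ s (Finset.mem_insert_of_mem hs)
        have hsq : s ≠ q := fun h => hqQ (h ▸ hs)
        have hsN : s ∣ N' := ((Nat.Prime.dvd_mul hsp).1 hsM).resolve_left
          fun h => hsq ((Nat.prime_dvd_prime_iff_eq hsp hq).1 h)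
        have h3 : ZMod.castHom hsM (ZMod s) (u : ZMod (q * N')) = 1 := by
          rw [show ZMod.castHom hsM (ZMod s) =
              (ZMod.castHom hsN (ZMod s)).comp (ZMod.castHom (dvd_mul_left N' q) (ZMod N')) from
            RingHom.ext_zmod _ _, RingHom.comp_apply, h2, map_one]
        rw [show (ZMod.cast (u : ZMod (q * N')) : ZMod s) = 1 from h3, map_one, one_pow]
    -- the defect has the same diamond character
    set y := parR (lvlH H hH) hpO σ (parR (lvlH H hH) hpO σ z) -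
      (r σ).trace • parR (lvlH H hH) hpO σ z + (r σ).det • z with hy
    by_contra hne
    refine FA.Twist.tw_ne_zero hη1 (z := (toGam hH y))
      (fun h => hne (Subtype.ext h)) hN' hcop ψ (fun g => ?_) u hu hψu
      (by rw [← hTval, hrel]; rfl)
    let D : Par (lvlH H hH).grp O →ₗ[O] Par (lvlH H hH).grp O := parC (iDia M H hH g).C
    have hDz : D z = ψ (ulHom M g) • z :=
      Subtype.ext ((iDia_act M H hH g (toGam hH z)).trans (hz' g))
    have hDG : ∀ w, D (parR (lvlH H hH) hpO σ w) = parR (lvlH H hH) hpO σ (D w) := fun w =>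
      (parR_parC hpO (galComm_iDia M H hH g σ) w).symm
    have hDy : D y = ψ (ulHom M g) • y := by
      rw [hy, map_add, map_sub, map_smul, map_smul, hDG, hDG, hDz, map_smul, map_smul, smul_add,
        smul_sub, smul_comm (ψ _), smul_comm (ψ _) (r σ).det]
    exact (iDia_act M H hH g (toGam hH y)).symm.trans (congrArg Subtype.val hDy)

end FA.NebLocal
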