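import Fermat.Agent.JTorsion.LatHecke
import Fermat.Agent.JTorsion.Transfer
import Fermat.Agent.HeckeH1.Degeneracy

/-!
# The transfer from `Γ₀(Nℓ)` is the Hecke correspondence of determinant `ℓ`
-/

set_option autoImplicit false
set_option linter.unusedSectionVars false
set_option linter.style.haveILetI false

noncomputable section

namespace FA.NebLocal

open FA.Level FA.JTorsion ModularCurve CongruenceSubgroup
open FA.HeckeH1 (Corr Hom1 hv GamH GamH_top Tc gl glQ eps rep Dl RIdx)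
open scoped MatrixGroups

/-- The transfer of levels is corestriction. -/
theorem transferFun_eq_cores {V V' : Lvl} {A : Type*} [AddCommGroup A]
    [Finite (V.grp ⧸ V'.grp.subgroupOf V.grp)] (x : Hom1 V'.grp A) (γ : V.grp) :
    transferFun (V := V) (V' := V') (hv x) γ =
      hv ((Corr.cores (Γ := V.grp) (Γ' := V'.grp)).act x) γ := by
  have h := Corr.act_eq (Corr.cores (Γ := V.grp) (Γ' := V'.grp)) x γ
    (MulAction.toPerm (β := RelCos V V') (γ⁻¹ : V.grp))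
    (fun i : RelCos V V' => ⟨_, relRep_mul_mem γ i⟩) (by
      intro (i : RelCos V V')
      show glQ ((Quotient.out i : V.grp) : SL(2, ℤ))⁻¹ * glQ (γ : SL(2, ℤ)) =
        glQ ((relRep i * γ * (relRep (γ⁻¹ • i))⁻¹ : V.grp) : SL(2, ℤ)) *
          glQ ((Quotient.out (γ⁻¹ • i) : V.grp) : SL(2, ℤ))⁻¹
      simp only [relRep, Subgroup.coe_mul, Subgroup.coe_inv, map_mul, map_inv]
      group)
  rw [h]
  exact @Finset.sum_congr (RelCos V V') A _ _ _ _ _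
    (Finset.ext fun a => iff_of_true (Finset.mem_univ a) (Finset.mem_univ a)) fun _ _ => rfl

variable (N ℓ : ℕ) [NeZero N]

theorem eps_mem (hℓ : ℓ.Prime) (hℓN : ¬ ℓ ∣ N) : eps ℓ ∈ Dl N ⊤ ℓ :=
  ⟨FA.HeckeH1.eps_det ℓ, by simp [eps], ZMod.unitOfCoprime ℓ (hℓ.coprime_iff_not_dvd.2 hℓN),
    Subgroup.mem_top _, by simp [eps]⟩

theorem eps_conjScale [NeZero ℓ] (γ : Gamma0 (N * ℓ)) :
    gl (eps ℓ) * glQ (γ : SL(2, ℤ)) = glQ (conjScale N ℓ γ : SL(2, ℤ)) * gl (eps ℓ) := by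
  have hl : (ℓ : ℤ) ≠ 0 := Int.natCast_ne_zero.2 (NeZero.ne ℓ)
  have he : (eps ℓ).det ≠ 0 := by rw [FA.HeckeH1.eps_det]; exact hl
  rw [← FA.HeckeH1.gl_coe, ← FA.HeckeH1.gl_coe, ← FA.HeckeH1.gl_mul he
    (by rw [(γ : SL(2, ℤ)).2]; exact one_ne_zero), ← FA.HeckeH1.gl_mul
    (by rw [(conjScale N ℓ γ : SL(2, ℤ)).2]; exact one_ne_zero) he]
  congr 1
  obtain ⟨c, hc⟩ := (dvd_mul_left (ℓ : ℤ) N).trans
    (by exact_mod_cast (ZMod.intCast_zmod_eq_zero_iff_dvd _ (N * ℓ)).1 (Gamma0_mem.1 γ.2) :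
      (N : ℤ) * ℓ ∣ (γ : SL(2, ℤ)) 1 0)
  ext i j
  fin_cases i <;> fin_cases j <;>
    simp [conjScale, eps, Matrix.mul_apply, Fin.sum_univ_two, hc,
      Int.mul_ediv_cancel_left _ hl] <;> ring

variable [hℓ : Fact ℓ.Prime] [NeZero ℓ]

/-- `Γ diag(ℓ,1) Γ` is the double coset of `T ℓ`, for any group equal to `Γ₀(N)`. -/
theorem act_cores_eps (hℓN : ¬ ℓ ∣ N) (G : Subgroup SL(2, ℤ)) (hG : GamH N ⊤ = G)
    [Finite (G ⧸ (Gamma0 (N * ℓ)).subgroupOf G)]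
    (hβ : ∀ γ ∈ Gamma0 (N * ℓ), ∃ h ∈ G, gl (eps ℓ) * glQ γ = glQ h * gl (eps ℓ))
    {A : Type*} [AddCommGroup A] (z : Hom1 G A) (γ : GamH N ⊤) :
    hv ((Corr.cores (Γ := G) (Γ' := Gamma0 (N * ℓ))).act ((Corr.single (gl (eps ℓ)) hβ).act z))
        ⟨(γ : SL(2, ℤ)), hG ▸ γ.2⟩ =
      hv ((Tc N ⊤ ℓ).act ((Corr.res hG.le).act z)) γ := by
  subst hG
  have hp : ℓ.Prime := hℓ.out
  have hle : Gamma0 (N * ℓ) ≤ GamH N ⊤ := fun g hg => by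
    rw [GamH_top, Gamma0_mem, ZMod.intCast_zmod_eq_zero_iff_dvd]
    exact (Int.natCast_dvd_natCast.2 (dvd_mul_right N ℓ)).trans
      ((ZMod.intCast_zmod_eq_zero_iff_dvd _ _).1 (Gamma0_mem.1 hg))
  have key := FA.HeckeH1.same_double (Γ₁ := GamH N ⊤) (Γ₂ := GamH N ⊤) (Γ' := Gamma0 (N * ℓ))
    hle (gl (eps ℓ)) hβ (Tc N ⊤ ℓ)
    (fun g hg => FA.HeckeH1.exists_class_mul (eps_mem N ℓ hp hℓN) g hg) (fun i => ?_)
    (fun g hg h hh e => ?_) (fun i k => FA.HeckeH1.Tc_inj)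
  · rw [← Corr.comp_act, key.act_eq]
    congr 2
    apply AddMonoidHom.ext
    intro x
    show hv z x.toMul = hv _ x.toMul
    rw [Corr.res_act]
  · obtain ⟨k, h, e⟩ := FA.HeckeH1.exists_class hp (eps_mem N ℓ hp hℓN)
    obtain ⟨γk, hγk, ek⟩ := FA.HeckeH1.exists_del_mul_eq_rep (H := ⊤) hℓN k
    obtain ⟨γi, hγi, ei⟩ := FA.HeckeH1.exists_del_mul_eq_rep (H := ⊤) hℓN i
    refine ⟨γk⁻¹ * γi, mul_mem (inv_mem hγk) hγi, h, h.2, ?_⟩
    show gl (eps ℓ) * _ = glQ (h : SL(2, ℤ)) * gl (rep N ℓ i)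
    rw [e, ← ek, ← ei, map_mul, map_inv]
    group
  · have hl : (ℓ : ℤ) ≠ 0 := Int.natCast_ne_zero.2 hp.ne_zero
    have he : (eps ℓ).det ≠ 0 := by rw [FA.HeckeH1.eps_det]; exact hl
    rw [← FA.HeckeH1.gl_coe, ← FA.HeckeH1.gl_coe, ← FA.HeckeH1.gl_mul he
      (by rw [g.2]; exact one_ne_zero), ← FA.HeckeH1.gl_mul (by rw [h.2]; exact one_ne_zero) he]
      at e
    have e' := FA.HeckeH1.gl_inj (by rw [Matrix.det_mul, g.2, mul_one]; exact he)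
      (by rw [Matrix.det_mul, h.2, one_mul]; exact he) e
    have e10 := congrFun (congrFun e' 1) 0
    simp [eps, Matrix.mul_apply, Fin.sum_univ_two] at e10
    rw [Gamma0_mem, ZMod.intCast_zmod_eq_zero_iff_dvd, e10, Nat.cast_mul]
    exact mul_dvd_mul_right ((ZMod.intCast_zmod_eq_zero_iff_dvd _ _).1
      (Gamma0_mem.1 (FA.HeckeH1.GamH_le_Gamma0 hh))) _

theorem gamH_top_eq : GamH N ⊤ = (lvlGamma0 N).grp := GamH_top

/-- The transported correspondence on `Γ₀(N)`. -/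
def tcZero : Corr (lvlGamma0 N).grp (lvlGamma0 N).grp :=
  ((Corr.res (gamH_top_eq N).le).comp (Tc N ⊤ ℓ)).comp (Corr.res (gamH_top_eq N).ge)

theorem tcZero_act {A : Type*} [AddCommGroup A] (z : Hom1 (lvlGamma0 N).grp A)
    (γ : (lvlGamma0 N).grp) :
    hv ((tcZero N ℓ).act z) γ =
      hv ((Tc N ⊤ ℓ).act ((Corr.res (gamH_top_eq N).le).act z))
        ⟨(γ : SL(2, ℤ)), (gamH_top_eq N).ge γ.2⟩ := by
  rw [tcZero, Corr.comp_act, Corr.comp_act, Corr.res_act]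

theorem tcZero_eq_heckeChar (hℓN : ¬ ℓ ∣ N) {A : Type*} [AddCommGroup A]
    (z : Hom1 (lvlGamma0 N).grp A) (γ : (lvlGamma0 N).grp) :
    hv ((tcZero N ℓ).act z) γ = heckeChar N ℓ (hv z) γ := by
  have hβ : ∀ g ∈ Gamma0 (N * ℓ), ∃ h ∈ (lvlGamma0 N).grp,
      gl (eps ℓ) * glQ g = glQ h * gl (eps ℓ) :=
    fun g hg => ⟨_, (conjScale N ℓ ⟨g, hg⟩).2, eps_conjScale N ℓ ⟨g, hg⟩⟩
  haveI : Finite ((lvlGamma0 N).grp ⧸ (Gamma0 (N * ℓ)).subgroupOf (lvlGamma0 N).grp) :=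
    Finite.of_fintype (RelCos (lvlGamma0 N) (lvlGamma0 (N * ℓ)))
  haveI : Finite ((lvlGamma0 N).grp ⧸ (lvlGamma0 (N * ℓ)).grp.subgroupOf (lvlGamma0 N).grp) :=
    Finite.of_fintype (RelCos (lvlGamma0 N) (lvlGamma0 (N * ℓ)))
  rw [tcZero_act, ← act_cores_eps N ℓ hℓN _ (gamH_top_eq N) hβ z
    ⟨(γ : SL(2, ℤ)), (gamH_top_eq N).ge γ.2⟩]
  refine ((transferFun_eq_cores (V := lvlGamma0 N) (V' := lvlGamma0 (N * ℓ))
    ((Corr.single (gl (eps ℓ)) hβ).act z) γ).symm.trans ?_)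
  refine congrFun (transferFun_congr (V := lvlGamma0 N) (V' := lvlGamma0 (N * ℓ))
    (c' := fun x : Gamma0 (N * ℓ) => hv z (conjScale N ℓ x)) fun x => ?_) γ
  exact Corr.single_act _ hβ z x (conjScale N ℓ x) (eps_conjScale N ℓ x)

end FA.NebLocal
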