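import Fermat.Agent.NebLocal.RootAt
import Fermat.Agent.NebLocal.Transfer
import Fermat.Agent.HeckeH1.OldPiece

/-!
# Residually old classes

A class which is modulo the maximal ideal the restriction of a class of `Γ₀(M q)` on which `U_q`
is a scalar `u` with `u² ≠ 1` residually comes modulo the maximal ideal from `Γ₀(M)`.
-/

set_option autoImplicit false
set_option linter.unusedSectionVars false
set_option linter.style.haveILetI false
set_option maxHeartbeats 1000000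

noncomputable section

namespace FA.NebLocal

open IsLocalRing FA.HeckeH1 FA.Level
open scoped MatrixGroups

variable {O : Type} [CommRing O] [IsDomain O] [IsDiscreteValuationRing O]
  [IsAdicComplete (maximalIdeal O) O] [CharZero O]

/-- A parabolic class with values in the maximal ideal is a multiple in the parabolic classes. -/
theorem mem_smul_top_Par {Γ : Subgroup SL(2, ℤ)} {z : Par Γ O}
    (h : ∀ γ, hv (z : Hom1 Γ O) γ ∈ maximalIdeal O) :
    z ∈ maximalIdeal O • (⊤ : Submodule O (Par Γ O)) := by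
  obtain ⟨ϖ, hϖ⟩ := IsDiscreteValuationRing.exists_irreducible O
  have h1 := mem_smul_top_of_values h
  rw [hϖ.maximalIdeal_eq, Submodule.ideal_span_singleton_smul] at h1 ⊢
  obtain ⟨w, -, hw⟩ := (Submodule.mem_smul_pointwise_iff_exists _ _ _).1 h1
  have hwP : w ∈ Par Γ O := fun γ s hs => by
    have h2 : ϖ * hv w γ = 0 := by
      have h3 := z.2 γ s hs
      rw [← hw] at h3
      exact h3
    exact (mul_eq_zero.1 h2).resolve_left hϖ.ne_zero
  exact (Submodule.mem_smul_pointwise_iff_exists _ _ _).2 ⟨⟨w, hwP⟩, trivial, Subtype.ext hw⟩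

variable [Algebra (AlgebraicClosure ℚ) ℂ] {M q : ℕ} [NeZero M] [hq : Fact q.Prime]
  [NeZero (M * q)] [Fact (1 < M * q)]

/-- **A residual restriction of an eigen class of `U_q` is residually old.** -/
theorem exists_old_of_residual (hqM : ¬ q ∣ M) (H : Subgroup (ZMod (M * q))ˣ)
    (hH : (-1 : (ZMod (M * q))ˣ) ∈ H) {u : O} (hu : u * u - 1 ∉ maximalIdeal O)
    (z : Par (lvlH H hH).grp O) {y : Hom1 (GamH (M * q) (⊤ : Subgroup (ZMod (M * q))ˣ)) O}
    (hy : y ∈ Par (GamH (M * q) ⊤) O)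
    (hzy : ∀ γ : GamH (M * q) H, hv (z : Hom1 (lvlH H hH).grp O) γ -
      hv y ⟨γ, GamH_le_top γ.2⟩ ∈ maximalIdeal O)
    (hUy : (Tc (M * q) ⊤ q).act y - u • y ∈
      maximalIdeal O • (⊤ : Submodule O (Hom1 (GamH (M * q) ⊤) O))) :
    ∃ b : Par (lvlGamma0 M).grp O,
      z - (parC (uOld2 H hH hqM).toI.C b - u • parC (uOld1 H hH).toI.C b) ∈
        maximalIdeal O • (⊤ : Submodule O (Par (lvlH H hH).grp O)) := by
  suffices ∀ K : Subgroup (ZMod (M * q))ˣ, K = Hup M q ⊤ → ∀ hle : GamH (M * q) H ≤ GamH (M * q) K,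
      ∀ y : Hom1 (GamH (M * q) K) O, y ∈ Par (GamH (M * q) K) O →
      (∀ γ : GamH (M * q) H, hv (z : Hom1 (lvlH H hH).grp O) γ - hv y ⟨γ, hle γ.2⟩ ∈
        maximalIdeal O) →
      (Tc (M * q) K q).act y - u • y ∈
        maximalIdeal O • (⊤ : Submodule O (Hom1 (GamH (M * q) K) O)) →
      ∃ b : Par (lvlGamma0 M).grp O,
        z - (parC (uOld2 H hH hqM).toI.C b - u • parC (uOld1 H hH).toI.C b) ∈
          maximalIdeal O • (⊤ : Submodule O (Par (lvlH H hH).grp O)) from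
    this ⊤ (Subgroup.comap_top _).symm GamH_le_top y hy hzy hUy
  clear hzy hUy hy y
  rintro K rfl hle y hy hzy hUy
  have hqH : ∃ v ∈ (⊤ : Subgroup (ZMod M)ˣ), (v : ZMod M) = (q : ZMod M) :=
    ⟨ZMod.unitOfCoprime q (hq.out.coprime_iff_not_dvd.2 hqM), trivial, rfl⟩
  obtain ⟨s, hs⟩ := isUnit_iff_exists_inv.1 (IsLocalRing.notMem_maximalIdeal.1 hu)
  let Jy := (J2 (⊤ : Subgroup (ZMod M)ˣ) hqM).act y
  let b : Par (lvlGamma0 M).grp O :=
    -s • (⟨(Corr.res (gamH_top_eq M).ge).act Jy, Par_act _ (Par_act _ hy)⟩ :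
      Par (lvlGamma0 M).grp O)
  refine ⟨b, mem_smul_top_Par fun γ => ?_⟩
  let γU : GamUp M q (⊤ : Subgroup (ZMod M)ˣ) := ⟨γ.1, hle γ.2⟩
  obtain ⟨δ, hδ⟩ : ∃ δ : GamH M (⊤ : Subgroup (ZMod M)ˣ),
      gl (eps q) * glQ (γ : SL(2, ℤ)) = glQ (δ : SL(2, ℤ)) * gl (eps q) := by
    obtain ⟨δ, hδ, e⟩ := eps_conj (H := ⊤) hqM γ.1 (hle γ.2)
    exact ⟨⟨δ, hδ⟩, e⟩
  have e2 : hv (parC (uOld2 H hH hqM).toI.C b : Hom1 (lvlH H hH).grp O) γ = -s * hv Jy δ := by
    show hv ((uOld2 H hH hqM).toI.C.act (b : Hom1 (lvlGamma0 M).grp O)) γ = _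
    have hδ' : (δ : SL(2, ℤ)) ∈ (lvlGamma0 M).grp := (gamH_top_eq M).le δ.2
    rw [show (uOld2 H hH hqM).toI.C = Corr.single (gl (upMat q 0 1)) (low_conj H hH hqM) from rfl,
      Corr.single_act _ _ _ γ ⟨δ, hδ'⟩ (by rw [upMat_eq_eps]; exact hδ)]
    show -s * hv ((Corr.res (gamH_top_eq M).ge).act Jy) ⟨δ, hδ'⟩ = _
    rw [Corr.res_act]
  have e1 : hv (parC (uOld1 H hH).toI.C b : Hom1 (lvlH H hH).grp O) γ =
      -s * hv Jy ⟨γ, GamUp_le (hle γ.2)⟩ := by
    show hv ((uOld1 H hH).toI.C.act (b : Hom1 (lvlGamma0 M).grp O)) γ = _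
    rw [show (uOld1 H hH).toI.C.act (b : Hom1 (lvlGamma0 M).grp O) =
      (Corr.res (lvlH_le_low H hH)).act (b : Hom1 (lvlGamma0 M).grp O) from
        uRes_act (lvlH_le_low H hH) _, Corr.res_act]
    show -s * hv ((Corr.res (gamH_top_eq M).ge).act Jy) _ = _
    rw [Corr.res_act]
  let U := (Tc (M * q) (Hup M q (⊤ : Subgroup (ZMod M)ˣ)) q).act (A := O)
  have hsq := congrArg (fun v => hv v γU) (U_sq_old hqM hqH y)
  have hres : hv ((I2 (⊤ : Subgroup (ZMod M)ˣ) hqM).act Jy) γU = hv Jy δ :=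
    Corr.single_act _ _ _ _ _ hδ
  -- `U` respects congruences modulo the maximal ideal
  have hstable : ∀ {Γ : Subgroup SL(2, ℤ)} (C : Corr (GamUp M q (⊤ : Subgroup (ZMod M)ˣ)) Γ) (δ' : Γ),
      hv (C.act (U y)) δ' - u * hv (C.act y) δ' ∈ maximalIdeal O := by
    intro Γ C δ'
    have h1 : C.act (U y - u • y) ∈ maximalIdeal O • (⊤ : Submodule O (Hom1 Γ O)) :=
      mem_smul_top_map
        ({ toFun := fun v => C.act v, map_add' := map_add C.act, map_smul' := C.act_smul } :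
          Hom1 (GamUp M q (⊤ : Subgroup (ZMod M)ˣ)) O →ₗ[O] Hom1 Γ O) hUy
    have h2 := values_of_mem_smul_top h1 δ'
    rwa [map_sub, C.act_smul] at h2
  have hUUy := hstable (Tc (M * q) (Hup M q (⊤ : Subgroup (ZMod M)ˣ)) q) γU
  have hUy' : hv (U y) γU - u * hv y γU ∈ maximalIdeal O := values_of_mem_smul_top hUy γU
  have hJ := hstable (J2 (⊤ : Subgroup (ZMod M)ˣ) hqM) ⟨γ, GamUp_le (hle γ.2)⟩
  have hsq' : hv (U (U y)) γU - hv y γU =
      hv ((J2 (⊤ : Subgroup (ZMod M)ˣ) hqM).act (U y)) ⟨γ, GamUp_le (hle γ.2)⟩ - hv Jy δ := by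
    refine hsq.trans ?_
    show hv ((Corr.res GamUp_le).act _) γU - hv ((I2 _ hqM).act Jy) γU = _
    rw [Corr.res_act, hres]
  show hv (z : Hom1 (lvlH H hH).grp O) γ - (hv (parC (uOld2 H hH hqM).toI.C b :
      Hom1 (lvlH H hH).grp O) γ - u * hv (parC (uOld1 H hH).toI.C b : Hom1 (lvlH H hH).grp O) γ)
        ∈ maximalIdeal O
  rw [e1, e2]
  have hz := hzy γ
  set Y := hv y γU
  set J := hv Jy δ
  set J' := hv Jy ⟨γ, GamUp_le (hle γ.2)⟩
  set J'' := hv ((J2 (⊤ : Subgroup (ZMod M)ˣ) hqM).act (U y)) ⟨γ, GamUp_le (hle γ.2)⟩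
  set U1 := hv (U y) γU
  set U2 := hv (U (U y)) γU
  have key : (hv (z : Hom1 (lvlH H hH).grp O) γ - (-s * J - u * (-s * J'))) =
      (hv (z : Hom1 (lvlH H hH).grp O) γ - Y) +
      s * ((J'' - u * J') - (U2 - u * U1) - u * (U1 - u * Y)) := by
    linear_combination (-Y) * hs + s * hsq'
  rw [key]
  exact add_mem hz (Ideal.mul_mem_left _ _ (sub_mem (sub_mem hJ hUUy) (Ideal.mul_mem_left _ _ hUy')))

end FA.NebLocal
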