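import Fermat.Agent.NebLocal.Galois
import Fermat.Agent.HeckeH1.Eigenvector
import Fermat.Agent.Twist.Point

/-!
# The Galois action on parabolic homomorphisms

`O ⊗ cuspLat V` is the module of parabolic homomorphisms with values in `O`; the action is
transported there and is intertwined by conjugate correspondences.
-/

set_option autoImplicit false
set_option linter.unusedSectionVars false
set_option linter.style.haveILetI false
set_option synthInstance.maxHeartbeats 200000
set_option maxHeartbeats 1000000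

noncomputable section

namespace FA.NebLocal

open FA.Level FA.JTorsion
open FA.HeckeH1 (Corr Par Hom1 hv)
open scoped MatrixGroups TensorProduct

variable (O : Type) [CommRing O] (V : Lvl)

/-- Integral homomorphisms with coefficients in `O`. -/
def parEmb : O ⊗[ℤ] cuspLat V →ₗ[O] Hom1 V.grp O :=
  LinearMap.liftBaseChange O
    (AddMonoidHom.toIntLinearMap (AddMonoidHom.mk'
      (fun φ : cuspLat V => (Int.castAddHom O).comp (φ : Additive V.grp →+ ℤ))
      fun a b => by ext x; simp))

variable {O V}

theorem parEmb_tmul (c : O) (φ : cuspLat V) :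
    parEmb O V (c ⊗ₜ φ) = c • (Int.castAddHom O).comp (φ : Additive V.grp →+ ℤ) :=
  LinearMap.liftBaseChange_tmul _ _ _ _

theorem parEmb_mem (t : O ⊗[ℤ] cuspLat V) : parEmb O V t ∈ Par V.grp O := by
  induction t with
  | zero => rw [map_zero]; exact zero_mem _
  | add a b ha hb => rw [map_add]; exact add_mem ha hb
  | tmul c φ =>
    rw [parEmb_tmul]
    exact Submodule.smul_mem _ c (FA.HeckeH1.Par_comp _ (cuspLat_le_par φ))

theorem parEmb_tensC {V' : Lvl} (C : Corr V.grp V'.grp) (t : O ⊗[ℤ] cuspLat V) :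
    parEmb O V' (tensC O C t) = C.act (parEmb O V t) := by
  induction t with
  | zero => rw [map_zero, map_zero, map_zero, map_zero]
  | add a b ha hb => rw [map_add, map_add, map_add, map_add, ha, hb]
  | tmul c φ =>
    rw [tensC_tmul, parEmb_tmul, parEmb_tmul, C.act_smul, C.act_comp_hom, coe_latC]

variable [IsDomain O] [CharZero O]

theorem parEmb_injective : Function.Injective (parEmb O V) := by
  rw [← LinearMap.ker_eq_bot, LinearMap.ker_eq_bot']
  intro t ht
  haveI := (cuspLat_free_finite V).1
  haveI := (cuspLat_free_finite V).2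
  let b := Module.Free.chooseBasis ℤ (cuspLat V)
  let B := b.baseChange O
  have hli : LinearIndependent ℤ fun i => ((b i : cuspLat V) : Additive V.grp →+ ℤ) :=
    b.linearIndependent.map' (cuspLat V).subtype (Submodule.ker_subtype _)
  have hw : (fun i => B.repr t i) = 0 := by
    refine FA.HeckeH1.eq_zero_of_sum_comp (O := ℤ) (O' := O) _ hli _ ?_
    rw [← B.sum_repr t, map_sum] at ht
    refine Eq.trans (Finset.sum_congr rfl fun i _ => ?_) ht
    rw [map_smul, show B i = (1 : O) ⊗ₜ b i from Module.Basis.baseChange_apply _ _ i, parEmb_tmul,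
      one_smul]
    congr 2
  refine B.ext_elem fun i => ?_
  rw [map_zero, Finsupp.zero_apply]
  exact congrFun hw i

theorem exists_parEmb_eq {z : Hom1 V.grp O} (hz : z ∈ Par V.grp O) : ∃ t, parEmb O V t = z := by
  haveI := V.finiteIndex
  obtain ⟨n, c, zk, h⟩ := FA.Twist.exists_par_coord z hz
  exact ⟨∑ k, c k ⊗ₜ (⟨(zk k).1, killsCusps_of_par (zk k).2⟩ : cuspLat V), by
    rw [map_sum, h]; exact Finset.sum_congr rfl fun k _ => parEmb_tmul _ _⟩

variable (O V) in
/-- `O ⊗ cuspLat V` is the parabolic part. -/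
def parEquiv : O ⊗[ℤ] cuspLat V ≃ₗ[O] Par V.grp O :=
  LinearEquiv.ofBijective ((parEmb O V).codRestrict (Par V.grp O) parEmb_mem)
    ⟨fun a b h => parEmb_injective (congrArg Subtype.val h), fun z => by
      obtain ⟨t, ht⟩ := exists_parEmb_eq z.2
      exact ⟨t, Subtype.ext ht⟩⟩

theorem coe_parEquiv (t : O ⊗[ℤ] cuspLat V) :
    (parEquiv O V t : Hom1 V.grp O) = parEmb O V t := rfl

/-- The transfer on parabolic parts. -/
def parC {V' : Lvl} (C : Corr V.grp V'.grp) : Par V.grp O →ₗ[O] Par V'.grp O where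
  toFun z := ⟨C.act (z : Hom1 V.grp O), FA.HeckeH1.Par_act C z.2⟩
  map_add' _ _ := Subtype.ext (map_add C.act _ _)
  map_smul' c _ := Subtype.ext (C.act_smul c _)

theorem coe_parC {V' : Lvl} (C : Corr V.grp V'.grp) (z : Par V.grp O) :
    (parC C z : Hom1 V'.grp O) = C.act (z : Hom1 V.grp O) := rfl

theorem parEquiv_tensC {V' : Lvl} (C : Corr V.grp V'.grp) (t : O ⊗[ℤ] cuspLat V) :
    parEquiv O V' (tensC O C t) = parC C (parEquiv O V t) :=
  Subtype.ext (parEmb_tensC C t)

open IsLocalRing

local notation "Qb" => AlgebraicClosure ℚ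
local notation "GQ" => AlgebraicClosure ℚ ≃ₐ[ℚ] AlgebraicClosure ℚ

variable [Algebra Qb ℂ] {p : ℕ} [Fact p.Prime] [IsDiscreteValuationRing O]
  [IsAdicComplete (maximalIdeal O) O] (hpO : (p : O) ∈ maximalIdeal O) (V)

/-- **The Galois action on parabolic homomorphisms.** -/
def parR : GQ →* Module.End O (Par V.grp O) :=
  ((parEquiv O V).conjAlgEquiv O).toMonoidHom.comp (galR hpO V)

variable {V}

theorem parR_apply (σ : GQ) (t : O ⊗[ℤ] cuspLat V) :
    parR V hpO σ (parEquiv O V t) = parEquiv O V (galR hpO V σ t) := by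
  show parEquiv O V (galR hpO V σ ((parEquiv O V).symm (parEquiv O V t))) = _
  rw [LinearEquiv.symm_apply_apply]

/-- **Conjugate correspondences intertwine the action.** -/
theorem parR_parC {V' : Lvl} {σ : GQ} {C C' : ICorr V V'} {hC : C.Rational Qb}
    {hC' : C'.Rational Qb} (hcomm : GalComm σ C C' hC hC') (z : Par V.grp O) :
    parR V' hpO σ (parC C.C z) = parC C'.C (parR V hpO σ z) := by
  obtain ⟨t, rfl⟩ := (parEquiv O V).surjective z
  rw [parR_apply, ← parEquiv_tensC, ← parEquiv_tensC, parR_apply, galR_tensC hpO hcomm]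

end FA.NebLocal
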