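import Fermat.Agent.NebLocal.OrbitLine
import Mathlib.RingTheory.DiscreteValuationRing.Basic
import Mathlib.RingTheory.LocalRing.ResidueField.Basic
import Mathlib.LinearAlgebra.Quotient.Basic
import Mathlib.LinearAlgebra.Matrix.Determinant.Basic
import Mathlib.Algebra.Module.Torsion.Basic
import Mathlib.Tactic

/-!
# The eigenvalue on a residually old vector, formally

The linear algebra of the statement: reductions on which the Frobenius and `U` agree, a detecting
reduction at the lower level, and a representation with two distinct residual eigenvalues.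
-/

set_option autoImplicit false
set_option linter.unusedSectionVars false
set_option maxHeartbeats 1000000

noncomputable section

namespace FA.NebLocal

open IsLocalRing

variable {O : Type*} [CommRing O] [IsLocalRing O]

theorem mem_smul_top_map {X Y : Type*} [AddCommGroup X] [Module O X] [AddCommGroup Y] [Module O Y]
    (f : X →ₗ[O] Y) {I : Ideal O} {x : X} (h : x ∈ I • (⊤ : Submodule O X)) :
    f x ∈ I • (⊤ : Submodule O Y) := by
  have h' := Submodule.mem_map_of_mem (f := f) h
  rw [Submodule.map_smul''] at h'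
  exact Submodule.smul_mono le_rfl le_top h'

variable {Γ N N0 Tj T1 S0 : Type*} [Group Γ]
  [AddCommGroup N] [Module O N] [AddCommGroup N0] [Module O N0] [AddCommGroup Tj] [Module O Tj]
  [AddCommGroup T1] [Module O T1] [AddCommGroup S0] [Module O S0]

/-- The quotient by the maximal ideal is a module over the residue field. -/
@[reducible] def residualModule (O N : Type*) [CommRing O] [IsLocalRing O] [AddCommGroup N]
    [Module O N] : Module (ResidueField O) (N ⧸ (maximalIdeal O • ⊤ : Submodule O N)) :=
  inferInstanceAs (Module (O ⧸ maximalIdeal O) _)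

/-- The data and the identities of the reductions. -/
structure RootCore (G : Γ →* Module.End O N) (G0 : Γ →* Module.End O N0) (σ : Γ) (P : O) (j : ℕ)
    (U : N →ₗ[O] N) (D1 D2 : N0 →ₗ[O] N) (Rj : N →ₗ[O] Tj) (Fj : Tj →ₗ[O] Tj) (R1 : N →ₗ[O] T1)
    (F1 : T1 →ₗ[O] T1) (R0 : N0 →ₗ[O] S0) (F0 : S0 →ₗ[O] S0) (I E : S0 →ₗ[O] T1)
    (Ψ : T1 →ₗ[O] S0) (qq : O) : Prop where
  comm_U : ∀ g y, G g (U y) = U (G g y)
  comm_D1 : ∀ g y, G g (D1 y) = D1 (G0 g y)
  comm_D2 : ∀ g y, G g (D2 y) = D2 (G0 g y)
  gal_j : ∀ y, Rj (G σ y) - Fj (Rj y) ∈ maximalIdeal O ^ j • (⊤ : Submodule O Tj)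
  U_j : ∀ y, Rj (U y) = Fj (Rj y)
  cancel : ∀ y, P • Rj y ∈ maximalIdeal O ^ j • (⊤ : Submodule O Tj) →
    R1 y ∈ maximalIdeal O • (⊤ : Submodule O T1)
  old1 : ∀ y, R1 (D1 y) = I (R0 y)
  old2 : ∀ y, R1 (D2 y) = E (R0 y)
  frob_E : ∀ x, F1 (E x) = qq • I x
  frob_I : ∀ x, F1 (I x) = I (F0 x)
  split : ∀ x, Ψ (I x) = F0 x - x
  gal_0 : ∀ y, R0 (G0 σ y) - F0 (R0 y) ∈ maximalIdeal O • (⊤ : Submodule O S0)
  detect : ∀ y, R0 y ∈ maximalIdeal O • (⊤ : Submodule O S0) →
    y ∈ maximalIdeal O • (⊤ : Submodule O N0)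
  q_one : qq - 1 ∈ maximalIdeal O

variable {G : Γ →* Module.End O N} {G0 : Γ →* Module.End O N0} {σ : Γ} {P : O} {j : ℕ}
  {U : N →ₗ[O] N} {D1 D2 : N0 →ₗ[O] N} {Rj : N →ₗ[O] Tj} {Fj : Tj →ₗ[O] Tj} {R1 : N →ₗ[O] T1}
  {F1 : T1 →ₗ[O] T1} {R0 : N0 →ₗ[O] S0} {F0 : S0 →ₗ[O] S0} {I E : S0 →ₗ[O] T1}
  {Ψ : T1 →ₗ[O] S0} {qq : O}

/-- **The impossibility of a nonzero value of the characteristic polynomial.** -/
theorem RootCore.false (C : RootCore G G0 σ P j U D1 D2 Rj Fj R1 F1 R0 F0 I E Ψ qq)
    (r : Γ →* Matrix (Fin 2) (Fin 2) O)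
    (hspan : Submodule.span (ResidueField O) (Set.range fun g => (r g).map (residue O)) = ⊤)
    {t : N} (htm : t ∉ maximalIdeal O • (⊤ : Submodule O N)) {u : O} (hUt : U t = u • t)
    (hPdef : P = u * u - (r σ).trace * u + (r σ).det)
    (hrelt : ∀ τ, G τ (G τ t) - (r τ).trace • G τ t + (r τ).det • t = 0)
    (hu : P ∈ maximalIdeal O) (hdist : 2 * u - (r σ).trace ∉ maximalIdeal O)
    (hdet : (r σ).det - 1 ∈ maximalIdeal O) {b : N0}
    (hbt : t - (D2 b - u • D1 b) ∈ maximalIdeal O • (⊤ : Submodule O N)) : False := by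
  have hrelσ : ∀ g, G σ (G σ (G g t)) - (r σ).trace • G σ (G g t) + (r σ).det • G g t = 0 := by
    intro g
    have h := congrArg (G g) (hrelt (g⁻¹ * σ * g))
    have hi : r g * r g⁻¹ = 1 := by rw [← map_mul, mul_inv_cancel, map_one]
    have hi' : r g⁻¹ * r g = 1 := by rw [← map_mul, inv_mul_cancel, map_one]
    have htr : (r (g⁻¹ * σ * g)).trace = (r σ).trace := by
      rw [map_mul, map_mul, Matrix.trace_mul_cycle, hi, one_mul]
    have hd : (r (g⁻¹ * σ * g)).det = (r σ).det := by
      rw [map_mul, map_mul, Matrix.det_mul, Matrix.det_mul, mul_comm (r g⁻¹).det, mul_assoc,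
        ← Matrix.det_mul, hi', Matrix.det_one, mul_one]
    have e : ∀ w, G g (G (g⁻¹ * σ * g) w) = G σ (G g w) := fun w => by
      rw [← Module.End.mul_apply, ← map_mul, ← Module.End.mul_apply, ← map_mul,
        show g * (g⁻¹ * σ * g) = σ * g by group]
    rw [htr, hd, map_add, map_sub, map_smul, map_smul, map_zero, e, e] at h
    exact h
  -- the reduction modulo `p` of the orbit vanishes
  have hred : ∀ g, R1 (G g t) ∈ maximalIdeal O • (⊤ : Submodule O T1) := by
    intro g
    have hUy : U (G g t) = u • G g t := by rw [← C.comm_U, hUt, map_smul]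
    have h1 : Rj (G σ (G g t)) - u • Rj (G g t) ∈ maximalIdeal O ^ j • (⊤ : Submodule O Tj) := by
      have := C.gal_j (G g t)
      rwa [← C.U_j, hUy, map_smul] at this
    have h2 : Rj (G σ (G σ (G g t))) - (u * u) • Rj (G g t) ∈
        maximalIdeal O ^ j • (⊤ : Submodule O Tj) := by
      have h3 := C.gal_j (G σ (G g t))
      have h4 := mem_smul_top_map Fj h1
      rw [map_sub, map_smul, ← C.U_j (G g t), hUy, map_smul, smul_smul] at h4
      have := add_mem h3 h4
      rwa [sub_add_sub_cancel] at this
    refine C.cancel _ ?_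
    have h5 := congrArg Rj (hrelσ g)
    rw [map_zero, map_add, map_sub, map_smul, map_smul] at h5
    have := sub_mem (Submodule.smul_mem _ (r σ).trace h1) h2
    convert this using 1
    rw [hPdef]
    linear_combination (norm := module) h5
  -- the old vector is killed by the product
  have hkill : ∀ g, u • G σ (G σ (G g t)) - (1 + u) • G σ (G g t) + G g t ∈
      maximalIdeal O • (⊤ : Submodule O N) := by
    intro g
    have hy : G g t - (D2 (G0 g b) - u • D1 (G0 g b)) ∈
        maximalIdeal O • (⊤ : Submodule O N) := by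
      have := mem_smul_top_map (G g) hbt
      rwa [map_sub, map_sub, map_smul, C.comm_D1, C.comm_D2] at this
    generalize G0 g b = B at hy
    generalize hY : G g t = y at hy
    have h1 : qq • I (R0 B) - u • I (F0 (R0 B)) ∈ maximalIdeal O • (⊤ : Submodule O T1) := by
      have h := mem_smul_top_map R1 hy
      rw [map_sub, map_sub, map_smul, C.old1, C.old2] at h
      have := mem_smul_top_map F1 (sub_mem (hY ▸ hred g) h)
      rwa [sub_sub_cancel, map_sub, map_smul, C.frob_E, C.frob_I] at this
    have h2 := mem_smul_top_map Ψ h1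
    rw [map_sub, map_smul, map_smul, C.split, C.split] at h2
    have h3 : R0 ((G0 σ B - B) - u • (G0 σ (G0 σ B) - G0 σ B)) ∈
        maximalIdeal O • (⊤ : Submodule O S0) := by
      have k1 := C.gal_0 B
      have k2 := add_mem (C.gal_0 (G0 σ B)) (mem_smul_top_map F0 k1)
      rw [map_sub, sub_add_sub_cancel] at k2
      have k3 := Submodule.smul_mem_smul C.q_one
        (Submodule.mem_top (R := O) (x := F0 (R0 B) - R0 B))
      have h4 := add_mem (add_mem (sub_mem h2 k3) k1)
        (sub_mem (Submodule.smul_mem _ u k1) (Submodule.smul_mem _ u k2))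
      convert h4 using 1
      simp only [map_sub, map_smul]
      module
    have h5 := mem_smul_top_map (D2 - u • D1) (C.detect _ h3)
    simp only [LinearMap.sub_apply, LinearMap.smul_apply, map_sub, map_smul, ← C.comm_D1,
      ← C.comm_D2, smul_sub] at h5
    have k1 := mem_smul_top_map (G σ) hy
    have k2 := mem_smul_top_map (G σ) k1
    simp only [map_sub, map_smul] at k1 k2
    have := sub_mem (add_mem (sub_mem (Submodule.smul_mem _ u k2)
      (Submodule.smul_mem _ (1 + u) k1)) hy) h5
    convert this using 1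
    module
  -- the residual contradiction
  let Q : Submodule O N := maximalIdeal O • ⊤
  letI : Module (ResidueField O) (N ⧸ Q) := residualModule O N
  let ρ : Γ →* Module.End (ResidueField O) (N ⧸ Q) :=
    { toFun := fun g =>
        { toFun := Q.mapQ Q (G g) fun x hx => mem_smul_top_map (G g) hx
          map_add' := map_add _
          map_smul' := fun c x => by
            obtain ⟨c, rfl⟩ := Ideal.Quotient.mk_surjective c
            exact (Q.mapQ Q (G g) fun x hx => mem_smul_top_map (G g) hx).map_smul c x }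
      map_one' := LinearMap.ext fun x => by
        obtain ⟨x, rfl⟩ := Submodule.Quotient.mk_surjective _ x
        show Submodule.Quotient.mk (G 1 x) = _
        rw [map_one]; rfl
      map_mul' := fun g h => LinearMap.ext fun x => by
        obtain ⟨x, rfl⟩ := Submodule.Quotient.mk_surjective _ x
        show Submodule.Quotient.mk (G (g * h) x) = Submodule.Quotient.mk (G g (G h x))
        rw [map_mul]; rfl }
  have htrace : ∀ τ, ((r τ).map (residue O)).trace = residue O (r τ).trace := fun τ =>
    (AddMonoidHom.map_trace (residue O) (r τ)).symm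
  have hdets : ∀ τ, ((r τ).map (residue O)).det = residue O (r τ).det := fun τ =>
    (RingHom.map_det (residue O) (r τ)).symm
  refine false_of_orbit ρ ((residue O).mapMatrix.toMonoidHom.comp r) hspan
    (v := Submodule.Quotient.mk t) (fun h => htm ((Submodule.Quotient.mk_eq_zero _).1 h)) σ
    (u := residue O u) ?_ ?_ ?_ ?_ ?_
  · show residue O u * residue O u - ((r σ).map (residue O)).trace * residue O u + 1 = 0
    have h0 : u * u - (r σ).trace * u + 1 ∈ maximalIdeal O := by
      have := sub_mem hu hdet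
      convert this using 1
      rw [hPdef]; ring
    have := (residue_eq_zero_iff _).2 h0
    rwa [map_add, map_sub, map_mul, map_mul, map_one, ← htrace] at this
  · show ((r σ).map (residue O)).det = 1
    rw [hdets, ← sub_eq_zero, ← map_one (residue O), ← map_sub, residue_eq_zero_iff]
    exact hdet
  · show 2 * residue O u - ((r σ).map (residue O)).trace ≠ 0
    intro h
    refine hdist ((residue_eq_zero_iff _).1 ?_)
    rw [map_sub, map_mul, map_ofNat, ← htrace]
    exact h
  · intro τ
    have h := congrArg (Submodule.Quotient.mk (p := Q)) (hrelt τ)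
    rw [Submodule.Quotient.mk_add, Submodule.Quotient.mk_sub, Submodule.Quotient.mk_smul,
      Submodule.Quotient.mk_smul, Submodule.Quotient.mk_zero] at h
    show _ - ((r τ).map (residue O)).trace • _ + ((r τ).map (residue O)).det • _ = 0
    rw [htrace, hdets]
    exact h
  · intro g
    have h : (Submodule.Quotient.mk (u • G σ (G σ (G g t)) - (1 + u) • G σ (G g t) + G g t) :
        N ⧸ Q) = 0 := (Submodule.Quotient.mk_eq_zero _).2 (hkill g)
    rw [Submodule.Quotient.mk_add, Submodule.Quotient.mk_sub, Submodule.Quotient.mk_smul,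
      Submodule.Quotient.mk_smul] at h
    rw [show (1 : ResidueField O) + residue O u = residue O (1 + u) by rw [map_add, map_one]]
    exact h

end FA.NebLocal
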