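import Fermat.Agent.NebLocal.TensorMaps
import Fermat.Agent.NebLocal.RootCore
import Fermat.Agent.NebLocal.ParGal

/-!
# The eigenvalue of `U_q` is an eigenvalue of a Frobenius element

For a class of `Γ_H(M q)` satisfying the relation of degree two of a residually absolutely
irreducible representation, residually old at `q ≡ 1` mod `p` with two distinct residual
eigenvalues, the eigenvalue of `U_q` is a root of the characteristic polynomial of the Frobenius.
-/

set_option autoImplicit false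
set_option linter.style.haveILetI false
set_option linter.unusedSectionVars false
set_option synthInstance.maxHeartbeats 200000
set_option maxHeartbeats 4000000
set_option maxSynthPendingDepth 4

noncomputable section

namespace FA.NebLocal

open AlgebraicCurve ModularCurve FA.Level FA.JTorsion FA.CurveRed FA.ModField IsLocalRing
open FA.HeckeH1 (Par)
open scoped TensorProduct

local notation "Qb" => AlgebraicClosure ℚ
local notation "GQ" => AlgebraicClosure ℚ ≃ₐ[ℚ] AlgebraicClosure ℚ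

variable {p : ℕ} [Fact p.Prime] {O : Type} [CommRing O] [IsDomain O] [IsDiscreteValuationRing O]
  [IsAdicComplete (maximalIdeal O) O] [CharZero O] (hpO : (p : O) ∈ maximalIdeal O)
  [Algebra Qb ℂ]

variable {M q : ℕ} [NeZero M] [hq : Fact q.Prime] [NeZero (M * q)] [Fact (1 < M * q)]
  {A : ValuationSubring Qb} (H : Subgroup (ZMod (M * q))ˣ) (hH : (-1 : (ZMod (M * q))ˣ) ∈ H)

section instances

variable (hA : A.LiesOverPrime q) (hqM : ¬ q ∣ M) (hq2 : q ≠ 2) [CharP (ResidueField A) q]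

/-- The targets at the level `Γ_H(M q)`. -/
abbrev TopT (n : ℕ) : Type := RedTarget (ResidueField A) (hTop H hH hA hqM hq2) n

/-- The targets at the level `Γ₀(M)`. -/
abbrev LowT (M : ℕ) [NeZero M] (A : ValuationSubring Qb) (n : ℕ) : Type :=
  RedTarget (ResidueField A) (k0Fld M A) n

include hq2 in
/-- The reductions of `Γ_H(M q)` and `Γ₀(M)` at the places above `q` form the formal data. -/
theorem exists_rootCore [IsAlgClosed (ResidueField A)] (hpq : p ∣ q - 1) (hpne : p ≠ q) {σ : GQ}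
    (hσ : A.IsFrobeniusAt σ q) {P ϖ : O} (hP : P ≠ 0) (hϖ : Irreducible ϖ) {v : ℕ}
    (hv : Associated P (ϖ ^ v)) :
    ∃ (Rj : O ⊗[ℤ] cuspLat (lvlH H hH) →ₗ[O] O ⊗[ℤ] TopT H hH hA hqM hq2 (p ^ (v + 1)))
      (Fj : O ⊗[ℤ] TopT H hH hA hqM hq2 (p ^ (v + 1)) →ₗ[O]
        O ⊗[ℤ] TopT H hH hA hqM hq2 (p ^ (v + 1)))
      (R1 : O ⊗[ℤ] cuspLat (lvlH H hH) →ₗ[O] O ⊗[ℤ] TopT H hH hA hqM hq2 p)
      (F1 : O ⊗[ℤ] TopT H hH hA hqM hq2 p →ₗ[O] O ⊗[ℤ] TopT H hH hA hqM hq2 p)
      (R0 : O ⊗[ℤ] cuspLat (lvlGamma0 M) →ₗ[O] O ⊗[ℤ] LowT M A p)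
      (F0 : O ⊗[ℤ] LowT M A p →ₗ[O] O ⊗[ℤ] LowT M A p)
      (I E : O ⊗[ℤ] LowT M A p →ₗ[O] O ⊗[ℤ] TopT H hH hA hqM hq2 p)
      (Ψ : O ⊗[ℤ] TopT H hH hA hqM hq2 p →ₗ[O] O ⊗[ℤ] LowT M A p),
      RootCore (galR hpO (lvlH H hH)) (galR hpO (lvlGamma0 M)) σ P (v + 1)
        (tensC O (uTc (M * q) H hH q (dvd_mul_left q M)).toI.C)
        (tensC O (uOld1 H hH).toI.C) (tensC O (uOld2 H hH hqM).toI.C)
        Rj Fj R1 F1 R0 F0 I E Ψ (q : O) := by
  haveI : NeZero p := ⟨(Fact.out : p.Prime).ne_zero⟩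
  haveI : NeZero (p ^ (v + 1)) := ⟨pow_ne_zero _ (Fact.out : p.Prime).ne_zero⟩
  obtain ⟨ψ, hψ⟩ := exists_factor_prime p
    (A := LowT M A p) (B := TopT H hH hA hqM hq2 p) (C := LowT M A p)
    (nsmul_target p) (nsmul_target p)
    (mapTarget p (inclTop H hH hA hqM hq2) (inclTop_const H hH hA hqM hq2))
    (mapTarget p (frobLow (q := q) M A) frobLow_const - AddMonoidHom.id _) fun x hx => by
      rw [AddMonoidHom.sub_apply, AddMonoidHom.id_apply, frobLow_fix H hH hA hqM hq2 hpq hx,
        sub_self]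
  refine ⟨bc O (redPhi (scaled_cH H hH hA hqM hq2) (p ^ (v + 1))),
    bc O (mapTarget (p ^ (v + 1)) (frobTop H hH hA hqM hq2) (frobTop_const H hH hA hqM hq2)),
    bc O (redPhi (scaled_cH H hH hA hqM hq2) p),
    bc O (mapTarget p (frobTop H hH hA hqM hq2) (frobTop_const H hH hA hqM hq2)),
    bc O (redPhi (scaled_cLow hA hqM) p),
    bc O (mapTarget p (frobLow (q := q) M A) frobLow_const),
    bc O (mapTarget p (inclTop H hH hA hqM hq2) (inclTop_const H hH hA hqM hq2)),
    bc O (mapTarget p (expTop H hH hA hqM hq2) (expTop_const H hH hA hqM hq2)),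
    bc O ψ, ?_⟩
  constructor
  case comm_U => exact fun g y => galR_tensC hpO (galComm_uTc (M * q) H hH q (dvd_mul_left q M) g) y
  case comm_D1 => exact fun g y => galR_tensC hpO (galComm_uRes g (lvlH_le_low H hH)) y
  case comm_D2 =>
    exact fun g y => galR_tensC hpO (galComm_uSingle_one g hq.out.ne_zero 0 (low_conj H hH hqM)) y
  case gal_j =>
    exact fun y => bc_galR hpO _ _ σ (fun x y h => redPhi_gal H hH hA hqM hq2 hσ h) y
  case U_j => exact fun y => bc_tensC _ _ _ _ (fun x => redPhi_uTc H hH hA hqM hq2 x) y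
  case cancel =>
    intro y hy
    have hm := mem_smul_top_of_smul_mem hP hϖ hv (Nat.lt_succ_self v)
      (Ideal.pow_mem_pow hpO (v + 1)) hy
    have hproj := bc_mem (projTarget (ResidueField A) (hTop H hH hA hqM hq2)
      (p ^ (v + 1)) ⟨p ^ v, by rw [pow_succ']⟩) hm
    rw [bc_comp] at hproj
    rwa [bc_congr (g := redPhi (scaled_cH H hH hA hqM hq2) p) fun x =>
      redPhi_proj (scaled_cH H hH hA hqM hq2) (d := p ^ v) (pow_succ p v).symm x] at hproj
  case old1 => exact fun y => bc_tensC _ _ _ _ (fun x => redPhi_old1 H hH hA hqM hq2 x) y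
  case old2 => exact fun y => bc_tensC _ _ _ _ (fun x => redPhi_old2 H hH hA hqM hq2 x) y
  case frob_E =>
    intro x
    rw [bc_comp, bc_congr
      (g := q • mapTarget p (inclTop H hH hA hqM hq2) (inclTop_const H hH hA hqM hq2))
      fun z => mapTarget_frob_exp H hH hA hqM hq2 z, bc_nsmul]
  case frob_I =>
    intro x
    rw [bc_comp, bc_comp]
    exact bc_congr (fun z => mapTarget_frob_incl H hH hA hqM hq2 z) x
  case split =>
    intro x
    rw [bc_comp, bc_congr (g := mapTarget p (frobLow (q := q) M A) frobLow_const -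
      AddMonoidHom.id _) hψ, bc_sub, bc_id]
  case gal_0 =>
    intro y
    have key : ∀ (j m : ℕ) [NeZero m], p ^ j = m →
        bc O (redPhi (scaled_cLow (A := A) hA hqM) m) (galR hpO (lvlGamma0 M) σ y) -
          bc O (mapTarget m (frobLow (q := q) M A) frobLow_const)
            (bc O (redPhi (scaled_cLow (A := A) hA hqM) m) y) ∈
          maximalIdeal O ^ j • (⊤ : Submodule O (O ⊗[ℤ] LowT M A m)) := by
      rintro j m _ rfl
      exact bc_galR hpO _ _ σ (fun x y h => redPhi_galLow hA hqM hσ h) y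
    simpa only [pow_one] using key 1 p (pow_one p)
  case detect =>
    exact fun y hy => mem_of_bc_mem hpO (nsmul_target p) _
      (fun x hx => redPhi_low_eq_zero hA hqM hpne hx) hy
  case q_one =>
    obtain ⟨c, hc⟩ := hpq
    rw [← Nat.cast_one, ← Nat.cast_sub hq.out.one_le, hc, Nat.cast_mul]
    exact Ideal.mul_mem_right _ _ hpO

end instances

include hpO in
/-- **The eigenvalue of `U_q` on a residually old class is a Frobenius eigenvalue.** -/
theorem root_of_residually_old (hqM : ¬ q ∣ M) (hpq : p ∣ q - 1) (hA : A.LiesOverPrime q)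
    {σ : GQ} (hσ : A.IsFrobeniusAt σ q) (r : GQ →* Matrix (Fin 2) (Fin 2) O)
    (hspan : Submodule.span (ResidueField O)
      (Set.range fun g => (r g).map (residue O)) = ⊤)
    (z : Par (lvlH H hH).grp O)
    (hz : z ∉ maximalIdeal O • (⊤ : Submodule O (Par (lvlH H hH).grp O)))
    {u : O} (hU : parC (uTc (M * q) H hH q (dvd_mul_left q M)).toI.C z = u • z)
    (hrel : ∀ τ, parR (lvlH H hH) hpO τ (parR (lvlH H hH) hpO τ z) -
      (r τ).trace • parR (lvlH H hH) hpO τ z + (r τ).det • z = 0)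
    (hu : u * u - (r σ).trace * u + (r σ).det ∈ maximalIdeal O)
    (hdist : 2 * u - (r σ).trace ∉ maximalIdeal O)
    (hdet : (r σ).det - 1 ∈ maximalIdeal O)
    (hold : ∃ b : Par (lvlGamma0 M).grp O,
      z - (parC (uOld2 H hH hqM).toI.C b - u • parC (uOld1 H hH).toI.C b) ∈
        maximalIdeal O • (⊤ : Submodule O (Par (lvlH H hH).grp O))) :
    u * u - (r σ).trace * u + (r σ).det = 0 := by
  by_contra hP
  have hpne : p ≠ q := fun h => by
    subst h
    have h2 := (Fact.out : p.Prime).two_le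
    exact absurd (Nat.le_of_dvd (by omega) hpq) (by omega)
  have hq2 : q ≠ 2 := fun h => by
    subst h
    exact (Fact.out : p.Prime).ne_one (Nat.dvd_one.1 hpq)
  haveI := residueAt_charP hA
  haveI : IsAlgClosed (ResidueField A) := FA.Frob.residueField_isAlgClosed A
  obtain ⟨b, hb⟩ := hold
  obtain ⟨t, rfl⟩ := (parEquiv O (lvlH H hH)).surjective z
  obtain ⟨b, rfl⟩ := (parEquiv O (lvlGamma0 M)).surjective b
  obtain ⟨ϖ, hϖ⟩ := IsDiscreteValuationRing.exists_irreducible O
  obtain ⟨v, hv⟩ := IsDiscreteValuationRing.associated_pow_irreducible hP hϖ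
  obtain ⟨Rj, Fj, R1, F1, R0, F0, I, E, Ψ, hC⟩ :=
    exists_rootCore (p := p) hpO H hH hA hqM hq2 hpq hpne hσ hP hϖ hv
  refine hC.false r hspan (t := t) (fun h => hz (mem_smul_top_map (parEquiv O _).toLinearMap h))
    (u := u) ?_ rfl ?_ hu hdist hdet (b := b) ?_
  · exact (parEquiv O (lvlH H hH)).injective (by rw [parEquiv_tensC, map_smul, hU])
  · intro τ
    refine (parEquiv O (lvlH H hH)).injective ?_
    rw [map_zero, map_add, map_sub, map_smul, map_smul, ← parR_apply hpO, ← parR_apply hpO]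
    exact hrel τ
  · have h := mem_smul_top_map (parEquiv O (lvlH H hH)).symm.toLinearMap hb
    rwa [← parEquiv_tensC, ← parEquiv_tensC, ← map_smul (parEquiv O (lvlH H hH)), ← map_sub,
      ← map_sub, LinearEquiv.coe_coe, LinearEquiv.symm_apply_apply] at h

end FA.NebLocal
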