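import Fermat.Agent.NebLocal.Base
import Fermat.Agent.ModField.Semistable.UnipotentDatum
import Fermat.Agent.ModField.Semistable.SemistableTorsion
import Fermat.Agent.ModField.Semistable.FromFibreData
import Fermat.Agent.ModField.Semistable.HasFibre

/-!
# The trace of inertia at a prime exactly dividing the level

Inertia at `q` exactly dividing `N` acts unipotently on the torsion of `J₀(N)`, hence satisfies
`(σ - 1)² = 0` on parabolic homomorphisms; against the relation of degree two of an eigen system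
this forces the trace `2`.
-/

set_option autoImplicit false
set_option linter.style.haveILetI false
set_option linter.unusedSectionVars false

noncomputable section

namespace FA.NebLocal

open IsLocalRing FA.Level FA.JTorsion AlgebraicCurve ModularCurve
open FA.HeckeH1 (Corr Par Hom1 hv GamH Tc)
open scoped MatrixGroups TensorProduct

local notation "Qb" => AlgebraicClosure ℚ
local notation "GQ" => AlgebraicClosure ℚ ≃ₐ[ℚ] AlgebraicClosure ℚ

/-- Semistable torsion at a prime exactly dividing the level. -/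
theorem semistableTors_exact (N q : ℕ) [NeZero N] (hq : q.Prime) (hqN : q ∣ N)
    (hqq : ¬ q * q ∣ N) : FA.ModField.SemistableTors N q := by
  obtain ⟨M, rfl⟩ : ∃ M, N = M * q := ⟨N / q, (Nat.div_mul_cancel hqN).symm⟩
  haveI : Fact q.Prime := ⟨hq⟩
  haveI : NeZero M := ⟨fun h => NeZero.ne (M * q) (by rw [h, zero_mul])⟩
  exact FA.ModField.semistableTors_of_fibre M q fun A hA =>
    FA.ModField.hasInertiaFibre_of_fibreData FA.ModField.hasFibreData M q
      (fun h => hqq (mul_dvd_mul_right h q)) hA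

variable {p : ℕ} [Fact p.Prime] {O : Type} [CommRing O] [IsDomain O] [IsDiscreteValuationRing O]
  [IsAdicComplete (maximalIdeal O) O] (hpO : (p : O) ∈ maximalIdeal O) [Algebra Qb ℂ]
  (N : ℕ) [NeZero N]

theorem galRel_inertia {q : ℕ} (hss : FA.ModField.SemistableTors N q) {A : ValuationSubring Qb}
    (hA : A.LiesOverPrime q) {σ : GQ} (hσ : σ ∈ A.inertiaSubgroupIn ℚ) {n : ℕ} [NeZero n]
    (hn : ¬ q ∣ n) {φ φ₁ φ₂ : cuspLat (lvlGamma0 N)} (h₁ : GalRel (lvlGamma0 N) n σ φ φ₁)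
    (h₂ : GalRel (lvlGamma0 N) n σ φ₁ φ₂) :
    latTors (lvlGamma0 N) Qb n (φ₂ + φ - 2 • φ₁) = 0 := by
  refine Subtype.ext ?_
  have hx : n • (jt N n φ) = 0 := by
    rw [← natCast_zsmul]
    exact Pic0.mem_torsion.1 (latTors (lvlGamma0 N) Qb n φ).2
  have e₁ : (jt N n φ₁) = σ • (jt N n φ) := h₁
  have e₂ : (jt N n φ₂) = σ • (jt N n φ₁) := h₂
  have e : jt N n (φ₂ + φ - 2 • φ₁) = jt N n φ₂ + jt N n φ - 2 • jt N n φ₁ := by
    rw [jt, map_sub, map_add, map_nsmul]
    rfl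
  refine e.trans ?_
  rw [e₂, e₁, hss A hA σ hσ n hn _ hx]
  exact sub_self _

theorem one_tmul_two {R X : Type*} [CommRing R] [AddCommGroup X] [Module ℤ X] (a b c : X) :
    (1 : R) ⊗ₜ[ℤ] (a + b - 2 • c) =
      (1 : R) ⊗ₜ[ℤ] a + (1 : R) ⊗ₜ[ℤ] b - (2 : R) • ((1 : R) ⊗ₜ[ℤ] c) := by
  let mk₁ : X →+ R ⊗[ℤ] X := AddMonoidHom.mk' (fun x => (1 : R) ⊗ₜ[ℤ] x) (TensorProduct.tmul_add _)
  show mk₁ (a + b - 2 • c) = mk₁ a + mk₁ b - (2 : R) • mk₁ c
  rw [map_sub, map_add, map_nsmul]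
  congr 1
  exact (Nat.cast_smul_eq_nsmul R 2 (mk₁ c)).symm

set_option maxHeartbeats 4000000 in
/-- **Inertia is unipotent of level two.** -/
theorem galR_inertia {q : ℕ} (hq : q.Prime) (hqp : q ≠ p) (hss : FA.ModField.SemistableTors N q)
    {A : ValuationSubring Qb} (hA : A.LiesOverPrime q) {σ : GQ}
    (hσ : σ ∈ A.inertiaSubgroupIn ℚ) (z : O ⊗[ℤ] cuspLat (lvlGamma0 N)) :
    galR hpO (lvlGamma0 N) σ (galR hpO (lvlGamma0 N) σ z) + z =
      (2 : O) • galR hpO (lvlGamma0 N) σ z := by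
  haveI := isAdicComplete_tensor O (lvlGamma0 N)
  induction z with
  | zero => simp only [map_zero, smul_zero, add_zero]
  | add a b ha hb => simp only [map_add, smul_add, ← ha, ← hb]; abel
  | tmul c φ =>
    rw [show c ⊗ₜ[ℤ] φ = c • ((1 : O) ⊗ₜ[ℤ] φ) by
      rw [TensorProduct.smul_tmul', smul_eq_mul, mul_one]]
    simp only [map_smul, smul_comm (2 : O) c, ← smul_add]
    refine congrArg (c • ·) (sub_eq_zero.1 (IsHausdorff.haus (I := maximalIdeal O) inferInstance _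
      fun k => SModEq.zero.2 ?_))
    obtain ⟨φ₁, h₁⟩ := exists_galRel (n := p ^ k) σ φ
    obtain ⟨φ₂, h₂⟩ := exists_galRel (n := p ^ k) σ φ₁
    have hk : ¬ q ∣ p ^ k := fun hd =>
      hqp ((Nat.prime_dvd_prime_iff_eq hq Fact.out).1 (hq.dvd_of_dvd_pow hd))
    have e := latTors_eq_zero_iff.1 (galRel_inertia N hss hA hσ hk h₁ h₂)
    have hmem := (powCompat_nMul (O := O) hpO (lvlGamma0 N)).2 k _ (mem_nMul.2 e)
    rw [one_tmul_two φ₂ φ φ₁] at hmem
    have h3 := powTop_stable _ (galR hpO (lvlGamma0 N) σ) (galR_spec hpO h₁)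
    rw [map_sub] at h3
    have h4 := Submodule.smul_mem _ (2 : O) (galR_spec hpO h₁)
    have := add_mem (sub_mem (add_mem h3 (galR_spec hpO h₂)) h4) hmem
    convert this using 1
    rw [smul_sub]
    abel

include hpO in
/-- **The trace of inertia on an eigen system of `Γ₀(N)`.** -/
theorem trace_inertia_zero {q : ℕ} (hq : q.Prime) (hqp : q ≠ p)
    (hss : FA.ModField.SemistableTors N q) {A : ValuationSubring Qb} (hA : A.LiesOverPrime q)
    {σ : GQ} (hσ : σ ∈ A.inertiaSubgroupIn ℚ)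
    (S : Finset ℕ) (hpS : p ∈ S) (hS : ∀ r : ℕ, r.Prime → r ∣ N → r ∈ S)
    (c : ℕ → O) (m : GQ →* Matrix (Fin 2) (Fin 2) O) (hm : FA.Deform.IsContRep m)
    (hfrob : ∀ ℓ : ℕ, ℓ.Prime → ℓ ∉ S → ∀ B : ValuationSubring Qb, B.LiesOverPrime ℓ →
      ∀ τ : GQ, B.IsFrobeniusAt τ ℓ → (m τ).trace = c ℓ ∧ (m τ).det = (ℓ : O))
    (hdet : (m σ).det = 1) {z : O ⊗[ℤ] cuspLat (lvlGamma0 N)} (hz0 : z ≠ 0)
    (hz : ∀ ℓ : ℕ, [Fact ℓ.Prime] → ℓ ∉ S → tensC O (tcZero N ℓ) z = c ℓ • z) :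
    (m σ).trace = 2 := by
  haveI := (cuspLat_free_finite (lvlGamma0 N)).1
  have h1 := galR_relation hpO N S hpS hS c m hm hfrob z hz σ
  have h2 := galR_inertia hpO N hq hqp hss hA hσ z
  rw [hdet, one_smul, sub_add_eq_add_sub, h2, ← sub_smul, smul_eq_zero] at h1
  rcases h1 with h1 | h1
  · exact (sub_eq_zero.1 h1).symm
  · refine absurd ?_ hz0
    have h3 : galR hpO (lvlGamma0 N) σ⁻¹ (galR hpO (lvlGamma0 N) σ z) = z := by
      rw [← Module.End.mul_apply, ← map_mul, inv_mul_cancel, map_one, Module.End.one_apply]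
    rw [← h3, h1, map_zero]

end FA.NebLocal
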