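import Fermat.Agent.NebLocal.TorsFn
import Fermat.Agent.JTorsion.GaloisTors
import Fermat.Agent.JTorsion.AdicLimit
import Fermat.Prelude.Thm_IsLocalRing_isAdicComplete_of_module_finite

/-!
# The Galois action on the lattice of a level

The arithmetic action on the classes of the lattice modulo the powers of `p` has a `p`-adic limit
`galR` on `O ⊗ cuspLat V`.  Correspondences commuting with the action on functions intertwine it.
-/

set_option autoImplicit false
set_option linter.unusedSectionVars false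
set_option linter.style.haveILetI false
set_option synthInstance.maxHeartbeats 200000
set_option maxHeartbeats 1600000

noncomputable section

namespace FA.NebLocal

open AlgebraicCurve AlgebraicCurve.SemilinearAut ModularCurve FA.Level FA.JTorsion
open scoped MatrixGroups TensorProduct

local notation "Qb" => AlgebraicClosure ℚ
local notation "GQ" => AlgebraicClosure ℚ ≃ₐ[ℚ] AlgebraicClosure ℚ

variable [Algebra Qb ℂ] {V V' : Lvl} {n : ℕ} [NeZero n]

/-- The arithmetic action on the functions of a level. -/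
def galF (V : Lvl) : GQ →* SemilinearAut Qb (V.fld Qb) := arithmeticGalois V.F₀

theorem coe_galF_smul (σ : GQ) (x : V.fld Qb) :
    ((galF V σ • x : V.fld Qb) : LaurentSeries Qb) =
      coeffMap (σ : Qb →+* Qb) (x : LaurentSeries Qb) := rfl

/-- A function whose divisor is `n` times a representative of the class has the character. -/
theorem isKum_of_divisor {φ : cuspLat V} {f : V.fld Qb} (hf : f ≠ 0)
    {D : Divisor.degZero (K := Qb) (F := V.fld Qb)}
    (hD : Pic0.mk D = (latTors V Qb n φ : Pic0 Qb (V.fld Qb)))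
    (hfD : ∀ v, (n : ℤ) * (D : Divisor Qb (V.fld Qb)) v = v.ord f) :
    IsKum V n (φ : Additive V.grp →+ ℤ) f := by
  have hn : n ≠ 0 := NeZero.ne n
  obtain ⟨h, hh⟩ := exists_mer_root hn hf fun v => ⟨_, (hfD v).symm⟩
  have hf' : theta f ≠ 0 := (map_ne_zero_iff _ theta.injective).2 hf
  have hh0 : h ≠ 0 := fun h0 => by
    rw [h0, zero_pow hn] at hh; exact hf' hh.symm
  have hc : ∀ γ : V.grp, ∃ a : ZMod n,
      merSL (γ : SL(2, ℤ)) h = merC (ZMod.stdAddChar a) * h := fun γ => by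
    obtain ⟨ζ, hζ, hζ'⟩ := exists_root_of_unity hn (x := merSL (γ : SL(2, ℤ)) h / h) (by
      rw [div_pow, ← map_pow, hh, merSL_theta γ.2, div_self hf'])
    obtain ⟨a, rfl⟩ := exists_stdAddChar hζ
    exact ⟨a, by rw [← hζ', div_mul_cancel₀ _ hh0]⟩
  choose c hc using hc
  have hk := kumFun_eq hD (⟨hh0, ⟨f, hf, hfD, hh⟩, hc⟩ :
    IsWitness n (D : Divisor Qb (V.fld Qb)) h c)
  refine ⟨hf, h, hh0, hh, fun γ => ?_⟩
  rw [hc, ← kum_latTors (L := Qb) φ (Additive.ofMul γ), kum_apply, hk]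

/-- `φ'` is the conjugate of `φ` modulo `n`. -/
def GalRel (V : Lvl) (n : ℕ) [NeZero n] (σ : GQ) (φ φ' : cuspLat V) : Prop :=
  (latTors V Qb n φ' : Pic0 Qb (V.fld Qb)) =
    galF V σ • (latTors V Qb n φ : Pic0 Qb (V.fld Qb))

theorem exists_galRel (σ : GQ) (φ : cuspLat V) : ∃ φ', GalRel V n σ φ φ' := by
  obtain ⟨y, hy, hyx⟩ := mem_liftedTors_iff.1
    (⟨φ, rfl⟩ : (latTors V Qb n φ : Pic0 Qb (V.fld Qb)) ∈ liftedTors V Qb n)
  obtain ⟨φ', hφ'⟩ := mem_liftedTors_iff.2
    ⟨galF V σ • y, SemilinearAut.smul_mem_torsion (galF V σ) hy,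
      (map_nsmul (DistribSMul.toAddMonoidHom (Pic0 Qb (V.fld Qb)) (galF V σ)) (liftExp V) y).symm⟩
  refine ⟨φ', hφ'.trans ?_⟩
  show galF V σ • (liftExp V • y) = _
  rw [hyx]

theorem GalRel.isKum {σ : GQ} {φ φ' : cuspLat V} (h : GalRel V n σ φ φ') {f : V.fld Qb}
    (hf : IsKum V n (φ : Additive V.grp →+ ℤ) f) :
    IsKum V n (φ' : Additive V.grp →+ ℤ) (galF V σ • f) := by
  obtain ⟨D, hD, hfD⟩ := hf.exists_divisor
  refine isKum_of_divisor (fun h0 => hf.1 (smul_left_cancel (galF V σ)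
    (h0.trans (smul_zero (galF V σ)).symm))) (D := degZeroSMulHom (galF V σ) D)
    (by rw [h, ← hD, pic0_smul_mk]) fun v => ?_
  rw [coe_degZeroSMulHom, divisor_smul_apply, hfD]
  have := ord_smul (galF V σ) ((galF V σ)⁻¹ • v) f
  rw [smul_inv_smul] at this
  exact this.symm

/-- Two correspondences exchanged by `σ`. -/
def GalComm (σ : GQ) (C C' : ICorr V V') (hC : C.Rational Qb) (hC' : C'.Rational Qb) : Prop :=
  ∀ f : V.fld Qb, galF V' σ • C.cpull hC f = C'.cpull hC' (galF V σ • f)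

theorem GalRel.latC {σ : GQ} {C C' : ICorr V V'} {hC : C.Rational Qb} {hC' : C'.Rational Qb}
    (hcomm : GalComm σ C C' hC hC') {φ φ' : cuspLat V} (h : GalRel V n σ φ φ') :
    GalRel V' n σ (latC C.C φ) (latC C'.C φ') := by
  obtain ⟨f, hf⟩ := exists_isKum (L := Qb) (n := n) φ
  obtain ⟨ψ, hψ⟩ := exists_galRel (n := n) σ (FA.NebLocal.latC C.C φ)
  have h1 := hψ.isKum (hf.cpull C hC)
  rw [hcomm f] at h1
  exact (congrArg Subtype.val ((h.isKum hf).cpull C' hC' |>.unique h1)).trans hψ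

/-- The multiples of `n`. -/
def nMul (V : Lvl) (n : ℕ) : Submodule ℤ (cuspLat V) :=
  LinearMap.range (((n : ℤ) • LinearMap.id : cuspLat V →ₗ[ℤ] cuspLat V))

theorem mem_nMul {n : ℕ} {φ : cuspLat V} : φ ∈ nMul V n ↔ ∃ ψ, φ = n • ψ := by
  simp only [nMul, LinearMap.mem_range, LinearMap.smul_apply, LinearMap.id_apply,
    natCast_zsmul, eq_comm]

/-- The lattice modulo `n` inside the classes. -/
def clsQ (V : Lvl) (n : ℕ) [NeZero n] : cuspLat V ⧸ nMul V n →+ Pic0 Qb (V.fld Qb) :=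
  QuotientAddGroup.lift _ ((tors V Qb n).subtype.comp (latTors V Qb n)) fun φ hφ => by
    show (latTors V Qb n φ : Pic0 Qb (V.fld Qb)) = 0
    rw [latTors_eq_zero_iff.2 (mem_nMul.1 hφ)]; rfl

theorem clsQ_mk (φ : cuspLat V) :
    clsQ V n (Submodule.Quotient.mk φ) = (latTors V Qb n φ : Pic0 Qb (V.fld Qb)) := rfl

theorem clsQ_injective : Function.Injective (clsQ V n) := by
  rw [injective_iff_map_eq_zero]
  intro q hq
  obtain ⟨φ, rfl⟩ := Submodule.Quotient.mk_surjective _ q
  exact (Submodule.Quotient.mk_eq_zero _).2 (mem_nMul.2 (latTors_eq_zero_iff.1 (Subtype.ext hq)))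

theorem existsUnique_galQ (σ : GQ) (q : cuspLat V ⧸ nMul V n) :
    ∃! q', clsQ V n q' = galF V σ • clsQ V n q := by
  obtain ⟨φ, rfl⟩ := Submodule.Quotient.mk_surjective _ q
  obtain ⟨φ', h⟩ := exists_galRel (n := n) σ φ
  exact ⟨Submodule.Quotient.mk φ', h, fun q'' h'' => clsQ_injective (h''.trans (Eq.symm h))⟩

/-- The transported action. -/
def galQVal (V : Lvl) (n : ℕ) [NeZero n] (σ : GQ) (q : cuspLat V ⧸ nMul V n) :
    cuspLat V ⧸ nMul V n :=
  (existsUnique_galQ σ q).choose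

theorem clsQ_galQVal (σ : GQ) (q : cuspLat V ⧸ nMul V n) :
    clsQ V n (galQVal V n σ q) = galF V σ • clsQ V n q :=
  (existsUnique_galQ σ q).choose_spec.1

/-- The action on the lattice modulo `n`. -/
def galQ (V : Lvl) (n : ℕ) [NeZero n] : GQ →* Module.End ℤ (cuspLat V ⧸ nMul V n) where
  toFun σ := (AddMonoidHom.mk' (galQVal V n σ) fun a b => clsQ_injective (by
    rw [clsQ_galQVal, map_add, map_add, clsQ_galQVal, clsQ_galQVal, smul_add])).toIntLinearMap
  map_one' := LinearMap.ext fun q => clsQ_injective (by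
    show clsQ V n (galQVal V n 1 q) = _
    rw [clsQ_galQVal, map_one, one_smul]; rfl)
  map_mul' σ τ := LinearMap.ext fun q => clsQ_injective (by
    show clsQ V n (galQVal V n (σ * τ) q) = clsQ V n (galQVal V n σ (galQVal V n τ q))
    rw [clsQ_galQVal, clsQ_galQVal, clsQ_galQVal, map_mul, mul_smul])

theorem galQ_mk_iff (σ : GQ) (φ φ' : cuspLat V) :
    galQ V n σ (Submodule.Quotient.mk φ) = Submodule.Quotient.mk φ' ↔ GalRel V n σ φ φ' := by
  constructor
  · intro h
    show clsQ V n (Submodule.Quotient.mk φ') = galF V σ • clsQ V n (Submodule.Quotient.mk φ)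
    rw [← h]; exact clsQ_galQVal _ _
  · exact fun h => clsQ_injective ((clsQ_galQVal _ _).trans (Eq.symm h))

/-! ### The limit -/

section limit

open IsLocalRing

variable (p : ℕ) [Fact p.Prime] (O : Type) [CommRing O] [IsDomain O] [IsDiscreteValuationRing O]
  [IsAdicComplete (maximalIdeal O) O]

instance pow_neZero (k : ℕ) : NeZero (p ^ k) := ⟨pow_ne_zero _ (Fact.out : p.Prime).ne_zero⟩

variable {O p} (hpO : (p : O) ∈ maximalIdeal O) (V : Lvl)

include hpO in
theorem powCompat_nMul : PowCompat (R := O) (maximalIdeal O) fun k => nMul V (p ^ k) := by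
  refine ⟨fun k x hx => ?_, fun k x hx => ?_⟩
  · obtain ⟨y, rfl⟩ := mem_nMul.1 hx
    exact mem_nMul.2 ⟨p • y, by rw [← mul_nsmul', pow_succ]⟩
  · obtain ⟨y, rfl⟩ := mem_nMul.1 hx
    rw [← natCast_zsmul, TensorProduct.tmul_smul, ← Int.cast_smul_eq_zsmul O,
      Int.cast_natCast, Nat.cast_pow]
    exact Submodule.smul_mem_smul (Ideal.pow_mem_pow hpO k) Submodule.mem_top

theorem galQ_compat (σ : GQ) :
    CompatFamily (P := fun k => nMul V (p ^ k)) fun k => galQ V (p ^ k) σ := by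
  intro k x y h
  rw [galQ_mk_iff] at h ⊢
  have key : ∀ z : cuspLat V, p • (latTors V Qb (p ^ (k + 1)) z : Pic0 Qb (V.fld Qb)) =
      latTors V Qb (p ^ k) z := fun z => by
    haveI : NeZero (p * p ^ k) := ⟨mul_ne_zero (Fact.out : p.Prime).ne_zero (NeZero.ne _)⟩
    have e : ∀ (m : ℕ) [NeZero m], m = p * p ^ k →
        p • (latTors V Qb m z : Pic0 Qb (V.fld Qb)) = latTors V Qb (p ^ k) z := by
      rintro m _ rfl
      exact nsmul_latTors z
    exact e _ (pow_succ' p k)
  show _ = galF V σ • _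
  rw [← key, ← key, h]
  exact (map_nsmul (DistribSMul.toAddMonoidHom (Pic0 Qb (V.fld Qb)) (galF V σ)) p _).symm

instance cuspLat_finite : Module.Finite ℤ (cuspLat V) := (cuspLat_free_finite V).2

variable (O) in
theorem isAdicComplete_tensor : IsAdicComplete (maximalIdeal O) (O ⊗[ℤ] cuspLat V) :=
  P2MW.S_IsLocalRing_isAdicComplete_of_module_finite.M4cP1X1.isAdicComplete_of_module_finite _

/-- **The `p`-adic Galois action on `O ⊗ cuspLat V`.** -/
def galR : GQ →* Module.End O (O ⊗[ℤ] cuspLat V) :=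
  haveI := isAdicComplete_tensor O V
  limRep (maximalIdeal O) (powCompat_nMul hpO V) (fun k => galQ V (p ^ k)) (galQ_compat V)

variable {V}

theorem galR_spec {σ : GQ} {k : ℕ} {φ φ' : cuspLat V} (h : GalRel V (p ^ k) σ φ φ') :
    galR hpO V σ ((1 : O) ⊗ₜ φ) - (1 : O) ⊗ₜ φ' ∈
      powTop (T := ℤ) (X := cuspLat V) (maximalIdeal O) k :=
  haveI := isAdicComplete_tensor O V
  limRep_spec _ (powCompat_nMul hpO V) (fun k => galQ V (p ^ k)) (galQ_compat V)
    ((galQ_mk_iff σ φ φ').2 h)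

/-- The transfer with coefficients in `O`. -/
def tensC (O : Type) [CommRing O] (C : FA.HeckeH1.Corr V.grp V'.grp) :
    O ⊗[ℤ] cuspLat V →ₗ[O] O ⊗[ℤ] cuspLat V' :=
  LinearMap.baseChange O (FA.NebLocal.latC C).toIntLinearMap

omit [Algebra Qb ℂ] [IsDomain O] [IsDiscreteValuationRing O] [IsAdicComplete (maximalIdeal O) O] in
theorem tensC_tmul (C : FA.HeckeH1.Corr V.grp V'.grp) (c : O) (φ : cuspLat V) :
    tensC O C (c ⊗ₜ φ) = c ⊗ₜ FA.NebLocal.latC C φ := rfl

omit [Algebra Qb ℂ] [IsAdicComplete (maximalIdeal O) O] in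
theorem tensC_powTop (C : FA.HeckeH1.Corr V.grp V'.grp) {k : ℕ} {z : O ⊗[ℤ] cuspLat V}
    (hz : z ∈ powTop (T := ℤ) (X := cuspLat V) (maximalIdeal O) k) :
    tensC O C z ∈ powTop (T := ℤ) (X := cuspLat V') (maximalIdeal O) k := by
  have h := Submodule.mem_map_of_mem (f := tensC O C) hz
  rw [powTop, Submodule.map_smul''] at h
  exact Submodule.smul_mono le_rfl le_top h

/-- **Correspondences exchanged by `σ` intertwine the action.** -/
theorem galR_tensC {σ : GQ} {C C' : ICorr V V'} {hC : C.Rational Qb} {hC' : C'.Rational Qb}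
    (hcomm : GalComm σ C C' hC hC') (z : O ⊗[ℤ] cuspLat V) :
    galR hpO V' σ (tensC O C.C z) = tensC O C'.C (galR hpO V σ z) := by
  haveI := isAdicComplete_tensor O V'
  induction z with
  | zero => simp only [map_zero]
  | add a b ha hb => simp only [map_add, ha, hb]
  | tmul c φ =>
    rw [show c ⊗ₜ[ℤ] φ = c • ((1 : O) ⊗ₜ[ℤ] φ) by
      rw [TensorProduct.smul_tmul', smul_eq_mul, mul_one]]
    simp only [map_smul]
    refine congrArg (c • ·) (sub_eq_zero.1 (IsHausdorff.haus (I := maximalIdeal O) inferInstance _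
      fun k => SModEq.zero.2 ?_))
    obtain ⟨φ', h⟩ := exists_galRel (n := p ^ k) σ φ
    have h1 := galR_spec hpO (h.latC hcomm)
    have h2 := tensC_powTop C'.C (galR_spec hpO h)
    rw [map_sub, tensC_tmul] at h2
    rw [tensC_tmul]
    have := sub_mem h1 h2
    rwa [sub_sub_sub_cancel_right] at this

end limit

end FA.NebLocal
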