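import Mathlib

/-!
# Powers of an element satisfying the characteristic polynomial of a two by two matrix
-/

set_option autoImplicit false

namespace FA.NebLocal

open Matrix

variable {R E : Type*} [CommRing R] [Ring E] [Algebra R E]

theorem matrix_sq (M : Matrix (Fin 2) (Fin 2) R) :
    M * M = M.trace • M - M.det • (1 : Matrix (Fin 2) (Fin 2) R) := by
  ext i j
  fin_cases i <;> fin_cases j <;>
    simp [Matrix.mul_apply, Fin.sum_univ_two, Matrix.trace_fin_two, Matrix.det_fin_two] <;> ring

/-- Powers keep the quadratic relation. -/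
theorem quad_pow (x : E) (M : Matrix (Fin 2) (Fin 2) R)
    (hx : x * x = M.trace • x - M.det • (1 : E)) (k : ℕ) :
    x ^ k * x ^ k - (M ^ k).trace • x ^ k + (M ^ k).det • (1 : E) = 0 := by
  obtain ⟨u, v, hxk, hMk⟩ : ∃ u v : R, x ^ k = u • x + v • (1 : E) ∧
      M ^ k = u • M + v • (1 : Matrix (Fin 2) (Fin 2) R) := by
    induction k with
    | zero => exact ⟨0, 1, by simp, by simp⟩
    | succ k ih =>
      obtain ⟨u, v, h1, h2⟩ := ih
      refine ⟨M.trace * u + v, -(M.det * u), ?_, ?_⟩
      · rw [pow_succ, h1, add_mul, smul_mul_assoc, hx, smul_mul_assoc, one_mul]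
        module
      · rw [pow_succ, h2, add_mul, smul_mul_assoc, matrix_sq, smul_mul_assoc, one_mul]
        module
  have ht : (M ^ k).trace = u * M.trace + 2 * v := by
    rw [hMk]
    simp [Matrix.trace_fin_two]
    ring
  have hd : (M ^ k).det = u * u * M.det + u * v * M.trace + v * v := by
    rw [hMk]
    simp [Matrix.det_fin_two, Matrix.trace_fin_two]
    ring
  rw [ht, hd, hxk]
  simp only [add_mul, mul_add, smul_mul_assoc, mul_smul_comm, one_mul, mul_one, hx]
  module

/-- Powers keep the quadratic relation on a stable submodule. -/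
theorem hom_quad_pow {G X : Type*} [Monoid G] [AddCommGroup X] [Module R X]
    (ρ : G →* Module.End R X) (m : G →* Matrix (Fin 2) (Fin 2) R) (W : Submodule R X)
    (hst : ∀ g, ∀ w ∈ W, ρ g w ∈ W) (g : G)
    (hg : ∀ w ∈ W, ρ g (ρ g w) = (m g).trace • ρ g w - (m g).det • w) (k : ℕ) {w : X}
    (hw : w ∈ W) :
    ρ (g ^ k) (ρ (g ^ k) w) - (m (g ^ k)).trace • ρ (g ^ k) w + (m (g ^ k)).det • w = 0 := by
  let x : Module.End R W := (ρ g).restrict (hst g)
  have hx : x * x = (m g).trace • x - (m g).det • (1 : Module.End R W) :=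
    LinearMap.ext fun u => Subtype.ext (hg u u.2)
  have hk : ∀ (k : ℕ) (u : W), ((x ^ k) u : X) = ρ (g ^ k) u := by
    intro k
    induction k with
    | zero => intro u; rw [pow_zero, pow_zero, map_one]; rfl
    | succ k ih =>
      intro u
      rw [pow_succ', pow_succ', map_mul, Module.End.mul_apply, Module.End.mul_apply, ← ih]
      rfl
  have h := congrArg Subtype.val (LinearMap.congr_fun (quad_pow x (m g) hx k) ⟨w, hw⟩)
  simp only [LinearMap.add_apply, LinearMap.sub_apply, LinearMap.smul_apply, Module.End.mul_apply,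
    Module.End.one_apply, Submodule.coe_add, AddSubgroupClass.coe_sub, Submodule.coe_smul, hk,
    LinearMap.zero_apply, ZeroMemClass.coe_zero, ← map_pow] at h
  exact h

end FA.NebLocal
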