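import Fermat.Agent.NebLocal.Transfer
import Fermat.Agent.NebLocal.Quad
import Fermat.Agent.NebLocal.ParGal
import Fermat.Agent.JTorsion.GoodRedAll
import Fermat.Agent.JTorsion.GaloisTors
import Fermat.Agent.Deform.MatrixRep
import Fermat.Agent.Density.Places

/-!
# The quadratic relation of Galois on eigen systems of level `Γ₀(N)`
-/

set_option autoImplicit false
set_option linter.style.haveILetI false
set_option linter.unusedSectionVars false

noncomputable section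

namespace FA.NebLocal

open IsLocalRing FA.Level FA.JTorsion AlgebraicCurve ModularCurve
open FA.HeckeH1 (Corr Par Hom1 hv GamH Tc)
open scoped MatrixGroups TensorProduct

local notation "Qb" => AlgebraicClosure ℚ
local notation "GQ" => AlgebraicClosure ℚ ≃ₐ[ℚ] AlgebraicClosure ℚ

theorem one_tmul_comb {R X : Type*} [CommRing R] [AddCommGroup X] [Module ℤ X] (a b c : X)
    (n : ℕ) : (1 : R) ⊗ₜ[ℤ] (a + n • b - c) =
      (1 : R) ⊗ₜ[ℤ] a + (n : R) • ((1 : R) ⊗ₜ[ℤ] b) - (1 : R) ⊗ₜ[ℤ] c := by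
  let mk₁ : X →+ R ⊗[ℤ] X := AddMonoidHom.mk' (fun x => (1 : R) ⊗ₜ[ℤ] x) (TensorProduct.tmul_add _)
  show mk₁ (a + n • b - c) = mk₁ a + (n : R) • mk₁ b - mk₁ c
  rw [map_sub, map_add, map_nsmul, Nat.cast_smul_eq_nsmul]

variable {p : ℕ} [Fact p.Prime] {O : Type} [CommRing O] [IsDomain O] [IsDiscreteValuationRing O]
  [IsAdicComplete (maximalIdeal O) O] (hpO : (p : O) ∈ maximalIdeal O) [Algebra Qb ℂ]
  (N : ℕ) [NeZero N]

/-- Correspondences respecting the relation `GalRel` intertwine the action. -/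
theorem galR_tensC_of_rel {V V' : Lvl} {σ : GQ} (C : Corr V.grp V'.grp)
    (hC : ∀ k φ φ', GalRel V (p ^ k) σ φ φ' → GalRel V' (p ^ k) σ (latC C φ) (latC C φ'))
    (z : O ⊗[ℤ] cuspLat V) :
    galR hpO V' σ (tensC O C z) = tensC O C (galR hpO V σ z) := by
  haveI := isAdicComplete_tensor O V'
  induction z with
  | zero => simp only [map_zero]
  | add a b ha hb => simp only [map_add, ha, hb]
  | tmul c φ =>
    rw [show c ⊗ₜ[ℤ] φ = c • ((1 : O) ⊗ₜ[ℤ] φ) by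
      rw [TensorProduct.smul_tmul', smul_eq_mul, mul_one]]
    simp only [map_smul]
    refine congrArg (c • ·) (sub_eq_zero.1 (IsHausdorff.haus (I := maximalIdeal O) inferInstance _
      fun k => SModEq.zero.2 ?_))
    obtain ⟨φ', h⟩ := exists_galRel (n := p ^ k) σ φ
    have h1 := galR_spec hpO (hC k φ φ' h)
    have h2 := tensC_powTop C (galR_spec hpO h)
    rw [map_sub, tensC_tmul] at h2
    rw [tensC_tmul]
    have := sub_mem h1 h2
    rwa [sub_sub_sub_cancel_right] at this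

variable (ℓ : ℕ) [hℓ : Fact ℓ.Prime] [NeZero ℓ]

theorem latC_tcZero (hℓN : ¬ ℓ ∣ N) (φ : cuspLat (lvlGamma0 N)) :
    latC (tcZero N ℓ) φ = latHecke N ℓ φ := by
  refine Subtype.ext (AddMonoidHom.ext fun g => ?_)
  rw [coe_latC]
  exact tcZero_eq_heckeChar N ℓ hℓN (φ : Additive (lvlGamma0 N).grp →+ ℤ) g.toMul

theorem galRel_tcZero (hℓN : ¬ ℓ ∣ N) {n : ℕ} [NeZero n] (σ : GQ)
    {φ φ' : cuspLat (lvlGamma0 N)} (h : GalRel (lvlGamma0 N) n σ φ φ') :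
    GalRel (lvlGamma0 N) n σ (latC (tcZero N ℓ) φ) (latC (tcZero N ℓ) φ') := by
  rw [latC_tcZero N ℓ hℓN, latC_tcZero N ℓ hℓN]
  show (latTors (lvlGamma0 N) Qb n (latHecke N ℓ φ') : Pic0 Qb ((lvlGamma0 N).fld Qb)) = _
  rw [← heckeOperatorAlong_latTors, ← heckeOperatorAlong_latTors, h]
  exact heckeLvl_galois_smul N ℓ σ _

theorem galR_tcZero (hℓN : ¬ ℓ ∣ N) (σ : GQ) (z : O ⊗[ℤ] cuspLat (lvlGamma0 N)) :
    galR hpO (lvlGamma0 N) σ (tensC O (tcZero N ℓ) z) =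
      tensC O (tcZero N ℓ) (galR hpO (lvlGamma0 N) σ z) :=
  galR_tensC_of_rel hpO _ (fun _ _ _ h => galRel_tcZero N ℓ hℓN σ h) z

/-- The class of a lattice element, typed in `J₀(N)`. -/
def jt (n : ℕ) [NeZero n] (φ : cuspLat (lvlGamma0 N)) : JZero N :=
  (latTors (lvlGamma0 N) Qb n φ).1

theorem galRel_frobenius (hℓN : ¬ ℓ ∣ N) {A : ValuationSubring Qb} (hA : A.LiesOverPrime ℓ)
    {σ : GQ} (hσ : A.IsFrobeniusAt σ ℓ) {n : ℕ} [NeZero n] (hn : ¬ ℓ ∣ n)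
    {φ φ₁ φ₂ : cuspLat (lvlGamma0 N)} (h₁ : GalRel (lvlGamma0 N) n σ φ φ₁)
    (h₂ : GalRel (lvlGamma0 N) n σ⁻¹ φ φ₂) :
    latTors (lvlGamma0 N) Qb n (φ₁ + ℓ • φ₂ - latHecke N ℓ φ) = 0 := by
  refine Subtype.ext ?_
  have hmem : (σ⁻¹ • (jt N n φ) : JZero N) ∈
      tors (lvlGamma0 N) Qb n :=
    galois_smul_mem_tors N (latTors (lvlGamma0 N) Qb n φ).2 σ⁻¹
  have hx : n • (σ⁻¹ • (jt N n φ) : JZero N) = 0 := by
    rw [← natCast_zsmul]
    exact Pic0.mem_torsion.1 hmem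
  have hr := (goodRed_all N).frobenius ℓ hℓ.out hℓN A hA σ hσ n hn _ hx
  rw [smul_inv_smul] at hr
  have e₁ : (jt N n φ₁) =
      σ • (jt N n φ) := h₁
  have e₂ : (jt N n φ₂) =
      σ⁻¹ • (jt N n φ) := h₂
  have e₃ : (jt N n (latHecke N ℓ φ)) =
      heckeOperatorAlong Qb N ℓ (jt N n φ) :=
    (heckeOperatorAlong_latTors N ℓ φ).symm
  have e : (jt N n (φ₁ + ℓ • φ₂ - latHecke N ℓ φ)) =
      (jt N n φ₁) + ℓ • (jt N n φ₂) -
        (jt N n (latHecke N ℓ φ)) := by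
    rw [jt, map_sub, map_add, map_nsmul]
    rfl
  refine e.trans ?_
  rw [e₁, e₂, e₃]
  exact (add_sub_right_comm _ _ _).trans hr

set_option maxHeartbeats 4000000 in
/-- Eichler–Shimura at a good prime. -/
theorem galR_frobenius (hℓN : ¬ ℓ ∣ N) (hℓp : ℓ ≠ p) {A : ValuationSubring Qb}
    (hA : A.LiesOverPrime ℓ) {σ : GQ} (hσ : A.IsFrobeniusAt σ ℓ)
    (z : O ⊗[ℤ] cuspLat (lvlGamma0 N)) :
    galR hpO (lvlGamma0 N) σ z + (ℓ : O) • galR hpO (lvlGamma0 N) σ⁻¹ z =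
      tensC O (tcZero N ℓ) z := by
  haveI := isAdicComplete_tensor O (lvlGamma0 N)
  induction z with
  | zero => simp only [map_zero, smul_zero, add_zero]
  | add a b ha hb => simp only [map_add, smul_add, ← ha, ← hb]; abel
  | tmul c φ =>
    rw [show c ⊗ₜ[ℤ] φ = c • ((1 : O) ⊗ₜ[ℤ] φ) by
      rw [TensorProduct.smul_tmul', smul_eq_mul, mul_one]]
    simp only [map_smul, smul_comm (ℓ : O) c, ← smul_add]
    refine congrArg (c • ·) (sub_eq_zero.1 (IsHausdorff.haus (I := maximalIdeal O) inferInstance _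
      fun k => SModEq.zero.2 ?_))
    obtain ⟨φ₁, h₁⟩ := exists_galRel (n := p ^ k) σ φ
    obtain ⟨φ₂, h₂⟩ := exists_galRel (n := p ^ k) σ⁻¹ φ
    have hk : ¬ ℓ ∣ p ^ k := fun hd =>
      hℓp ((Nat.prime_dvd_prime_iff_eq hℓ.out Fact.out).1 (hℓ.out.dvd_of_dvd_pow hd))
    have hker := galRel_frobenius N ℓ hℓN hA hσ hk h₁ h₂
    have e := latTors_eq_zero_iff.1 hker
    have hmem := (powCompat_nMul (O := O) hpO (lvlGamma0 N)).2 k _ (mem_nMul.2 e)
    have hexp : (1 : O) ⊗ₜ[ℤ] (φ₁ + ℓ • φ₂ - latHecke N ℓ φ) =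
        (1 : O) ⊗ₜ[ℤ] φ₁ + (ℓ : O) • ((1 : O) ⊗ₜ[ℤ] φ₂) - (1 : O) ⊗ₜ[ℤ] latHecke N ℓ φ := by
      exact one_tmul_comb φ₁ φ₂ (latHecke N ℓ φ) ℓ
    rw [hexp] at hmem
    have h3 := Submodule.smul_mem _ (ℓ : O) (galR_spec hpO h₂)
    have := add_mem (add_mem (galR_spec hpO h₁) h3) hmem
    rw [tensC_tmul, latC_tcZero N ℓ hℓN]
    convert this using 1
    rw [smul_sub]
    abel

omit hℓ [NeZero ℓ]

/-- Finitely many constants control the action modulo `n`. -/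
theorem exists_field_galQ (n : ℕ) [NeZero n] :
    ∃ L : IntermediateField ℚ Qb, FiniteDimensional ℚ L ∧
      ∀ σ : GQ, (∀ a ∈ L, σ a = a) → galQ (lvlGamma0 N) n σ = 1 := by
  obtain ⟨L, hL, h⟩ := exists_field_fix_tors N n
  refine ⟨L, hL, fun σ hσ => LinearMap.ext fun q => clsQ_injective ?_⟩
  refine (clsQ_galQVal σ q).trans (h σ hσ _ ?_)
  obtain ⟨φ, rfl⟩ := Submodule.Quotient.mk_surjective _ q
  exact (latTors (lvlGamma0 N) Qb n φ).2

set_option maxHeartbeats 1000000 in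
/-- **The relation of degree two on an eigen system.** -/
theorem galR_relation (S : Finset ℕ) (hpS : p ∈ S) (hS : ∀ q : ℕ, q.Prime → q ∣ N → q ∈ S)
    (c : ℕ → O) (m : GQ →* Matrix (Fin 2) (Fin 2) O) (hm : FA.Deform.IsContRep m)
    (hfrob : ∀ ℓ : ℕ, ℓ.Prime → ℓ ∉ S → ∀ A : ValuationSubring Qb, A.LiesOverPrime ℓ →
      ∀ σ : GQ, A.IsFrobeniusAt σ ℓ → (m σ).trace = c ℓ ∧ (m σ).det = (ℓ : O))
    (z : O ⊗[ℤ] cuspLat (lvlGamma0 N))
    (hz : ∀ ℓ : ℕ, [Fact ℓ.Prime] → ℓ ∉ S → tensC O (tcZero N ℓ) z = c ℓ • z) (τ : GQ) :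
    galR hpO (lvlGamma0 N) τ (galR hpO (lvlGamma0 N) τ z) -
      (m τ).trace • galR hpO (lvlGamma0 N) τ z + (m τ).det • z = 0 := by
  classical
  haveI := isAdicComplete_tensor O (lvlGamma0 N)
  let W : Submodule O (O ⊗[ℤ] cuspLat (lvlGamma0 N)) :=
    { carrier := {w | ∀ ℓ : ℕ, [Fact ℓ.Prime] → ℓ ∉ S → tensC O (tcZero N ℓ) w = c ℓ • w}
      add_mem' := fun {a b} ha hb ℓ _ hℓ => by rw [map_add, ha ℓ hℓ, hb ℓ hℓ, smul_add]
      zero_mem' := fun ℓ _ _ => by rw [map_zero, smul_zero]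
      smul_mem' := fun r a ha ℓ _ hℓ => by rw [map_smul, ha ℓ hℓ, smul_comm] }
  have hst : ∀ σ : GQ, ∀ w ∈ W, galR hpO (lvlGamma0 N) σ w ∈ W := fun σ w hw ℓ _ hℓ => by
    haveI : NeZero ℓ := ⟨(Fact.out : ℓ.Prime).ne_zero⟩
    rw [← galR_tcZero hpO N ℓ (fun h => hℓ (hS ℓ Fact.out h)), hw ℓ hℓ, map_smul]
  refine IsHausdorff.haus (I := maximalIdeal O) inferInstance _ fun n => SModEq.zero.2 ?_
  obtain ⟨L₁, hL₁, h₁⟩ := exists_field_galQ N (p ^ n)
  obtain ⟨L₂, hL₂, h₂⟩ := hm n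
  let mn := ((Ideal.Quotient.mk (maximalIdeal O ^ n)).mapMatrix.toMonoidHom).comp m
  let K := ((galQ (lvlGamma0 N) (p ^ n)).prod mn).ker
  have hK : IsOpen (K : Set GQ) :=
    Subgroup.isOpen_mono (H₁ := (L₁ ⊔ L₂).fixingSubgroup) (fun σ hσ => by
      have hfix := (IntermediateField.mem_fixingSubgroup_iff _ _).1 hσ
      refine MonoidHom.mem_ker.2 (Prod.ext
        (h₁ σ fun a ha => hfix a ((le_sup_left : L₁ ≤ L₁ ⊔ L₂) ha)) ?_)
      show (Ideal.Quotient.mk (maximalIdeal O ^ n)).mapMatrix (m σ) = 1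
      rw [← map_one (Ideal.Quotient.mk (maximalIdeal O ^ n)).mapMatrix]
      ext i j
      exact Ideal.Quotient.eq.2 (h₂ σ (fun a ha => hfix a ((le_sup_right : L₂ ≤ L₁ ⊔ L₂) ha)) i j))
      (IntermediateField.fixingSubgroup_isOpen _)
  let E : GQ → O ⊗[ℤ] cuspLat (lvlGamma0 N) → O ⊗[ℤ] cuspLat (lvlGamma0 N) := fun σ w =>
    galR hpO (lvlGamma0 N) σ (galR hpO (lvlGamma0 N) σ w) - (m σ).trace • galR hpO (lvlGamma0 N) σ w + (m σ).det • w
  refine FA.Density.forall_of_frobenius_pow K hK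
    (fun σ => ∀ w ∈ W, E σ w ∈ powTop (T := ℤ) (X := cuspLat (lvlGamma0 N)) (maximalIdeal O) n)
    ?_ S ?_ τ z hz
  · intro σ η hη hσ w hw
    obtain ⟨hg, hmn⟩ := Prod.ext_iff.1 (MonoidHom.mem_ker.1 hη)
    have e : mn (σ * η) = mn σ := by rw [map_mul, show mn η = 1 from hmn, mul_one]
    have ht : (m (σ * η)).trace - (m σ).trace ∈ maximalIdeal O ^ n := by
      rw [← Ideal.Quotient.eq, AddMonoidHom.map_trace (Ideal.Quotient.mk (maximalIdeal O ^ n)),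
        AddMonoidHom.map_trace (Ideal.Quotient.mk (maximalIdeal O ^ n))]
      exact congrArg Matrix.trace e
    have hd : (m (σ * η)).det - (m σ).det ∈ maximalIdeal O ^ n := by
      rw [← Ideal.Quotient.eq, RingHom.map_det, RingHom.map_det]
      exact congrArg Matrix.det e
    have hG : ∀ u, galR hpO (lvlGamma0 N) (σ * η) u - galR hpO (lvlGamma0 N) σ u ∈
        powTop (T := ℤ) (X := cuspLat (lvlGamma0 N)) (maximalIdeal O) n := fun u => by
      rw [map_mul, Module.End.mul_apply, ← map_sub]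
      exact powTop_stable _ _ (limRep_sub_one_mem _ (powCompat_nMul hpO (lvlGamma0 N))
        (fun k => galQ (lvlGamma0 N) (p ^ k)) (galQ_compat (lvlGamma0 N)) (show galQ (lvlGamma0 N) (p ^ n) η = 1 from hg) u)
    have e1 := add_mem (powTop_stable _ (galR hpO (lvlGamma0 N) (σ * η)) (hG w)) (hG (galR hpO (lvlGamma0 N) σ w))
    have e2 := add_mem (Submodule.smul_mem _ (m (σ * η)).trace (hG w))
      (Submodule.smul_mem_smul ht (Submodule.mem_top (x := galR hpO (lvlGamma0 N) σ w)))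
    have e3 := Submodule.smul_mem_smul hd (Submodule.mem_top (x := w))
    have := add_mem (add_mem (sub_mem e1 e2) e3) (hσ w hw)
    simp only [E, map_sub, sub_smul, smul_sub] at this ⊢
    convert this using 1
    abel
  · intro ℓ hℓ hℓS A hA σ hσ k w hw
    haveI : Fact ℓ.Prime := ⟨hℓ⟩
    haveI : NeZero ℓ := ⟨hℓ.ne_zero⟩
    have hℓN : ¬ ℓ ∣ N := fun h => hℓS (hS ℓ hℓ h)
    have hℓp : ℓ ≠ p := fun h => hℓS (h ▸ hpS)
    obtain ⟨htr, hdet⟩ := hfrob ℓ hℓ hℓS A hA σ hσ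
    show E (σ ^ k) w ∈ _
    rw [show E (σ ^ k) w = 0 from hom_quad_pow (galR hpO (lvlGamma0 N)) m W hst σ (fun u hu => ?_) k hw]
    · exact zero_mem _
    · have h := galR_frobenius hpO N ℓ hℓN hℓp hA hσ (galR hpO (lvlGamma0 N) σ u)
      rw [← Module.End.mul_apply (galR hpO (lvlGamma0 N) σ⁻¹), ← map_mul, inv_mul_cancel, map_one,
        Module.End.one_apply, hst σ u hu ℓ hℓS] at h
      rw [htr, hdet, eq_sub_iff_add_eq]
      exact h

end FA.NebLocal
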