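import Fermat.Agent.NebLocal.Cusps
import Fermat.Agent.Level.Theta
import Fermat.Agent.Level.Ext

/-!
# The product pullback of functions along a correspondence

A correspondence `Γ → Γ'` by integral matrices `α i` sends a function `f` of the level `V` to
`∏ f ∘ α i`, a function of the level `V'`.
-/

set_option autoImplicit false
set_option linter.unusedSectionVars false
set_option linter.style.haveILetI false
set_option synthInstance.maxHeartbeats 200000
set_option maxHeartbeats 1600000

noncomputable section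

namespace FA.NebLocal

open UpperHalfPlane hiding I
open Complex hiding Gamma
open ModularCurve FA.ModField FA.Level FA.HeckeH1
open scoped MatrixGroups Manifold

variable {V V' : Lvl}

/-- A correspondence by integral matrices of positive determinant. -/
structure ICorr (V V' : Lvl) where
  /-- the correspondence -/
  C : Corr V.grp V'.grp
  /-- the matrices -/
  X : C.ι → MatZ
  det_pos : ∀ i, 0 < (X i).det
  α_eq : ∀ i, C.α i = gl (X i)
  nonempty : Nonempty C.ι

variable (C : ICorr V V')

theorem isGoodMap_mob {g : GL (Fin 2) ℚ} (hg : 0 < g.1.det) : IsGoodMap (mob g) :=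
  ⟨fun z => ⟨mob g⁻¹ z, by rw [← mob_mul, mul_inv_cancel, mob, map_one, one_smul]⟩,
    fun _ hf => mdiff_comp_mob hf hg⟩

/-- The maps of a correspondence are good. -/
theorem ICorr.good (i : C.C.ι) : IsGoodMap (mob (gl (C.X i))) :=
  isGoodMap_mob (det_gl_pos (C.det_pos i))

/-- The product of the composites. -/
def ICorr.pull (f : ℍ → ℂ) (z : ℍ) : ℂ := ∏ i, f (mob (gl (C.X i)) z)

/-- The product pullback on `Mer`. -/
def ICorr.mer : Mer →*₀ Mer where
  toFun x := ∏ i, merComp (C.good i) x
  map_one' := by simp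
  map_mul' x y := by simp [Finset.prod_mul_distrib]
  map_zero' := by
    obtain ⟨i⟩ := C.nonempty
    exact Finset.prod_eq_zero (Finset.mem_univ i) (map_zero _)

theorem ICorr.pull_mul (f g : ℍ → ℂ) : C.pull (f * g) = C.pull f * C.pull g :=
  funext fun z => by simp [ICorr.pull, Finset.prod_mul_distrib]

/-- The composite with one matrix, after a translation of the source. -/
theorem ICorr.comp_smul {f : ℍ → ℂ} (hf : f ∈ V.mf) (γ : V'.grp) (z : ℍ) (i : C.C.ι) :
    f (mob (gl (C.X i)) ((γ : SL(2, ℤ)) • z)) = f (mob (gl (C.X (C.C.perm γ i))) z) := by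
  rw [← C.α_eq, ← C.α_eq, ← mob_glQ, ← mob_mul, C.C.fac_spec, mob_mul, mob_glQ]
  exact hf.2.1 _ (C.C.fac γ i).2 _

theorem ICorr.pull_invariant {f : ℍ → ℂ} (hf : f ∈ V.mf) (γ : V'.grp) (z : ℍ) :
    C.pull f ((γ : SL(2, ℤ)) • z) = C.pull f z := by
  simp only [ICorr.pull, C.comp_smul hf γ z]
  exact Equiv.prod_comp (C.C.perm γ) fun i => f (mob (gl (C.X i)) z)

theorem ICorr.mdiff_pull {f : ℍ → ℂ} (hf : MDiff f) : MDiff (C.pull f) := by
  rw [UpperHalfPlane.mdifferentiable_iff]
  refine DifferentiableOn.congr (DifferentiableOn.fun_finsetProd (u := Finset.univ) fun i _ =>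
    UpperHalfPlane.mdifferentiable_iff.1 (mdiff_comp_mob hf (det_gl_pos (C.det_pos i)))) fun w _ => ?_
  rfl

theorem ICorr.exists_hasExp_pull {f : ℍ → ℂ} (hf : f ∈ V.mf) (γ : SL(2, ℤ)) :
    ∃ L, HasExp (qp V'.M) (fun z => C.pull f (γ • z)) L := by
  classical
  set D : C.C.ι → ℕ := fun i => (C.X i).det.natAbs with hD
  set W : ℕ := V.M * ∏ i, D i with hW
  haveI : ∀ i, NeZero (D i) := fun i => ⟨Int.natAbs_ne_zero.2 (C.det_pos i).ne'⟩
  haveI : NeZero W := ⟨mul_ne_zero V.M_ne (Finset.prod_ne_zero_iff.2 fun i _ => NeZero.ne _)⟩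
  haveI : NeZero (W * V'.M) := ⟨mul_ne_zero (NeZero.ne W) V'.M_ne⟩
  haveI : NeZero (V'.M * W) := ⟨mul_ne_zero V'.M_ne (NeZero.ne W)⟩
  have hone : ∀ i, ∃ L, HasExp (qp (V'.M * W)) (fun z => f (mob (gl (C.X i)) (γ • z))) L := by
    intro i
    have hdet : (C.X i * γ.1).det = (D i : ℤ) := by
      rw [Matrix.det_mul, γ.2, mul_one, hD, Int.natAbs_of_nonneg (C.det_pos i).le]
    obtain ⟨L, hL⟩ := exists_hasExp_comp_mob hf.2.2.2 hdet
    obtain ⟨e, he⟩ : V.M * D i ∣ V'.M * W :=
      (mul_dvd_mul_left V.M (Finset.dvd_prod_of_mem D (Finset.mem_univ i))).trans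
        (dvd_mul_left _ _)
    haveI : NeZero e := ⟨fun h => NeZero.ne (V'.M * W) (by rw [he, h, mul_zero])⟩
    refine ⟨_, ((hL.comp (U := qp (V'.M * W)) id e 1 fun z => ?_)).congr (funext fun z => ?_)⟩
    · rw [Units.val_one, one_mul, id_eq, qp_eq, qp_eq, ← Complex.exp_nat_mul, he]
      congr 1
      have h1 : (V.M : ℂ) ≠ 0 := Nat.cast_ne_zero.2 V.M_ne
      have h2 : (D i : ℂ) ≠ 0 := Nat.cast_ne_zero.2 (NeZero.ne _)
      have h3 : (e : ℂ) ≠ 0 := Nat.cast_ne_zero.2 (NeZero.ne e)
      push_cast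
      field_simp
    · show f (mob (gl (C.X i * γ.1)) z) = _
      rw [gl_mul (C.det_pos i).ne' (by rw [γ.2]; exact one_ne_zero), mob_mul, gl_coe, mob_glQ]
  choose L hL using hone
  obtain ⟨L', -, hL'⟩ := exists_descent_exp
    ((hasExp_prod (qp_ne_zero _) Finset.univ fun i _ => hL i).congr
      (funext fun z => by simp [ICorr.pull]) : HasExp (qp (V'.M * W)) (fun z => C.pull f (γ • z)) _)
    (fun z => by
      show C.pull f (γ • _) = _
      rw [← mul_smul]
      have h := C.pull_invariant hf ⟨_, V'.conj_T_pow_mem γ⟩ (γ • z)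
      simp only at h
      rwa [← mul_smul, inv_mul_cancel_right] at h)
  exact ⟨L', hL'⟩

theorem ICorr.exists_hasExp_pull_one {f : ℍ → ℂ} (hf : f ∈ V.mf) :
    ∃ L, HasExp (qp 1) (C.pull f) L := by
  obtain ⟨L, hL⟩ := C.exists_hasExp_pull hf 1
  obtain ⟨L', -, hL'⟩ := exists_descent_exp (M := 1) (e := V'.M) (by rw [one_mul]; simpa using hL)
    (fun z => C.pull_invariant hf ⟨_, Subgroup.zpow_mem _ V'.T_mem _⟩ z)
  exact ⟨L', hL'⟩

theorem ICorr.pull_mem {f : ℍ → ℂ} (hf : f ∈ V.mf) : C.pull f ∈ V'.mf :=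
  ⟨C.mdiff_pull hf.1, fun γ hγ z => C.pull_invariant hf ⟨γ, hγ⟩ z, C.exists_hasExp_pull_one hf,
    C.exists_hasExp_pull hf⟩

variable {L : Type} [Field L] [Algebra ℚ L] [Algebra L ℂ]

/-- The product pullbacks of the functions over `L` have series over `L`. -/
def ICorr.Rational (C : ICorr V V') (L : Type) [Field L] [Algebra ℚ L] [Algebra L ℂ] : Prop :=
  ∀ a : V.alg L, ∃ r : LaurentSeries L,
    HasExp (qp 1) (C.pull (V.funHom L a)) (coeffMap (algebraMap L ℂ) r)

theorem ICorr.mer_toMer_genHol (a : V.alg L) : C.mer (toMer (genHol a)) =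
    toMer ⟨C.pull (V.funHom L a), C.mdiff_pull (V.funHom_mem L a).1⟩ := by
  show ∏ i, merComp (C.good i) (toMer (genHol a)) = _
  simp only [merComp_toMer, ← map_prod]
  refine congrArg toMer (Subtype.ext (funext fun z => ?_))
  rw [SubmonoidClass.coe_finsetProd, Finset.prod_apply]
  rfl

theorem ICorr.exists_cpull (hC : C.Rational L) (f : V.fld L) :
    ∃ g : V'.fld L, theta g = C.mer (theta f) := by
  obtain ⟨a, b, hb, hab⟩ := V.exists_fraction L f
  have key : ∀ c : V.alg L, ∃ g : V'.fld L, theta g = C.mer (toMer (genHol c)) := fun c => by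
    obtain ⟨r, hr⟩ := hC c
    have hmem := C.pull_mem (V.funHom_mem L c)
    refine ⟨⟨r, V'.mem_fld_of_modFuns hmem r hr⟩, ?_⟩
    rw [C.mer_toMer_genHol]
    exact theta_eq_of_series hmem hr
  obtain ⟨ga, hga⟩ := key a
  obtain ⟨gb, hgb⟩ := key b
  have hne : C.mer (toMer (genHol b)) ≠ 0 :=
    Finset.prod_ne_zero_iff.2 fun i _ => (map_ne_zero _).2 fun h0 => hb (genHol_injective (by
      rw [map_zero]; exact toMer_injective (h0.trans (map_zero _).symm)))
  refine ⟨ga / gb, ?_⟩
  rw [map_div₀, hga, hgb, div_eq_iff hne, ← map_mul, ← theta_toFld, ← theta_toFld, ← map_mul, hab]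

/-- The value of the product pullback. -/
def ICorr.cpullFun (hC : C.Rational L) (f : V.fld L) : V'.fld L := (C.exists_cpull hC f).choose

theorem ICorr.theta_cpullFun (hC : C.Rational L) (f : V.fld L) :
    theta (C.cpullFun hC f) = C.mer (theta f) :=
  (C.exists_cpull hC f).choose_spec

theorem theta_inj {W : Lvl} {x y : W.fld L} (h : theta x = theta y) : x = y :=
  RingHom.injective (theta (V := W) (L := L)) h

/-- The product pullback on function fields. -/
def ICorr.cpull (hC : C.Rational L) : V.fld L →*₀ V'.fld L where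
  toFun := C.cpullFun hC
  map_zero' := theta_inj (W := V') ((C.theta_cpullFun hC 0).trans
    (((congrArg C.mer (theta (V := V) (L := L)).map_zero).trans (map_zero C.mer)).trans
      (theta (V := V') (L := L)).map_zero.symm))
  map_one' := theta_inj (W := V') ((C.theta_cpullFun hC 1).trans
    (((congrArg C.mer (theta (V := V) (L := L)).map_one).trans (map_one C.mer)).trans
      (theta (V := V') (L := L)).map_one.symm))
  map_mul' x y := theta_inj (W := V') ((C.theta_cpullFun hC (x * y)).trans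
    (((congrArg C.mer ((theta (V := V) (L := L)).map_mul x y)).trans (C.mer.map_mul _ _)).trans
      (((theta (V := V') (L := L)).map_mul (C.cpullFun hC x) (C.cpullFun hC y)).trans
        (congrArg₂ (· * ·) (C.theta_cpullFun hC x) (C.theta_cpullFun hC y))).symm))

theorem ICorr.theta_cpull (hC : C.Rational L) (f : V.fld L) :
    theta (C.cpull hC f) = C.mer (theta f) :=
  C.theta_cpullFun hC f

/-- The value on an element of `alg` is the series of the product. -/
theorem ICorr.coe_cpull_toFld (hC : C.Rational L) (a : V.alg L) {r : LaurentSeries L}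
    (hr : HasExp (qp 1) (C.pull (V.funHom L a)) (coeffMap (algebraMap L ℂ) r)) :
    (C.cpull hC (V.toFld L a) : LaurentSeries L) = r := by
  have hmem := C.pull_mem (V.funHom_mem L a)
  let g : V'.fld L := ⟨r, V'.mem_fld_of_modFuns hmem r hr⟩
  have hg : theta g = C.mer (toMer (genHol a)) :=
    (theta_eq_of_series (f := g) (R := ⟨C.pull (V.funHom L a), hmem.1⟩) hmem hr).trans
      (C.mer_toMer_genHol a).symm
  have hc : theta (C.cpull hC (V.toFld L a)) = C.mer (toMer (genHol a)) :=
    (C.theta_cpull hC _).trans (congrArg C.mer (theta_toFld a))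
  exact congrArg Subtype.val (theta_inj (hc.trans hg.symm))

end FA.NebLocal
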