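import Fermat.Agent.Level.Interp
import Fermat.Agent.HeckeH1.Delta

/-!
# Composites of modular functions with integral matrices, descent of expansions

An integral matrix of positive determinant acts on the upper half plane; composing a function with
expansions at all cusps with it gives again such a function.  An expansion in a root of the
parameter of a function with the smaller period is an expansion in the parameter.
-/

set_option autoImplicit false
set_option linter.unusedSectionVars false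

noncomputable section

namespace FA.NebLocal

open UpperHalfPlane hiding I
open Complex hiding Gamma
open ModularCurve FA.ModField FA.HeckeH1
open scoped MatrixGroups Manifold

/-- A rational matrix as a real one. -/
def glR : GL (Fin 2) ℚ →* GL (Fin 2) ℝ := Matrix.GeneralLinearGroup.map (Rat.castHom ℝ)

/-- The map of the upper half plane of a rational matrix. -/
def mob (g : GL (Fin 2) ℚ) (z : ℍ) : ℍ := glR g • z

theorem mob_mul (g h : GL (Fin 2) ℚ) (z : ℍ) : mob (g * h) z = mob g (mob h z) := by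
  rw [mob, mob, mob, map_mul, mul_smul]

theorem glR_glQ (γ : SL(2, ℤ)) : glR (glQ γ) = (γ : GL (Fin 2) ℝ) := by
  apply Units.ext
  ext i j
  simp [glR]

theorem mob_glQ (γ : SL(2, ℤ)) (z : ℍ) : mob (glQ γ) z = γ • z := by
  rw [mob, glR_glQ]; rfl

theorem glR_gl {X : MatZ} (hX : X.det ≠ 0) (i j : Fin 2) : (glR (gl X)).1 i j = (X i j : ℝ) := by
  show ((Matrix.GeneralLinearGroup.map (Rat.castHom ℝ) (gl X)).1 i j) = _
  simp [coe_gl hX]

theorem det_glR_pos {g : GL (Fin 2) ℚ} (hg : 0 < g.1.det) : 0 < (glR g).det.val := by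
  rw [Matrix.GeneralLinearGroup.val_det_apply]
  show 0 < (g.1.map (Rat.castHom ℝ)).det
  rw [← RingHom.mapMatrix_apply, ← RingHom.map_det]
  show (0 : ℝ) < ((g.1.det : ℚ) : ℝ)
  exact_mod_cast hg

theorem coe_mob {X : MatZ} (hX : 0 < X.det) (z : ℍ) :
    (mob (gl X) z : ℂ) = ((X 0 0 : ℂ) * z + X 0 1) / ((X 1 0 : ℂ) * z + X 1 1) := by
  rw [mob, coe_smul_of_det_pos (det_glR_pos (det_gl_pos hX))]
  simp [num, denom, glR_gl hX.ne']

theorem mdiff_comp_mob {f : ℍ → ℂ} (hf : MDiff f) {g : GL (Fin 2) ℚ} (hg : 0 < g.1.det) :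
    MDiff (fun z => f (mob g z)) :=
  hf.comp (mdifferentiable_smul (det_glR_pos hg))

/-- An integral matrix is a unimodular one times an upper triangular one. -/
theorem exists_upper_mat {X : MatZ} (hX : 0 < X.det) :
    ∃ (γ : SL(2, ℤ)) (a d : ℕ) (b : ℤ), 0 < a ∧ 0 < d ∧ (a * d : ℤ) = X.det ∧
      X = γ.1 * !![(a : ℤ), b; 0, (d : ℤ)] := by
  have hdet : X.det = X 0 0 * X 1 1 - X 0 1 * X 1 0 := Matrix.det_fin_two X
  set a := Int.gcd (X 0 0) (X 1 0) with ha
  have ha0 : 0 < a := by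
    rw [ha, Nat.pos_iff_ne_zero]
    intro h
    obtain ⟨h1, h2⟩ := Int.gcd_eq_zero_iff.1 h
    rw [hdet, h1, h2, zero_mul, mul_zero, sub_zero] at hX
    exact lt_irrefl _ hX
  obtain ⟨p, hp⟩ : (a : ℤ) ∣ X 0 0 := Int.gcd_dvd_left _ _
  obtain ⟨r, hr⟩ : (a : ℤ) ∣ X 1 0 := Int.gcd_dvd_right _ _
  obtain ⟨s, t, hst⟩ : ∃ s t : ℤ, p * s - t * r = 1 := by
    refine ⟨Int.gcdA (X 0 0) (X 1 0), -Int.gcdB (X 0 0) (X 1 0), ?_⟩
    have h := Int.gcd_eq_gcd_ab (X 0 0) (X 1 0)
    rw [← ha] at h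
    apply mul_left_cancel₀ (show (a : ℤ) ≠ 0 by exact_mod_cast ha0.ne')
    linear_combination -h - (Int.gcdA (X 0 0) (X 1 0)) * hp - (Int.gcdB (X 0 0) (X 1 0)) * hr
  have hd : (a : ℤ) * (p * X 1 1 - r * X 0 1) = X.det := by
    rw [hdet, hp, hr]; ring
  have hd0 : 0 < p * X 1 1 - r * X 0 1 := by
    have : (0 : ℤ) < a := by exact_mod_cast ha0
    nlinarith
  refine ⟨⟨!![p, t; r, s], by rw [Matrix.det_fin_two_of]; exact hst⟩, a,
    (p * X 1 1 - r * X 0 1).toNat, s * X 0 1 - t * X 1 1, ha0, by omega, ?_, ?_⟩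
  · rw [Int.toNat_of_nonneg hd0.le, hd]
  · ext i j
    fin_cases i <;> fin_cases j <;>
      simp [Matrix.mul_apply, Fin.sum_univ_two, Int.toNat_of_nonneg hd0.le]
    · rw [hp]; ring
    · linear_combination (-(X 0 1)) * hst
    · rw [hr]; ring
    · linear_combination (-(X 1 1)) * hst

/-- Composing with an upper triangular matrix raises and scales the parameter. -/
theorem qp_upper (M D : ℕ) [NeZero M] [NeZero D] {X : MatZ} {a d e : ℕ} {b : ℤ} (ha : 0 < a)
    (hd : 0 < d) (hX : X = !![(a : ℤ), b; 0, (d : ℤ)]) (hD : D = d * e) :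
    ∃ c : ℂˣ, ∀ z : ℍ, qp M (mob (gl X) z) = (c : ℂ) * qp (M * D) z ^ (a * e) := by
  refine ⟨Units.mk0 (cexp (2 * Real.pi * Complex.I * b / ((d : ℂ) * M))) (exp_ne_zero _), fun z => ?_⟩
  have hpos : 0 < X.det := by
    rw [hX, Matrix.det_fin_two_of]; simp; positivity
  rw [qp_eq, qp_eq, coe_mob hpos, Units.val_mk0, ← Complex.exp_nat_mul, ← Complex.exp_add]
  congr 1
  subst hX
  have hM : (M : ℂ) ≠ 0 := Nat.cast_ne_zero.2 (NeZero.ne M)
  have hd' : (d : ℂ) ≠ 0 := Nat.cast_ne_zero.2 hd.ne'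
  have he : (e : ℂ) ≠ 0 := Nat.cast_ne_zero.2 fun h => NeZero.ne D (by rw [hD, h, mul_zero])
  subst hD
  simp
  field_simp
  ring

/-- Expansions at all cusps are preserved by integral matrices of positive determinant. -/
theorem exists_hasExp_comp_mob {M : ℕ} [NeZero M] {f : ℍ → ℂ}
    (hf : ∀ γ : SL(2, ℤ), ∃ L, HasExp (qp M) (fun z => f (γ • z)) L) {D : ℕ} [NeZero D]
    {X : MatZ} (hX : X.det = D) :
    ∃ L, HasExp (qp (M * D)) (fun z => f (mob (gl X) z)) L := by
  have hpos : 0 < X.det := by rw [hX]; exact_mod_cast NeZero.pos D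
  obtain ⟨γ, a, d, b, ha, hd, hdet, he⟩ := exists_upper_mat hpos
  obtain ⟨L, hL⟩ := hf γ
  set U : MatZ := !![(a : ℤ), b; 0, (d : ℤ)] with hU
  have hUdet : U.det ≠ 0 := by rw [hU, Matrix.det_fin_two_of]; simp; omega
  have hD : D = d * a := by
    have : ((a * d : ℕ) : ℤ) = (D : ℤ) := by push_cast; rw [hdet, hX]
    rw [mul_comm d]; exact_mod_cast this.symm
  obtain ⟨c, hc⟩ := qp_upper M D ha hd hU hD
  have : NeZero (a * a) := ⟨by positivity⟩
  have h := hL.comp (U := qp (M * D)) (fun z => mob (gl U) z) (a * a) c hc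
  refine ⟨_, h.congr (funext fun z => ?_)⟩
  show f (γ • mob (gl U) z) = _
  rw [← mob_glQ, ← mob_mul, ← gl_coe, ← gl_mul (by rw [γ.2]; exact one_ne_zero) hUdet, ← he]

/-- A series in an `e`-th root of the parameter of a function of the smaller period. -/
theorem exists_descent_exp {M e : ℕ} [NeZero M] [NeZero e] {f : ℍ → ℂ} {L : LaurentSeries ℂ}
    (hf : HasExp (qp (M * e)) f L)
    (hper : ∀ z : ℍ, f ((ModularGroup.T ^ (M : ℤ)) • z) = f z) :
    ∃ L', L = qExpand ℂ e L' ∧ HasExp (qp M) f L' := by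
  set ζ : ℂˣ := zetaN e
  have hqp : ∀ z : ℍ, qp (M * e) ((ModularGroup.T ^ (M : ℤ)) • z) = (ζ : ℂ) * qp (M * e) z ^ 1 := by
    intro z
    show qp (M * e) _ = cexp (2 * Real.pi * Complex.I / e) * _
    rw [pow_one, qp_eq, qp_eq, modular_T_zpow_smul, ← Complex.exp_add]
    congr 1
    have hM : (M : ℂ) ≠ 0 := Nat.cast_ne_zero.2 (NeZero.ne M)
    have he : (e : ℂ) ≠ 0 := Nat.cast_ne_zero.2 (NeZero.ne e)
    simp
    field_simp
  have h1 := (hf.comp (U := qp (M * e)) (fun z => (ModularGroup.T ^ (M : ℤ)) • z) 1 ζ hqp).congr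
    (funext fun z => hper z)
  rw [qExpand_one_apply] at h1
  have h2 := h1.unique (covers_qp (M * e)) hf
  have hsupp : ∀ n : ℤ, L.coeff n ≠ 0 → (e : ℤ) ∣ n := by
    intro n hn
    have h3 := congrArg (fun s : LaurentSeries ℂ => s.coeff n) h2
    simp only [twist_coeff] at h3
    have h4 : ((ζ ^ n : ℂˣ) : ℂ) = 1 := mul_right_cancel₀ hn (h3.trans (one_mul _).symm)
    have h5 : ((ζ : ℂ)) ^ n = 1 := by rw [← h4, Units.val_zpow_eq_zpow_val]
    exact ((zetaN_prim e).zpow_eq_one_iff_dvd n).1 h5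
  let L' : LaurentSeries ℂ :=
    HahnSeries.ofSuppBddBelow (fun n => L.coeff ((e : ℤ) * n))
      ⟨min L.order 0, fun n hn => by
        by_contra hlt
        push Not at hlt
        refine hn (HahnSeries.coeff_eq_zero_of_lt_order ?_)
        have he : (1 : ℤ) ≤ e := by exact_mod_cast NeZero.one_le
        have h0 : n < 0 := lt_of_lt_of_le hlt (min_le_right _ _)
        have h0' : n < L.order := lt_of_lt_of_le hlt (min_le_left _ _)
        nlinarith⟩
  have heq : L = qExpand ℂ e L' := by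
    ext n
    by_cases hn : (e : ℤ) ∣ n
    · obtain ⟨k, rfl⟩ := hn
      rw [qExpand_coeff_mul]
      rfl
    · rw [qExpand_coeff_of_not_dvd e _ hn]
      by_contra h
      exact hn (hsupp n h)
  refine ⟨L', heq, fun z => ?_⟩
  have h3 := hf z
  rw [heq] at h3
  have hk : Function.Injective (fun n : ℤ => (e : ℤ) * n) :=
    mul_right_injective₀ (by exact_mod_cast NeZero.ne e)
  rw [← hk.hasSum_iff] at h3
  · refine h3.congr_fun fun n => ?_
    have hq : qp (M * e) z ^ e = qp M z := by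
      rw [qp_eq, qp_eq, ← Complex.exp_nat_mul]
      congr 1
      have hM : (M : ℂ) ≠ 0 := Nat.cast_ne_zero.2 (NeZero.ne M)
      have he : (e : ℂ) ≠ 0 := Nat.cast_ne_zero.2 (NeZero.ne e)
      push_cast
      field_simp
    simp [Function.comp_apply, qExpand_coeff_mul, zpow_mul, hq]
  · intro n hn
    rw [qExpand_coeff_of_not_dvd, zero_mul]
    rintro ⟨m, rfl⟩
    exact hn ⟨m, rfl⟩

end FA.NebLocal
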