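import Fermat.Agent.Level.Interp
import Mathlib.NumberTheory.ModularForms.EisensteinSeries.QExpansion
import Mathlib.NumberTheory.ModularForms.EisensteinSeries.IsBoundedAtImInfty
import Mathlib.NumberTheory.ModularForms.EisensteinSeries.MDifferentiable
import Mathlib.NumberTheory.TsumDivisorsAntidiagonal

/-!
# Weight four Eisenstein series with congruence conditions and the functions they give

`eisG P` sums `(c z + d)⁻⁴` over `(c, d)` reducing into `P`; with `P = {first entry = k}` it is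
invariant up to the diamond operators under `Γ₀(M)` and has a rational integral expansion.
-/

set_option autoImplicit false
set_option linter.unusedSectionVars false
set_option maxHeartbeats 1000000

noncomputable section

namespace FA.NebLocal

open UpperHalfPlane hiding I
open Complex EisensteinSeries CongruenceSubgroup ModularCurve FA.ModField
open scoped MatrixGroups Manifold Topology

variable (M : ℕ) [NeZero M]

/-- Reduction of a pair. -/
def red2 (x : Fin 2 → ℤ) : Fin 2 → ZMod M := fun i => (x i : ZMod M)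

/-- The weight four series of a set of residues. -/
def eisG (P : Set (Fin 2 → ZMod M)) (z : ℍ) : ℂ :=
  ∑' x : {x : Fin 2 → ℤ // red2 M x ∈ P}, eisSummand 4 x.1 z

theorem summable_eis (z : ℍ) : Summable fun x : Fin 2 → ℤ => eisSummand 4 x z :=
  (summable_norm_eisSummand (k := (4 : ℤ)) (by norm_num) z).of_norm

variable {M}

/-- The translate of a set of residues. -/
def pulled (g : SL(2, ℤ)) (P : Set (Fin 2 → ZMod M)) : Set (Fin 2 → ZMod M) :=
  {w | Matrix.vecMul w ((g⁻¹ : SL(2, ℤ)).1.map (Int.cast : ℤ → ZMod M)) ∈ P}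

theorem red2_vecMul (x : Fin 2 → ℤ) (A : Matrix (Fin 2) (Fin 2) ℤ) :
    red2 M (Matrix.vecMul x A) = Matrix.vecMul (red2 M x) (A.map (Int.cast : ℤ → ZMod M)) :=
  funext fun i => RingHom.map_vecMul (Int.castRingHom (ZMod M)) A x i

theorem eisG_smul (P : Set (Fin 2 → ZMod M)) (g : SL(2, ℤ)) (z : ℍ) :
    eisG M P (g • z) = denom g z ^ (4 : ℤ) * eisG M (pulled g P) z := by
  rw [eisG, eisG, ← tsum_mul_left]
  let e : {x : Fin 2 → ℤ // red2 M x ∈ P} ≃ {x : Fin 2 → ℤ // red2 M x ∈ pulled g P} :=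
    { toFun := fun x => ⟨Matrix.vecMul x.1 g.1, by
        show Matrix.vecMul (red2 M (Matrix.vecMul x.1 g.1)) _ ∈ P
        rw [← red2_vecMul, Matrix.vecMul_vecMul, ← Matrix.SpecialLinearGroup.coe_mul,
          mul_inv_cancel, Matrix.SpecialLinearGroup.coe_one, Matrix.vecMul_one]
        exact x.2⟩
      invFun := fun x => ⟨Matrix.vecMul x.1 (g⁻¹ : SL(2, ℤ)).1, by
        rw [red2_vecMul]; exact x.2⟩
      left_inv := fun x => Subtype.ext (by
        show Matrix.vecMul (Matrix.vecMul x.1 g.1) (g⁻¹ : SL(2, ℤ)).1 = x.1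
        rw [Matrix.vecMul_vecMul, ← Matrix.SpecialLinearGroup.coe_mul,
          mul_inv_cancel, Matrix.SpecialLinearGroup.coe_one, Matrix.vecMul_one])
      right_inv := fun x => Subtype.ext (by
        show Matrix.vecMul (Matrix.vecMul x.1 (g⁻¹ : SL(2, ℤ)).1) g.1 = x.1
        rw [Matrix.vecMul_vecMul, ← Matrix.SpecialLinearGroup.coe_mul,
          inv_mul_cancel, Matrix.SpecialLinearGroup.coe_one, Matrix.vecMul_one]) }
  rw [← e.tsum_eq (fun x => denom g z ^ (4 : ℤ) * eisSummand 4 x.1 z)]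
  exact tsum_congr fun x => eisSummand_SL2_apply 4 x.1 g z

theorem norm_eisG_le (P : Set (Fin 2 → ZMod M)) (z : ℍ) :
    ‖eisG M P z‖ ≤ ∑' x : Fin 2 → ℤ, ‖eisSummand 4 x z‖ := by
  have h := summable_norm_eisSummand (k := (4 : ℤ)) (by norm_num) z
  exact (norm_tsum_le_tsum_norm (h.subtype _)).trans
    (Summable.tsum_subtype_le (fun x : Fin 2 → ℤ => ‖eisSummand 4 x z‖) _ (fun _ => norm_nonneg _) h)

theorem pulled_T_pow (P : Set (Fin 2 → ZMod M)) (n : ℤ) :
    pulled (ModularGroup.T ^ ((M : ℤ) * n)) P = P := by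
  ext w
  show Matrix.vecMul w _ ∈ P ↔ _
  have h : ((ModularGroup.T ^ ((M : ℤ) * n))⁻¹ : SL(2, ℤ)).1.map (Int.cast : ℤ → ZMod M) = 1 := by
    rw [← zpow_neg, ModularGroup.coe_T_zpow]
    ext i j
    fin_cases i <;> fin_cases j <;> simp
  rw [h, Matrix.vecMul_one]

theorem eisG_T_pow (P : Set (Fin 2 → ZMod M)) (n : ℤ) (z : ℍ) :
    eisG M P (ModularGroup.T ^ ((M : ℤ) * n) • z) = eisG M P z := by
  rw [eisG_smul, pulled_T_pow, ModularGroup.denom_apply]
  simp [ModularGroup.coe_T_zpow]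

theorem isBoundedAtImInfty_eisG (P : Set (Fin 2 → ZMod M)) : IsBoundedAtImInfty (eisG M P) := by
  rw [UpperHalfPlane.isBoundedAtImInfty_iff]
  refine ⟨∑' x : Fin 2 → ℤ, r ⟨⟨M, 2⟩, Nat.ofNat_pos⟩ ^ (-(4 : ℤ)) * ‖x‖ ^ (-(4 : ℤ)), 2,
    fun z hz => ?_⟩
  obtain ⟨n, hn⟩ := ModularGroup_T_zpow_mem_verticalStrip z (NeZero.pos M)
  rw [← eisG_T_pow P n z]
  refine (norm_eisG_le P _).trans ?_
  apply (summable_norm_eisSummand (k := (4 : ℤ)) (by norm_num) _).tsum_le_tsum _
  · exact_mod_cast (summable_one_div_norm_rpow (k := ((4 : ℤ) : ℝ)) (by norm_num)).mul_left <|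
      r ⟨⟨M, 2⟩, Nat.ofNat_pos⟩ ^ (-(4 : ℤ))
  · intro x
    simp_rw [eisSummand, norm_zpow]
    exact_mod_cast summand_bound_of_mem_verticalStrip (k := ((4 : ℤ) : ℝ)) (by norm_num) x two_pos
      (verticalStrip_anti_right M hz hn)

theorem mdiff_eisG (P : Set (Fin 2 → ZMod M)) : MDiff (eisG M P) := by
  rw [UpperHalfPlane.mdifferentiable_iff]
  have h : TendstoLocallyUniformly
      (fun (s : Finset {x : Fin 2 → ℤ // red2 M x ∈ P}) (z : ℍ) => ∑ x ∈ s, eisSummand 4 x.1 z)
      (eisG M P) Filter.atTop := by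
    have p_sum : Summable fun x : {x : Fin 2 → ℤ // red2 M x ∈ P} => ‖x.1‖ ^ (-(4 : ℤ)) :=
      mod_cast (summable_one_div_norm_rpow (k := ((4 : ℤ) : ℝ)) (by norm_num)).subtype _
    simp only [tendstoLocallyUniformly_iff_forall_isCompact]
    intro K hK
    obtain ⟨A, B, hB, HABK⟩ := subset_verticalStrip_of_isCompact hK
    refine (tendstoUniformlyOn_tsum (hu := p_sum.mul_left <| r ⟨⟨A, B⟩, hB⟩ ^ (-((4 : ℤ) : ℝ)))
      (fun p z hz => ?_)).mono HABK
    simpa only [eisSummand, one_div, ← zpow_neg, norm_zpow, ← Real.rpow_intCast,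
      Int.cast_neg] using summand_bound_of_mem_verticalStrip (k := ((4 : ℤ) : ℝ))
        (by norm_num) p.1 hB hz
  have h' : TendstoLocallyUniformlyOn
      (fun s : Finset {x : Fin 2 → ℤ // red2 M x ∈ P} =>
        (fun z : ℍ => ∑ x ∈ s, eisSummand 4 x.1 z) ∘ ofComplex)
      (eisG M P ∘ ofComplex) Filter.atTop {z : ℂ | 0 < z.im} := by
    rw [← upperHalfPlaneSet, ← range_coe, ← Set.image_univ]
    apply TendstoLocallyUniformlyOn.comp (s := ⊤) _ _ _ (OpenPartialHomeomorph.continuousOn_symm _)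
    · simp only [Set.top_eq_univ, tendstoLocallyUniformlyOn_univ]
      exact h
    · simp only [Topology.IsOpenEmbedding.toOpenPartialHomeomorph_target, Set.top_eq_univ,
        Set.mapsTo_range_iff, Set.mem_univ, forall_const]
  refine h'.differentiableOn (Filter.Eventually.of_forall fun s => ?_) isOpen_upperHalfPlaneSet
  have h2 := DifferentiableOn.fun_sum (u := s) fun x _ =>
    eisSummand_extension_differentiableOn 4 x.1
  exact h2

theorem exists_hasExp_eisG (P : Set (Fin 2 → ZMod M)) : ∃ L, HasExp (qp M) (eisG M P) L := by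
  have hM : (0 : ℝ) < M := by exact_mod_cast NeZero.pos M
  refine ⟨_, hasExp_ofPowerSeries (P := qExpansion (M : ℝ) (eisG M P)) fun z => ?_⟩
  have hper : Function.Periodic (eisG M P ∘ ofComplex) ((M : ℝ) : ℂ) := by
    intro w
    rcases lt_or_ge 0 w.im with hw | hw
    · have hw' : 0 < (w + ((M : ℝ) : ℂ)).im := by simpa using hw
      simp only [Function.comp_apply, ofComplex_apply_of_im_pos hw, ofComplex_apply_of_im_pos hw']
      conv_rhs => rw [← eisG_T_pow P 1 ⟨w, hw⟩]
      congr 1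
      rw [modular_T_zpow_smul]
      ext
      simp [add_comm]
    · have hw' : (w + ((M : ℝ) : ℂ)).im ≤ 0 := by simpa using hw
      simp only [Function.comp_apply, ofComplex_apply_eq_of_im_nonpos hw' hw]
  simpa [qp, smul_eq_mul] using hasSum_qExpansion hM hper (mdiff_eisG P)
    (isBoundedAtImInfty_eisG P) z

/-! ### The series of a residue of the first entry -/

variable (M)

/-- Pairs with first entry `k`. -/
def firstIs (k : ZMod M) : Set (Fin 2 → ZMod M) := {w | w 0 = k}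

/-- How often `±c` is `k`. -/
def hits (k : ZMod M) (c : ℕ) : ℕ :=
  (if (c : ZMod M) = k then 1 else 0) + if -(c : ZMod M) = k then 1 else 0

/-- The expansion coefficients. -/
def gCoeff (k : ZMod M) (n : ℕ) : ℕ :=
  ∑ x ∈ n.divisorsAntidiagonal, hits M k x.1 * x.2 ^ 3

/-- The constant. -/
def eisConst : ℂ := (-2 * Real.pi * I) ^ 4 / (Nat.factorial 3)

theorem eisConst_ne_zero : eisConst ≠ 0 := by
  unfold eisConst
  simp [Real.pi_ne_zero, I_ne_zero, Nat.factorial_ne_zero]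

variable {M}

theorem tsum_line {c : ℕ+} (z : ℍ) :
    (∑' d : ℤ, eisSummand 4 ![(c : ℤ), d] z) =
      eisConst * ∑' n : ℕ+, (n : ℂ) ^ 3 * qp 1 z ^ ((c : ℕ) * n) := by
  have h := qExpansion_identity_pnat (k := 3) (by norm_num)
    ⟨(c : ℂ) * z, by simpa using mul_pos (Nat.cast_pos.2 c.pos) z.im_pos⟩
  rw [show (∑' d : ℤ, eisSummand 4 ![(c : ℤ), d] z) =
    ∑' d : ℤ, 1 / (((c : ℂ) * z) + d) ^ (3 + 1) from tsum_congr fun d => by
      simp [eisSummand, zpow_neg, one_div]]
  refine h.trans ?_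
  unfold eisConst
  congr 1
  refine tsum_congr fun n => ?_
  congr 1
  rw [qp_eq, ← Complex.exp_nat_mul, ← Complex.exp_nat_mul]
  congr 1
  push_cast
  ring

theorem tsum_line_neg (c : ℤ) (z : ℍ) :
    (∑' d : ℤ, eisSummand 4 ![-c, d] z) = ∑' d : ℤ, eisSummand 4 ![c, d] z := by
  rw [← (Equiv.neg ℤ).tsum_eq fun d => eisSummand 4 ![-c, d] z]
  refine tsum_congr fun d => ?_
  simp only [eisSummand, Equiv.neg_apply, Matrix.cons_val_zero, Matrix.cons_val_one, Int.cast_neg]
  rw [show -(c : ℂ) * z + -(d : ℂ) = -((c : ℂ) * z + d) by ring,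
    Even.neg_zpow (by decide : Even (-4 : ℤ))]

theorem eisG_firstIs (k : ZMod M) (hk : k ≠ 0) (z : ℍ) :
    eisG M (firstIs M k) z = eisConst *
      ∑' x : ℕ+ × ℕ+, (hits M k x.1 : ℂ) * ((x.2 : ℂ) ^ 3 * qp 1 z ^ ((x.1 : ℕ) * x.2)) := by
  classical
  set F : ℤ × ℤ → ℂ := fun x =>
    if (x.1 : ZMod M) = k then eisSummand 4 ![x.1, x.2] z else 0 with hF
  have hsum0 : Summable fun x : ℤ × ℤ => eisSummand 4 ![x.1, x.2] z :=
    summable_prod_eisSummand (k := 4) (by norm_num) z
  have hFs : Summable F := Summable.of_norm_bounded hsum0.norm fun x => by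
    rw [hF]; dsimp only; split_ifs <;> simp
  have h1 : eisG M (firstIs M k) z = ∑' x : ℤ × ℤ, F x := by
    refine (tsum_subtype {x : Fin 2 → ℤ | red2 M x ∈ firstIs M k} (fun x => eisSummand 4 x z)).trans ?_
    rw [← (finTwoArrowEquiv ℤ).symm.tsum_eq]
    refine tsum_congr fun x => ?_
    rw [Set.indicator_apply]
    simp [hF, firstIs, red2, finTwoArrowEquiv]
  rw [h1, hFs.tsum_prod]
  set g : ℤ → ℂ := fun c => ∑' d : ℤ, F (c, d) with hg
  have hgs : Summable g := hFs.prod
  have hg' : ∀ c : ℤ, g c =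
      if (c : ZMod M) = k then ∑' d : ℤ, eisSummand 4 ![c, d] z else 0 := fun c => by
    rw [hg]; dsimp only [hF]; split_ifs with h <;> simp [hF, h]
  have hsq : Summable fun x : ℕ+ × ℕ+ =>
      (x.2 : ℂ) ^ 3 * qp 1 z ^ ((x.1 : ℕ) * x.2) :=
    summable_prod_mul_pow 3 (norm_qp_lt_one 1 z)
  have hH : Summable fun x : ℕ+ × ℕ+ =>
      (hits M k x.1 : ℂ) * ((x.2 : ℂ) ^ 3 * qp 1 z ^ ((x.1 : ℕ) * x.2)) := by
    refine Summable.of_norm_bounded (hsq.norm.mul_left 2) fun x => ?_
    rw [norm_mul]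
    refine mul_le_mul_of_nonneg_right ?_ (norm_nonneg _)
    rw [Complex.norm_natCast]
    unfold hits
    split_ifs <;> norm_num
  have h0 : g 0 = 0 := by rw [hg', Int.cast_zero, if_neg (Ne.symm hk)]
  have hpos : Summable fun n : ℕ => g n := hgs.comp_injective Nat.cast_injective
  have hneg : Summable fun n : ℕ => g (-((n : ℤ) + 1)) :=
    hgs.comp_injective fun a b h => by simpa using h
  rw [tsum_of_nat_of_neg_add_one hpos hneg]
  rw [← tsum_zero_pnat_eq_tsum_nat hpos, Nat.cast_zero, h0, zero_add,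
    ← tsum_pnat_eq_tsum_succ (f := fun n : ℕ => g (-(n : ℤ))) |>.trans
      (tsum_congr fun n => by simp),
    hH.tsum_prod, ← tsum_mul_left]
  have hp : Summable fun c : ℕ+ => g (c : ℕ) := hpos.comp_injective PNat.coe_injective
  have hn : Summable fun c : ℕ+ => g (-((c : ℕ) : ℤ)) :=
    hgs.comp_injective fun a b h => PNat.coe_injective (by simpa using h)
  rw [← hp.tsum_add hn]
  refine tsum_congr fun c => ?_
  rw [hg', hg', tsum_line_neg]
  dsimp only
  rw [tsum_mul_left]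
  simp only [Int.cast_natCast, Int.cast_neg, tsum_line, hits, Nat.cast_add, Nat.cast_ite,
    Nat.cast_one, Nat.cast_zero]
  split_ifs <;> ring

theorem hasExp_eisG_firstIs (k : ZMod M) (hk : k ≠ 0) :
    HasExp (qp 1) (fun z => eisG M (firstIs M k) z / eisConst)
      (HahnSeries.ofPowerSeries ℤ ℂ
        ((PowerSeries.mk fun n => (gCoeff M k n : ℤ)).map (Int.castRingHom ℂ))) := by
  refine hasExp_ofPowerSeries fun z => ?_
  simp only [PowerSeries.coeff_map, PowerSeries.coeff_mk, eq_intCast, Int.cast_natCast]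
  rw [eisG_firstIs k hk, mul_div_cancel_left₀ _ eisConst_ne_zero]
  set q := qp 1 z
  have hsq : Summable fun x : ℕ+ × ℕ+ => (x.2 : ℂ) ^ 3 * q ^ ((x.1 : ℕ) * x.2) :=
    summable_prod_mul_pow 3 (norm_qp_lt_one 1 z)
  have hs : Summable fun x : ℕ+ × ℕ+ =>
      (hits M k x.1 : ℂ) * ((x.2 : ℂ) ^ 3 * q ^ ((x.1 : ℕ) * x.2)) := by
    refine Summable.of_norm_bounded (hsq.norm.mul_left 2) fun x => ?_
    rw [norm_mul]
    refine mul_le_mul_of_nonneg_right ?_ (norm_nonneg _)
    rw [Complex.norm_natCast]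
    unfold hits
    split_ifs <;> norm_num
  have h := (sigmaAntidiagonalEquivProd.hasSum_iff.2 hs.hasSum).sigma fun n => hasSum_fintype _
  refine (PNat.coe_injective.hasSum_iff fun n hn => ?_).1 (h.congr_fun fun n => ?_)
  · rcases Nat.eq_zero_or_pos n with rfl | hn0
    · simp [gCoeff]
    · exact absurd ⟨⟨n, hn0⟩, rfl⟩ hn
  · simp only [Function.comp_apply, sigmaAntidiagonalEquivProd, divisorsAntidiagonalFactors,
      PNat.mk_coe, Equiv.coe_fn_mk, gCoeff]
    rw [Nat.cast_sum, Finset.sum_mul, ← Finset.sum_coe_sort]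
    refine Finset.sum_congr rfl fun x _ => ?_
    rw [(Nat.mem_divisorsAntidiagonal.1 x.2).1, Nat.cast_mul, Nat.cast_pow, mul_assoc]

theorem gCoeff_one (k : ZMod M) : gCoeff M k 1 = hits M k 1 := by
  simp [gCoeff, Nat.divisorsAntidiagonal_one]

end FA.NebLocal
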