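import Fermat.Agent.NebLocal.Residual
import Mathlib.RingTheory.RootsOfUnity.EnoughRootsOfUnity

/-!
# Kummer elements in the residual extension

The Frobenius of coefficients fixes the reduced roots, so it commutes with the conjugations of
`K₀(s̄₁)` over `K₀`; for `p ∣ q - 1` it then fixes the class of every `p`-th power of the extension
which lies in `K₀`.
-/

set_option autoImplicit false
set_option linter.style.haveILetI false
set_option linter.unusedSectionVars false

noncomputable section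

namespace FA.NebLocal

open ModularCurve FA.ModField Polynomial

section kummer

variable {L k : Type} [Field L] [Field k] {A : ValuationSubring L} {π : A →+* k}
  {F₀ F : IntermediateField L (LaurentSeries L)} {K₀ : IntermediateField k (LaurentSeries k)}
  {U : Type} [Fintype U] [DecidableEq U] (D : SplitExt π F₀ F K₀ U)

local notation "ρ" => coeffMap π

theorem aeval_conj {u : U} (hu : InCls D u) {P Q : (K₀)[X]}
    (h : aeval (ρ (D.s D.u1)) P = aeval (ρ (D.s D.u1)) Q) :
    aeval (ρ (D.s u)) P = aeval (ρ (D.s u)) Q := by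
  obtain ⟨R, hR⟩ := minpoly.dvd K₀ (ρ (D.s D.u1)) (p := P - Q) (by rw [map_sub, h, sub_self])
  rw [← sub_eq_zero, ← map_sub, hR, map_mul, show aeval (ρ (D.s u)) _ = 0 from hu, zero_mul]

theorem exists_aeval_eq {x : LaurentSeries k} (hx : x ∈ topK D) :
    ∃ Q : (K₀)[X], aeval (ρ (D.s D.u1)) Q = x := by
  have h : x ∈ (IntermediateField.adjoin K₀ {coeffMap π (D.s D.u1)}).toSubalgebra := hx
  rw [IntermediateField.adjoin_simple_toSubalgebra_of_isAlgebraic (isIntegral_gen D).isAlgebraic,
    Algebra.adjoin_singleton_eq_range_aeval] at h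
  exact h

theorem hbar_map : ((hW D).map (downW D)).map (algebraMap K₀ (LaurentSeries k)) =
    ∏ u, (X - C (ρ (D.s u))) := by
  rw [Polynomial.map_map, show (algebraMap K₀ (LaurentSeries k)).comp (downW D) =
    (coeffMap π).comp (baseW F₀ A).subtype from RingHom.ext fun _ => rfl, ← Polynomial.map_map,
    hW_map, Polynomial.map_prod]
  simp

/-- The base consists of the elements of the extension fixed by all conjugations. -/
theorem mem_of_conj_fix {x : LaurentSeries k} {Q : (K₀)[X]}
    (hfix : ∀ u, InCls D u → aeval (ρ (D.s u)) Q = x) : x ∈ K₀ := by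
  classical
  set m := minpoly K₀ (ρ (D.s D.u1)) with hm
  have hmon : m.Monic := minpoly.monic (isIntegral_gen D)
  have hmne : m ≠ 1 := minpoly.ne_one _ _
  set R := Q %ₘ m
  have hR : ∀ u, InCls D u → aeval (ρ (D.s u)) R = x := fun u hu => by
    rw [← hfix u hu]
    conv_rhs => rw [← modByMonic_add_div Q m]
    rw [map_add, map_mul, show aeval (ρ (D.s u)) m = 0 from hu, zero_mul, add_zero]
  set S := (Finset.univ.filter fun u => InCls D u).image fun u => ρ (D.s u)
  have hcard : m.natDegree ≤ S.card := by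
    have hdvd : m.map (algebraMap K₀ (LaurentSeries k)) ∣ ∏ u, (X - C (ρ (D.s u))) := by
      rw [← hbar_map]
      exact Polynomial.map_dvd _ (minpoly.dvd K₀ _ (aeval_hbar D _))
    have hsplit : (m.map (algebraMap K₀ (LaurentSeries k))).Splits :=
      (Polynomial.Splits.prod fun u _ => Polynomial.Splits.X_sub_C _).of_dvd
        (monic_prod_X_sub_C _ _).ne_zero hdvd
    have hsep : (∏ u, (X - C (ρ (D.s u)))).Separable :=
      separable_prod_X_sub_C_iff.2 D.inj
    rw [← hmon.natDegree_map (algebraMap K₀ (LaurentSeries k)), hsplit.natDegree_eq_card_roots,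
      ← Multiset.toFinset_card_of_nodup (nodup_roots (hsep.of_dvd hdvd))]
    refine Finset.card_le_card fun r hr => ?_
    rw [Multiset.mem_toFinset, mem_roots (Polynomial.map_monic_ne_zero hmon)] at hr
    have h0 : (∏ u, (X - C (ρ (D.s u)))).eval r = 0 := eval_eq_zero_of_dvd_of_eval_eq_zero hdvd hr
    rw [eval_prod, Finset.prod_eq_zero_iff] at h0
    obtain ⟨u, -, hu⟩ := h0
    rw [eval_sub, eval_X, eval_C, sub_eq_zero] at hu
    refine Finset.mem_image.2 ⟨u, Finset.mem_filter.2 ⟨Finset.mem_univ u, ?_⟩, hu.symm⟩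
    show aeval (ρ (D.s u)) m = 0
    rw [← hu, aeval_def, ← eval_map]
    exact hr
  have hdeg : R.natDegree < m.natDegree := natDegree_modByMonic_lt Q hmon hmne
  have hz : R.map (algebraMap K₀ (LaurentSeries k)) - C x = 0 := by
    refine eq_zero_of_natDegree_lt_card_of_eval_eq_zero' _ S (fun r hr => ?_) ?_
    · obtain ⟨u, hu, rfl⟩ := Finset.mem_image.1 hr
      rw [eval_sub, eval_C, eval_map, ← aeval_def, hR u (Finset.mem_filter.1 hu).2, sub_self]
    · refine lt_of_lt_of_le ((natDegree_sub_le _ _).trans_lt (max_lt ?_ ?_)) hcard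
      · exact natDegree_map_le.trans_lt hdeg
      · rw [natDegree_C]; exact lt_of_le_of_lt (Nat.zero_le _) hdeg
  have h0 := congrArg (fun P => coeff P 0) hz
  simp only [coeff_sub, coeff_map, coeff_C_zero, coeff_zero, sub_eq_zero] at h0
  rw [← h0]
  exact (R.coeff 0).2

section theta

variable {q : ℕ} [hq : Fact q.Prime] [CharP k q]

/-- The Frobenius of coefficients on series. -/
abbrev serFrob : LaurentSeries k →+* LaurentSeries k := coeffMap (frobenius k q)

variable (hθK : ∀ x ∈ K₀, serFrob (q := q) x ∈ K₀)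
  (hθs : ∀ u, serFrob (q := q) (coeffMap π (D.s u)) = coeffMap π (D.s u))

/-- The Frobenius on the base. -/
def baseFrob : K₀ →+* K₀ :=
  ((serFrob (q := q)).comp K₀.val.toRingHom).codRestrict K₀ fun x => hθK _ x.2

include hθs in
theorem serFrob_aeval (u : U) (Q : (K₀)[X]) :
    serFrob (q := q) (aeval (ρ (D.s u)) Q) = aeval (ρ (D.s u)) (Q.map (baseFrob hθK)) := by
  rw [aeval_def, aeval_def, hom_eval₂, eval₂_map, hθs]
  rfl

include hθK hθs in
theorem serFrob_mem_topK {x : LaurentSeries k} (hx : x ∈ topK D) :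
    serFrob (q := q) x ∈ topK D := by
  obtain ⟨Q, rfl⟩ := exists_aeval_eq D hx
  rw [serFrob_aeval D hθK hθs]
  exact aeval_mem_topK D _

/-- Roots of unity of order dividing `q - 1` are fixed. -/
theorem serFrob_root [IsAlgClosed k] {p : ℕ} (hp : p ≠ 0) (hpq : p ∣ q - 1)
    {ζ : LaurentSeries k} (hζ : ζ ^ p = 1) : serFrob (q := q) ζ = ζ := by
  haveI : NeZero (p : k) := ⟨fun h => by
    have h1 := (CharP.cast_eq_zero_iff k q p).1 h
    have h2 := Nat.le_of_dvd (Nat.sub_pos_of_lt hq.out.one_lt) hpq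
    have h3 := Nat.le_of_dvd (Nat.pos_of_ne_zero hp) h1
    omega⟩
  haveI : NeZero p := ⟨hp⟩
  obtain ⟨μ, hμ⟩ := HasEnoughRootsOfUnity.exists_primitiveRoot k p
  obtain ⟨i, -, rfl⟩ := (hμ.map_of_injective
    (HahnSeries.C_injective (Γ := ℤ) (R := k))).eq_pow_of_pow_eq_one hζ
  rw [map_pow, serFrob, coeffMap_C, frobenius_def]
  congr 2
  obtain ⟨t, ht⟩ := hpq
  have hq1 : q = p * t + 1 := by have := hq.out.pos; omega
  rw [hq1, pow_succ, pow_mul, hμ.pow_eq_one, one_pow, one_mul]

include hθK hθs in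
/-- **The Frobenius fixes the Kummer classes of the extension.** -/
theorem exists_frob_kummer [IsAlgClosed k] {p : ℕ} (hp : p ≠ 0) (hpq : p ∣ q - 1)
    {h : LaurentSeries k} (hh : h ∈ topK D) (h0 : h ≠ 0) (hpow : h ^ p ∈ K₀) :
    ∃ w ∈ K₀, w ≠ 0 ∧ serFrob (q := q) (h ^ p) = h ^ p * w ^ p := by
  have hθh : serFrob (q := q) h ≠ 0 := (_root_.map_ne_zero _).2 h0
  set v := serFrob (q := q) h / h with hv
  have hvmem : v ∈ topK D := div_mem (serFrob_mem_topK D hθK hθs hh) hh
  obtain ⟨Q, hQ⟩ := exists_aeval_eq D hh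
  obtain ⟨V, hV⟩ := exists_aeval_eq D hvmem
  refine ⟨v, mem_of_conj_fix D (Q := V) fun u hu => ?_, div_ne_zero hθh h0, ?_⟩
  · have h1 : aeval (ρ (D.s u)) Q ^ p = h ^ p := by
      have h2 := aeval_conj D hu (P := Q ^ p) (Q := C (⟨_, hpow⟩ : K₀))
        (by rw [map_pow, hQ, aeval_C]; rfl)
      rw [map_pow, aeval_C] at h2
      exact h2
    set ζ := aeval (ρ (D.s u)) Q / h with hζdef
    have hζ : ζ ^ p = 1 := by rw [div_pow, h1, div_self (pow_ne_zero _ h0)]
    have hQu : aeval (ρ (D.s u)) Q = ζ * h := by rw [hζdef, div_mul_cancel₀ _ h0]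
    have hζ0 : ζ ≠ 0 := fun h => by rw [h, zero_pow hp] at hζ; exact zero_ne_one hζ
    have h3 := aeval_conj D hu (P := V * Q) (Q := Q.map (baseFrob hθK)) (by
      rw [map_mul, hV, hQ, ← serFrob_aeval D hθK hθs, hQ, hv, div_mul_cancel₀ _ h0])
    rw [map_mul, ← serFrob_aeval D hθK hθs, hQu, map_mul, serFrob_root hp hpq hζ] at h3
    rw [hv, eq_div_iff h0]
    refine mul_left_cancel₀ hζ0 ?_
    rw [← h3]; ring
  · rw [map_pow, hv, div_pow, mul_div_cancel₀ _ (pow_ne_zero _ h0)]

end theta

end kummer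

end FA.NebLocal
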