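import Mathlib.RingTheory.SimpleModule.Basic
import Mathlib.LinearAlgebra.Matrix.Charpoly.Coeff
import Mathlib.LinearAlgebra.Span.Basic

/-!
# An element with a single eigenvalue on an orbit

A vector satisfying the relation of degree two of an absolutely irreducible representation has no
orbit on which an element with two distinct eigenvalues is scalar.
-/

set_option autoImplicit false

namespace FA.NebLocal

variable {k G W : Type*} [Field k] [Group G] [AddCommGroup W] [Module k W]

/-- A multiplicative linear form on two by two matrices vanishes. -/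
theorem form_mat2_eq_zero (L : Matrix (Fin 2) (Fin 2) k →ₗ[k] k)
    (h : ∀ X Y, L (X * Y) = L X * L Y) : L = 0 := by
  have hoff : ∀ i j : Fin 2, i ≠ j → L (Matrix.single i j 1) = 0 := fun i j hij => by
    have h2 := h (Matrix.single i j 1) (Matrix.single i j 1)
    rw [Matrix.single_mul_single_of_ne _ _ _ _ hij.symm, map_zero] at h2
    exact mul_self_eq_zero.1 h2.symm
  have hall : ∀ i j : Fin 2, L (Matrix.single i j 1) = 0 := fun i j => by
    by_cases hij : i = j
    · subst hij
      obtain ⟨l, hl⟩ := exists_ne i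
      have h2 := h (Matrix.single i l 1) (Matrix.single l i 1)
      rw [Matrix.single_mul_single_same, mul_one, hoff i l hl.symm, zero_mul] at h2
      exact h2
    · exact hoff i j hij
  refine LinearMap.ext fun X => ?_
  rw [Matrix.matrix_eq_sum_single X, map_sum, LinearMap.zero_apply]
  refine Finset.sum_eq_zero fun i _ => ?_
  rw [map_sum]
  refine Finset.sum_eq_zero fun j _ => ?_
  rw [show Matrix.single i j (X i j) = X i j • Matrix.single i j (1 : k) by
    rw [Matrix.smul_single, smul_eq_mul, mul_one], map_smul, hall, smul_zero]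

/-- **No orbit on which an element with distinct eigenvalues is killed by one factor.** -/
theorem false_of_orbit (ρ : G →* Module.End k W) (rb : G →* Matrix (Fin 2) (Fin 2) k)
    (hspan : Submodule.span k (Set.range rb) = ⊤) {v : W} (hv : v ≠ 0) (φ : G) {u : k}
    (hu : u * u - (rb φ).trace * u + 1 = 0) (hdet : (rb φ).det = 1)
    (h2 : 2 * u - (rb φ).trace ≠ 0)
    (hrel : ∀ τ, ρ τ (ρ τ v) - (rb τ).trace • ρ τ v + (rb τ).det • v = 0)
    (hkill : ∀ g, u • ρ φ (ρ φ (ρ g v)) - (1 + u) • ρ φ (ρ g v) + ρ g v = 0) : False := by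
  set t := (rb φ).trace with ht
  have hu0 : u ≠ 0 := fun h => by
    rw [h, zero_mul, mul_zero, sub_zero, zero_add] at hu
    exact one_ne_zero hu
  have hu1 : u ≠ 1 := fun h => by
    subst h
    refine h2 ?_
    linear_combination hu
  have hinv : ∀ g, rb g⁻¹ * rb g = 1 := fun g => by rw [← map_mul, inv_mul_cancel, map_one]
  have hdet0 : ∀ g, (rb g).det ≠ 0 := fun g => by
    intro h0
    have := congrArg Matrix.det (hinv g)
    rw [Matrix.det_mul, h0, mul_zero, Matrix.det_one] at this
    exact one_ne_zero this.symm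
  -- the relation on the whole orbit
  have hrel' : ∀ τ g, ρ τ (ρ τ (ρ g v)) - (rb τ).trace • ρ τ (ρ g v) + (rb τ).det • ρ g v = 0 := by
    intro τ g
    have h := congrArg (ρ g) (hrel (g⁻¹ * τ * g))
    have hi : rb g * rb g⁻¹ = 1 := by rw [← map_mul, mul_inv_cancel, map_one]
    have htr : (rb (g⁻¹ * τ * g)).trace = (rb τ).trace := by
      rw [map_mul, map_mul, Matrix.trace_mul_cycle, hi, one_mul]
    have hd : (rb (g⁻¹ * τ * g)).det = (rb τ).det := by
      rw [map_mul, map_mul, Matrix.det_mul, Matrix.det_mul, mul_comm (rb g⁻¹).det, mul_assoc,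
        ← Matrix.det_mul, hinv, Matrix.det_one, mul_one]
    have e : ∀ w, ρ g (ρ (g⁻¹ * τ * g) w) = ρ τ (ρ g w) := fun w => by
      rw [← Module.End.mul_apply, ← map_mul, ← Module.End.mul_apply, ← map_mul]
      congr 2
      group
    rw [htr, hd, map_add, map_sub, map_smul, map_smul, map_zero, e, e] at h
    exact h
  -- the element is a scalar on the orbit
  have hF : ∀ g, u • ρ φ (ρ g v) = ρ g v := fun g => by
    have hr := hrel' φ g
    rw [hdet, one_smul] at hr
    have hmul : (1 - u) • (u • ρ φ (ρ g v) - ρ g v) = (0 : W) := by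
      have h := congrArg₂ (· - ·) (congrArg (u • ·) hr) (hkill g)
      simp only [smul_zero, sub_zero, smul_add, smul_sub, smul_smul] at h
      have hut : u * t = u * u + 1 := by linear_combination -hu
      rw [← h, ← ht, hut]
      module
    exact sub_eq_zero.1 ((smul_eq_zero.1 hmul).resolve_left (sub_ne_zero.2 (Ne.symm hu1)))
  have hFi : ∀ g, ρ φ (ρ g v) = u⁻¹ • ρ g v := fun g => by
    conv_rhs => rw [← hF g]
    rw [inv_smul_smul₀ hu0]
  have hab : u - u⁻¹ ≠ 0 := fun h => by
    refine h2 ((mul_eq_zero.1 ?_).resolve_left hu0)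
    have : u * u = 1 := by
      have := congrArg (u * ·) h
      simp only [mul_sub, mul_inv_cancel₀ hu0, mul_zero] at this
      exact sub_eq_zero.1 this
    linear_combination hu + this
  let L : Matrix (Fin 2) (Fin 2) k →ₗ[k] k :=
    (u - u⁻¹)⁻¹ • ((Matrix.traceLinearMap (Fin 2) k k).comp (LinearMap.mulLeft k (rb φ)) -
      u⁻¹ • Matrix.traceLinearMap (Fin 2) k k)
  have hLX : ∀ X, L X = (u - u⁻¹)⁻¹ * ((rb φ * X).trace - u⁻¹ * X.trace) := fun X => rfl
  have hkey : ∀ g, L (rb g) • ρ g v = (rb g).det • v := fun g => by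
    have h1 := hrel (φ * g)
    rw [map_mul rb, Matrix.det_mul, hdet, one_mul, map_mul ρ, Module.End.mul_apply,
      Module.End.mul_apply, hFi g, map_smul] at h1
    have e : ρ g (ρ g v) = ρ (g * g) v := by rw [map_mul, Module.End.mul_apply]
    rw [e, map_smul, hFi (g * g), ← e, eq_add_of_sub_eq (eq_neg_of_add_eq_zero_left (hrel g))] at h1
    have hmul : (u - u⁻¹) • (L (rb g) • ρ g v - (rb g).det • v) = (0 : W) := by
      rw [smul_sub, hLX, smul_smul, ← mul_assoc, mul_inv_cancel₀ hab, one_mul]
      have h3 := congrArg (fun w => (-u) • w) h1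
      simp only [smul_zero] at h3
      rw [← h3]
      match_scalars <;> field_simp <;> ring
    exact sub_eq_zero.1 ((smul_eq_zero.1 hmul).resolve_left hab)
  have hL0 : ∀ g, L (rb g) ≠ 0 := fun g h0 => by
    have := hkey g
    rw [h0, zero_smul] at this
    exact (smul_eq_zero.1 this.symm).elim (hdet0 g) hv
  have hscal : ∀ g, ρ g v = ((L (rb g))⁻¹ * (rb g).det) • v := fun g => by
    rw [mul_smul, ← hkey g, inv_smul_smul₀ (hL0 g)]
  have hmulL : ∀ g h, L (rb (g * h)) = L (rb g) * L (rb h) := fun g h => by
    have e : ρ (g * h) v = ρ g (ρ h v) := by rw [map_mul, Module.End.mul_apply]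
    rw [hscal, hscal h, map_smul, hscal g, smul_smul] at e
    have e2 := smul_left_injective k hv e
    rw [map_mul rb] at e2 ⊢
    rw [Matrix.det_mul] at e2
    have := hL0 (g * h)
    rw [map_mul] at this
    have := hL0 g
    have := hL0 h
    have := hdet0 g
    have := hdet0 h
    field_simp at e2
    linear_combination -e2
  have h1 : ∀ g (Y : Matrix (Fin 2) (Fin 2) k), L (rb g * Y) = L (rb g) * L Y := fun g => by
    have : L.comp (LinearMap.mulLeft k (rb g)) = L (rb g) • L :=
      LinearMap.ext_on_range hspan fun h => by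
        show L (rb g * rb h) = L (rb g) * L (rb h)
        rw [← map_mul]; exact hmulL g h
    exact fun Y => LinearMap.congr_fun this Y
  have h2' : ∀ X Y, L (X * Y) = L X * L Y := fun X Y => by
    have : L.comp (LinearMap.mulRight k Y) = L Y • L :=
      LinearMap.ext_on_range hspan fun g => by
        show L (rb g * Y) = L Y * L (rb g)
        rw [h1, mul_comm]
    exact (LinearMap.congr_fun this X).trans (mul_comm _ _)
  exact hL0 1 (by rw [form_mat2_eq_zero L h2']; rfl)

end FA.NebLocal
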