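import Fermat.Agent.NebLocal.Galois
import Fermat.Agent.ModField.Igusa.Series

/-!
# Pullbacks along upper triangular correspondences on expansions

For matrices `[[a i, b i], [0, D]]` the pullback of a series `s` is the product of the series
`s (μ ^ b i x ^ a i)`, a series in `x ^ D`.  So such correspondences are rational and their
conjugates are given by the conjugates of the translations.
-/

set_option autoImplicit false
set_option linter.unusedSectionVars false
set_option linter.style.haveILetI false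
set_option synthInstance.maxHeartbeats 200000
set_option maxHeartbeats 1600000

noncomputable section

namespace FA.NebLocal

open UpperHalfPlane hiding I
open Complex hiding Gamma
open ModularCurve FA.ModField FA.Level
open FA.HeckeH1 (gl MatZ Corr)
open scoped MatrixGroups Manifold

/-- The product of the composites of a series with upper triangular matrices. -/
def serPull {R : Type*} [CommRing R] {ι : Type} [Fintype ι] (a : ι → ℕ) (b : ι → ℤ)
    (ha : ∀ i, a i ≠ 0) (μ : Rˣ) : LaurentSeries R →* LaurentSeries R :=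
  haveI : ∀ i, NeZero (a i) := fun i => ⟨ha i⟩
  ∏ i, ((qExpand R (a i)).toMonoidHom.comp (twist (μ ^ b i)).toMonoidHom :
    LaurentSeries R →* LaurentSeries R)

theorem serPull_apply {R : Type*} [CommRing R] {ι : Type} [Fintype ι] (a : ι → ℕ) (b : ι → ℤ)
    (ha : ∀ i, a i ≠ 0) (μ : Rˣ) (s : LaurentSeries R) :
    serPull a b ha μ s =
      ∏ i, (haveI : NeZero (a i) := ⟨ha i⟩; qExpand R (a i) (twist (μ ^ b i) s)) := by
  haveI : ∀ i, NeZero (a i) := fun i => ⟨ha i⟩
  rw [serPull, MonoidHom.finsetProd_apply]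
  rfl

theorem coeffMap_twist {R S : Type*} [CommRing R] [CommRing S] (f : R →+* S) (c : Rˣ)
    (s : LaurentSeries R) :
    coeffMap f (twist c s) = twist (Units.map f.toMonoidHom c) (coeffMap f s) := by
  ext n
  simp [twist_coeff, ← map_zpow]

theorem coeffMap_serPull {R S : Type*} [CommRing R] [CommRing S] (f : R →+* S) {ι : Type}
    [Fintype ι] (a : ι → ℕ) (b : ι → ℤ) (ha : ∀ i, a i ≠ 0) (μ : Rˣ) (s : LaurentSeries R) :
    coeffMap f (serPull a b ha μ s) =
      serPull a b ha (Units.map f.toMonoidHom μ) (coeffMap f s) := by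
  rw [serPull_apply, serPull_apply, map_prod]
  refine Finset.prod_congr rfl fun i _ => ?_
  haveI : NeZero (a i) := ⟨ha i⟩
  rw [coeffMap_qExpand, coeffMap_twist, map_zpow]

/-- An upper triangular correspondence. -/
structure UCorr (V V' : Lvl) where
  /-- the correspondence -/
  toI : ICorr V V'
  /-- the lower entry -/
  D : ℕ
  D_ne : D ≠ 0
  /-- the upper entries -/
  a : toI.C.ι → ℕ
  /-- the translations -/
  b : toI.C.ι → ℤ
  a_ne : ∀ i, a i ≠ 0
  X_eq : ∀ i, toI.X i = !![(a i : ℤ), b i; 0, (D : ℤ)]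

variable {V V' : Lvl} (U : UCorr V V')

instance UCorr.neZero : NeZero U.D := ⟨U.D_ne⟩

theorem qp_upper_one {D a : ℕ} [NeZero D] (ha : a ≠ 0) (b : ℤ) {X : MatZ}
    (hX : X = !![(a : ℤ), b; 0, (D : ℤ)]) (z : ℍ) :
    qp 1 (mob (gl X) z) = ((zetaN D ^ b : ℂˣ) : ℂ) * qp D z ^ a := by
  have hpos : 0 < X.det := by
    rw [hX, Matrix.det_fin_two_of]
    have := Nat.pos_of_ne_zero ha
    have := NeZero.pos D
    simp
    positivity
  rw [qp_eq, qp_eq, coe_mob hpos, Units.val_zpow_eq_zpow_val, zetaN, Units.val_mk0,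
    ← Complex.exp_int_mul, ← Complex.exp_nat_mul, ← Complex.exp_add]
  congr 1
  have hD : (D : ℂ) ≠ 0 := Nat.cast_ne_zero.2 (NeZero.ne D)
  subst hX
  simp
  field_simp
  ring

/-- The expansion of the pullback of a modular function, before descent. -/
theorem UCorr.hasExp_pull {f : ℍ → ℂ} {L : LaurentSeries ℂ} (hL : HasExp (qp 1) f L) :
    HasExp (qp U.D) (U.toI.pull f) (serPull U.a U.b U.a_ne (zetaN U.D) L) := by
  rw [serPull_apply]
  refine (hasExp_prod (qp_ne_zero U.D) (f := fun i z => f (mob (gl (U.toI.X i)) z)) Finset.univ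
    fun i _ => ?_).congr
    (funext fun z => by simp [ICorr.pull])
  haveI : NeZero (U.a i) := ⟨U.a_ne i⟩
  exact hL.comp (U := qp U.D) _ (U.a i) _ fun z => qp_upper_one (U.a_ne i) (U.b i) (U.X_eq i) z

local notation "Qb" => AlgebraicClosure ℚ
local notation "GQ" => AlgebraicClosure ℚ ≃ₐ[ℚ] AlgebraicClosure ℚ

variable [Algebra Qb ℂ]

theorem exists_muQ (D : ℕ) [NeZero D] :
    ∃ μ : Qbˣ, IsPrimitiveRoot (μ : Qb) D ∧ algebraMap Qb ℂ (μ : Qb) = (zetaN D : ℂ) := by
  obtain ⟨z, hz⟩ := HasEnoughRootsOfUnity.exists_primitiveRoot Qb D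
  obtain ⟨i, hi, hzi⟩ := (hz.map_of_injective (algebraMap Qb ℂ).injective).eq_pow_of_pow_eq_one
    (zetaN_prim D).pow_eq_one
  have hu : IsUnit (z ^ i) := (hz.isUnit (NeZero.ne D)).pow i
  refine ⟨hu.unit, ?_, by rw [hu.unit_spec, map_pow]; exact hzi⟩
  rw [hu.unit_spec]
  exact IsPrimitiveRoot.of_map_of_injective (f := algebraMap Qb ℂ)
    (by rw [map_pow, hzi]; exact zetaN_prim D) (algebraMap Qb ℂ).injective

/-- The root of unity of order `D` with value `exp (2 π i / D)`. -/
def muQ (D : ℕ) [NeZero D] : Qbˣ := (exists_muQ D).choose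

theorem muQ_prim (D : ℕ) [NeZero D] : IsPrimitiveRoot (muQ D : Qb) D :=
  (exists_muQ D).choose_spec.1

theorem map_muQ (D : ℕ) [NeZero D] :
    Units.map (algebraMap Qb ℂ).toMonoidHom (muQ D) = zetaN D :=
  Units.ext (exists_muQ D).choose_spec.2

theorem UCorr.exists_series (x : V.alg Qb) :
    ∃ r : LaurentSeries Qb,
      HasExp (qp 1) (U.toI.pull (V.funHom Qb x)) (coeffMap (algebraMap Qb ℂ) r) ∧
      qExpand Qb U.D r = serPull U.a U.b U.a_ne (muQ U.D) (x : LaurentSeries Qb) := by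
  have h := U.hasExp_pull (V.funHom_exp Qb x)
  rw [← map_muQ U.D, ← coeffMap_serPull] at h
  set R := serPull U.a U.b U.a_ne (muQ U.D) (x : LaurentSeries Qb)
  obtain ⟨L', hL', hexp⟩ := exists_descent_exp (M := 1) (e := U.D) (by rw [one_mul]; exact h)
    (fun z => U.toI.pull_invariant (V.funHom_mem Qb x) ⟨_, Subgroup.zpow_mem _ V'.T_mem _⟩ z)
  have hcoeff : ∀ k : ℤ, L'.coeff k = algebraMap Qb ℂ (R.coeff ((U.D : ℤ) * k)) := fun k => by
    have h1 := congrArg (fun s : LaurentSeries ℂ => s.coeff ((U.D : ℤ) * k)) hL'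
    simp only [coeffMap_coeff, qExpand_coeff_mul] at h1
    exact h1.symm
  let r : LaurentSeries Qb :=
    HahnSeries.ofSuppBddBelow (fun k => R.coeff ((U.D : ℤ) * k))
      ⟨L'.order, fun k hk => by
        by_contra hlt
        push Not at hlt
        refine hk ((algebraMap Qb ℂ).injective ?_)
        rw [map_zero, ← hcoeff]
        exact HahnSeries.coeff_eq_zero_of_lt_order hlt⟩
  have hr : coeffMap (algebraMap Qb ℂ) r = L' := by
    ext k
    rw [coeffMap_coeff, hcoeff]
    rfl
  refine ⟨r, by rw [hr]; exact hexp, coeffMap_injective' (algebraMap Qb ℂ).injective ?_⟩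
  rw [coeffMap_qExpand, hr, ← hL']

/-- Upper triangular correspondences are rational. -/
theorem UCorr.rational : U.toI.Rational Qb := fun x => by
  obtain ⟨r, hr, -⟩ := U.exists_series x
  exact ⟨r, hr⟩

/-- The pullback on function fields. -/
def UCorr.cp : V.fld Qb →*₀ V'.fld Qb := U.toI.cpull U.rational

/-- **The series of the pullback.** -/
theorem UCorr.qExpand_cp (f : V.fld Qb) :
    qExpand Qb U.D (U.cp f : LaurentSeries Qb) =
      serPull U.a U.b U.a_ne (muQ U.D) (f : LaurentSeries Qb) := by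
  have key : ∀ x : V.alg Qb, qExpand Qb U.D (U.cp (V.toFld Qb x) : LaurentSeries Qb) =
      serPull U.a U.b U.a_ne (muQ U.D) (x : LaurentSeries Qb) := fun x => by
    obtain ⟨r, hr, hr'⟩ := U.exists_series x
    rw [UCorr.cp, U.toI.coe_cpull_toFld U.rational x hr, hr']
  obtain ⟨x, y, hy, hxy⟩ := V.exists_fraction Qb f
  have hser : (f : LaurentSeries Qb) * (y : LaurentSeries Qb) = x := congrArg Subtype.val hxy
  have h1 : (U.cp f : LaurentSeries Qb) * (U.cp (V.toFld Qb y) : LaurentSeries Qb) =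
      (U.cp (V.toFld Qb x) : LaurentSeries Qb) := by
    rw [← hxy, map_mul]; rfl
  have h2 := congrArg (qExpand Qb U.D) h1
  rw [map_mul, key, key, ← hser, map_mul] at h2
  refine mul_right_cancel₀ ?_ h2
  rw [serPull_apply]
  refine Finset.prod_ne_zero_iff.2 fun i _ => ?_
  haveI : NeZero (U.a i) := ⟨U.a_ne i⟩
  have hy' : (y : LaurentSeries Qb) ≠ 0 := fun h0 => hy (Subtype.ext h0)
  rw [Ne, map_eq_zero_iff _ (qExpand_injective (R := Qb) (U.a i)),
    map_eq_zero_iff _ (twist_injective _)]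
  exact hy'

theorem exists_int_galois_muQ (D : ℕ) [NeZero D] (σ : GQ) :
    ∃ c : ℤ, Units.map (σ : Qb →+* Qb).toMonoidHom (muQ D) = muQ D ^ c := by
  obtain ⟨i, -, hi⟩ := (muQ_prim D).eq_pow_of_pow_eq_one (ξ := σ (muQ D : Qb))
    (by rw [← map_pow, (muQ_prim D).pow_eq_one, map_one])
  exact ⟨i, Units.ext (by rw [zpow_natCast, Units.val_pow_eq_pow_val]; exact hi.symm)⟩

/-- **Conjugates of upper triangular correspondences.** -/
theorem UCorr.galComm {U U' : UCorr V V'} {σ : GQ} {c : ℤ}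
    (hc : Units.map (σ : Qb →+* Qb).toMonoidHom (muQ U.D) = muQ U.D ^ c) (hD : U'.D = U.D)
    (e : U.toI.C.ι ≃ U'.toI.C.ι) (he : ∀ i, U'.a (e i) = U.a i)
    (hb : ∀ i, (U.D : ℤ) ∣ U'.b (e i) - c * U.b i) :
    GalComm σ U.toI U'.toI U.rational U'.rational := fun f => Subtype.ext (by
  obtain ⟨I', D', hD', a', b', ha', hX'⟩ := U'
  obtain ⟨I, D, hDne, a, b, ha, hX⟩ := U
  obtain rfl : D' = D := hD
  haveI : NeZero D' := ⟨hD'⟩
  refine qExpand_injective (R := Qb) D' ?_
  have h1 := UCorr.qExpand_cp (⟨I', D', hD', a', b', ha', hX'⟩ : UCorr V V') (galF V σ • f)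
  have h2 := UCorr.qExpand_cp (⟨I, D', hDne, a, b, ha, hX⟩ : UCorr V V') f
  refine Eq.trans ?_ h1.symm
  rw [coe_galF_smul, ← coeffMap_qExpand]
  refine (congrArg (coeffMap (σ : Qb →+* Qb)) h2).trans ?_
  rw [coeffMap_serPull, serPull_apply, serPull_apply]
  refine Fintype.prod_equiv e _ _ fun i => ?_
  obtain ⟨k, hk⟩ := hb i
  have hz : Units.map (σ : Qb →+* Qb).toMonoidHom (muQ D') ^ b i = muQ D' ^ b' (e i) := by
    rw [hc, ← zpow_mul, show b' (e i) = c * b i + (D' : ℤ) * k by linear_combination hk,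
      zpow_add, zpow_mul (muQ D') (D' : ℤ), zpow_natCast,
      show muQ D' ^ D' = 1 from Units.ext (by
        rw [Units.val_pow_eq_pow_val, (muQ_prim D').pow_eq_one, Units.val_one]),
      one_zpow, mul_one]
  show _ = _
  simp only [hz]
  have hai : a' (e i) = a i := he i
  simp only [hai, coe_galF_smul])

end FA.NebLocal
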