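import Mathlib
import Fermat.Agent.CurveRed.ModularBase

/-!
# Reduction of a split extension of a reduced series field

`F₀ ⊆ F` are fields of series over `L`; the integral series of `F₀` reduce onto a field `K₀`, and
`F = F₀(s₁)` where `s₁, …, sₙ` are integral series with distinct reductions, roots of a polynomial
over `F₀`.  Then the integral series of `F` reduce into `K₀(s̄₁)`, and every element of `F` is a
scalar times a quotient of integral series with nonzero reductions.
-/

set_option autoImplicit false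
set_option linter.style.haveILetI false
set_option linter.unusedSectionVars false
set_option maxHeartbeats 800000

noncomputable section

namespace FA.NebLocal

open ModularCurve FA.ModField Polynomial

section residual

variable {L k : Type} [Field L] [Field k] {A : ValuationSubring L} (π : A →+* k)

local notation "ι" => coeffMap (A.subtype : A →+* L)

local notation "ρ" => coeffMap π

/-- A split extension of series fields with its reductions. -/
structure SplitExt (F₀ F : IntermediateField L (LaurentSeries L))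
    (K₀ : IntermediateField k (LaurentSeries k)) (U : Type) [Fintype U] [DecidableEq U] where
  /-- the roots -/
  s : U → LaurentSeries A
  /-- the generator -/
  u1 : U
  le : F₀ ≤ F
  mem : ∀ u, ι (s u) ∈ F
  gen : ∀ f ∈ F, ∃ P : (LaurentSeries L)[X],
    (∀ i, P.coeff i ∈ F₀) ∧ P.eval (ι (s u1)) = f
  inj : Function.Injective fun u => ρ (s u)
  sym : ∀ i, (∏ u, (X - C (ι (s u)))).coeff i ∈ F₀
  base : ∀ f ∈ F₀, ∃ (c : L) (Y Y' : LaurentSeries A), ι Y ∈ F₀ ∧ ι Y' ∈ F₀ ∧ ρ Y' ≠ 0 ∧
    f * ι Y' = algebraMap L (LaurentSeries L) c * ι Y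
  down : ∀ Y, ι Y ∈ F₀ → ρ Y ∈ K₀
  lift : ∀ r ∈ K₀, ∃ Y Y' : LaurentSeries A, ι Y ∈ F₀ ∧ ι Y' ∈ F₀ ∧ ρ Y' ≠ 0 ∧ r * ρ Y' = ρ Y
  pi_zero : ∀ a : A, π a = 0 ↔ A.valuation a < 1
  norm : ∀ Y : LaurentSeries A, ι Y ∈ F → Y ≠ 0 →
    ∃ (e : A) (Z : LaurentSeries A), Y = HahnSeries.C e * Z ∧ ρ Z ≠ 0
  small : ∀ δ : A, A.valuation (δ : L) < 1 → ∀ c : L, ∃ n : ℕ, c * (δ : L) ^ n ∈ A

variable {π} {F₀ F : IntermediateField L (LaurentSeries L)}
  {K₀ : IntermediateField k (LaurentSeries k)} {U : Type} [Fintype U] [DecidableEq U]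
  (D : SplitExt π F₀ F K₀ U)

/-- The integral series of the base. -/
def baseW (F₀ : IntermediateField L (LaurentSeries L)) (A : ValuationSubring L) :
    Subring (LaurentSeries A) :=
  F₀.toSubalgebra.toSubring.comap (coeffMap (A.subtype : A →+* L))

local notation "W" => baseW F₀ A

theorem mem_baseW {Y : LaurentSeries A} : Y ∈ W ↔ ι Y ∈ F₀ := Iff.rfl

theorem C_mem_baseW (a : A) : (HahnSeries.C a : LaurentSeries A) ∈ W := by
  rw [mem_baseW, coeffMap_C, ← FA.CurveRed.algebraMap_eq_C]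
  exact F₀.algebraMap_mem _

/-- Evaluation at an integral series. -/
def evW (x : LaurentSeries A) : (baseW F₀ A)[X] →+* LaurentSeries A :=
  Polynomial.eval₂RingHom (baseW F₀ A).subtype x

/-- The reduction of the base. -/
def downW : baseW F₀ A →+* K₀ :=
  ((coeffMap π).comp (baseW F₀ A).subtype).codRestrict K₀ fun Y => D.down _ Y.2

theorem coe_downW (Y : baseW F₀ A) : (downW D Y : LaurentSeries k) = ρ (Y : LaurentSeries A) := rfl

theorem map_evW (x : LaurentSeries A) (P : (baseW F₀ A)[X]) :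
    ρ (evW x P) = aeval (ρ x) (P.map (downW D)) := by
  rw [evW, coe_eval₂RingHom, hom_eval₂, aeval_def, eval₂_map]
  rfl

theorem exists_hW : ∃ h : (baseW F₀ A)[X], h.Monic ∧
    h.map (baseW F₀ A).subtype = ∏ u, (X - C (D.s u)) := by
  have hcoeff : ∀ i, (∏ u, (X - C (D.s u))).coeff i ∈ W := fun i => by
    rw [mem_baseW, ← coeff_map, Polynomial.map_prod]
    simpa using D.sym i
  have hlifts : (∏ u, (X - C (D.s u))) ∈ lifts (baseW F₀ A).subtype := by
    rw [lifts_iff_coeff_lifts]
    exact fun i => ⟨⟨_, hcoeff i⟩, rfl⟩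
  obtain ⟨h, h1, -, h3⟩ := lifts_and_degree_eq_and_monic hlifts
    (monic_prod_X_sub_C _ _)
  exact ⟨h, h3, h1⟩

/-- The polynomial of the roots. -/
def hW : (baseW F₀ A)[X] := (exists_hW D).choose

theorem hW_monic : (hW D).Monic := (exists_hW D).choose_spec.1

theorem hW_map : (hW D).map (baseW F₀ A).subtype = ∏ u, (X - C (D.s u)) :=
  (exists_hW D).choose_spec.2

theorem evW_derivative (u : U) :
    evW (D.s u) (derivative (hW D)) = ∏ w ∈ Finset.univ.erase u, (D.s u - D.s w) := by
  rw [evW, coe_eval₂RingHom, ← eval_map, ← derivative_map, hW_map,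
    derivative_prod_finset, eval_finsetSum, Finset.sum_eq_single_of_mem u (Finset.mem_univ u)]
  · simp [eval_prod]
  · intro w _ hwu
    rw [eval_mul, eval_prod, Finset.prod_eq_zero (Finset.mem_erase.2 ⟨hwu.symm, Finset.mem_univ u⟩)
      (by simp), zero_mul]

theorem rho_derivative_ne_zero (u : U) : ρ (evW (D.s u) (derivative (hW D))) ≠ 0 := by
  rw [evW_derivative, map_prod, Finset.prod_ne_zero_iff]
  intro w hw
  rw [map_sub, sub_ne_zero]
  exact fun h => (Finset.mem_erase.1 hw).1 (D.inj h).symm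

/-- **Interpolation.** -/
theorem exists_interp (P : (baseW F₀ A)[X]) (g : U → LaurentSeries A) (d : L)
    (hg : ∀ u, ι (g u) = algebraMap L (LaurentSeries L) d * ι (evW (D.s u) P)) :
    ∃ B : (baseW F₀ A)[X], ∀ u, evW (D.s u) B = g u * evW (D.s u) (derivative (hW D)) := by
  classical
  set BA : (LaurentSeries A)[X] := ∑ u, C (g u) * ∏ w ∈ Finset.univ.erase u, (X - C (D.s w))
  have hev : ∀ u, BA.eval (D.s u) = g u * evW (D.s u) (derivative (hW D)) := fun u => by
    rw [evW_derivative, eval_finsetSum, Finset.sum_eq_single_of_mem u (Finset.mem_univ u)]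
    · simp [eval_prod]
    · intro w _ hwu
      rw [eval_mul, eval_prod,
        Finset.prod_eq_zero (Finset.mem_erase.2 ⟨hwu.symm, Finset.mem_univ u⟩) (by simp), mul_zero]
  set T := (P * derivative (hW D)) %ₘ hW D
  set TL := C (algebraMap L (LaurentSeries L) d) *
    (T.map (baseW F₀ A).subtype).map (coeffMap (A.subtype : A →+* L))
  have hinj : Function.Injective fun u => ι (D.s u) := fun u w h =>
    D.inj (congrArg (coeffMap π) (coeffMap_injective' A.subtype_injective h))
  have hdeg : (hW D).natDegree = Fintype.card U := by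
    have h := congrArg natDegree (hW_map D)
    rw [(hW_monic D).natDegree_map, natDegree_finsetProd_X_sub_C_eq_card, Finset.card_univ] at h
    exact h
  have hpos : 0 < Fintype.card U := Fintype.card_pos_iff.2 ⟨D.u1⟩
  have hTdeg : T.natDegree < Fintype.card U := hdeg ▸ natDegree_modByMonic_lt _ (hW_monic D)
    (fun h => by rw [h, natDegree_one] at hdeg; omega)
  have hBdeg : BA.natDegree < Fintype.card U := by
    refine lt_of_le_of_lt (natDegree_sum_le_of_forall_le _ _ (n := Fintype.card U - 1) fun u _ => ?_)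
      (by omega)
    refine natDegree_C_mul_le _ _ |>.trans ?_
    rw [natDegree_finsetProd_X_sub_C_eq_card, Finset.card_erase_of_mem (Finset.mem_univ u),
      Finset.card_univ]
  have heq : BA.map (coeffMap (A.subtype : A →+* L)) = TL := by
    refine eq_of_natDegree_lt_card_of_eval_eq _ _ hinj (fun u => ?_) ?_
    · rw [eval_map, eval₂_hom, hev, map_mul, hg]
      simp only [TL, eval_mul, eval_C, eval_map, eval₂_hom]
      have hsplit : evW (D.s u) (P * derivative (hW D)) = evW (D.s u) T := by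
        conv_lhs => rw [← modByMonic_add_div (P * derivative (hW D)) (hW D)]
        have h0 : evW (D.s u) (hW D) = 0 := by
          rw [evW, coe_eval₂RingHom, ← eval_map, hW_map, eval_prod]
          exact Finset.prod_eq_zero (Finset.mem_univ u) (by simp)
        rw [map_add, map_mul, h0, zero_mul, add_zero]
      rw [show eval₂ (baseW F₀ A).subtype (D.s u) T = evW (D.s u) T from rfl, ← hsplit, map_mul,
        map_mul, mul_assoc]
    · refine max_lt (lt_of_le_of_lt natDegree_map_le hBdeg) ?_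
      exact lt_of_le_of_lt ((natDegree_C_mul_le _ _).trans (natDegree_map_le.trans natDegree_map_le))
        hTdeg
  have hcoeff : BA ∈ lifts (baseW F₀ A).subtype := by
    rw [lifts_iff_coeff_lifts]
    intro i
    have h : ι (BA.coeff i) ∈ F₀ := by
      have := congrArg (fun Q : (LaurentSeries L)[X] => Q.coeff i) heq
      simp only [coeff_map, TL, coeff_C_mul] at this
      rw [this]
      exact mul_mem (F₀.algebraMap_mem d) (T.coeff i).2
    exact ⟨⟨_, h⟩, rfl⟩
  obtain ⟨B, hB⟩ := hcoeff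
  refine ⟨B, fun u => ?_⟩
  rw [← hev, evW, coe_eval₂RingHom, ← eval_map]
  exact congrArg (Polynomial.eval (D.s u)) hB

/-! ### The class of the generator -/

/-- The residual field of the extension. -/
def topK : IntermediateField k (LaurentSeries k) :=
  (IntermediateField.adjoin K₀ {coeffMap π (D.s D.u1)}).restrictScalars k

theorem algebraMap_K_apply (x : K₀) : algebraMap K₀ (LaurentSeries k) x = (x : LaurentSeries k) :=
  rfl

theorem aeval_mem_topK (Q : (K₀)[X]) : aeval (ρ (D.s D.u1)) Q ∈ topK D := by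
  rw [topK, IntermediateField.mem_restrictScalars]
  exact IntermediateField.algebra_adjoin_le_adjoin _ _
    (Algebra.adjoin_singleton_eq_range_aeval K₀ (ρ (D.s D.u1)) ▸ ⟨Q, rfl⟩)

theorem le_topK : K₀ ≤ topK D := fun x hx => by
  rw [topK, IntermediateField.mem_restrictScalars]
  exact (IntermediateField.adjoin K₀ _).algebraMap_mem (⟨x, hx⟩ : K₀)

theorem aeval_hbar (u : U) : aeval (ρ (D.s u)) ((hW D).map (downW D)) = 0 := by
  rw [← map_evW, evW, coe_eval₂RingHom, ← eval_map, hW_map, eval_prod,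
    Finset.prod_eq_zero (Finset.mem_univ u) (by simp), map_zero]

theorem isIntegral_gen : IsIntegral K₀ (ρ (D.s D.u1)) :=
  ⟨(hW D).map (downW D), (hW_monic D).map _, by rw [← aeval_def]; exact aeval_hbar D _⟩

/-- The reduced root is a conjugate of the generator. -/
def InCls (u : U) : Prop := aeval (ρ (D.s u)) (minpoly K₀ (ρ (D.s D.u1))) = 0

theorem exists_lift_poly (Q : (K₀)[X]) :
    ∃ (N : (baseW F₀ A)[X]) (d : K₀), d ≠ 0 ∧ N.map (downW D) = C d * Q := by
  induction Q using Polynomial.induction_on' with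
  | add P Q hP hQ =>
    obtain ⟨N, d, hd, hN⟩ := hP
    obtain ⟨N', d', hd', hN'⟩ := hQ
    obtain ⟨Y, Y', hY, hY', hne, he⟩ := D.lift _ d.2
    obtain ⟨Z, Z', hZ, hZ', hne', he'⟩ := D.lift _ d'.2
    have e1 : downW D ⟨Y, hY⟩ = d * downW D ⟨Y', hY'⟩ := Subtype.ext he.symm
    have e2 : downW D ⟨Z, hZ⟩ = d' * downW D ⟨Z', hZ'⟩ := Subtype.ext he'.symm
    refine ⟨C (⟨Z, hZ⟩ * ⟨Y', hY'⟩) * N + C (⟨Y, hY⟩ * ⟨Z', hZ'⟩) * N',
      d * downW D ⟨Y', hY'⟩ * (d' * downW D ⟨Z', hZ'⟩), ?_, ?_⟩
    · exact mul_ne_zero (mul_ne_zero hd fun h => hne (congrArg Subtype.val h))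
        (mul_ne_zero hd' fun h => hne' (congrArg Subtype.val h))
    · simp only [Polynomial.map_add, Polynomial.map_mul, map_C, map_mul, hN, hN', e1, e2]
      ring
  | monomial n a =>
    obtain ⟨Y, Y', hY, hY', hne, he⟩ := D.lift _ a.2
    have e1 : downW D ⟨Y, hY⟩ = a * downW D ⟨Y', hY'⟩ := Subtype.ext he.symm
    refine ⟨monomial n ⟨Y, hY⟩, downW D ⟨Y', hY'⟩, fun h => hne (congrArg Subtype.val h), ?_⟩
    rw [map_monomial, C_mul_monomial, e1, mul_comm]

/-- A polynomial over the base which separates the class of the generator. -/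
theorem exists_separator : ∃ N : (baseW F₀ A)[X],
    (∀ u, InCls D u → ρ (evW (D.s u) N) ≠ 0) ∧ ∀ u, ¬ InCls D u → ρ (evW (D.s u) N) = 0 := by
  set m := minpoly K₀ (ρ (D.s D.u1)) with hm
  obtain ⟨Q, hQ⟩ : m ∣ (hW D).map (downW D) := minpoly.dvd K₀ _ (aeval_hbar D _)
  obtain ⟨N, d, hd, hN⟩ := exists_lift_poly D Q
  have hd0 : algebraMap K₀ (LaurentSeries k) d ≠ 0 := (_root_.map_ne_zero _).2 hd
  refine ⟨N, fun u hu => ?_, fun u hu => ?_⟩
  · rw [map_evW D, hN, map_mul, aeval_C]
    refine mul_ne_zero hd0 fun h => rho_derivative_ne_zero D u ?_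
    rw [map_evW D, ← derivative_map, hQ, derivative_mul, map_add, map_mul, map_mul,
      show aeval (ρ (D.s u)) m = 0 from hu, h, mul_zero, zero_mul, add_zero]
  · rw [map_evW D, hN, map_mul]
    have h := aeval_hbar D u
    rw [hQ, map_mul, mul_eq_zero] at h
    rw [h.resolve_left hu, mul_zero]

/-! ### The conclusions -/

theorem exists_combine (a c : L) (T₁ T₂ : (baseW F₀ A)[X]) :
    ∃ (e : L) (T : (baseW F₀ A)[X]),
      C (algebraMap L (LaurentSeries L) a) *
          T₁.map ((coeffMap (A.subtype : A →+* L)).comp (baseW F₀ A).subtype) +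
        C (algebraMap L (LaurentSeries L) c) *
          T₂.map ((coeffMap (A.subtype : A →+* L)).comp (baseW F₀ A).subtype) =
      C (algebraMap L (LaurentSeries L) e) *
        T.map ((coeffMap (A.subtype : A →+* L)).comp (baseW F₀ A).subtype) := by
  set φ := (coeffMap (A.subtype : A →+* L)).comp (baseW F₀ A).subtype
  have hcst : ∀ x : A, φ ⟨_, C_mem_baseW (F₀ := F₀) x⟩ = algebraMap L (LaurentSeries L) (x : L) :=
    fun x => by
      show coeffMap _ (HahnSeries.C x) = _
      rw [coeffMap_C, FA.CurveRed.algebraMap_eq_C]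
      rfl
  have hdiv : ∀ {x y : L}, y ≠ 0 → A.valuation x ≤ A.valuation y → x / y ∈ A := fun hy h => by
    rw [← A.valuation_le_one_iff, map_div₀,
      div_le_one₀ (zero_lt_iff.2 (by simpa using hy))]
    exact h
  by_cases hc : c = 0
  · exact ⟨a, T₁, by rw [hc, map_zero, C_0, zero_mul, add_zero]⟩
  by_cases ha : a = 0
  · exact ⟨c, T₂, by rw [ha, map_zero, C_0, zero_mul, zero_add]⟩
  rcases le_total (A.valuation a) (A.valuation c) with h | h
  · refine ⟨c, C ⟨_, C_mem_baseW (F₀ := F₀) ⟨_, hdiv hc h⟩⟩ * T₁ + T₂, ?_⟩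
    rw [Polynomial.map_add, Polynomial.map_mul, map_C, hcst, mul_add, ← mul_assoc, ← C_mul,
      ← map_mul (algebraMap L (LaurentSeries L)), mul_div_cancel₀ a hc]
  · refine ⟨a, T₁ + C ⟨_, C_mem_baseW (F₀ := F₀) ⟨_, hdiv ha h⟩⟩ * T₂, ?_⟩
    rw [Polynomial.map_add, Polynomial.map_mul, map_C, hcst, mul_add, ← mul_assoc, ← C_mul,
      ← map_mul (algebraMap L (LaurentSeries L)), mul_div_cancel₀ c ha]

include D in
theorem exists_poly_rep (P : (LaurentSeries L)[X]) (hP : ∀ i, P.coeff i ∈ F₀) :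
    ∃ (c : L) (D' : baseW F₀ A) (P' : (baseW F₀ A)[X]), ρ (D' : LaurentSeries A) ≠ 0 ∧
      C (ι (D' : LaurentSeries A)) * P = C (algebraMap L (LaurentSeries L) c) *
        (P'.map ((coeffMap (A.subtype : A →+* L)).comp (baseW F₀ A).subtype)) := by
  classical
  rw [P.as_sum_support]
  induction P.support using Finset.induction_on with
  | empty => exact ⟨0, 1, 0, by simp, by simp⟩
  | @insert i T hi ih =>
    obtain ⟨c, D', P', hD', hP'⟩ := ih
    obtain ⟨a, Y₀, Y₀', hY, hY', hne, he⟩ := D.base _ (hP i)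
    obtain ⟨Y, rfl⟩ : ∃ Y : baseW F₀ A, (Y : LaurentSeries A) = Y₀ := ⟨⟨Y₀, hY⟩, rfl⟩
    obtain ⟨Y', rfl⟩ : ∃ Y' : baseW F₀ A, (Y' : LaurentSeries A) = Y₀' := ⟨⟨Y₀', hY'⟩, rfl⟩
    obtain ⟨c', T', he'⟩ := exists_combine (F₀ := F₀) a c (monomial i (D' * Y)) (C Y' * P')
    refine ⟨c', D' * Y', T', ?_, ?_⟩
    · rw [Subring.coe_mul, map_mul]; exact mul_ne_zero hD' hne
    rw [Finset.sum_insert hi, mul_add, ← he']
    refine congrArg₂ (· + ·) ?_ ?_
    · rw [Polynomial.map_monomial, C_mul_monomial, C_mul_monomial]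
      refine congrArg (monomial i) ?_
      rw [RingHom.comp_apply, Subring.subtype_apply, Subring.coe_mul, Subring.coe_mul, map_mul,
        map_mul]
      linear_combination (ι (D' : LaurentSeries A)) * he
    · rw [Polynomial.map_mul, Polynomial.map_C, RingHom.comp_apply, Subring.subtype_apply,
        Subring.coe_mul, map_mul, map_mul, mul_comm (C (ι (D' : LaurentSeries A))), mul_assoc, hP']
      ring

/-- An element of the extension, after a denominator, is a scalar times a polynomial value. -/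
theorem exists_value_rep {f : LaurentSeries L} (hf : f ∈ F) :
    ∃ (c : L) (D' : baseW F₀ A) (P : (baseW F₀ A)[X]), ρ (D' : LaurentSeries A) ≠ 0 ∧
      f * ι (D' : LaurentSeries A) =
        algebraMap L (LaurentSeries L) c * ι (evW (D.s D.u1) P) := by
  obtain ⟨Q, hQ, rfl⟩ := D.gen f hf
  obtain ⟨c, D', P, hD', he⟩ := exists_poly_rep D Q hQ
  refine ⟨c, D', P, hD', ?_⟩
  have h := congrArg (Polynomial.eval (ι (D.s D.u1))) he
  rw [eval_mul, eval_mul, eval_C, eval_C, eval_map] at h
  rw [mul_comm, h, evW, coe_eval₂RingHom, hom_eval₂]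

theorem evW_mem (u : U) (P : (baseW F₀ A)[X]) : ι (evW (D.s u) P) ∈ F := by
  rw [evW, coe_eval₂RingHom, hom_eval₂, eval₂_eq_sum, Polynomial.sum_def]
  exact sum_mem fun i _ => mul_mem (D.le (P.coeff i).2) (pow_mem (D.mem u) i)

theorem rho_C_mul (a : A) (Z : LaurentSeries A) :
    ρ (HahnSeries.C a * Z) = algebraMap k (LaurentSeries k) (π a) * ρ Z := by
  rw [map_mul, coeffMap_C, FA.CurveRed.algebraMap_eq_C]

theorem iota_C_mul (a : A) (Z : LaurentSeries A) :
    ι (HahnSeries.C a * Z) = algebraMap L (LaurentSeries L) (a : L) * ι Z := by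
  rw [map_mul, coeffMap_C, FA.CurveRed.algebraMap_eq_C]
  rfl

/-- Scalars of the values of a polynomial. -/
theorem exists_scalar (u : U) (P : (baseW F₀ A)[X]) :
    ∃ (e : A) (Z : LaurentSeries A), evW (D.s u) P = HahnSeries.C e * Z ∧
      (e ≠ 0 → ρ Z ≠ 0) := by
  by_cases h : evW (D.s u) P = 0
  · exact ⟨0, 0, by simp [h], fun h0 => absurd rfl h0⟩
  · obtain ⟨e, Z, he, hZ⟩ := D.norm _ (evW_mem D u P) h
    exact ⟨e, Z, he, fun _ => hZ⟩

/-- **Integral series of the extension reduce into `K₀(s̄₁)`.** -/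
theorem rho_mem_topK {Y : LaurentSeries A} (hY : ι Y ∈ F) : ρ Y ∈ topK D := by
  classical
  by_cases hY0 : ρ Y = 0
  · rw [hY0]; exact zero_mem _
  obtain ⟨c, D', P, hD', hrep⟩ := exists_value_rep D hY
  obtain ⟨N, hNin, hNout⟩ := exists_separator D
  choose e Z hZ hZ0 using fun u => exists_scalar D u P
  choose δ R hR hR0 using fun u => exists_scalar D u N
  have hin1 : InCls D D.u1 := minpoly.aeval _ _
  have hδ1 : ∀ u, InCls D u → A.valuation (δ u : L) = 1 := fun u hu => by
    refine le_antisymm (A.valuation_le_one _) (not_lt.1 fun hlt => hNin u hu ?_)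
    rw [hR, rho_C_mul, (D.pi_zero _).2 hlt, map_zero, zero_mul]
  have hδlt : ∀ u, ¬ InCls D u → A.valuation (δ u : L) < 1 := fun u hu => by
    by_cases h0 : δ u = 0
    · rw [h0]; simp
    have h := hNout u hu
    rw [hR, rho_C_mul, mul_eq_zero, map_eq_zero] at h
    exact (D.pi_zero _).1 (h.resolve_right (hR0 u h0))
  -- the exponent
  choose nu hnu using fun u : U => if hu : InCls D u then (⟨0, fun h => (h hu).elim⟩ :
      ∃ n : ℕ, ¬ InCls D u → c * (e u : L) * (δ u : L) ^ n ∈ A) else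
    (D.small (δ u) (hδlt u hu) (c * (e u : L))).imp fun n h _ => h
  obtain ⟨K, hK⟩ : ∃ K, ∀ u, nu u ≤ K := ⟨∑ u, nu u, fun u =>
    Finset.single_le_sum (fun w _ => Nat.zero_le (nu w)) (Finset.mem_univ u)⟩
  have hout : ∀ u, ¬ InCls D u → c * (e u : L) * (δ u : L) ^ K ∈ A := fun u hu => by
    rw [← Nat.add_sub_cancel' (hK u), pow_add, ← mul_assoc]
    exact mul_mem (hnu u hu) (pow_mem (δ u).2 _)
  -- the generator
  have hc1 : c * (e D.u1 : L) ∈ A := by
    by_contra hnot
    have hinv : (c * (e D.u1 : L))⁻¹ ∈ A := (A.mem_or_inv_mem _).resolve_left hnot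
    have hne : c * (e D.u1 : L) ≠ 0 := fun h => hnot (h ▸ zero_mem A)
    have he1 : e D.u1 ≠ 0 := fun h => hne (by rw [h]; simp)
    have hπ : π ⟨_, hinv⟩ = 0 := by
      rw [D.pi_zero]
      show A.valuation (c * (e D.u1 : L))⁻¹ < 1
      rw [map_inv₀]
      exact inv_lt_one_of_one_lt₀ (lt_of_not_ge fun h => hnot ((A.valuation_le_one_iff _).1 h))
    have h1 : HahnSeries.C (⟨_, hinv⟩ : A) * (Y * (D' : LaurentSeries A)) = Z D.u1 := by
      refine coeffMap_injective' A.subtype_injective ?_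
      rw [iota_C_mul, map_mul, hrep, hZ, iota_C_mul]
      show algebraMap L (LaurentSeries L) (c * (e D.u1 : L))⁻¹ * _ = _
      rw [← mul_assoc (algebraMap L (LaurentSeries L) c), ← map_mul, ← mul_assoc, ← map_mul,
        inv_mul_cancel₀ hne, map_one, one_mul]
    refine hZ0 _ he1 ?_
    rw [← h1, rho_C_mul, hπ, map_zero, zero_mul]
  -- interpolation at a scalar
  have hint : ∀ d : L, (∀ u, d * (e u : L) * (δ u : L) ^ K ∈ A) →
      ∃ (B : (K₀)[X]) (g : U → A), (∀ u, (g u : L) = d * (e u : L) * (δ u : L) ^ K) ∧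
        ∀ u, algebraMap k (LaurentSeries k) (π (g u)) * ρ (Z u) * ρ (R u) ^ K *
          ρ (evW (D.s u) (derivative (hW D))) = aeval (ρ (D.s u)) B := by
    intro d hd
    obtain ⟨B, hB⟩ := exists_interp D (P * N ^ K)
      (fun u => HahnSeries.C (⟨_, hd u⟩ : A) * (Z u * R u ^ K)) d (fun u => by
        rw [iota_C_mul, map_mul (evW (D.s u)), map_pow, hZ, hR, map_mul ι (HahnSeries.C _ * _),
          map_pow ι (HahnSeries.C _ * _), iota_C_mul, iota_C_mul, map_mul, map_pow]
        simp only [map_mul, map_pow, mul_pow]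
        ring)
    refine ⟨B.map (downW D), fun u => ⟨_, hd u⟩, fun u => rfl, fun u => ?_⟩
    rw [← map_evW D, hB, map_mul, rho_C_mul, map_mul, map_pow]
    ring
  by_cases hall : ∀ u, InCls D u → c * (e u : L) ∈ A
  · obtain ⟨B, g, hg, hB⟩ := hint c fun u => by
      by_cases hu : InCls D u
      · exact mul_mem (hall u hu) (pow_mem (δ u).2 K)
      · exact hout u hu
    have hgmul : HahnSeries.C (g D.u1) * (Z D.u1 * R D.u1 ^ K) =
        Y * (D' : LaurentSeries A) * evW (D.s D.u1) N ^ K := by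
      refine coeffMap_injective' A.subtype_injective ?_
      rw [iota_C_mul, hg, map_mul ι (Y * _), map_mul ι Y, hrep, hZ, map_pow, hR, iota_C_mul,
        iota_C_mul]
      simp only [map_mul, map_pow, mul_pow]
      ring
    have h := hB D.u1
    rw [mul_assoc (algebraMap k _ _), ← map_pow (coeffMap π), ← map_mul (coeffMap π), ← rho_C_mul,
      hgmul, map_mul, map_mul, map_pow] at h
    set b := ρ (D' : LaurentSeries A) * ρ (evW (D.s D.u1) N) ^ K *
      ρ (evW (D.s D.u1) (derivative (hW D))) with hb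
    have hb0 : b ≠ 0 := mul_ne_zero (mul_ne_zero hD' (pow_ne_zero _ (hNin _ hin1)))
      (rho_derivative_ne_zero D _)
    have hbmem : b ∈ topK D := by
      refine mul_mem (mul_mem (le_topK D (D.down _ D'.2)) (pow_mem ?_ K)) ?_
      · rw [map_evW D]; exact aeval_mem_topK D _
      · rw [map_evW D]; exact aeval_mem_topK D _
    have hYe : ρ Y = aeval (ρ (D.s D.u1)) B / b := by
      rw [eq_div_iff hb0, hb, ← h]; ring
    rw [hYe]
    exact div_mem (aeval_mem_topK D B) hbmem
  · exfalso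
    obtain ⟨u₂, hu₂, hbad⟩ : ∃ u, InCls D u ∧ c * (e u : L) ∉ A := by
      push Not at hall; exact hall
    obtain ⟨u₀, hu₀, hmax⟩ := Finset.exists_max_image (Finset.univ.filter fun u => InCls D u)
      (fun u => A.valuation (c * (e u : L))) ⟨u₂, by simpa using hu₂⟩
    rw [Finset.mem_filter] at hu₀
    have hbig : 1 < A.valuation (c * (e u₀ : L)) := by
      refine lt_of_lt_of_le (lt_of_not_ge fun h => hbad ((A.valuation_le_one_iff _).1 h)) ?_
      exact hmax u₂ (by simpa using hu₂)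
    have he₀ : (e u₀ : L) ≠ 0 := fun h => by simp [h] at hbig
    have hce : c * (e u₀ : L) ≠ 0 := fun h => by simp [h] at hbig
    obtain ⟨B, g, hg, hB⟩ := hint ((e u₀ : L)⁻¹) fun u => by
      rw [← A.valuation_le_one_iff,
        show ((e u₀ : L))⁻¹ * (e u : L) * (δ u : L) ^ K =
          c * (e u : L) * (δ u : L) ^ K / (c * (e u₀ : L)) by
            have hc : c ≠ 0 := left_ne_zero_of_mul hce
            field_simp, map_div₀, div_le_one₀ (zero_lt_one.trans hbig)]
      by_cases hu : InCls D u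
      · rw [map_mul, map_pow, hδ1 u hu, one_pow, mul_one]
        exact hmax u (by simpa using hu)
      · exact le_trans ((A.valuation_le_one_iff _).2 (hout u hu)) hbig.le
    have hv1 : A.valuation (g D.u1 : L) < 1 := by
      rw [hg, show ((e u₀ : L))⁻¹ * (e D.u1 : L) * (δ D.u1 : L) ^ K =
          c * (e D.u1 : L) * (δ D.u1 : L) ^ K / (c * (e u₀ : L)) by
            have hc : c ≠ 0 := left_ne_zero_of_mul hce
            field_simp, map_div₀, div_lt_one₀ (zero_lt_one.trans hbig)]
      rw [map_mul, map_pow, hδ1 _ hin1, one_pow, mul_one]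
      exact lt_of_le_of_lt ((A.valuation_le_one_iff _).2 hc1) hbig
    have hB1 : aeval (ρ (D.s D.u1)) B = 0 := by
      rw [← hB, (D.pi_zero _).2 hv1, map_zero]; simp
    obtain ⟨Q, hQ⟩ := minpoly.dvd K₀ _ hB1
    have hB0 := hB u₀
    rw [hQ, map_mul, show aeval (ρ (D.s u₀)) (minpoly K₀ (ρ (D.s D.u1))) = 0 from hu₀.2,
      zero_mul] at hB0
    have hv0 : A.valuation (g u₀ : L) = 1 := by
      rw [hg, inv_mul_cancel₀ he₀, one_mul, map_pow, hδ1 _ hu₀.2, one_pow]
    have hne0 : e u₀ ≠ 0 := fun h => he₀ (by rw [h]; rfl)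
    have hδne : δ u₀ ≠ 0 := fun h => by simpa [h] using hδ1 _ hu₀.2
    have hg0 : algebraMap k (LaurentSeries k) (π (g u₀)) ≠ 0 := by
      rw [_root_.map_ne_zero, Ne, D.pi_zero]
      exact fun h => absurd h (by rw [hv0]; exact lt_irrefl _)
    exact mul_ne_zero (mul_ne_zero (mul_ne_zero hg0 (hZ0 _ hne0)) (pow_ne_zero _ (hR0 _ hδne)))
      (rho_derivative_ne_zero D u₀) hB0

/-- The reduced roots lie in the residual field. -/
theorem root_mem_topK (u : U) : ρ (D.s u) ∈ topK D := rho_mem_topK D (D.mem u)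

include D in
/-- **Elements of the extension scale to quotients with nonzero reductions.** -/
theorem exists_scaled_quot {f : LaurentSeries L} (hf : f ∈ F) (hf0 : f ≠ 0) :
    ∃ (c : L) (Y Y' : LaurentSeries A), ι Y ∈ F ∧ ι Y' ∈ F ∧ ρ Y ≠ 0 ∧ ρ Y' ≠ 0 ∧
      f * ι Y' = algebraMap L (LaurentSeries L) c * ι Y := by
  obtain ⟨c, D', P, hD', hrep⟩ := exists_value_rep D hf
  have hD'0 : (D' : LaurentSeries A) ≠ 0 := fun h => hD' (by rw [h, map_zero])
  have hP0 : evW (D.s D.u1) P ≠ 0 := fun h => by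
    rw [h, map_zero, mul_zero, mul_eq_zero, map_eq_zero_iff _
      (coeffMap_injective' A.subtype_injective)] at hrep
    exact hrep.elim hf0 hD'0
  obtain ⟨e, Z, he, hZ⟩ := D.norm _ (evW_mem D D.u1 P) hP0
  have he0 : (e : L) ≠ 0 := fun h => hP0 (by rw [he, show e = 0 from Subtype.ext h]; simp)
  have hιZ : ι Z ∈ F := by
    have h := evW_mem D D.u1 P
    rw [he, iota_C_mul] at h
    have h2 := mul_mem (F.algebraMap_mem (e : L)⁻¹) h
    rwa [← mul_assoc, ← map_mul, inv_mul_cancel₀ he0, map_one, one_mul] at h2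
  refine ⟨c * e, Z, D', hιZ, D.le D'.2, hZ, hD', ?_⟩
  rw [hrep, he, iota_C_mul, map_mul]
  ring

end residual

end FA.NebLocal
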