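import Fermat.Agent.NebLocal.Rational
import Fermat.Agent.NebLocal.Galois
import Fermat.Agent.NebLocal.Residual
import Fermat.Agent.ModField.Semistable.RedMap
import Fermat.Agent.ModField.Semistable.FrobSeries
import Fermat.Agent.ModField.Congruence.Export

/-!
# Reductions of lattice classes by their expansions

A field of series is reduced by the quotients of its integral series.  The classes of the lattice
get their reductions from Kummer functions; Galois and upper triangular correspondences are read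
on the expansions.
-/

set_option autoImplicit false
set_option linter.style.haveILetI false
set_option linter.unusedSectionVars false
set_option synthInstance.maxHeartbeats 200000
set_option maxHeartbeats 1000000

noncomputable section

namespace FA.NebLocal

open AlgebraicCurve AlgebraicCurve.SemilinearAut ModularCurve FA.Level FA.JTorsion FA.CurveRed
  FA.ModField

/-! ### Reduction of a field of series -/

section ser

variable {L k : Type} [Field L] [Field k] {A : ValuationSubring L} (π : A →+* k)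
  (hπs : Function.Surjective π) (hπ0 : ∀ a : A, π a = 0 ↔ A.valuation a < 1)
  (F : IntermediateField L (LaurentSeries L)) (K : IntermediateField k (LaurentSeries k))
  (hd : ∀ Y : LaurentSeries A, coeffMap (A.subtype : A →+* L) Y ∈ F → coeffMap π Y ∈ K)

/-- Generic evaluation. -/
def serUp : baseW F A →+* F :=
  ((coeffMap (A.subtype : A →+* L)).comp (baseW F A).subtype).codRestrict F fun Y => Y.2

/-- Special evaluation. -/
def serDown : baseW F A →+* K :=
  ((coeffMap π).comp (baseW F A).subtype).codRestrict K fun Y => hd _ Y.2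

theorem serUp_injective : Function.Injective (serUp (A := A) F) := fun _ _ h =>
  Subtype.ext (coeffMap_injective' A.subtype_injective (congrArg Subtype.val h))

/-- The reduction of a field of series. -/
def serRed : ConstRed L F k K A :=
  constRedOfQuot π ((HahnSeries.C : A →+* LaurentSeries A).codRestrict (baseW F A) C_mem_baseW)
    (v := serDown π F K hd) (u := serUp F)
    (serUp_injective F) hπs hπ0
    (fun a => Subtype.ext (by
      show coeffMap _ (HahnSeries.C a) = algebraMap L (LaurentSeries L) (a : L)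
      rw [coeffMap_C, FA.CurveRed.algebraMap_eq_C]
      rfl))
    (fun a => Subtype.ext (by
      show coeffMap π (HahnSeries.C a) = algebraMap k (LaurentSeries k) (π a)
      rw [coeffMap_C, FA.CurveRed.algebraMap_eq_C]))

theorem serRed_red {f : F} {r : K} : (serRed π hπs hπ0 F K hd).Red f r ↔
    ∃ Y Y' : LaurentSeries A, coeffMap (A.subtype : A →+* L) Y ∈ F ∧
      coeffMap (A.subtype : A →+* L) Y' ∈ F ∧ coeffMap π Y' ≠ 0 ∧
      (f : LaurentSeries L) * coeffMap (A.subtype : A →+* L) Y' =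
        coeffMap (A.subtype : A →+* L) Y ∧
      (r : LaurentSeries k) * coeffMap π Y' = coeffMap π Y := by
  rw [serRed, constRedOfQuot_red]
  constructor
  · rintro ⟨Y, Y', h0, h1, h2⟩
    exact ⟨Y, Y', Y.2, Y'.2, fun h => h0 (Subtype.ext h), congrArg Subtype.val h1,
      congrArg Subtype.val h2⟩
  · rintro ⟨Y, Y', h, h', h0, h1, h2⟩
    exact ⟨⟨Y, h⟩, ⟨Y', h'⟩, fun hh => h0 (congrArg Subtype.val hh), Subtype.ext h1,
      Subtype.ext h2⟩

theorem serRed_series {Y : LaurentSeries A} (hY : coeffMap (A.subtype : A →+* L) Y ∈ F) :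
    (serRed π hπs hπ0 F K hd).Red ⟨_, hY⟩ ⟨_, hd Y hY⟩ :=
  (serRed_red π hπs hπ0 F K hd).2
    ⟨Y, 1, hY, by rw [map_one]; exact one_mem _, by rw [map_one]; exact one_ne_zero,
      by rw [map_one, mul_one], by rw [map_one, mul_one]⟩

theorem scaled_serRed (h : ∀ f ∈ F, f ≠ 0 → ∃ (c : L) (Y Y' : LaurentSeries A),
    coeffMap (A.subtype : A →+* L) Y ∈ F ∧ coeffMap (A.subtype : A →+* L) Y' ∈ F ∧
    coeffMap π Y ≠ 0 ∧ coeffMap π Y' ≠ 0 ∧
    f * coeffMap (A.subtype : A →+* L) Y' =
      algebraMap L (LaurentSeries L) c * coeffMap (A.subtype : A →+* L) Y) :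
    (serRed π hπs hπ0 F K hd).Scaled := fun f _ hf => by
  obtain ⟨c, Y, Y', hY, hY', hne, hne', he⟩ := h f f.2 fun h0 => hf (Subtype.ext h0)
  have hι : coeffMap (A.subtype : A →+* L) Y' ≠ 0 := fun h0 => hne' (by
    rw [(map_eq_zero_iff _ (coeffMap_injective' A.subtype_injective)).1 h0, map_zero])
  refine ⟨c, ⟨_, hY⟩ / ⟨_, hY'⟩, ⟨_, hd Y hY⟩ / ⟨_, hd Y' hY'⟩, Subtype.ext ?_,
    (serRed_red π hπs hπ0 F K hd).2 ⟨Y, Y', hY, hY', hne', ?_, ?_⟩,
    div_ne_zero (fun h0 => hne (congrArg Subtype.val h0)) fun h0 => hne' (congrArg Subtype.val h0)⟩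
  · show (f : LaurentSeries L) = algebraMap L (LaurentSeries L) c *
      (coeffMap (A.subtype : A →+* L) Y / coeffMap (A.subtype : A →+* L) Y')
    rw [mul_div_assoc', eq_div_iff hι, he]
  · show coeffMap (A.subtype : A →+* L) Y / coeffMap (A.subtype : A →+* L) Y' * _ = _
    rw [div_mul_cancel₀ _ hι]
  · show coeffMap π Y / coeffMap π Y' * _ = _
    rw [div_mul_cancel₀ _ hne']

end ser

/-! ### Maps of targets -/

section map

variable {k : Type*} [Field k] {E E' E'' : Type*} [Field E] [Algebra k E] [Field E'] [Algebra k E']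
  [Field E''] [Algebra k E''] (n : ℕ)

/-- A ring homomorphism sending constants to constants acts on the targets. -/
def mapTarget (ψ : E →+* E') (hψ : ∀ a : k, ψ (algebraMap k E a) ∈ (algebraMap k E').range) :
    RedTarget k E n →+ RedTarget k E' n :=
  MonoidHom.toAdditive (QuotientGroup.map (powConst k E n) (powConst k E' n)
    (Units.map ψ.toMonoidHom) (sup_le
      (by
        rintro _ ⟨a, rfl⟩
        obtain ⟨b, hb⟩ := hψ a
        have hb0 : b ≠ 0 := fun h => by
          rw [h, map_zero] at hb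
          exact (_root_.map_ne_zero ψ).2 (show algebraMap k E (a : k) ≠ 0 by simp) hb.symm
        exact Subgroup.mem_sup_left ⟨Units.mk0 b hb0, Units.ext hb⟩)
      (by
        rintro _ ⟨h, rfl⟩
        exact Subgroup.mem_sup_right ⟨Units.map ψ.toMonoidHom h,
          (map_pow (Units.map ψ.toMonoidHom) h n).symm⟩)))

theorem mapTarget_redCls {ψ : E →+* E'}
    (hψ : ∀ a : k, ψ (algebraMap k E a) ∈ (algebraMap k E').range) {r : E} (hr : r ≠ 0) :
    mapTarget n ψ hψ (redCls n r) = redCls n (ψ r) := by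
  rw [redCls, dif_pos hr, redCls, dif_pos ((_root_.map_ne_zero ψ).2 hr)]
  exact congrArg Additive.ofMul (congrArg QuotientGroup.mk (Units.ext rfl))

theorem exists_redCls (x : RedTarget k E n) : ∃ r : E, r ≠ 0 ∧ redCls n r = x := by
  obtain ⟨u, rfl⟩ : ∃ u : Eˣ, Additive.ofMul (QuotientGroup.mk u) = x :=
    ⟨_, QuotientGroup.out_eq' (Additive.toMul x)⟩
  exact ⟨u, u.ne_zero, by rw [redCls, dif_pos u.ne_zero]; exact congrArg (fun v : Eˣ =>
      Additive.ofMul (QuotientGroup.mk v : Eˣ ⧸ powConst k E n)) (Units.ext rfl)⟩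

theorem nsmul_target (x : RedTarget k E n) : n • x = 0 := by
  obtain ⟨r, hr, rfl⟩ := exists_redCls n x
  rw [← redCls_pow_left n r hr n, redCls_pow]

end map

/-! ### Classes of the lattice -/

section lattice

local notation "Qb" => AlgebraicClosure ℚ
local notation "GQ" => AlgebraicClosure ℚ ≃ₐ[ℚ] AlgebraicClosure ℚ

variable [Algebra Qb ℂ] {A : ValuationSubring Qb} {k : Type} [Field k] {π : A →+* k}
  {hπs : Function.Surjective π} {hπ0 : ∀ a : A, π a = 0 ↔ A.valuation a < 1}
  {V V' : Lvl} {K K' : IntermediateField k (LaurentSeries k)}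

/-- The reduction of the classes of the lattice. -/
def redPhi {C : ConstRed Qb (V.fld Qb) k K A} (hC : C.Scaled) (n : ℕ) [NeZero n] :
    cuspLat V →+ RedTarget k K n :=
  (redTor n (V.isFunctionField Qb) hC).comp (latTors V Qb n)

theorem redPhi_eq {C : ConstRed Qb (V.fld Qb) k K A} (hC : C.Scaled) {n : ℕ} [NeZero n]
    {φ : cuspLat V} {f : V.fld Qb} (hf : IsKum V n (φ : Additive V.grp →+ ℤ) f) :
    redPhi hC n φ = redFn C n f := by
  obtain ⟨D, hD, hfD⟩ := hf.exists_divisor
  exact redTor_mk n (V.isFunctionField Qb) hC _ hD hf.1 hfD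

variable {hd : ∀ Y : LaurentSeries A,
    coeffMap (A.subtype : A →+* Qb) Y ∈ V.fld Qb → coeffMap π Y ∈ K}
  {hd' : ∀ Y : LaurentSeries A,
    coeffMap (A.subtype : A →+* Qb) Y ∈ V'.fld Qb → coeffMap π Y ∈ K'}

theorem intertwines_galF {σ : GQ} {φ : k →+* k} (hσ : InducesOn Qb π σ φ) {θ : K →+* K}
    (hθ : ∀ x : K, (θ x : LaurentSeries k) = coeffMap φ (x : LaurentSeries k)) :
    IntertwinesRed (serRed π hπs hπ0 (V.fld Qb) K hd) (galF V σ) θ := by
  choose b hb hbπ using hσ
  let sA : A →+* A :=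
    { toFun := b
      map_one' := Subtype.ext (by rw [hb]; exact map_one σ)
      map_mul' := fun x y => Subtype.ext (by
        rw [MulMemClass.coe_mul, hb, hb, hb]; exact map_mul σ _ _)
      map_zero' := Subtype.ext (by rw [hb]; exact map_zero σ)
      map_add' := fun x y => Subtype.ext (by
        rw [AddMemClass.coe_add, hb, hb, hb]; exact map_add σ _ _) }
  have e1 : ∀ Y : LaurentSeries A, coeffMap (A.subtype : A →+* Qb) (coeffMap sA Y) =
      coeffMap (σ : Qb →+* Qb) (coeffMap (A.subtype : A →+* Qb) Y) := fun Y => by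
    rw [coeffMap_coeffMap, coeffMap_coeffMap]
    exact coeffMap_congr (RingHom.ext fun a => hb a) _
  have e2 : ∀ Y : LaurentSeries A, coeffMap π (coeffMap sA Y) = coeffMap φ (coeffMap π Y) :=
    fun Y => by
    rw [coeffMap_coeffMap, coeffMap_coeffMap]
    exact coeffMap_congr (RingHom.ext fun a => hbπ a) _
  have hmem : ∀ Y : LaurentSeries A, coeffMap (A.subtype : A →+* Qb) Y ∈ V.fld Qb →
      coeffMap (A.subtype : A →+* Qb) (coeffMap sA Y) ∈ V.fld Qb := fun Y hY => by
    rw [e1, ← coe_galF_smul σ ⟨_, hY⟩]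
    exact (galF V σ • (⟨_, hY⟩ : V.fld Qb)).2
  intro f r h
  rw [serRed_red] at h ⊢
  obtain ⟨Y, Y', hY, hY', hne, hf, hr⟩ := h
  refine ⟨coeffMap sA Y, coeffMap sA Y', hmem Y hY, hmem Y' hY', ?_, ?_, ?_⟩
  · rw [e2]
    exact fun h0 => hne (coeffMap_injective' φ.injective (h0.trans (map_zero _).symm))
  · rw [e1, e1, ← hf, map_mul, coe_galF_smul]
  · rw [e2, e2, ← hr, map_mul, hθ]

/-- **Reductions of conjugate classes.** -/
theorem redPhi_galRel (hC : (serRed π hπs hπ0 (V.fld Qb) K hd).Scaled) {n : ℕ} [NeZero n]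
    {σ : GQ} {φ : k →+* k} (hσ : InducesOn Qb π σ φ) {θ : K →+* K}
    (hθ : ∀ x : K, (θ x : LaurentSeries k) = coeffMap φ (x : LaurentSeries k))
    (hθc : ∀ a : k, θ (algebraMap k K a) ∈ (algebraMap k K).range)
    {x y : cuspLat V} (h : GalRel V n σ x y) :
    redPhi hC n y = mapTarget n θ hθc (redPhi hC n x) := by
  obtain ⟨f, hf⟩ := exists_isKum (L := Qb) (n := n) x
  obtain ⟨c, g, r, hc, he, hg, hr⟩ := exists_scaled hC hf.1
  have hsg : galF V σ • f =
      algebraMap Qb _ (SemilinearAut.baseAut (galF V σ) c) * (galF V σ • g) := by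
    rw [he, smul_mul', SemilinearAut.smul_algebraMap]
  rw [redPhi_eq hC (h.isKum hf), redPhi_eq hC hf, redFn_eq n hc he hg hr,
    mapTarget_redCls n hθc hr,
    redFn_eq n (by simpa using hc) hsg (intertwines_galF hσ hθ g r hg)
      ((_root_.map_ne_zero θ).2 hr)]

/-- A pullback reduces by `ψ` on expansions. -/
def CpRed (π : A →+* k) (U : UCorr V V') (ψ : K →+* K') : Prop :=
  ∀ Y : LaurentSeries A, ∀ hY : coeffMap (A.subtype : A →+* Qb) Y ∈ V.fld Qb,
    ∀ r : K, (r : LaurentSeries k) = coeffMap π Y → ∃ Z : LaurentSeries A,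
      coeffMap (A.subtype : A →+* Qb) Z = (U.cp ⟨_, hY⟩ : LaurentSeries Qb) ∧
      coeffMap π Z = (ψ r : LaurentSeries k)

theorem cp_const (U : UCorr V V') (c : Qb) :
    U.cp (algebraMap Qb (V.fld Qb) c) =
      algebraMap Qb (V'.fld Qb) (c ^ Fintype.card U.toI.C.ι) := by
  refine Subtype.ext (qExpand_injective (R := Qb) U.D ?_)
  show qExpand Qb U.D (U.cp (algebraMap Qb (V.fld Qb) c) : LaurentSeries Qb) =
    qExpand Qb U.D (algebraMap Qb (LaurentSeries Qb) (c ^ Fintype.card U.toI.C.ι))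
  rw [U.qExpand_cp, serPull_apply, algebraMap_laurentSeries_eq_single, qExpand_single,
    mul_zero]
  have h : ((algebraMap Qb (V.fld Qb) c : V.fld Qb) : LaurentSeries Qb) = HahnSeries.single 0 c := by
    rw [← algebraMap_laurentSeries_eq_single]; rfl
  rw [h, ← HahnSeries.C_apply, ← HahnSeries.C_apply, map_pow, Fintype.card,
    ← Finset.prod_const]
  refine Finset.prod_congr rfl fun i _ => ?_
  haveI : NeZero (U.a i) := ⟨U.a_ne i⟩
  have ht : ∀ u : Qbˣ, twist u (HahnSeries.single (0 : ℤ) c) = HahnSeries.single 0 c := fun u => by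
    ext m
    rw [twist_coeff, HahnSeries.coeff_single]
    split_ifs with hm
    · subst hm; simp
    · simp
  rw [HahnSeries.C_apply, ht, qExpand_single, mul_zero]

/-- **Reductions of pullbacks.** -/
theorem redPhi_latC {U : UCorr V V'} {ψ : K →+* K'} (hU : CpRed π U ψ)
    (hC : (serRed π hπs hπ0 (V.fld Qb) K hd).Scaled)
    (hC' : (serRed π hπs hπ0 (V'.fld Qb) K' hd').Scaled)
    (hψ : ∀ a : k, ψ (algebraMap k K a) ∈ (algebraMap k K').range) {n : ℕ} [NeZero n]
    (x : cuspLat V) :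
    redPhi hC' n (latC U.toI.C x) = mapTarget n ψ hψ (redPhi hC n x) := by
  obtain ⟨f, hf⟩ := exists_isKum (L := Qb) (n := n) x
  obtain ⟨c, g, r, hc, he, hg, hr⟩ := exists_scaled hC hf.1
  obtain ⟨Y, Y', hY, hY', hne, hgY, hrY⟩ := (serRed_red π hπs hπ0 (V.fld Qb) K hd).1 hg
  obtain ⟨Z, hZ, hZr⟩ := hU Y hY ⟨_, hd Y hY⟩ rfl
  obtain ⟨Z', hZ', hZr'⟩ := hU Y' hY' ⟨_, hd Y' hY'⟩ rfl
  have hg' : (serRed π hπs hπ0 (V'.fld Qb) K' hd').Red (U.cp g) (ψ r) := by
    refine (serRed_red π hπs hπ0 (V'.fld Qb) K' hd').2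
      ⟨Z, Z', hZ ▸ (U.cp ⟨_, hY⟩).2, hZ' ▸ (U.cp ⟨_, hY'⟩).2, ?_, ?_, ?_⟩
    · rw [hZr']
      exact fun h0 => (_root_.map_ne_zero ψ).2
        (fun h1 : (⟨_, hd Y' hY'⟩ : K) = 0 => hne (congrArg Subtype.val h1)) (Subtype.ext h0)
    · have h1 : g * (⟨_, hY'⟩ : V.fld Qb) = ⟨_, hY⟩ := Subtype.ext hgY
      have h2 := congrArg (fun w : V'.fld Qb => (w : LaurentSeries Qb)) (congrArg U.cp h1)
      simp only [map_mul, MulMemClass.coe_mul] at h2
      rw [hZ, hZ']
      exact h2
    · have h1 : r * (⟨_, hd Y' hY'⟩ : K) = ⟨_, hd Y hY⟩ := Subtype.ext hrY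
      have h2 := congrArg (fun w : K' => (w : LaurentSeries k)) (congrArg ψ h1)
      simp only [map_mul, MulMemClass.coe_mul] at h2
      rw [hZr, hZr']
      exact h2
  have he' : U.cp f = algebraMap Qb _ (c ^ Fintype.card U.toI.C.ι) * U.cp g := by
    rw [he, map_mul, cp_const]
  rw [redPhi_eq hC' (hf.cpull U.toI U.rational), redPhi_eq hC hf, redFn_eq n hc he hg hr,
    mapTarget_redCls n hψ hr,
    show U.toI.cpull U.rational f = U.cp f from rfl,
    redFn_eq n (pow_ne_zero _ hc) he' hg' ((_root_.map_ne_zero ψ).2 hr)]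

theorem exists_descend_int {D : ℕ} [NeZero D] {R : LaurentSeries A} {r : LaurentSeries Qb}
    (h : coeffMap (A.subtype : A →+* Qb) R = qExpand Qb D r) :
    ∃ Z : LaurentSeries A, coeffMap (A.subtype : A →+* Qb) Z = r ∧ qExpand A D Z = R := by
  have hcoeff : ∀ m : ℤ, (A.subtype : A →+* Qb) (R.coeff ((D : ℤ) * m)) = r.coeff m := fun m => by
    have h1 := congrArg (fun s : LaurentSeries Qb => s.coeff ((D : ℤ) * m)) h
    simpa only [coeffMap_coeff, qExpand_coeff_mul] using h1
  let Z : LaurentSeries A :=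
    HahnSeries.ofSuppBddBelow (fun m => R.coeff ((D : ℤ) * m))
      ⟨r.order, fun m hm => by
        by_contra hlt
        push Not at hlt
        refine hm (A.subtype_injective ?_)
        rw [map_zero, hcoeff]
        exact HahnSeries.coeff_eq_zero_of_lt_order hlt⟩
  have hZ : coeffMap (A.subtype : A →+* Qb) Z = r := by
    ext m
    rw [coeffMap_coeff, ← hcoeff]
    rfl
  exact ⟨Z, hZ, coeffMap_injective' A.subtype_injective (by rw [coeffMap_qExpand, hZ, h])⟩

variable {q : ℕ} [Fact q.Prime] [CharP k q]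

/-- A root of unity of `q`-power order reduces to one. -/
theorem pi_zeta {μ : A} (hμ : μ ^ q = 1) : π μ = 1 := by
  haveI : ExpChar k q := ExpChar.prime Fact.out
  refine sub_eq_zero.1 (eq_zero_of_pow_eq_zero (n := q) ?_)
  rw [sub_pow_expChar, one_pow, ← map_pow, hμ, map_one, sub_self]

/-- **The product of the translates reduces to the Frobenius of coefficients.** -/
theorem cpRed_frob {U : UCorr V V'} (hD : U.D = q) (ha : ∀ i, U.a i = 1)
    (hcard : Fintype.card U.toI.C.ι = q) {ψ : K →+* K'}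
    (hψ : ∀ x : K, (ψ x : LaurentSeries k) = coeffMap (frobenius k q) (x : LaurentSeries k)) :
    CpRed π U ψ := by
  classical
  intro Y hY r hr
  have hroot : ∀ i, ∃ μ : Aˣ,
      Units.map (A.subtype : A →+* Qb).toMonoidHom μ = muQ U.D ^ U.b i ∧ (μ : A) ^ q = 1 := fun i => by
    have h1 : ((muQ U.D ^ U.b i : Qbˣ) : Qb) ^ q = 1 := by
      rw [← Units.val_pow_eq_pow_val, ← zpow_natCast, ← zpow_mul, mul_comm, zpow_mul, zpow_natCast,
        ← hD, show muQ U.D ^ U.D = 1 from Units.ext (by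
          rw [Units.val_pow_eq_pow_val, (muQ_prim U.D).pow_eq_one, Units.val_one]), one_zpow,
        Units.val_one]
    have hq := (Fact.out : q.Prime).ne_zero
    have hmem : ((muQ U.D ^ U.b i : Qbˣ) : Qb) ∈ A := by
      rw [← A.valuation_le_one_iff]
      refine le_of_eq ((pow_eq_one_iff_of_nonneg zero_le hq).1 ?_)
      rw [← map_pow, h1, map_one]
    have hpow : (⟨_, hmem⟩ : A) ^ q = 1 := Subtype.ext h1
    exact ⟨(IsUnit.of_pow_eq_one hpow hq).unit, Units.ext rfl, hpow⟩
  choose μ hμ hμq using hroot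
  let R : LaurentSeries A := ∏ i, twist (μ i) Y
  have hR : coeffMap (A.subtype : A →+* Qb) R = qExpand Qb U.D (U.cp ⟨_, hY⟩ : LaurentSeries Qb) := by
    rw [U.qExpand_cp, serPull_apply, map_prod]
    refine Finset.prod_congr rfl fun i _ => ?_
    haveI : NeZero (U.a i) := ⟨U.a_ne i⟩
    rw [coeffMap_twist, hμ]
    simp only [ha i, qExpand_one_apply]
  obtain ⟨Z, hZ, hZR⟩ := exists_descend_int hR
  refine ⟨Z, hZ, ?_⟩
  have h := congrArg (coeffMap π) hZR
  rw [coeffMap_qExpand, map_prod] at h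
  have hrR : ∀ i, coeffMap π (twist (μ i) Y) = coeffMap π Y := fun i => by
    rw [coeffMap_twist, show Units.map π.toMonoidHom (μ i) = 1 from Units.ext (pi_zeta (hμq i)),
      twist_one_apply]
  rw [Finset.prod_congr rfl fun i _ => hrR i, Finset.prod_const, Finset.card_univ, hcard,
    pow_char_eq_qExpand q] at h
  rw [hψ, hr]
  subst hD
  exact qExpand_injective (R := k) U.D h

/-- **A single dilation reduces to the substitution.** -/
theorem cpRed_single {U : UCorr V V'} (hD : U.D = 1) {a : ℕ} [NeZero a] (ha : ∀ i, U.a i = a)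
    (hb : ∀ i, U.b i = 0) (hcard : Fintype.card U.toI.C.ι = 1) {ψ : K →+* K'}
    (hψ : ∀ x : K, (ψ x : LaurentSeries k) = qExpand k a (x : LaurentSeries k)) :
    CpRed π U ψ := by
  intro Y hY r hr
  refine ⟨qExpand A a Y, ?_, by rw [coeffMap_qExpand, hψ, hr]⟩
  obtain ⟨i, hi⟩ := Fintype.card_eq_one_iff.1 hcard
  haveI : Unique U.toI.C.ι := ⟨⟨i⟩, hi⟩
  have h := U.qExpand_cp ⟨_, hY⟩
  rw [serPull_apply, Fintype.prod_unique] at h
  rw [coeffMap_qExpand]
  simp only [hD, qExpand_one_apply, ha, hb, zpow_zero, twist_one_apply] at h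
  exact h.symm

end lattice

end FA.NebLocal
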