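import Fermat.Agent.NebLocal.SplitH
import Fermat.Agent.NebLocal.RedClass
import Fermat.Agent.NebLocal.Corrs
import Fermat.Agent.HeckeH1.Degeneracy

/-!
# The reduction of `Γ_H(M q)` on the component of `∞`

`U_q` and a Frobenius element act as the Frobenius of coefficients; the two degeneracy maps from
`Γ₀(M)` act as the inclusion and as the substitution `T ↦ T^q`.  The inclusion only kills classes
fixed by the Frobenius.
-/

set_option autoImplicit false
set_option linter.style.haveILetI false
set_option linter.unusedSectionVars false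
set_option synthInstance.maxHeartbeats 200000
set_option maxHeartbeats 1000000

noncomputable section

namespace FA.NebLocal

open ModularCurve FA.ModField FA.Level FA.JTorsion FA.CurveRed AlgebraicCurve IsLocalRing
  CongruenceSubgroup
open FA.HeckeH1 (GamH GamH_top GamH_le_top Corr gl glQ eps GamH_mono)
open scoped MatrixGroups

local notation "Qb" => AlgebraicClosure ℚ
local notation "GQ" => AlgebraicClosure ℚ ≃ₐ[ℚ] AlgebraicClosure ℚ

variable {M q : ℕ} [NeZero M] [hq : Fact q.Prime] [Fact (1 < M * q)] [Algebra Qb ℂ]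
  {A : ValuationSubring Qb} (H : Subgroup (ZMod (M * q))ˣ) (hH : (-1 : (ZMod (M * q))ˣ) ∈ H)
  (hA : A.LiesOverPrime q) (hqM : ¬ q ∣ M) (hq2 : q ≠ 2)

/-- The reduced field on the component of `∞`. -/
abbrev hTop : IntermediateField (ResidueField A) (LaurentSeries (ResidueField A)) :=
  topK (splitH H hH hA hqM hq2)

/-- The reduction on the component of `∞`. -/
def cH : ConstRed Qb ((lvlH H hH).fld Qb) (ResidueField A) (hTop H hH hA hqM hq2) A :=
  serRed (residue A) residue_surjective residueAt_eq_zero ((lvlH H hH).fld Qb)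
    (hTop H hH hA hqM hq2) fun _ hY => rho_mem_topK (splitH H hH hA hqM hq2) hY

theorem scaled_cH : (cH H hH hA hqM hq2).Scaled :=
  scaled_serRed _ _ _ _ _ _ fun _ hf hf0 => exists_scaled_quot (splitH H hH hA hqM hq2) hf hf0

include hA hqM in
theorem down_low (Y : LaurentSeries A)
    (hY : coeffMap (A.subtype : A →+* Qb) Y ∈ (lvlGamma0 M).fld Qb) :
    coeffMap (residue A) Y ∈ k0Fld M A := by
  haveI := residueAt_charP hA
  haveI : IsAlgClosed (ResidueField A) := FA.Frob.residueField_isAlgClosed A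
  rw [lvlGamma0_fld] at hY
  exact FA.CurveRed.Modular.mem_down (hπs := residue_surjective) (hπ0 := residueAt_eq_zero)
    (fun r hr hrM h => hqM ((Nat.prime_dvd_prime_iff_eq hq.out hr).1
      ((CharP.cast_eq_zero_iff (ResidueField A) q r).1 h) ▸ hrM)) Y hY

/-- The reduction at level `Γ₀(M)`. -/
def cLow : ConstRed Qb ((lvlGamma0 M).fld Qb) (ResidueField A) (k0Fld M A) A :=
  serRed (residue A) residue_surjective residueAt_eq_zero ((lvlGamma0 M).fld Qb) (k0Fld M A)
    (down_low hA hqM)

/-- The reduction of good reduction. -/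
def redLowR (hin : ReductionInputsModL A M) :
    Reduction Qb ((lvlGamma0 M).fld Qb) (ResidueField A) (k0Fld M A) A :=
  (quotData residue_surjective residueAt_eq_zero hin.choose_spec.1 hin.choose_spec.2).toReduction
    (isFunctionField_up M)

theorem cLow_of_red (hin : ReductionInputsModL A M) {g : (lvlGamma0 M).fld Qb} {r : k0Fld M A}
    (h : (redLowR hin).Red g r) : (cLow hA hqM).Red g r := by
  obtain ⟨hm, hr⟩ := h
  obtain ⟨Y, Y', h0, h1, h2⟩ :=
    isQuot_redFun (toUp A (residue A) M) (toDown A (residue A) M)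
      (fun x y hxy => Subtype.ext (coeffMap_subtype_injective A (congrArg Subtype.val hxy)))
      (⟨g, hm⟩ : intFuns (toUp A (residue A) M) (toDown A (residue A) M))
  rw [cLow, serRed_red]
  refine ⟨Y, Y', Y.2.1, Y'.2.1, fun h => h0 (Subtype.ext h), congrArg Subtype.val h1, ?_⟩
  rw [← hr]
  exact congrArg Subtype.val h2

include hA hqM in
theorem reductionInputs_low : GoodRedInputs M A :=
  FA.CurveRed.Modular.reductionInputsModL M hq.out hqM A hA

theorem exists_scaled_low {f : (lvlGamma0 M).fld Qb} (hf : f ≠ 0) :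
    ∃ (c : Qb) (g : (lvlGamma0 M).fld Qb) (r : k0Fld M A), c ≠ 0 ∧
      f = algebraMap Qb _ c * g ∧ (redLowR (reductionInputs_low hA hqM).1).Red g r ∧ r ≠ 0 := by
  obtain ⟨c, g, he, hg⟩ := (redLowR (reductionInputs_low hA hqM).1).exists_scale f hf
  exact ⟨c, g, _, fun h0 => hf (by rw [he, h0, map_zero, zero_mul]), he, ⟨g.2, rfl⟩, hg⟩

theorem scaled_cLow : (cLow (A := A) hA hqM).Scaled := fun f _ hf => by
  obtain ⟨c, g, r, -, he, hg, hr⟩ := exists_scaled_low hA hqM hf
  exact ⟨c, g, r, he, cLow_of_red hA hqM _ hg, hr⟩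

/-! ### The Frobenius of coefficients -/

variable [CharP (ResidueField A) q]

theorem frob_k0 (x : LaurentSeries (ResidueField A)) (hx : x ∈ k0Fld M A) :
    serFrob (q := q) x ∈ k0Fld M A :=
  coeffMap_mem_fullC M _ hx

theorem frob_root (x : ClsH H) :
    serFrob (q := q) (coeffMap (residue A) ((splitH H hH hA hqM hq2).s x)) =
      coeffMap (residue A) ((splitH H hH hA hqM hq2).s x) := by
  show coeffMap (frobenius (ResidueField A) q) (coeffMap (residue A)
      (coeffMap (Int.castRingHom A) (clsSer H x))) =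
    coeffMap (residue A) (coeffMap (Int.castRingHom A) (clsSer H x))
  rw [coeffMap_coeffMap, coeffMap_coeffMap, coeffMap_coeffMap, RingHom.comp_assoc]
  have e : (frobenius (ResidueField A) q).comp ((residue A).comp (Int.castRingHom A)) =
      (residue A).comp (Int.castRingHom A) := RingHom.ext_int _ _
  rw [e]

/-- The Frobenius on the component. -/
def frobTop : hTop H hH hA hqM hq2 →+* hTop H hH hA hqM hq2 :=
  ((serFrob (q := q)).comp (hTop H hH hA hqM hq2).val.toRingHom).codRestrict _ fun x =>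
    serFrob_mem_topK _ frob_k0 (frob_root H hH hA hqM hq2) x.2

theorem coe_frobTop (x : hTop H hH hA hqM hq2) :
    (frobTop H hH hA hqM hq2 x : LaurentSeries (ResidueField A)) =
      coeffMap (frobenius (ResidueField A) q) (x : LaurentSeries (ResidueField A)) := rfl

theorem frobTop_const (a : ResidueField A) :
    frobTop H hH hA hqM hq2 (algebraMap _ _ a) ∈
      (algebraMap (ResidueField A) (hTop H hH hA hqM hq2)).range := by
  refine ⟨frobenius _ q a, Subtype.ext ?_⟩
  rw [coe_frobTop]
  show algebraMap (ResidueField A) (LaurentSeries _) _ = coeffMap _ (algebraMap _ _ a)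
  rw [algebraMap_laurentSeries_eq_single, algebraMap_laurentSeries_eq_single, coeffMap_single]

variable (M A) in
/-- The Frobenius on the reduced field of level `M`. -/
def frobLow : k0Fld M A →+* k0Fld M A :=
  ((serFrob (q := q)).comp (k0Fld M A).val.toRingHom).codRestrict _ fun x => frob_k0 (q := q) _ x.2

theorem coe_frobLow (x : k0Fld M A) :
    (frobLow (q := q) M A x : LaurentSeries (ResidueField A)) =
      coeffMap (frobenius (ResidueField A) q) (x : LaurentSeries (ResidueField A)) := rfl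

theorem frobLow_const (a : ResidueField A) :
    frobLow (q := q) M A (algebraMap _ _ a) ∈ (algebraMap (ResidueField A) (k0Fld M A)).range := by
  refine ⟨frobenius _ q a, Subtype.ext ?_⟩
  rw [coe_frobLow]
  show algebraMap (ResidueField A) (LaurentSeries _) _ = coeffMap _ (algebraMap _ _ a)
  rw [algebraMap_laurentSeries_eq_single, algebraMap_laurentSeries_eq_single, coeffMap_single]

/-! ### The degeneracy maps -/

/-- The inclusion of the reduced fields. -/
def inclTop : k0Fld M A →+* hTop H hH hA hqM hq2 :=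
  (IntermediateField.inclusion (le_topK (splitH H hH hA hqM hq2))).toRingHom

theorem coe_inclTop (x : k0Fld M A) :
    (inclTop H hH hA hqM hq2 x : LaurentSeries (ResidueField A)) = x := rfl

theorem inclTop_const (a : ResidueField A) :
    inclTop H hH hA hqM hq2 (algebraMap _ _ a) ∈
      (algebraMap (ResidueField A) (hTop H hH hA hqM hq2)).range :=
  ⟨a, rfl⟩

variable [NeZero q]

theorem qExpand_mem (x : LaurentSeries (ResidueField A)) (hx : x ∈ k0Fld M A) :
    qExpand (ResidueField A) q x ∈ k0Fld M A := by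
  induction hx using IntermediateField.adjoin_induction with
  | mem y hy =>
    obtain ⟨d, hne, hd, rfl⟩ := hy
    haveI := hne
    have hfix : coeffMap (frobenius (ResidueField A) q) (qExpand (ResidueField A) d
        (jqModC (ResidueField A))) = qExpand (ResidueField A) d (jqModC (ResidueField A)) := by
      rw [coeffMap_qExpand, coeffMap_jqModC]
    have h := pow_char_eq_qExpand q (qExpand (ResidueField A) d (jqModC (ResidueField A)))
    rw [hfix] at h
    rw [← h]
    exact pow_mem (jqModCd_mem_full (ResidueField A) M hd) q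
  | algebraMap c =>
    rw [algebraMap_laurentSeries_eq_single, qExpand_single, mul_zero,
      ← algebraMap_laurentSeries_eq_single]
    exact IntermediateField.algebraMap_mem _ _
  | add y z _ _ hy hz => rw [map_add]; exact add_mem hy hz
  | inv y _ hy => rw [map_inv₀]; exact inv_mem hy
  | mul y z _ _ hy hz => rw [map_mul]; exact mul_mem hy hz

/-- The substitution `T ↦ T^q`. -/
def expTop : k0Fld M A →+* hTop H hH hA hqM hq2 :=
  ((qExpand (ResidueField A) q).comp (k0Fld M A).val.toRingHom).codRestrict _ fun x =>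
    le_topK _ (qExpand_mem _ x.2)

theorem expTop_const (a : ResidueField A) :
    expTop H hH hA hqM hq2 (algebraMap _ _ a) ∈
      (algebraMap (ResidueField A) (hTop H hH hA hqM hq2)).range := by
  refine ⟨a, Subtype.ext ?_⟩
  show algebraMap (ResidueField A) (LaurentSeries _) a = qExpand _ q (algebraMap _ _ a)
  rw [algebraMap_laurentSeries_eq_single, qExpand_single, mul_zero]

theorem frobTop_expTop (x : k0Fld M A) :
    frobTop H hH hA hqM hq2 (expTop H hH hA hqM hq2 x) = inclTop H hH hA hqM hq2 x ^ q := by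
  refine Subtype.ext ?_
  rw [coe_frobTop, SubmonoidClass.coe_pow, coe_inclTop, pow_char_eq_qExpand q, ← coeffMap_qExpand]
  rfl

include hH in
theorem lvlH_le_low : (lvlH H hH).grp ≤ (lvlGamma0 M).grp := by
  intro g hg
  have h : g ∈ Gamma0 (M * q) := by rw [← GamH_top]; exact GamH_le_top hg
  show g ∈ Gamma0 M
  rw [Gamma0_mem] at h ⊢
  rw [ZMod.intCast_zmod_eq_zero_iff_dvd] at h ⊢
  exact (Int.natCast_dvd_natCast.2 (dvd_mul_right M q)).trans h

theorem upMat_eq_eps : upMat q 0 1 = eps q := by simp [upMat, eps]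

include hH hqM in
theorem low_conj : ∀ γ ∈ (lvlH H hH).grp, ∃ δ ∈ (lvlGamma0 M).grp,
    gl (upMat q 0 1) * glQ γ = glQ δ * gl (upMat q 0 1) := fun γ hγ => by
  rw [upMat_eq_eps]
  have h : γ ∈ GamH (M * q) (FA.HeckeH1.Hup M q ⊤) :=
    GamH_mono (fun u _ => Subgroup.mem_comap.2 (Subgroup.mem_top _)) hγ
  obtain ⟨δ, hδ, he⟩ := FA.HeckeH1.eps_conj (H := ⊤) hqM γ h
  refine ⟨δ, ?_, he⟩
  show δ ∈ Gamma0 M
  rw [← GamH_top]; exact hδ

/-- Restriction from `Γ₀(M)`. -/
def uOld1 : UCorr (lvlGamma0 M) (lvlH H hH) :=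
  uRes (lvlGamma0 M) (lvlH H hH) (lvlH_le_low H hH)

/-- The second degeneracy map from `Γ₀(M)`. -/
def uOld2 : UCorr (lvlGamma0 M) (lvlH H hH) :=
  uSingle (lvlGamma0 M) (lvlH H hH) hq.out.ne_zero one_ne_zero 0 (low_conj H hH hqM)

variable [NeZero (M * q)] {n : ℕ} [NeZero n]

theorem card_single {V V' : Lvl} {a D : ℕ} (ha : a ≠ 0) (hD : D ≠ 0) (b : ℤ)
    (h : ∀ γ ∈ V'.grp, ∃ δ ∈ V.grp, gl (upMat a b D) * glQ γ = glQ δ * gl (upMat a b D)) :
    Fintype.card (uSingle V V' ha hD b h).toI.C.ι = 1 :=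
  Fintype.card_eq_one_iff.2 ⟨(), fun _ => rfl⟩

theorem redPhi_old1 (x : cuspLat (lvlGamma0 M)) :
    redPhi (scaled_cH H hH hA hqM hq2) n (latC (uOld1 H hH).toI.C x) =
      mapTarget n (inclTop H hH hA hqM hq2) (inclTop_const H hH hA hqM hq2)
        (redPhi (scaled_cLow hA hqM) n x) :=
  redPhi_latC (cpRed_single (a := 1) rfl (fun _ => rfl) (fun _ => rfl) (card_single _ _ _ _)
    fun x => by rw [coe_inclTop, qExpand_one_apply]) _ _ _ x

theorem redPhi_old2 (x : cuspLat (lvlGamma0 M)) :
    redPhi (scaled_cH H hH hA hqM hq2) n (latC (uOld2 H hH hqM).toI.C x) =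
      mapTarget n (expTop H hH hA hqM hq2) (expTop_const H hH hA hqM hq2)
        (redPhi (scaled_cLow hA hqM) n x) :=
  redPhi_latC (cpRed_single (a := q) rfl (fun _ => rfl) (fun _ => rfl) (card_single _ _ _ _)
    fun _ => rfl) _ _ _ x

theorem mapTarget_frob_exp (x : RedTarget (ResidueField A) (k0Fld M A) n) :
    mapTarget n (frobTop H hH hA hqM hq2) (frobTop_const H hH hA hqM hq2)
        (mapTarget n (expTop H hH hA hqM hq2) (expTop_const H hH hA hqM hq2) x) =
      q • mapTarget n (inclTop H hH hA hqM hq2) (inclTop_const H hH hA hqM hq2) x := by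
  obtain ⟨r, hr, rfl⟩ := exists_redCls n x
  rw [mapTarget_redCls _ _ hr, mapTarget_redCls _ _ hr,
    mapTarget_redCls _ _ ((_root_.map_ne_zero _).2 hr), frobTop_expTop,
    redCls_pow_left n _ ((_root_.map_ne_zero _).2 hr)]

theorem redPhi_gal {σ : GQ} (hσ : A.IsFrobeniusAt σ q) {x y : cuspLat (lvlH H hH)}
    (h : GalRel (lvlH H hH) n σ x y) :
    redPhi (scaled_cH H hH hA hqM hq2) n y =
      mapTarget n (frobTop H hH hA hqM hq2) (frobTop_const H hH hA hqM hq2)
        (redPhi (scaled_cH H hH hA hqM hq2) n x) :=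
  redPhi_galRel _ (inducesOn_frobenius hσ) (coe_frobTop H hH hA hqM hq2) _ h

theorem redPhi_galLow {σ : GQ} (hσ : A.IsFrobeniusAt σ q) {x y : cuspLat (lvlGamma0 M)}
    (h : GalRel (lvlGamma0 M) n σ x y) :
    redPhi (scaled_cLow hA hqM) n y =
      mapTarget n (frobLow (q := q) M A) frobLow_const (redPhi (scaled_cLow hA hqM) n x) :=
  redPhi_galRel _ (inducesOn_frobenius hσ) coe_frobLow _ h

theorem card_uTc : Fintype.card (uTc (M * q) H hH q (dvd_mul_left q M)).toI.C.ι = q := by
  refine Eq.trans (Eq.symm ?_) (Fintype.card_fin q)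
  refine Fintype.card_congr (Equiv.ofBijective
    (fun j : Fin q =>
      (⟨some j, fun h => absurd h (by simp)⟩ : FA.HeckeH1.RIdx (M * q) q)) ⟨fun a b h => ?_, fun i => ?_⟩)
  · exact Option.some_injective _ (congrArg Subtype.val h)
  · obtain ⟨j, rfl⟩ := ridx_eq_some (M * q) q (dvd_mul_left q M) i
    exact ⟨j, rfl⟩

theorem redPhi_uTc (x : cuspLat (lvlH H hH)) :
    redPhi (scaled_cH H hH hA hqM hq2) n
        (latC (uTc (M * q) H hH q (dvd_mul_left q M)).toI.C x) =
      mapTarget n (frobTop H hH hA hqM hq2) (frobTop_const H hH hA hqM hq2)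
        (redPhi (scaled_cH H hH hA hqM hq2) n x) :=
  redPhi_latC (cpRed_frob (q := q) rfl (fun _ => rfl) (card_uTc H hH)
    (coe_frobTop H hH hA hqM hq2)) _ _ _ x

/-! ### Injectivity at level `M` and the kernel of the inclusion -/

theorem redPhi_low_eq_zero {p : ℕ} [Fact p.Prime] (hpq : p ≠ q)
    {x : cuspLat (lvlGamma0 M)} (h : redPhi (scaled_cLow hA hqM) p x = 0) :
    ∃ y : cuspLat (lvlGamma0 M), x = p • y := by
  haveI : NeZero p := ⟨(Fact.out : p.Prime).ne_zero⟩
  haveI : IsAlgClosed (ResidueField A) := FA.Frob.residueField_isAlgClosed A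
  obtain ⟨f, hf⟩ := exists_isKum (L := Qb) (n := p) x
  obtain ⟨D, hD, hfD⟩ := hf.exists_divisor
  have hin := reductionInputs_low (A := A) hA hqM
  set R := redLowR hin.1
  obtain ⟨c, g, r, hc, he, hg, hr⟩ := exists_scaled_low hA hqM hf.1
  rw [redPhi_eq _ hf, redFn_eq p hc he (cLow_of_red hA hqM _ hg) hr,
    redCls_eq_zero_iff p hr] at h
  obtain ⟨a, w, ha, hrw⟩ := h
  have hw : w ≠ 0 := fun h0 => hr (by
    rw [hrw, h0, zero_pow (Fact.out : p.Prime).ne_zero, mul_zero])
  have hF := isFunctionField_up (L := Qb) M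
  have hk := isFunctionField_fullC (ResidueField A) M
  have hg0 : g ≠ 0 := hg.ne_zero hr
  have hdiv : ∀ P : Place Qb ((lvlGamma0 M).fld Qb),
      (p • (D : Divisor Qb ((lvlGamma0 M).fld Qb))) P = P.ord g := fun P => by
    rw [Finsupp.smul_apply, nsmul_eq_mul, hfD P, he,
      P.ord_mul ((_root_.map_ne_zero _).2 hc) hg0, place_ord_algebraMap, zero_add]
  have hred : (R.push (D : Divisor Qb ((lvlGamma0 M).fld Qb))).IsPrincipal := by
    refine ⟨w, hw, fun Q => ?_⟩
    obtain ⟨hgm, hgr⟩ := hg
    have h1 := R.div_red ⟨g, hgm⟩ (by rw [hgr]; exact hr) _ hdiv Q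
    rw [hgr, hrw, Q.ord_mul ((_root_.map_ne_zero _).2 ha) (pow_ne_zero _ hw), place_ord_algebraMap,
      zero_add, place_ord_pow, ← Finsupp.mapDomain.addMonoidHom_apply, map_nsmul,
      Finsupp.mapDomain.addMonoidHom_apply, Finsupp.smul_apply, nsmul_eq_mul] at h1
    exact mul_left_cancel₀ (Nat.cast_ne_zero.2 (Fact.out : p.Prime).ne_zero) h1
  have hD0 := Reduction.isPrincipal_of_push_isPrincipal (R := R) hF hk hin.2
    (Fact.out : p.Prime).ne_zero
    (valuation_natCast_eq_one hA fun hd =>
      hpq ((Nat.prime_dvd_prime_iff_eq hq.out Fact.out).1 hd).symm)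
    D.2 ⟨g, hg0, hdiv⟩ hred
  refine (FA.JTorsion.latTors_eq_zero_iff (L := Qb) (n := p)).1 (Subtype.ext ?_)
  refine hD.symm.trans ((QuotientAddGroup.eq_zero_iff _).2 ?_)
  rw [AddSubgroup.mem_addSubgroupOf]
  exact hD0

/-- **The inclusion only kills classes fixed by the Frobenius.** -/
theorem frobLow_fix {p : ℕ} [Fact p.Prime] (hpq : p ∣ q - 1)
    {x : RedTarget (ResidueField A) (k0Fld M A) p}
    (h : mapTarget p (inclTop H hH hA hqM hq2) (inclTop_const H hH hA hqM hq2) x = 0) :
    mapTarget p (frobLow (q := q) M A) frobLow_const x = x := by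
  haveI : IsAlgClosed (ResidueField A) := FA.Frob.residueField_isAlgClosed A
  have hp := (Fact.out : p.Prime).ne_zero
  obtain ⟨r, hr, rfl⟩ := exists_redCls p x
  rw [mapTarget_redCls _ _ hr, redCls_eq_zero_iff p ((_root_.map_ne_zero _).2 hr)] at h
  obtain ⟨a, w, ha, he⟩ := h
  have he' : (r : LaurentSeries (ResidueField A)) =
      algebraMap _ (LaurentSeries (ResidueField A)) a * (w : LaurentSeries (ResidueField A)) ^ p :=
    congrArg Subtype.val he
  have ha' : algebraMap (ResidueField A) (LaurentSeries (ResidueField A)) a ≠ 0 :=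
    (_root_.map_ne_zero _).2 ha
  have hw0 : (w : LaurentSeries (ResidueField A)) ≠ 0 := fun h0 => hr (Subtype.ext (by
    rw [he', h0, zero_pow hp, mul_zero]; rfl))
  have hwp : (w : LaurentSeries (ResidueField A)) ^ p ∈ k0Fld M A := by
    have : (w : LaurentSeries (ResidueField A)) ^ p =
        (algebraMap _ (LaurentSeries (ResidueField A)) a)⁻¹ * (r : LaurentSeries (ResidueField A)) := by
      rw [he', ← mul_assoc, inv_mul_cancel₀ ha', one_mul]
    rw [this]
    exact mul_mem (inv_mem ((k0Fld M A).algebraMap_mem a)) r.2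
  obtain ⟨v, hv, hv0, hθ⟩ := exists_frob_kummer (splitH H hH hA hqM hq2) (q := q) frob_k0
    (frob_root H hH hA hqM hq2) hp hpq w.2 hw0 hwp
  set b : ResidueField A := frobenius _ q a / a
  have hb : b ≠ 0 := div_ne_zero ((_root_.map_ne_zero _).2 ha) ha
  have hkey : frobLow (q := q) M A r =
      r * (algebraMap (ResidueField A) (k0Fld M A) b * (⟨v, hv⟩ : k0Fld M A) ^ p) := by
    refine Subtype.ext ?_
    rw [coe_frobLow, MulMemClass.coe_mul, MulMemClass.coe_mul, SubmonoidClass.coe_pow]
    show coeffMap _ (r : LaurentSeries (ResidueField A)) = _ *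
      (algebraMap (ResidueField A) (LaurentSeries (ResidueField A)) b * v ^ p)
    rw [he', map_mul, hθ, FA.CurveRed.algebraMap_eq_C, coeffMap_C, FA.CurveRed.algebraMap_eq_C,
      show frobenius (ResidueField A) q a = b * a from (div_mul_cancel₀ _ ha).symm, map_mul]
    ring
  have hvp : (⟨v, hv⟩ : k0Fld M A) ^ p ≠ 0 :=
    pow_ne_zero p fun h0 => hv0 (congrArg Subtype.val h0)
  rw [mapTarget_redCls _ _ hr, hkey,
    redCls_mul p hr (mul_ne_zero ((_root_.map_ne_zero _).2 hb) hvp),
    redCls_mul p ((_root_.map_ne_zero _).2 hb) hvp, redCls_const p hb, redCls_pow]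
  exact (congrArg (redCls (k := ResidueField A) p r + ·) (zero_add (0 : RedTarget (ResidueField A) (k0Fld M A) p))).trans
    (add_zero (redCls p r : RedTarget (ResidueField A) (k0Fld M A) p))

end FA.NebLocal
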