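import Mathlib
import Fermat.Agent.ModField.Congruence.Export
import Fermat.Agent.Level.Basic
import Fermat.Agent.JTorsion.GaloisTors

/-!
# Valuations of the coefficients of algebraic series

An algebraic number of degree at most `d` has a valuation whose power `d!` is a power of the
valuation of `q`, so a series with coefficients in a number field and bounded valuations attains
the largest one.
-/

set_option autoImplicit false
set_option linter.style.haveILetI false
set_option linter.unusedSectionVars false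

noncomputable section

namespace FA.NebLocal

open ModularCurve IntermediateField FA.ModField

local notation "Qb" => AlgebraicClosure ℚ

variable {q : ℕ} [hq : Fact q.Prime] {A : ValuationSubring Qb}

theorem valuation_q_lt_one (hA : A.LiesOverPrime q) : A.valuation (q : Qb) < 1 := by
  haveI := residueAt_charP hA
  have h := residueAt_eq_zero (A := A) (q : A)
  rw [map_natCast, CharP.cast_eq_zero] at h
  simpa using h.1 rfl

theorem valuation_q_ne_zero : A.valuation (q : Qb) ≠ 0 := by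
  simp [hq.out.ne_zero]

theorem exists_val_natCast (hA : A.LiesOverPrime q) {n : ℕ} (hn : n ≠ 0) :
    ∃ m : ℕ, A.valuation (n : Qb) = A.valuation (q : Qb) ^ m := by
  obtain ⟨e, u, hu, rfl⟩ := Nat.exists_eq_pow_mul_and_not_dvd hn q hq.out.ne_one
  exact ⟨e, by rw [Nat.cast_mul, map_mul, valuation_natCast_eq_one hA hu, mul_one, Nat.cast_pow,
    map_pow]⟩

theorem exists_val_ratCast (hA : A.LiesOverPrime q) {a : ℚ} (ha : a ≠ 0) :
    ∃ m : ℤ, A.valuation (a : Qb) = A.valuation (q : Qb) ^ m := by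
  obtain ⟨m, hm⟩ := exists_val_natCast hA (n := a.num.natAbs) (by simpa using ha)
  obtain ⟨m', hm'⟩ := exists_val_natCast hA (n := a.den) a.den_ne_zero
  refine ⟨(m : ℤ) - m', ?_⟩
  have hnum : A.valuation (a.num : Qb) = A.valuation (q : Qb) ^ m := by
    rcases Int.natAbs_eq a.num with h | h
    · rw [h, Int.cast_natCast, hm]
    · rw [h, Int.cast_neg, Valuation.map_neg, Int.cast_natCast, hm]
  rw [Rat.cast_def, map_div₀, hnum, hm', zpow_sub₀ valuation_q_ne_zero, zpow_natCast, zpow_natCast]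

/-- The valuation of an algebraic number of degree at most `d`. -/
theorem exists_val_pow (hA : A.LiesOverPrime q) {c : Qb} (hc : c ≠ 0) {d : ℕ}
    (hd : (minpoly ℚ c).natDegree ≤ d) :
    ∃ m : ℤ, A.valuation c ^ d.factorial = A.valuation (q : Qb) ^ m := by
  classical
  haveI : Algebra.IsAlgebraic ℚ Qb := AlgebraicClosure.isAlgebraic ℚ
  have hint : IsIntegral ℚ c := (Algebra.IsAlgebraic.isAlgebraic c).isIntegral
  set P := minpoly ℚ c
  let w : ℕ → Qb := fun i => algebraMap ℚ Qb (P.coeff i) * c ^ i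
  have hsum : ∑ i ∈ P.support, w i = 0 := by
    have h := minpoly.aeval ℚ c
    rw [Polynomial.aeval_def, Polynomial.eval₂_eq_sum, Polynomial.sum_def] at h
    exact h
  obtain ⟨i, hi, hmax⟩ := Finset.exists_max_image P.support (fun i => A.valuation (w i))
    (Polynomial.support_nonempty.2 (minpoly.ne_zero hint))
  have hne : ∀ j ∈ P.support, algebraMap ℚ Qb (P.coeff j) ≠ 0 := fun j hj =>
    (map_ne_zero _).2 (Polynomial.mem_support_iff.1 hj)
  have hwi : A.valuation (w i) ≠ 0 := by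
    rw [Valuation.ne_zero_iff]
    exact mul_ne_zero (hne i hi) (pow_ne_zero _ hc)
  obtain ⟨j, hj, hji, hej⟩ : ∃ j ∈ P.support, j ≠ i ∧ A.valuation (w j) = A.valuation (w i) := by
    by_contra hcon
    push Not at hcon
    have := Valuation.map_sum_eq_of_lt A.valuation hi (f := w) fun j hj => by
      rw [Finset.mem_sdiff, Finset.mem_singleton] at hj
      exact lt_of_le_of_ne (hmax j hj.1) (hcon j hj.1 hj.2)
    rw [hsum, map_zero] at this
    exact hwi this.symm
  obtain ⟨mi, hmi⟩ := exists_val_ratCast hA (Polynomial.mem_support_iff.1 hi)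
  obtain ⟨mj, hmj⟩ := exists_val_ratCast hA (Polynomial.mem_support_iff.1 hj)
  have hv : A.valuation c ≠ 0 := by simpa using hc
  have he : A.valuation c ^ ((j : ℤ) - i) = A.valuation (q : Qb) ^ (mi - mj) := by
    simp only [w, map_mul, map_pow, eq_ratCast, hmi, hmj] at hej
    rw [zpow_sub₀ hv, zpow_natCast, zpow_natCast, zpow_sub₀ valuation_q_ne_zero,
      div_eq_div_iff (pow_ne_zero _ hv) (zpow_ne_zero _ valuation_q_ne_zero),
      mul_comm, hej, mul_comm]
  have hdvd : ((j : ℤ) - i) ∣ (d.factorial : ℤ) := by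
    rw [← Int.natAbs_dvd, Int.natCast_dvd_natCast]
    refine Nat.dvd_factorial (Int.natAbs_pos.2 (sub_ne_zero.2 (by exact_mod_cast hji))) ?_
    have h1 := Polynomial.le_natDegree_of_mem_supp i hi
    have h2 := Polynomial.le_natDegree_of_mem_supp j hj
    omega
  obtain ⟨t, ht⟩ := hdvd
  exact ⟨(mi - mj) * t, by rw [← zpow_natCast, ht, zpow_mul, he, ← zpow_mul]⟩

theorem val_le_iff_of_pow (hA : A.LiesOverPrime q) {c c' : Qb} {n : ℕ} (hn : n ≠ 0) {m m' : ℤ}
    (h : A.valuation c ^ n = A.valuation (q : Qb) ^ m)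
    (h' : A.valuation c' ^ n = A.valuation (q : Qb) ^ m') :
    A.valuation c ≤ A.valuation c' ↔ m' ≤ m := by
  rw [← pow_le_pow_iff_left₀ zero_le zero_le hn, h, h']
  exact (zpow_right_strictAnti₀ (zero_lt_iff.2 valuation_q_ne_zero) (valuation_q_lt_one hA)).le_iff_ge

/-- **Small numbers have small powers.** -/
theorem exists_pow_mul_mem (hA : A.LiesOverPrime q) {δ : A} (hδ : A.valuation (δ : Qb) < 1)
    (c : Qb) : ∃ n : ℕ, c * (δ : Qb) ^ n ∈ A := by
  rcases eq_or_ne c 0 with rfl | hc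
  · exact ⟨0, by simp⟩
  rcases eq_or_ne (δ : Qb) 0 with hδ0 | hδ0
  · exact ⟨1, by rw [hδ0, pow_one, mul_zero]; exact zero_mem A⟩
  obtain ⟨d, hd⟩ : ∃ d, d = max (minpoly ℚ c).natDegree (minpoly ℚ (δ : Qb)).natDegree := ⟨_, rfl⟩
  obtain ⟨m, hm⟩ := exists_val_pow hA hc (d := d) (hd ▸ le_max_left _ _)
  obtain ⟨a, ha⟩ := exists_val_pow hA hδ0 (d := d) (hd ▸ le_max_right _ _)
  have hN := d.factorial_ne_zero
  have ha0 : 0 < a := by
    by_contra hcon
    push Not at hcon
    refine not_le.2 hδ ?_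
    rw [← map_one A.valuation]
    exact (val_le_iff_of_pow hA (c := (1 : Qb)) (m := 0) hN (by simp) ha).2 hcon
  refine ⟨m.natAbs, (A.valuation_le_one_iff _).1 ?_⟩
  rw [← map_one A.valuation]
  refine (val_le_iff_of_pow hA hN (c' := (1 : Qb)) (m := m + a * m.natAbs) (m' := 0) ?_ (by simp)).2 ?_
  · rw [map_mul, mul_pow, hm, map_pow, pow_right_comm, ha, ← zpow_natCast, ← zpow_mul,
      ← zpow_add₀ valuation_q_ne_zero]
  · have h1 : (1 : ℤ) * m.natAbs ≤ a * m.natAbs := by gcongr; omega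
    omega

/-- Series with coefficients in a number field. -/
theorem exists_numField {V : FA.Level.Lvl} {x : LaurentSeries Qb} (hx : x ∈ V.fld Qb) :
    ∃ K : IntermediateField ℚ Qb, FiniteDimensional ℚ K ∧ ∀ n, x.coeff n ∈ K := by
  haveI : Algebra.IsAlgebraic ℚ Qb := AlgebraicClosure.isAlgebraic ℚ
  suffices ∃ K : IntermediateField ℚ Qb, FiniteDimensional ℚ K ∧
      x ∈ (coeffMap K.val.toRingHom).fieldRange by
    obtain ⟨K, hK, y, rfl⟩ := this
    exact ⟨K, hK, fun n => by rw [coeffMap_coeff]; exact (y.coeff n).2⟩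
  have mono : ∀ {K K' : IntermediateField ℚ Qb}, K ≤ K' → ∀ y,
      y ∈ (coeffMap K.val.toRingHom).fieldRange → y ∈ (coeffMap K'.val.toRingHom).fieldRange := by
    rintro K K' h y ⟨z, rfl⟩
    exact ⟨coeffMap (IntermediateField.inclusion h).toRingHom z, by rw [coeffMap_coeffMap]; rfl⟩
  rw [mem_laurentBaseChange_iff] at hx
  induction hx using Subfield.closure_induction with
  | mem y hy =>
    rcases hy with ⟨a, rfl⟩ | ⟨z, _, rfl⟩
    · haveI := IntermediateField.adjoin.finiteDimensional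
        (Algebra.IsAlgebraic.isAlgebraic (R := ℚ) a).isIntegral
      refine ⟨ℚ⟮a⟯, inferInstance, HahnSeries.C ⟨a, mem_adjoin_simple_self ℚ a⟩, ?_⟩
      rw [coeffMap_C, algebraMap_laurentSeries_eq_single, ← HahnSeries.C_apply]
      rfl
    · exact ⟨⊥, inferInstance, coeffMap (algebraMap ℚ _) z, by
        rw [coeffMap_coeffMap]; exact coeffMap_congr (RingHom.ext fun r => by simp) z⟩
  | one => exact ⟨⊥, inferInstance, one_mem _⟩
  | add x y _ _ hx hy =>
    obtain ⟨K, hK, h⟩ := hx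
    obtain ⟨K', hK', h'⟩ := hy
    exact ⟨K ⊔ K', IntermediateField.finiteDimensional_sup K K',
      add_mem (mono le_sup_left _ h) (mono le_sup_right _ h')⟩
  | neg x _ hx => obtain ⟨K, hK, h⟩ := hx; exact ⟨K, hK, neg_mem h⟩
  | inv x _ hx => obtain ⟨K, hK, h⟩ := hx; exact ⟨K, hK, inv_mem h⟩
  | mul x y _ _ hx hy =>
    obtain ⟨K, hK, h⟩ := hx
    obtain ⟨K', hK', h'⟩ := hy
    exact ⟨K ⊔ K', IntermediateField.finiteDimensional_sup K K',
      mul_mem (mono le_sup_left _ h) (mono le_sup_right _ h')⟩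

/-- **An integral series of a level is a scalar times one with nonzero reduction.** -/
theorem exists_norm_series (hA : A.LiesOverPrime q) {k : Type} [Field k] {π : A →+* k}
    (hπ0 : ∀ a : A, π a = 0 ↔ A.valuation a < 1) {V : FA.Level.Lvl}
    {Y : LaurentSeries A} (hY : coeffMap (A.subtype : A →+* Qb) Y ∈ V.fld Qb)
    (hY0 : Y ≠ 0) :
    ∃ (e : A) (Z : LaurentSeries A), Y = HahnSeries.C e * Z ∧ coeffMap π Z ≠ 0 := by
  classical
  obtain ⟨K, hK, hcoeff⟩ := exists_numField hY
  set d := Module.finrank ℚ K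
  have hdeg : ∀ n, (minpoly ℚ (Y.coeff n : Qb)).natDegree ≤ d := fun n => by
    have h : (Y.coeff n : Qb) ∈ K := by simpa [coeffMap_coeff] using hcoeff n
    rw [← show ((⟨_, h⟩ : K) : Qb) = (Y.coeff n : Qb) from rfl]
    exact le_of_eq_of_le (congrArg Polynomial.natDegree
      (IntermediateField.minpoly_eq (⟨_, h⟩ : K)).symm) (minpoly.natDegree_le _)
  have hN := d.factorial_ne_zero
  have hex : ∀ n, (Y.coeff n : Qb) ≠ 0 → ∃ m : ℤ,
      A.valuation (Y.coeff n : Qb) ^ d.factorial = A.valuation (q : Qb) ^ m :=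
    fun n hn => exists_val_pow hA hn (hdeg n)
  obtain ⟨n₁, hn₁⟩ : ∃ n, Y.coeff n ≠ 0 := by
    by_contra hcon
    push Not at hcon
    exact hY0 (HahnSeries.ext (funext fun n => by rw [hcon]; rfl))
  obtain ⟨m₁, hm₁⟩ := hex n₁ (fun h => hn₁ (Subtype.ext h))
  obtain ⟨m₀, ⟨n₀, hn₀, hm₀⟩, hleast⟩ := Int.exists_least_of_bdd
    (P := fun m : ℤ => ∃ n, Y.coeff n ≠ 0 ∧
      A.valuation (Y.coeff n : Qb) ^ d.factorial = A.valuation (q : Qb) ^ m)
    ⟨0, fun m ⟨n, hn, hm⟩ => by
      refine (val_le_iff_of_pow hA hN (c' := (1 : Qb)) (m' := 0) hm (by simp)).1 ?_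
      rw [map_one]
      exact A.valuation_le_one _⟩ ⟨m₁, n₁, hn₁, hm₁⟩
  set e := Y.coeff n₀
  have he : (e : Qb) ≠ 0 := fun h => hn₀ (Subtype.ext h)
  have hmem : ∀ n, (Y.coeff n : Qb) / (e : Qb) ∈ A := fun n => by
    rw [← A.valuation_le_one_iff, map_div₀, div_le_one₀ (zero_lt_iff.2 (by simpa using he))]
    rcases eq_or_ne (Y.coeff n) 0 with h | h
    · rw [h]; simp
    · obtain ⟨m, hm⟩ := hex n (fun h' => h (Subtype.ext h'))
      exact (val_le_iff_of_pow hA hN hm hm₀).2 (hleast m ⟨n, h, hm⟩)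
  let Z : LaurentSeries A := HahnSeries.ofSuppBddBelow
    (fun n => (⟨(Y.coeff n : Qb) / (e : Qb), hmem n⟩ : A))
    ⟨Y.order, fun n hn => by
      by_contra hlt
      push Not at hlt
      refine hn (Subtype.ext ?_)
      show (Y.coeff n : Qb) / (e : Qb) = 0
      rw [HahnSeries.coeff_eq_zero_of_lt_order hlt]
      simp⟩
  refine ⟨e, Z, HahnSeries.ext (funext fun n => ?_), fun h0 => ?_⟩
  · refine Subtype.ext ?_
    rw [HahnSeries.C_apply, HahnSeries.coeff_single_zero_mul]
    show _ = (e : Qb) * ((Y.coeff n : Qb) / (e : Qb))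
    rw [mul_div_cancel₀ _ he]
  · have h1 := congrArg (fun s : LaurentSeries k => s.coeff n₀) h0
    simp only [coeffMap_coeff, HahnSeries.coeff_zero] at h1
    have h2 : Z.coeff n₀ = 1 := Subtype.ext (div_self he)
    rw [h2, map_one] at h1
    exact one_ne_zero h1

end FA.NebLocal
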