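import Fermat.Agent.NebLocal.Kummer
import Fermat.Agent.NebLocal.SerVal
import Fermat.Agent.NebLocal.LvlH
import Fermat.Agent.Level.Gamma0
import Fermat.Agent.ModField.Semistable.RedModular
import Fermat.Agent.CurveRed.GoodReduction

/-!
# The field of `Γ_H(M q)` as a split extension of the field of `Γ₀(M q)` reduced at `q`

The roots are the series of the sums `sumH` of weight zero Eisenstein quotients over the classes
of `H`; the coefficients modulo `q` recover the class, so their reductions are distinct.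
-/

set_option autoImplicit false
set_option linter.style.haveILetI false
set_option linter.unusedSectionVars false
set_option synthInstance.maxHeartbeats 200000
set_option maxHeartbeats 1000000

noncomputable section

namespace FA.NebLocal

open ModularCurve FA.ModField FA.Level Polynomial CongruenceSubgroup IsLocalRing
open UpperHalfPlane hiding I
open FA.HeckeH1 (GamH GamH_top GamH_le_top mem_GamH_iff ulHom ulHom_val)
open scoped MatrixGroups

local notation "Qb" => AlgebraicClosure ℚ

section arith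

variable {M : ℕ} [NeZero M] [Fact (1 < M)] (H : Subgroup (ZMod M)ˣ)

/-- How often the class of `u` meets `±d`. -/
def classWeight (u : (ZMod M)ˣ) (d : ℕ) : ℕ :=
  ∑ h ∈ elts M H, hits M ((h * u : (ZMod M)ˣ) : ZMod M) d

/-- The series of `sumH` after removing `q⁻¹`. -/
def classPS (u : (ZMod M)ˣ) : PowerSeries ℤ :=
  PowerSeries.mk fun n => ((∑ x ∈ n.divisorsAntidiagonal, classWeight H u x.1 * x.2 ^ 3 : ℕ) : ℤ)

theorem sumSer_eq (u : (ZMod M)ˣ) : sumSer M H u = HahnSeries.single (-1 : ℤ) 1 *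
    HahnSeries.ofPowerSeries ℤ ℤ (bbSer * classPS H u) := by
  have h : classPS H u = ∑ h ∈ elts M H,
      PowerSeries.mk fun n => (gCoeff M ((h * u : (ZMod M)ˣ) : ZMod M) n : ℤ) := by
    ext n
    rw [classPS, PowerSeries.coeff_mk, map_sum]
    simp only [PowerSeries.coeff_mk, gCoeff, classWeight, Finset.sum_mul]
    rw [Finset.sum_comm]
    push_cast
    rfl
  rw [sumSer, h, Finset.mul_sum, map_sum, Finset.mul_sum]
  rfl

theorem classWeight_eq (hH : (-1 : (ZMod M)ˣ) ∈ H) (u : (ZMod M)ˣ) (d : (ZMod M)ˣ) (n : ℕ)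
    (hn : (n : ZMod M) = (d : ZMod M)) :
    (classWeight H u n = 2 ∧ d * u⁻¹ ∈ H) ∨ (classWeight H u n = 0 ∧ d * u⁻¹ ∉ H) := by
  classical
  have h1 : ∀ h : (ZMod M)ˣ, ((n : ZMod M) = ((h * u : (ZMod M)ˣ) : ZMod M)) ↔ h = d * u⁻¹ :=
    fun h => by rw [hn, Units.val_inj, eq_mul_inv_iff_mul_eq]; exact eq_comm
  have h2 : ∀ h : (ZMod M)ˣ,
      (-(n : ZMod M) = ((h * u : (ZMod M)ˣ) : ZMod M)) ↔ h = -1 * (d * u⁻¹) := fun h => by
    rw [hn, ← Units.val_neg, Units.val_inj, ← mul_assoc, neg_one_mul, eq_mul_inv_iff_mul_eq]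
    exact eq_comm
  have hw : classWeight H u n = (if d * u⁻¹ ∈ H then 1 else 0) +
      if -1 * (d * u⁻¹) ∈ H then 1 else 0 := by
    rw [classWeight]
    simp only [hits, h1, h2, Finset.sum_add_distrib, Finset.sum_ite_eq', mem_elts]
  by_cases h : d * u⁻¹ ∈ H
  · exact Or.inl ⟨by rw [hw, if_pos h, if_pos (mul_mem hH h)], h⟩
  · refine Or.inr ⟨?_, h⟩
    rw [hw, if_neg h, if_neg]
    intro h'
    exact h ((Subgroup.mul_mem_cancel_left H hH).1 h')

/-- **The reductions modulo `q` of the sums separate the classes.** -/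
theorem class_of_series_eq {k : Type} [Field k] (h2 : (2 : k) ≠ 0) (hH : (-1 : (ZMod M)ˣ) ∈ H)
    (u w : (ZMod M)ˣ)
    (h : coeffMap (Int.castRingHom k) (sumSer M H u) =
      coeffMap (Int.castRingHom k) (sumSer M H w)) :
    u * w⁻¹ ∈ H := by
  rw [sumSer_eq, sumSer_eq, map_mul (coeffMap (Int.castRingHom k)),
    map_mul (coeffMap (Int.castRingHom k)), coeffMap_single, map_one, coeffMap_ofPowerSeries,
    coeffMap_ofPowerSeries, map_mul (PowerSeries.map (Int.castRingHom k)),
    map_mul (PowerSeries.map (Int.castRingHom k))] at h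
  have h3 := HahnSeries.ofPowerSeries_injective (mul_left_cancel₀
    (by rw [Ne, HahnSeries.single_eq_zero_iff]; exact one_ne_zero) h)
  have hu : IsUnit (PowerSeries.map (Int.castRingHom k) bbSer) := by
    rw [PowerSeries.isUnit_iff_constantCoeff]
    rw [← PowerSeries.coeff_zero_eq_constantCoeff_apply, PowerSeries.coeff_map,
      PowerSeries.coeff_zero_eq_constantCoeff_apply]
    simp [bbSer, ModularCurve.eisenstein4, ModularCurve.dedekindEtaUnitInv]
  have h4 := hu.mul_left_cancel h3
  have hcoeff : ∀ n : ℕ, (∑ x ∈ n.divisorsAntidiagonal,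
      (classWeight H u x.1 : k) * (x.2 : k) ^ 3) =
      ∑ x ∈ n.divisorsAntidiagonal, (classWeight H w x.1 : k) * (x.2 : k) ^ 3 := fun n => by
    have := congrArg (PowerSeries.coeff n) h4
    simpa [classPS, PowerSeries.coeff_map] using this
  have hW : ∀ n, n ≠ 0 → (classWeight H u n : k) = classWeight H w n := by
    intro n
    induction n using Nat.strongRecOn with
    | _ n ih =>
      intro hn
      have hmem : (n, 1) ∈ n.divisorsAntidiagonal := by simp [hn]
      have := hcoeff n
      rw [← Finset.add_sum_erase _ _ hmem, ← Finset.add_sum_erase _ _ hmem] at this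
      rw [Finset.sum_congr rfl (g := fun x => (classWeight H w x.1 : k) * (x.2 : k) ^ 3)
        (fun x hx => ?_)] at this
      · simpa using add_right_cancel this
      · obtain ⟨hne, hx⟩ := Finset.mem_erase.1 hx
        obtain ⟨hxn, -⟩ := Nat.mem_divisorsAntidiagonal.1 hx
        have h10 : x.1 ≠ 0 := fun h => hn (by rw [← hxn, h, zero_mul])
        have hlt : x.1 < n := by
          refine lt_of_le_of_ne (Nat.le_of_dvd (Nat.pos_of_ne_zero hn) ⟨x.2, hxn.symm⟩) fun he => ?_
          refine hne (Prod.ext he ?_)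
          exact Nat.eq_of_mul_eq_mul_left (Nat.pos_of_ne_zero h10) (by rw [mul_one, hxn, he])
        rw [ih _ hlt h10]
  have hval : (((u : ZMod M)).val : ZMod M) = (u : ZMod M) := ZMod.natCast_zmod_val _
  have hne : ((u : ZMod M)).val ≠ 0 := fun h0 => by
    rw [h0, Nat.cast_zero] at hval
    exact Units.ne_zero u hval.symm
  have hw := hW _ hne
  rcases classWeight_eq H hH w u _ hval with ⟨-, h'⟩ | ⟨e, h'⟩
  · exact h'
  · rcases classWeight_eq H hH u u _ hval with ⟨e', -⟩ | ⟨-, h''⟩
    · rw [e, e'] at hw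
      exact absurd (by simpa using hw) h2
    · exact absurd (by rw [mul_inv_cancel]; exact one_mem H) h''

end arith

/-! ### The symmetric functions of the roots -/

/-- Functions paired with their series. -/
def expPairs : Subring ((ℍ → ℂ) × LaurentSeries ℂ) where
  carrier := {x | HasExp (qp 1) x.1 x.2}
  one_mem' := hasExp_one
  zero_mem' := hasExp_zero
  add_mem' hx hy := hx.add hy
  mul_mem' hx hy := hx.mul (qp_ne_zero 1) hy
  neg_mem' hx := hx.neg

section sym

variable {M : ℕ} [NeZero M] [Fact (1 < M)] (H : Subgroup (ZMod M)ˣ)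
  (hH : (-1 : (ZMod M)ˣ) ∈ H)

/-- The classes of `H`. -/
abbrev ClsH : Type := (ZMod M)ˣ ⧸ H

instance fintypeClsH : Fintype (ClsH H) := Fintype.ofFinite _

instance decEqClsH : DecidableEq (ClsH H) := Classical.decEq _

theorem sumSer_congr {u u' : (ZMod M)ˣ} (h : u' * u⁻¹ ∈ H) : sumSer M H u' = sumSer M H u := by
  refine coeffMap_injective' (Int.castRingHom ℂ).injective_int ?_
  have h1 := hasExp_sumH H u'
  rw [sumH_congr H h] at h1
  exact h1.unique (covers_qp 1) (hasExp_sumH H u)

/-- The function of a class. -/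
def clsFun (x : ClsH H) : ℍ → ℂ := sumH M H (Quotient.out x)

/-- The series of a class. -/
def clsSer (x : ClsH H) : LaurentSeries ℤ := sumSer M H (Quotient.out x)

theorem clsFun_mk (u : (ZMod M)ˣ) : clsFun H (u : ClsH H) = sumH M H u := by
  obtain ⟨h, hh⟩ := QuotientGroup.mk_out_eq_mul H u
  refine sumH_congr H ?_
  rw [show Quotient.out (u : ClsH H) = u * h from hh, mul_comm u, mul_inv_cancel_right]
  exact h.2

theorem clsSer_one : clsSer H (1 : ClsH H) = sumSer M H 1 := by
  obtain ⟨h, hh⟩ := QuotientGroup.mk_out_eq_mul H 1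
  refine sumSer_congr H ?_
  rw [show Quotient.out (1 : ClsH H) = 1 * h from hh, inv_one, mul_one, one_mul]
  exact h.2

/-- The polynomial of the classes, as pairs. -/
def symPoly : Polynomial expPairs :=
  ∏ x : ClsH H, (X - C (⟨(clsFun H x, coeffMap (Int.castRingHom ℂ) (clsSer H x)),
    hasExp_sumH H _⟩ : expPairs))

theorem symPoly_fun_mem (i : ℕ) :
    ((symPoly H).coeff i : (ℍ → ℂ) × LaurentSeries ℂ).1 ∈ modFunsG (GamH M ⊤) M := by
  let Q : Polynomial (modFunsG (GamH M H) M) :=
    ∏ x : ClsH H, (X - C ⟨clsFun H x, sumH_mem H _⟩)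
  let fst : expPairs →+* (ℍ → ℂ) :=
    (RingHom.fst (ℍ → ℂ) (LaurentSeries ℂ)).comp expPairs.subtype
  have hQ : ((symPoly H).coeff i : (ℍ → ℂ) × LaurentSeries ℂ).1 = (Q.coeff i : ℍ → ℂ) := by
    have : (symPoly H).map fst = Q.map (modFunsG (GamH M H) M).val.toRingHom := by
      simp only [symPoly, Q, Polynomial.map_prod, Polynomial.map_sub, map_X, map_C]
      rfl
    have h := congrArg (fun P : Polynomial (ℍ → ℂ) => P.coeff i) this
    rw [coeff_map, coeff_map] at h
    exact h
  obtain ⟨h1, -, h3, h4⟩ := (Q.coeff i).2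
  rw [hQ]
  refine ⟨h1, fun g hg z => ?_, h3, h4⟩
  have hev : ∀ z : ℍ, (Q.coeff i : ℍ → ℂ) z = (∏ x : ClsH H, (X - C (clsFun H x z))).coeff i :=
    fun z => by
    have : Q.map ((Pi.evalRingHom (fun _ : ℍ => ℂ) z).comp
        (modFunsG (GamH M H) M).val.toRingHom) = ∏ x : ClsH H, (X - C (clsFun H x z)) := by
      simp only [Q, Polynomial.map_prod, Polynomial.map_sub, map_X, map_C]
      rfl
    rw [← this, coeff_map]
    rfl
  rw [hev, hev]
  refine congrArg (fun P : Polynomial ℂ => P.coeff i) ?_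
  refine Fintype.prod_equiv (Equiv.mulRight ((ulHom M ⟨g, hg⟩ : (ZMod M)ˣ) : ClsH H)) _ _
    fun x => ?_
  induction x using QuotientGroup.induction_on with
  | H u =>
    simp only [Equiv.coe_mulRight, ← QuotientGroup.mk_mul]
    rw [clsFun_mk, clsFun_mk, ← sumH_smul]

variable [Algebra Qb ℂ]

/-- Integral series of a class. -/
def clsA (A : ValuationSubring Qb) (x : ClsH H) : LaurentSeries A :=
  coeffMap (Int.castRingHom A) (clsSer H x)

theorem iota_clsA (A : ValuationSubring Qb) (x : ClsH H) :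
    coeffMap (A.subtype : A →+* Qb) (clsA H A x) = coeffMap (Int.castRingHom Qb) (clsSer H x) := by
  rw [clsA, coeffMap_coeffMap]
  exact coeffMap_congr (RingHom.ext_int _ _) _

theorem coeffMap_int_complex {L : Type} [Field L] [Algebra L ℂ] (s : LaurentSeries ℤ) :
    coeffMap (algebraMap L ℂ) (coeffMap (Int.castRingHom L) s) =
      coeffMap (Int.castRingHom ℂ) s := by
  rw [coeffMap_coeffMap]
  exact coeffMap_congr (RingHom.ext_int _ _) _

theorem clsA_mem (A : ValuationSubring Qb) (x : ClsH H) :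
    coeffMap (A.subtype : A →+* Qb) (clsA H A x) ∈ (lvlH H hH).fld Qb := by
  rw [iota_clsA]
  exact (lvlH H hH).mem_fld_of_modFuns (sumH_mem H (Quotient.out x)) _
    (by rw [coeffMap_int_complex]; exact hasExp_sumH H _)

theorem sym_mem (A : ValuationSubring Qb) (i : ℕ) :
    (∏ x : ClsH H, (X - C (coeffMap (A.subtype : A →+* Qb) (clsA H A x)))).coeff i ∈
      (lvlGamma0 M).fld Qb := by
  refine (lvlGamma0 M).mem_fld_of_modFuns
    (R := ((symPoly H).coeff i : (ℍ → ℂ) × LaurentSeries ℂ).1)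
    (by show _ ∈ modFunsG (Gamma0 M) M; rw [← GamH_top]; exact symPoly_fun_mem H i) _ ?_
  have hcoef : coeffMap (algebraMap Qb ℂ)
      ((∏ x : ClsH H, (X - C (coeffMap (A.subtype : A →+* Qb) (clsA H A x)))).coeff i) =
      ((symPoly H).coeff i : (ℍ → ℂ) × LaurentSeries ℂ).2 := by
    let snd : expPairs →+* LaurentSeries ℂ :=
      (RingHom.snd (ℍ → ℂ) (LaurentSeries ℂ)).comp expPairs.subtype
    have : (symPoly H).map snd =
        (∏ x : ClsH H, (X - C (coeffMap (A.subtype : A →+* Qb) (clsA H A x)))).map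
          (coeffMap (algebraMap Qb ℂ)) := by
      simp only [symPoly, Polynomial.map_prod, Polynomial.map_sub, map_X, map_C, iota_clsA,
        coeffMap_int_complex]
      rfl
    have h := congrArg (fun P : Polynomial (LaurentSeries ℂ) => P.coeff i) this
    rw [coeff_map, coeff_map] at h
    exact h.symm
  rw [hcoef]
  exact ((symPoly H).coeff i).2

theorem fldZero_le : (lvlGamma0 M).fld Qb ≤ (lvlH H hH).fld Qb := by
  rw [Lvl.fld_eq_adjoin, IntermediateField.adjoin_le_iff]
  rintro _ ⟨a, ha, rfl⟩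
  obtain ⟨f, ⟨h1, h2, h3, h4⟩, hexp⟩ := (lvlGamma0 M).gen_mem a ha
  refine (lvlH H hH).mem_fld_of_modFuns (R := f) ⟨h1, fun g hg z => h2 g ?_ z, h3, h4⟩ _
    (by rw [coeffEmb, coeffMap_coeffMap, show (algebraMap Qb ℂ).comp (algebraMap ℚ Qb) =
      algebraMap ℚ ℂ from RingHom.ext_rat _ _]; exact hexp)
  show g ∈ Gamma0 M
  rw [← GamH_top]
  exact GamH_le_top hg

include hH in
theorem exists_poly_sumSer {f : LaurentSeries Qb} (hf : f ∈ (lvlH H hH).fld Qb) :
    f ∈ IntermediateField.adjoin ((lvlGamma0 M).fld Qb)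
      {coeffMap (Int.castRingHom Qb) (sumSer M H 1)} := by
  set E := IntermediateField.adjoin ((lvlGamma0 M).fld Qb)
    {coeffMap (Int.castRingHom Qb) (sumSer M H 1)}
  set V := lvlH H hH
  have h0 : ∀ x ∈ (lvlGamma0 M).fld Qb, x ∈ E := fun x hx => E.algebraMap_mem ⟨x, hx⟩
  have hj : ((V.jF Qb : V.fld Qb) : LaurentSeries Qb) ∈ E := by
    refine h0 _ ?_
    rw [V.coe_jF, ← (lvlGamma0 M).coe_jF]
    exact ((lvlGamma0 M).jF Qb).2
  have hsep : ((V.sepF Qb : V.fld Qb) : LaurentSeries Qb) ∈ E := by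
    have hcoe : ((V.sepF Qb : V.fld Qb) : LaurentSeries Qb) =
        coeffMap (algebraMap ℚ Qb) (coeffMap (Int.castRingHom ℚ) (sepSerH H hH)) := rfl
    rw [hcoe, coeffMap_coeffMap, show (algebraMap ℚ Qb).comp (Int.castRingHom ℚ) =
      Int.castRingHom Qb from RingHom.ext_int _ _, sepSerH, map_add, map_mul, map_natCast,
      coeffMap_qExpand, coeffMap_jqModC]
    refine add_mem (IntermediateField.mem_adjoin_simple_self _ _)
      (mul_mem (natCast_mem _ _) (h0 _ ?_))
    rw [lvlGamma0_fld]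
    exact jqModCd_mem_full Qb M dvd_rfl
  have key : ∀ x : V.fld Qb, (x : LaurentSeries Qb) ∈ E := fun x => by
    have hx : x ∈ IntermediateField.adjoin (V.jFld Qb) {V.sepF Qb} := by
      rw [V.adjoin_sep_eq_top]; trivial
    refine IntermediateField.adjoin_induction (V.jFld Qb)
      (p := fun (y : V.fld Qb) _ => (y : LaurentSeries Qb) ∈ E) (fun y hy => ?_) (fun c => ?_)
      (fun y z _ _ hy hz => add_mem hy hz) (fun y _ hy => inv_mem hy)
      (fun y z _ _ hy hz => mul_mem hy hz) hx
    · rw [Set.mem_singleton_iff.1 hy]; exact hsep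
    · obtain ⟨c, hc⟩ := c
      show (c : LaurentSeries Qb) ∈ E
      induction hc using IntermediateField.adjoin_induction with
      | mem y hy => rw [Set.mem_singleton_iff.1 hy]; exact hj
      | algebraMap a => exact h0 _ ((lvlGamma0 M).fld Qb |>.algebraMap_mem a)
      | add y z _ _ hy hz => exact add_mem hy hz
      | inv y _ hy => exact inv_mem hy
      | mul y z _ _ hy hz => exact mul_mem hy hz
  exact key ⟨f, hf⟩

end sym

/-! ### The split extension -/

section data

variable {M q : ℕ} [NeZero M] [hq : Fact q.Prime] [Fact (1 < M * q)] [Algebra Qb ℂ]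
  {A : ValuationSubring Qb} (H : Subgroup (ZMod (M * q))ˣ) (hH : (-1 : (ZMod (M * q))ˣ) ∈ H)
  (hA : A.LiesOverPrime q) (hqM : ¬ q ∣ M) (hq2 : q ≠ 2)

include hA in
theorem harch_of (c : Qb) (hc : c ≠ 0) :
    ∃ m : ℕ, A.valuation ((q : Qb) ^ m) < A.valuation c := by
  obtain ⟨n, hn⟩ := exists_pow_mul_mem hA (δ := (q : A)) (by simpa using valuation_q_lt_one hA) c⁻¹
  refine ⟨n + 1, ?_⟩
  have h1 := (A.valuation_le_one_iff _).2 hn
  rw [map_mul, map_inv₀, inv_mul_le_one₀ (zero_lt_iff.2 (by simpa using hc))] at h1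
  have h2 : (((q : A) : A) : Qb) = (q : Qb) := map_natCast A.subtype q
  rw [h2] at h1
  rw [pow_succ, map_mul]
  exact lt_of_lt_of_le (mul_lt_of_lt_one_right
    (zero_lt_iff.2 (by simp [hq.out.ne_zero])) (valuation_q_lt_one hA)) h1

/-- The reduced field of level `M`. -/
abbrev k0Fld (M : ℕ) [NeZero M] (A : ValuationSubring Qb) :
    IntermediateField (ResidueField A) (LaurentSeries (ResidueField A)) :=
  modularFunctionFieldFullC (ResidueField A) M

include hA hqM in
theorem down_zero (Y : LaurentSeries A)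
    (hY : coeffMap (A.subtype : A →+* Qb) Y ∈ (lvlGamma0 (M * q)).fld Qb) :
    coeffMap (residue A) Y ∈ k0Fld M A := by
  haveI := residueAt_charP hA
  haveI : IsAlgClosed (ResidueField A) := FA.Frob.residueField_isAlgClosed A
  haveI : NeZero q := ⟨hq.out.ne_zero⟩
  rw [lvlGamma0_fld] at hY
  exact (exists_red_inf M q A (residue A) residue_surjective residueAt_eq_zero hqM
    (harch_of hA)).2 ⟨_, hY⟩ _ (redBig_series M q A _ residue_surjective residueAt_eq_zero Y rfl)

include hA hqM in
theorem base_zero (f : LaurentSeries Qb) (hf : f ∈ (lvlGamma0 (M * q)).fld Qb) :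
    ∃ (c : Qb) (Y Y' : LaurentSeries A),
      coeffMap (A.subtype : A →+* Qb) Y ∈ (lvlGamma0 (M * q)).fld Qb ∧
      coeffMap (A.subtype : A →+* Qb) Y' ∈ (lvlGamma0 (M * q)).fld Qb ∧
      coeffMap (residue A) Y' ≠ 0 ∧
      f * coeffMap (A.subtype : A →+* Qb) Y' =
        algebraMap Qb (LaurentSeries Qb) c * coeffMap (A.subtype : A →+* Qb) Y := by
  haveI := residueAt_charP hA
  haveI : IsAlgClosed (ResidueField A) := FA.Frob.residueField_isAlgClosed A
  haveI : NeZero q := ⟨hq.out.ne_zero⟩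
  rcases eq_or_ne f 0 with rfl | hf0
  · exact ⟨0, 0, 1, by rw [map_zero]; exact zero_mem _, by rw [map_one]; exact one_mem _,
      by rw [map_one]; exact one_ne_zero, by simp⟩
  have hsc := scaled_cInf (L := Qb) M q A (residue A) residue_surjective residueAt_eq_zero hqM
    (harch_of hA)
  obtain ⟨c, g, r, he, hg, -⟩ :=
    hsc (⟨f, hf⟩ : levelField (M * q) Qb) trivial fun h => hf0 (congrArg Subtype.val h)
  rw [cInf_red] at hg
  obtain ⟨Y, Y', hY, hY', hne, hfY, -⟩ := hg
  refine ⟨c, Y, Y', hY, hY', hne, ?_⟩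
  have h := congrArg (fun z : levelField (M * q) Qb => (z : LaurentSeries Qb)) he
  dsimp only at h
  rw [h, ← hfY]
  exact mul_assoc _ _ _

include hqM in
theorem lift_zero (r : LaurentSeries (ResidueField A)) (hr : r ∈ k0Fld M A) :
    ∃ Y Y' : LaurentSeries A,
      coeffMap (A.subtype : A →+* Qb) Y ∈ (lvlGamma0 (M * q)).fld Qb ∧
      coeffMap (A.subtype : A →+* Qb) Y' ∈ (lvlGamma0 (M * q)).fld Qb ∧
      coeffMap (residue A) Y' ≠ 0 ∧
      r * coeffMap (residue A) Y' = coeffMap (residue A) Y := by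
  set F := (lvlGamma0 (M * q)).fld Qb
  have hC : ∀ a : A, coeffMap (A.subtype : A →+* Qb) (HahnSeries.C a) ∈ F := fun a => by
    rw [coeffMap_C, ← FA.CurveRed.algebraMap_eq_C]; exact F.algebraMap_mem _
  induction hr using IntermediateField.adjoin_induction with
  | mem y hy =>
    obtain ⟨d, hne, hd, rfl⟩ := hy
    haveI := hne
    refine ⟨qExpand A d (jqModC A), 1, ?_, by rw [map_one]; exact one_mem _,
      by rw [map_one]; exact one_ne_zero,
      by rw [map_one, mul_one, coeffMap_qExpand, coeffMap_jqModC]⟩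
    rw [coeffMap_qExpand, coeffMap_jqModC]
    show _ ∈ (lvlGamma0 (M * q)).fld Qb
    rw [lvlGamma0_fld]
    exact jqModCd_mem_full Qb (M * q) (hd.trans (dvd_mul_right M q))
  | algebraMap c =>
    obtain ⟨a, rfl⟩ := residue_surjective c
    exact ⟨HahnSeries.C a, 1, hC a, by rw [map_one]; exact one_mem _,
      by rw [map_one]; exact one_ne_zero,
      by rw [map_one, mul_one, coeffMap_C, FA.CurveRed.algebraMap_eq_C]⟩
  | add y z _ _ hy hz =>
    obtain ⟨Y, Y', h1, h2, h3, h4⟩ := hy
    obtain ⟨Z, Z', g1, g2, g3, g4⟩ := hz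
    exact ⟨Y * Z' + Z * Y', Y' * Z',
      by rw [map_add, map_mul, map_mul]; exact add_mem (mul_mem h1 g2) (mul_mem g1 h2),
      by rw [map_mul]; exact mul_mem h2 g2, by rw [map_mul]; exact mul_ne_zero h3 g3,
      by rw [map_mul, map_add, map_mul, map_mul, ← h4, ← g4]; ring⟩
  | inv y _ hy =>
    obtain ⟨Y, Y', h1, h2, h3, h4⟩ := hy
    rcases eq_or_ne y 0 with rfl | hy0
    · exact ⟨0, 1, by rw [map_zero]; exact zero_mem _, by rw [map_one]; exact one_mem _,
        by rw [map_one]; exact one_ne_zero, by simp⟩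
    exact ⟨Y', Y, h2, h1, by rw [← h4]; exact mul_ne_zero hy0 h3,
      by rw [← h4, ← mul_assoc, inv_mul_cancel₀ hy0, one_mul]⟩
  | mul y z _ _ hy hz =>
    obtain ⟨Y, Y', h1, h2, h3, h4⟩ := hy
    obtain ⟨Z, Z', g1, g2, g3, g4⟩ := hz
    exact ⟨Y * Z, Y' * Z', by rw [map_mul]; exact mul_mem h1 g1,
      by rw [map_mul]; exact mul_mem h2 g2, by rw [map_mul]; exact mul_ne_zero h3 g3,
      by rw [map_mul, map_mul, ← h4, ← g4]; ring⟩

/-- **`Γ_H(M q)` as a split extension at `q`.** -/
def splitH : SplitExt (residue A) ((lvlGamma0 (M * q)).fld Qb) ((lvlH H hH).fld Qb) (k0Fld M A)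
    (ClsH H) where
  s := clsA H A
  u1 := 1
  le := fldZero_le H hH
  mem := clsA_mem H hH A
  gen f hf := by
    classical
    have h := exists_poly_sumSer H hH hf
    set s₁ := coeffMap (Int.castRingHom Qb) (sumSer (M * q) H 1)
    have hs : coeffMap (A.subtype : A →+* Qb) (clsA H A 1) = s₁ := by
      rw [iota_clsA, clsSer_one]
    have hint : IsIntegral ((lvlGamma0 (M * q)).fld Qb) s₁ := by
      have hlift : (∏ x : ClsH H, (X - C (coeffMap (A.subtype : A →+* Qb) (clsA H A x)))) ∈
          lifts (algebraMap ((lvlGamma0 (M * q)).fld Qb) (LaurentSeries Qb)) := by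
        rw [lifts_iff_coeff_lifts]
        exact fun i => ⟨⟨_, sym_mem H A i⟩, rfl⟩
      obtain ⟨P, hP, -, hPm⟩ := lifts_and_degree_eq_and_monic hlift (monic_prod_X_sub_C _ _)
      refine ⟨P, hPm, ?_⟩
      rw [← eval_map, hP, eval_prod]
      exact Finset.prod_eq_zero (Finset.mem_univ (1 : ClsH H)) (by rw [hs]; simp)
    have h' : f ∈ (IntermediateField.adjoin ((lvlGamma0 (M * q)).fld Qb) {s₁}).toSubalgebra := h
    rw [IntermediateField.adjoin_simple_toSubalgebra_of_isAlgebraic hint.isAlgebraic,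
      Algebra.adjoin_singleton_eq_range_aeval] at h'
    obtain ⟨Q, hQ⟩ := h'
    refine ⟨Q.map (algebraMap _ _), fun i => by rw [coeff_map]; exact (Q.coeff i).2, ?_⟩
    rw [hs, eval_map, ← aeval_def]
    exact hQ
  inj x y h := by
    haveI := residueAt_charP hA
    have h2 : (2 : ResidueField A) ≠ 0 := by
      intro h0
      have h1 := (CharP.cast_eq_zero_iff (ResidueField A) q 2).1 (by exact_mod_cast h0)
      exact hq2 ((Nat.prime_dvd_prime_iff_eq hq.out Nat.prime_two).1 h1)
    induction x using QuotientGroup.induction_on with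
    | H u =>
    induction y using QuotientGroup.induction_on with
    | H w =>
      have e : ∀ u : (ZMod (M * q))ˣ, clsSer H (u : ClsH H) = sumSer (M * q) H u := fun u => by
        obtain ⟨t, ht⟩ := QuotientGroup.mk_out_eq_mul H u
        refine sumSer_congr H ?_
        rw [show Quotient.out (u : ClsH H) = u * t from ht, mul_comm u, mul_inv_cancel_right]
        exact t.2
      simp only [clsA, coeffMap_coeffMap, e] at h
      rw [show (residue A).comp (Int.castRingHom A) = Int.castRingHom (ResidueField A) from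
        RingHom.ext_int _ _] at h
      have := class_of_series_eq H h2 hH _ _ h
      rw [QuotientGroup.eq, ← inv_mem_iff, mul_inv_rev, inv_inv, mul_comm w⁻¹]
      exact this
  sym := sym_mem H A
  base := base_zero hA hqM
  down := down_zero hA hqM
  lift := lift_zero hqM
  pi_zero := residueAt_eq_zero
  norm Y hY hY0 := exists_norm_series hA residueAt_eq_zero hY hY0
  small δ hδ c := exists_pow_mul_mem hA hδ c

end data

end FA.NebLocal
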