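import Fermat.Agent.NebLocal.TensorRed
import Fermat.Agent.NebLocal.RedH

/-!
# Reductions with coefficients

The reductions of classes after tensoring with the coefficients commute with the Galois action up
to the power of the maximal ideal and with the correspondences.
-/

set_option autoImplicit false
set_option linter.style.haveILetI false
set_option linter.unusedSectionVars false
set_option synthInstance.maxHeartbeats 200000
set_option maxHeartbeats 1000000
set_option maxSynthPendingDepth 4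

noncomputable section

namespace FA.NebLocal

open AlgebraicCurve ModularCurve FA.Level FA.JTorsion FA.CurveRed FA.ModField IsLocalRing
open scoped TensorProduct

local notation "Qb" => AlgebraicClosure ℚ
local notation "GQ" => AlgebraicClosure ℚ ≃ₐ[ℚ] AlgebraicClosure ℚ

/-! ### Base change -/

section bc

variable (O : Type) [CommRing O] {X Y Z : Type*} [AddCommGroup X] [AddCommGroup Y] [AddCommGroup Z]

/-- The map with coefficients. -/
def bc (f : X →+ Y) : O ⊗[ℤ] X →ₗ[O] O ⊗[ℤ] Y := LinearMap.baseChange O f.toIntLinearMap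

variable {O}

theorem bc_tmul (f : X →+ Y) (c : O) (x : X) : bc O f (c ⊗ₜ x) = c ⊗ₜ f x := rfl

theorem bc_mem (f : X →+ Y) {I : Ideal O} {t : O ⊗[ℤ] X}
    (h : t ∈ I • (⊤ : Submodule O (O ⊗[ℤ] X))) : bc O f t ∈ I • (⊤ : Submodule O (O ⊗[ℤ] Y)) := by
  have h' := Submodule.mem_map_of_mem (f := bc O f) h
  rw [Submodule.map_smul''] at h'
  exact Submodule.smul_mono le_rfl le_top h'

theorem bc_comp (f : X →+ Y) (g : Y →+ Z) (t : O ⊗[ℤ] X) :
    bc O g (bc O f t) = bc O (g.comp f) t := by
  induction t with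
  | zero => simp only [map_zero]
  | add a b ha hb => simp only [map_add, ha, hb]
  | tmul c x => simp only [bc_tmul]; rfl

theorem bc_congr {f g : X →+ Y} (h : ∀ x, f x = g x) (t : O ⊗[ℤ] X) : bc O f t = bc O g t := by
  rw [AddMonoidHom.ext h]

theorem bc_sub (f g : X →+ Y) (t : O ⊗[ℤ] X) : bc O (f - g) t = bc O f t - bc O g t := by
  induction t with
  | zero => simp only [map_zero, sub_zero]
  | add a b ha hb => simp only [map_add, ha, hb]; abel
  | tmul c x => simp only [bc_tmul, AddMonoidHom.sub_apply, TensorProduct.tmul_sub]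

theorem bc_nsmul (f : X →+ Y) (n : ℕ) (t : O ⊗[ℤ] X) : bc O (n • f) t = (n : O) • bc O f t := by
  induction t with
  | zero => simp only [map_zero, smul_zero]
  | add a b ha hb => simp only [map_add, ha, hb, smul_add]
  | tmul c x =>
    simp only [bc_tmul, AddMonoidHom.nsmul_apply]
    rw [TensorProduct.tmul_smul, Nat.cast_smul_eq_nsmul]

theorem bc_id (t : O ⊗[ℤ] X) : bc O (AddMonoidHom.id X) t = t := by
  induction t with
  | zero => simp only [map_zero]
  | add a b ha hb => simp only [map_add, ha, hb]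
  | tmul c x => rfl

end bc

variable {p : ℕ} [Fact p.Prime] {O : Type} [CommRing O] [IsDomain O] [IsDiscreteValuationRing O]
  [IsAdicComplete (maximalIdeal O) O]

/-! ### Reductions -/

section red

variable [Algebra Qb ℂ] (hpO : (p : O) ∈ maximalIdeal O) {V V' : Lvl}

/-- A reduction compatible with `GalRel` is compatible with `galR` modulo the power. -/
theorem bc_galR {T : Type*} [AddCommGroup T] {j : ℕ} (φ : cuspLat V →+ T) (θ : T →+ T) (σ : GQ)
    (h : ∀ x y, GalRel V (p ^ j) σ x y → φ y = θ (φ x)) (t : O ⊗[ℤ] cuspLat V) :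
    bc O φ (galR hpO V σ t) - bc O θ (bc O φ t) ∈
      maximalIdeal O ^ j • (⊤ : Submodule O (O ⊗[ℤ] T)) := by
  induction t with
  | zero => simp only [map_zero, sub_zero, zero_mem]
  | add a b ha hb =>
    simp only [map_add]
    rw [add_sub_add_comm]
    exact add_mem ha hb
  | tmul c x =>
    obtain ⟨y, hy⟩ := exists_galRel (n := p ^ j) σ x
    have hc : c ⊗ₜ[ℤ] x = c • ((1 : O) ⊗ₜ[ℤ] x) := by
      rw [TensorProduct.smul_tmul', smul_eq_mul, mul_one]
    rw [hc, map_smul, map_smul, map_smul, map_smul, ← smul_sub]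
    refine Submodule.smul_mem _ c ?_
    have h1 := bc_mem φ (galR_spec hpO hy)
    rw [map_sub, bc_tmul, h x y hy] at h1
    rwa [bc_tmul, bc_tmul]

omit [Algebra Qb ℂ] [IsAdicComplete (maximalIdeal O) O] in
/-- A reduction compatible with a transfer. -/
theorem bc_tensC {T T' : Type*} [AddCommGroup T] [AddCommGroup T'] (φ : cuspLat V →+ T)
    (φ' : cuspLat V' →+ T') (ψ : T →+ T') (C : FA.HeckeH1.Corr V.grp V'.grp)
    (h : ∀ x, φ' (FA.NebLocal.latC C x) = ψ (φ x)) (t : O ⊗[ℤ] cuspLat V) :
    bc O φ' (tensC O C t) = bc O ψ (bc O φ t) := by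
  induction t with
  | zero => simp only [map_zero]
  | add a b ha hb => simp only [map_add, ha, hb]
  | tmul c x => rw [tensC_tmul, bc_tmul, bc_tmul, bc_tmul, h]

omit [Algebra Qb ℂ] [IsAdicComplete (maximalIdeal O) O] in
include hpO in
/-- A reduction killing only multiples of `p` detects the maximal ideal. -/
theorem mem_of_bc_mem {X T : Type*} [AddCommGroup X] [AddCommGroup T] (hT : ∀ b : T, p • b = 0)
    (φ : X →+ T) (hφ : ∀ x, φ x = 0 → ∃ y, x = p • y) {t : O ⊗[ℤ] X}
    (h : bc O φ t ∈ maximalIdeal O • (⊤ : Submodule O (O ⊗[ℤ] T))) :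
    t ∈ maximalIdeal O • (⊤ : Submodule O (O ⊗[ℤ] X)) := by
  let R : AddSubgroup X := (nsmulAddMonoidHom (α := X) p).range
  let mk : X →+ X ⧸ R := QuotientAddGroup.mk' R
  have hQ : ∀ c : X ⧸ R, p • c = 0 := fun c => by
    obtain ⟨x, rfl⟩ := QuotientAddGroup.mk_surjective c
    rw [← QuotientAddGroup.mk_nsmul, QuotientAddGroup.eq_zero_iff]
    exact ⟨x, rfl⟩
  obtain ⟨ψ, hψ⟩ := exists_factor_prime p hT hQ φ mk fun x hx => by
    obtain ⟨y, rfl⟩ := hφ x hx
    exact (QuotientAddGroup.eq_zero_iff _).2 ⟨y, rfl⟩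
  have h1 : bc O mk t ∈ maximalIdeal O • (⊤ : Submodule O (O ⊗[ℤ] (X ⧸ R))) := by
    have := bc_mem ψ h
    rwa [bc_comp, bc_congr (g := mk) hψ] at this
  have hsurj : Function.Surjective (bc O mk) :=
    LinearMap.lTensor_surjective O (g := mk.toIntLinearMap) (QuotientAddGroup.mk'_surjective R)
  have htop : maximalIdeal O • (⊤ : Submodule O (O ⊗[ℤ] (X ⧸ R))) =
      (maximalIdeal O • (⊤ : Submodule O (O ⊗[ℤ] X))).map (bc O mk) := by
    rw [Submodule.map_smul'', Submodule.map_top, LinearMap.range_eq_top.2 hsurj]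
  rw [htop] at h1
  obtain ⟨t', ht', he⟩ := h1
  let mn : X →ₗ[ℤ] X := (p : ℤ) • LinearMap.id
  have hexact : Function.Exact mn mk.toIntLinearMap := fun z => by
    constructor
    · intro hz
      obtain ⟨w, hw⟩ := (QuotientAddGroup.eq_zero_iff z).1 hz
      exact ⟨w, by rw [show mn w = (p : ℤ) • w from rfl, natCast_zsmul]; exact hw⟩
    · rintro ⟨w, rfl⟩
      refine (QuotientAddGroup.eq_zero_iff _).2 ⟨w, ?_⟩
      rw [show mn w = (p : ℤ) • w from rfl, natCast_zsmul]; rfl
  obtain ⟨w, hw⟩ : t - t' ∈ LinearMap.range (LinearMap.lTensor O mn) := by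
    refine (lTensor_exact O hexact (QuotientAddGroup.mk'_surjective R) _).1 ?_
    show bc O mk (t - t') = 0
    rw [map_sub, he, sub_self]
  have hw' : LinearMap.lTensor O mn w = (p : O) • w := by
    rw [LinearMap.lTensor_smul, LinearMap.smul_apply, LinearMap.lTensor_id, LinearMap.id_apply,
      natCast_zsmul, Nat.cast_smul_eq_nsmul]
  rw [← sub_add_cancel t t', ← hw, hw']
  exact add_mem (Submodule.smul_mem_smul hpO Submodule.mem_top) ht'

end red

/-! ### The inclusion and the Frobenius -/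

section top

variable {M q : ℕ} [NeZero M] [hq : Fact q.Prime] [Fact (1 < M * q)] [Algebra Qb ℂ]
  {A : ValuationSubring Qb} (H : Subgroup (ZMod (M * q))ˣ) (hH : (-1 : (ZMod (M * q))ˣ) ∈ H)
  (hA : A.LiesOverPrime q) (hqM : ¬ q ∣ M) (hq2 : q ≠ 2) [CharP (ResidueField A) q] {n : ℕ}

theorem mapTarget_frob_incl (x : RedTarget (ResidueField A) (k0Fld M A) n) :
    mapTarget n (frobTop H hH hA hqM hq2) (frobTop_const H hH hA hqM hq2)
        (mapTarget n (inclTop H hH hA hqM hq2) (inclTop_const H hH hA hqM hq2) x) =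
      mapTarget n (inclTop H hH hA hqM hq2) (inclTop_const H hH hA hqM hq2)
        (mapTarget n (frobLow (q := q) M A) frobLow_const x) := by
  obtain ⟨r, hr, rfl⟩ := exists_redCls n x
  rw [mapTarget_redCls _ _ hr, mapTarget_redCls _ _ hr,
    mapTarget_redCls _ _ ((_root_.map_ne_zero _).2 hr),
    mapTarget_redCls _ _ ((_root_.map_ne_zero _).2 hr)]
  refine congrArg (redCls n) (Subtype.ext ?_)
  rw [coe_frobTop, coe_inclTop, coe_inclTop, coe_frobLow]

end top

end FA.NebLocal
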