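import Fermat.Agent.NebLocal.RedClass
import Mathlib.RingTheory.Flat.Stability
import Mathlib.RingTheory.Flat.TorsionFree
import Mathlib.LinearAlgebra.Basis.VectorSpace

/-!
# Coefficients for the reductions of classes

Divisibility in `O ⊗ (E^× / k^× E^×^n)`, the projection to a smaller modulus, and factorisations
of maps into groups killed by a prime.
-/

set_option autoImplicit false
set_option linter.style.haveILetI false
set_option linter.unusedSectionVars false
set_option synthInstance.maxHeartbeats 200000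
set_option maxHeartbeats 1000000
set_option maxSynthPendingDepth 4

noncomputable section

namespace FA.NebLocal

open AlgebraicCurve ModularCurve FA.Level FA.JTorsion FA.CurveRed FA.ModField IsLocalRing
open scoped TensorProduct

section factor

variable (p : ℕ) [Fact p.Prime]

/-- A map on a subgroup of a group killed by `p` extends to the group. -/
theorem exists_extend_prime {B C : Type*} [AddCommGroup B] [AddCommGroup C] [Module (ZMod p) B]
    [Module (ZMod p) C] (R : AddSubgroup B) (g₀ : R →+ C) :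
    ∃ ψ : B →+ C, ∀ x : R, ψ x = g₀ x := by
  obtain ⟨ψ, hψ⟩ := LinearMap.exists_extend (p := AddSubgroup.toZModSubmodule p R)
    (AddMonoidHom.toZModLinearMap p
      (M := (AddSubgroup.toZModSubmodule p R : Submodule (ZMod p) B)) g₀)
  exact ⟨ψ.toAddMonoidHom, fun x => LinearMap.congr_fun hψ x⟩

/-- A map vanishing on the kernel of a map into a group killed by `p` factors through it. -/
theorem exists_factor_prime {A B C : Type*} [AddCommGroup A] [AddCommGroup B] [AddCommGroup C]
    (hB : ∀ b : B, p • b = 0) (hC : ∀ c : C, p • c = 0) (f : A →+ B) (g : A →+ C)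
    (hfg : ∀ a, f a = 0 → g a = 0) : ∃ ψ : B →+ C, ∀ a, ψ (f a) = g a := by
  letI : Module (ZMod p) B := AddCommGroup.zmodModule hB
  letI : Module (ZMod p) C := AddCommGroup.zmodModule hC
  have key : ∀ a a' : A, f a = f a' → g a = g a' := fun a a' h => by
    rw [← sub_eq_zero, ← map_sub]
    exact hfg _ (by rw [map_sub, h, sub_self])
  let g₀ : f.range →+ C := AddMonoidHom.mk' (fun x => g x.2.choose) fun x y => by
    rw [← map_add]
    refine key _ _ ?_
    rw [map_add, x.2.choose_spec, y.2.choose_spec, (x + y).2.choose_spec]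
    rfl
  obtain ⟨ψ, hψ⟩ := exists_extend_prime p f.range g₀
  exact ⟨ψ, fun a => (hψ ⟨f a, a, rfl⟩).trans
    (key _ _ (⟨f a, a, rfl⟩ : f.range).2.choose_spec)⟩

end factor

section target

variable {k : Type} [Field k] [IsAlgClosed k] {E : Type} [Field E] [Algebra k E]

/-- Nonzero functions modulo constants. -/
abbrev FnClass (k E : Type) [Field k] [Field E] [Algebra k E] : Type :=
  Additive (Eˣ ⧸ (Units.map (algebraMap k E).toMonoidHom).range)

theorem nsmul_fnClass_eq_zero {x : FnClass k E} {n : ℕ} (hn : n ≠ 0) (h : n • x = 0) : x = 0 := by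
  obtain ⟨u, hu⟩ := QuotientGroup.mk_surjective (Additive.toMul x)
  obtain rfl : Additive.ofMul (QuotientGroup.mk u) = x := by rw [hu]; rfl
  rw [← ofMul_pow, ofMul_eq_zero, ← QuotientGroup.mk_pow, QuotientGroup.eq_one_iff] at h
  obtain ⟨a, ha⟩ := h
  have ha' : (u : E) ^ n = algebraMap k E a := by
    have := congrArg Units.val ha
    simpa using this.symm
  have hint : IsIntegral k (u : E) :=
    IsIntegral.of_pow (Nat.pos_of_ne_zero hn) (ha' ▸ isIntegral_algebraMap)
  obtain ⟨c, hc⟩ := minpoly.mem_range_of_degree_eq_one k (u : E)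
    (IsAlgClosed.degree_eq_one_of_irreducible k (minpoly.irreducible hint))
  have hc0 : c ≠ 0 := fun h0 => u.ne_zero (by rw [← hc, h0, map_zero])
  rw [ofMul_eq_zero, QuotientGroup.eq_one_iff]
  exact ⟨Units.mk0 c hc0, Units.ext hc⟩

instance fnClass_flat : Module.Flat ℤ (FnClass k E) := by
  haveI : IsAddTorsionFree (FnClass k E) := ⟨fun n hn a b h => by
    rw [← sub_eq_zero]
    refine nsmul_fnClass_eq_zero hn ?_
    have h' : n • a = n • b := h
    rw [smul_sub, h', sub_self]⟩
  haveI : Module.IsTorsionFree ℤ (FnClass k E) := inferInstance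
  infer_instance

variable (k E) (n : ℕ)

/-- The projection to the target. -/
def toTarget : FnClass k E →+ RedTarget k E n :=
  MonoidHom.toAdditive (QuotientGroup.map _ (powConst k E n) (MonoidHom.id Eˣ)
    fun _ hx => Subgroup.mem_sup_left hx)

theorem toTarget_surjective : Function.Surjective (toTarget k E n) := fun x => by
  obtain ⟨u, hu⟩ := QuotientGroup.mk_surjective (Additive.toMul x)
  exact ⟨Additive.ofMul (QuotientGroup.mk u), congrArg Additive.ofMul hu⟩

theorem ker_toTarget {x : FnClass k E} (h : toTarget k E n x = 0) : ∃ y, n • y = x := by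
  obtain ⟨u, hu⟩ := QuotientGroup.mk_surjective (Additive.toMul x)
  obtain rfl : Additive.ofMul (QuotientGroup.mk u) = x := by rw [hu]; rfl
  have h' : (QuotientGroup.mk u : Eˣ ⧸ powConst k E n) = 1 := h
  rw [QuotientGroup.eq_one_iff, powConst, Subgroup.mem_sup] at h'
  obtain ⟨a, ha, b, ⟨w, rfl⟩, rfl⟩ := h'
  refine ⟨Additive.ofMul (QuotientGroup.mk w), ?_⟩
  rw [← ofMul_pow, ← QuotientGroup.mk_pow]
  refine congrArg Additive.ofMul (QuotientGroup.eq.2 ?_)
  show (w ^ n)⁻¹ * (a * w ^ n) ∈ _
  rw [mul_comm a, inv_mul_cancel_left]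
  exact ha

/-- The projection to a smaller modulus. -/
def projTarget {m : ℕ} (h : m ∣ n) : RedTarget k E n →+ RedTarget k E m :=
  MonoidHom.toAdditive (QuotientGroup.map _ _ (MonoidHom.id Eˣ) (sup_le le_sup_left (by
    obtain ⟨d, rfl⟩ := h
    rintro _ ⟨w, rfl⟩
    refine Subgroup.mem_sup_right ⟨w ^ d, ?_⟩
    show (w ^ d) ^ m = w ^ (m * d)
    rw [← pow_mul, mul_comm])))

variable {k E n}

theorem projTarget_redCls {m : ℕ} (h : m ∣ n) {r : E} (hr : r ≠ 0) :
    projTarget k E n h (redCls n r) = redCls m r := by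
  rw [redCls, dif_pos hr, redCls, dif_pos hr]
  rfl

variable {O : Type} [CommRing O] [IsDomain O] [IsDiscreteValuationRing O]

/-- **Cancellation in the target with coefficients.** -/
theorem mem_smul_top_of_smul_mem {P : O} (hP : P ≠ 0) {p j : ℕ} {ϖ : O} (hϖ : Irreducible ϖ)
    {v : ℕ} (hv : Associated P (ϖ ^ v)) (hvj : v < j) (hn : (p : O) ^ j ∈ maximalIdeal O ^ j)
    {y : O ⊗[ℤ] RedTarget k E (p ^ j)}
    (h : P • y ∈ maximalIdeal O ^ j • (⊤ : Submodule O (O ⊗[ℤ] RedTarget k E (p ^ j)))) :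
    y ∈ maximalIdeal O • (⊤ : Submodule O (O ⊗[ℤ] RedTarget k E (p ^ j))) := by
  let t : FnClass k E →ₗ[ℤ] RedTarget k E (p ^ j) := (toTarget k E (p ^ j)).toIntLinearMap
  let Φ : O ⊗[ℤ] FnClass k E →ₗ[O] O ⊗[ℤ] RedTarget k E (p ^ j) := LinearMap.baseChange O t
  have hsurj : Function.Surjective Φ :=
    LinearMap.lTensor_surjective O (toTarget_surjective k E (p ^ j))
  obtain ⟨x, rfl⟩ := hsurj y
  let mn : FnClass k E →ₗ[ℤ] FnClass k E := ((p ^ j : ℕ) : ℤ) • LinearMap.id
  have hexact : Function.Exact mn t := fun z => by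
    constructor
    · intro hz
      obtain ⟨w, hw⟩ := ker_toTarget k E (p ^ j) hz
      exact ⟨w, by rw [show mn w = ((p ^ j : ℕ) : ℤ) • w from rfl, natCast_zsmul]; exact hw⟩
    · rintro ⟨w, rfl⟩
      show toTarget k E (p ^ j) (((p ^ j : ℕ) : ℤ) • w) = 0
      rw [natCast_zsmul, map_nsmul]
      exact nsmul_target _ _
  have htop : maximalIdeal O ^ j • (⊤ : Submodule O (O ⊗[ℤ] RedTarget k E (p ^ j))) =
      (maximalIdeal O ^ j • (⊤ : Submodule O (O ⊗[ℤ] FnClass k E))).map Φ := by
    rw [Submodule.map_smul'', Submodule.map_top, LinearMap.range_eq_top.2 hsurj]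
  rw [← map_smul, htop] at h
  obtain ⟨x', hx', hxx⟩ := h
  have hker : P • x - x' ∈ LinearMap.range (LinearMap.lTensor O mn) := by
    refine (lTensor_exact O hexact (toTarget_surjective k E (p ^ j)) _).1 ?_
    show Φ (P • x - x') = 0
    rw [map_sub, hxx, sub_self]
  obtain ⟨w, hw⟩ := hker
  have hw' : LinearMap.lTensor O mn w = ((p : O) ^ j) • w := by
    rw [LinearMap.lTensor_smul, LinearMap.smul_apply, LinearMap.lTensor_id, LinearMap.id_apply,
      natCast_zsmul, ← Nat.cast_smul_eq_nsmul O, Nat.cast_pow]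
  have hPx : P • x ∈ maximalIdeal O ^ j • (⊤ : Submodule O (O ⊗[ℤ] FnClass k E)) := by
    rw [← sub_add_cancel (P • x) x', ← hw, hw']
    exact add_mem (Submodule.smul_mem_smul hn Submodule.mem_top) hx'
  rw [(IsDiscreteValuationRing.irreducible_iff_uniformizer ϖ).1 hϖ, Ideal.span_singleton_pow,
    Submodule.ideal_span_singleton_smul] at hPx
  obtain ⟨x₁, -, hx₁⟩ := (Submodule.mem_smul_pointwise_iff_exists _ _ _).1 hPx
  obtain ⟨a, ha⟩ := hv
  obtain ⟨e, rfl⟩ : ∃ e, j = v + (e + 1) := ⟨j - v - 1, by omega⟩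
  haveI : Module.Flat O (O ⊗[ℤ] FnClass k E) := inferInstance
  have hx : x = ((a : O) * ϖ ^ (e + 1)) • x₁ := by
    refine Module.IsTorsionFree.isSMulRegular (IsRegular.of_ne_zero hP) ?_
    show P • x = P • _
    rw [← hx₁, smul_smul]
    congr 1
    rw [pow_add, ← ha]
    ring
  rw [hx, map_smul]
  refine Submodule.smul_mem_smul (Ideal.mul_mem_left _ _ ?_) Submodule.mem_top
  rw [(IsDiscreteValuationRing.irreducible_iff_uniformizer ϖ).1 hϖ, pow_succ]
  exact Ideal.mem_span_singleton.2 (dvd_mul_left _ _)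

end target

section proj

local notation "Qb" => AlgebraicClosure ℚ

variable [Algebra Qb ℂ] {A : ValuationSubring Qb} {k : Type} [Field k] [IsAlgClosed k] {V : Lvl}
  {K : IntermediateField k (LaurentSeries k)} {C : ConstRed Qb (V.fld Qb) k K A}

/-- **Reductions are compatible with the projections.** -/
theorem redPhi_proj (hC : C.Scaled) {m d n : ℕ} [NeZero m] [NeZero n] (hn : d * m = n)
    (x : cuspLat V) :
    projTarget k K n ⟨d, by rw [← hn, mul_comm]⟩ (redPhi hC n x) = redPhi hC m x := by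
  subst hn
  obtain ⟨f, hf⟩ := exists_isKum (L := Qb) (n := d * m) x
  obtain ⟨D, hD, hfD⟩ := hf.exists_divisor
  obtain ⟨c, g, r, hc, he, hg, hr⟩ := exists_scaled hC hf.1
  have hm : redPhi hC m x = redFn C m f := by
    refine redTor_mk m (V.isFunctionField Qb) hC _ (D := d • D) ?_ hf.1 fun v => ?_
    · show _ = (latTors V Qb m x : Pic0 Qb (V.fld Qb))
      rw [← nsmul_latTors (m := d), ← hD]
      exact (QuotientAddGroup.mk_nsmul _ D d)
    · rw [← hfD v, AddSubgroupClass.coe_nsmul, Finsupp.smul_apply, nsmul_eq_mul]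
      push_cast
      ring
  rw [hm, redPhi_eq hC hf, redFn_eq (d * m) hc he hg hr, redFn_eq m hc he hg hr,
    projTarget_redCls _ hr]

end proj

end FA.NebLocal
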