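import Fermat.Agent.NebLocal.CorrFld
import Fermat.Agent.JTorsion.LiftTors
import Fermat.Agent.HeckeH1.Periods
import Fermat.Agent.Period.Primitive

/-!
# Functions attached to integral characters, and their pullbacks along correspondences

`IsKum V n φ f` says that `f` has an `n`-th root on the upper half plane transforming by `φ`
modulo `n`.  Such functions have divisor `n` times a representative of the torsion class of `φ`,
and the product pullback along a correspondence carries them to those of the transferred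
character.
-/

set_option autoImplicit false
set_option linter.unusedSectionVars false
set_option linter.style.haveILetI false
set_option synthInstance.maxHeartbeats 200000
set_option maxHeartbeats 1600000

noncomputable section

namespace FA.NebLocal

open AlgebraicCurve ModularCurve FA.Level FA.JTorsion
open FA.HeckeH1 (glQ gl Corr Par Hom1 hv cinf)
open scoped MatrixGroups UpperHalfPlane

variable {V V' : Lvl}

/-! ### The lattice is the parabolic part -/

/-- Parabolic homomorphisms kill the cusps. -/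
theorem killsCusps_of_par {φ : Additive V.grp →+ ℤ} (hφ : φ ∈ Par V.grp ℤ) : KillsCusps V φ :=
  fun δ => hφ ⟨_, V.conj_T_pow_mem δ⟩ (glQ δ • cinf) (by
    show glQ (δ * ModularGroup.T ^ (V.M : ℤ) * δ⁻¹) • glQ δ • cinf = glQ δ • cinf
    rw [← mul_smul, ← map_mul, inv_mul_cancel_right, map_mul, mul_smul,
      FA.HeckeH1.glQ_T_zpow_smul])

/-- Homomorphisms killing the cusps are parabolic. -/
theorem par_of_killsCusps {φ : Additive V.grp →+ ℤ} (hφ : KillsCusps V φ) : φ ∈ Par V.grp ℤ := by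
  intro γ s hs
  obtain ⟨δ, m, hδ⟩ := FA.Period.exists_conj_eq_of_trace_sq (FA.HeckeH1.trace_sq_of_fixes hs)
  set e : V.grp := ⟨_, V.conj_T_pow_mem δ⟩
  have hcube : γ ^ V.M = e ^ m ∨ γ ^ V.M = ⟨-1, V.neg_one_mem⟩ * e ^ m := by
    have he : ((e ^ m : V.grp) : SL(2, ℤ)) = (δ * ModularGroup.T ^ m * δ⁻¹) ^ V.M := by
      rw [SubgroupClass.coe_zpow]
      show (δ * ModularGroup.T ^ (V.M : ℤ) * δ⁻¹) ^ m = _
      rw [conj_zpow, ← zpow_natCast (δ * ModularGroup.T ^ m * δ⁻¹), conj_zpow, ← _root_.zpow_mul,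
        ← _root_.zpow_mul, mul_comm]
    rcases hδ with h | h
    · left
      refine Subtype.ext ?_
      rw [SubgroupClass.coe_pow, he, eq_mul_inv_of_mul_eq h]
    · have hγ : (γ : SL(2, ℤ)) = -(δ * ModularGroup.T ^ m * δ⁻¹) := by
        rw [eq_mul_inv_of_mul_eq h, neg_mul]
      rcases Nat.even_or_odd V.M with hev | hodd
      · left
        refine Subtype.ext ?_
        rw [SubgroupClass.coe_pow, he, hγ, hev.neg_pow]
      · right
        refine Subtype.ext ?_
        rw [Subgroup.coe_mul, SubgroupClass.coe_pow, he, hγ, hodd.neg_pow, neg_one_mul]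
  have h0 : φ (Additive.ofMul (γ ^ V.M)) = 0 := by
    rcases hcube with h | h <;> rw [h]
    · rw [ofMul_zpow, map_zsmul, hφ δ, zsmul_zero]
    · rw [ofMul_mul, map_add, hom_neg_one_eq_zero, ofMul_zpow, map_zsmul, hφ δ, zsmul_zero,
        add_zero]
  rw [ofMul_pow, map_nsmul, smul_eq_zero] at h0
  exact h0.resolve_left V.M_ne

theorem cuspLat_le_par (φ : cuspLat V) : (φ : Additive V.grp →+ ℤ) ∈ Par V.grp ℤ :=
  par_of_killsCusps φ.2

/-- The transfer of a correspondence on the lattices. -/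
def latC (C : Corr V.grp V'.grp) : cuspLat V →+ cuspLat V' :=
  AddMonoidHom.mk'
    (fun φ => ⟨C.act (φ : Additive V.grp →+ ℤ),
      killsCusps_of_par (FA.HeckeH1.Par_act C (cuspLat_le_par φ))⟩)
    fun _ _ => Subtype.ext (map_add C.act _ _)

theorem coe_latC (C : Corr V.grp V'.grp) (φ : cuspLat V) :
    ((latC C φ : cuspLat V') : Additive V'.grp →+ ℤ) = C.act (φ : Additive V.grp →+ ℤ) := rfl

/-! ### Functions of characters -/

variable {L : Type} [Field L] [Algebra ℚ L] [Algebra L ℂ] {n : ℕ} [NeZero n]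

/-- `f` has an `n`-th root transforming by `φ` modulo `n`. -/
def IsKum (V : Lvl) (n : ℕ) [NeZero n] (φ : Additive V.grp →+ ℤ) (f : V.fld L) : Prop :=
  f ≠ 0 ∧ ∃ h : Mer, h ≠ 0 ∧ h ^ n = theta f ∧ ∀ γ : V.grp, merSL (γ : SL(2, ℤ)) h =
    merC (ZMod.stdAddChar ((φ (Additive.ofMul γ) : ℤ) : ZMod n)) * h

variable [IsAlgClosed L]

/-- Every lattice element has a function. -/
theorem exists_isKum (φ : cuspLat V) : ∃ f : V.fld L, IsKum V n (φ : Additive V.grp →+ ℤ) f := by
  obtain ⟨D, h, -, H⟩ := exists_witness_of_kumFun (latTors V L n φ)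
  obtain ⟨f, hf, -, hh⟩ := H.div
  refine ⟨f, hf, h, H.ne, hh, fun γ => ?_⟩
  rw [H.char γ, ← kum_latTors (L := L) φ (Additive.ofMul γ)]
  rfl

/-- The divisor of such a function is `n` times a representative of the class. -/
theorem IsKum.exists_divisor {φ : cuspLat V} {f : V.fld L}
    (hf : IsKum V n (φ : Additive V.grp →+ ℤ) f) :
    ∃ D : Divisor.degZero (K := L) (F := V.fld L),
      Pic0.mk D = (latTors V L n φ : Pic0 L (V.fld L)) ∧
      ∀ v, (n : ℤ) * (D : Divisor L (V.fld L)) v = v.ord f := by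
  obtain ⟨hf0, h, hh0, hh, hchar⟩ := hf
  obtain ⟨D, h', hD, H⟩ := exists_witness_of_kumFun (latTors V L n φ)
  obtain ⟨f', hf', hD', hh'⟩ := H.div
  have hn : n ≠ 0 := NeZero.ne n
  obtain ⟨g, hg⟩ := exists_theta_of_invariant (V := V) (x := h / h') hn
    (f := f / f') (by rw [div_pow, hh, hh', map_div₀]) fun γ hγ => by
      rw [map_div₀, hchar ⟨γ, hγ⟩, H.char ⟨γ, hγ⟩,
        show kumFun (latTors V L n φ) ⟨γ, hγ⟩ = kum V L n (latTors V L n φ) (Additive.ofMul ⟨γ, hγ⟩)
          from rfl, kum_latTors, mul_div_mul_left _ _ (merC_ne_zero (stdAddChar_ne_zero _))]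
  have hg0 : g ≠ 0 := fun h0 => div_ne_zero hh0 H.ne (by rw [← hg, h0, map_zero])
  have hfg : f = f' * g ^ n := theta.injective (by
    rw [map_mul, map_pow, hg, div_pow, hh, hh',
      mul_div_cancel₀ _ ((map_ne_zero_iff _ theta.injective).2 hf')])
  haveI := V.hasPrincipalDivisors L
  obtain ⟨E, hE, hEdeg⟩ := HasPrincipalDivisors.exists_divisor (K := L) g hg0
  refine ⟨D + ⟨E, Divisor.mem_degZero.2 hEdeg⟩, ?_, fun v => ?_⟩
  · rw [Pic0.mk_add, hD]
    refine add_eq_left.2 ((QuotientAddGroup.eq_zero_iff _).2 ?_)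
    rw [AddSubgroup.mem_addSubgroupOf]
    exact ⟨g, hg0, hE⟩
  · rw [hfg, v.ord_mul hf' (pow_ne_zero n hg0), FA.ModField.place_ord_pow, ← hD' v,
      AddSubgroup.coe_add, Finsupp.add_apply, mul_add, ← hE v]

/-- A function has only one character. -/
theorem IsKum.unique {φ ψ : cuspLat V} {f : V.fld L} (hφ : IsKum V n (φ : Additive V.grp →+ ℤ) f)
    (hψ : IsKum V n (ψ : Additive V.grp →+ ℤ) f) : latTors V L n φ = latTors V L n ψ := by
  refine kum_injective V L n (AddMonoidHom.ext fun γ => ?_)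
  obtain ⟨hf0, h, hh0, hh, hchar⟩ := hφ
  obtain ⟨-, k, hk0, hk, kchar⟩ := hψ
  obtain ⟨ζ, -, hζ⟩ := exists_root_of_unity (NeZero.ne n) (x := k / h)
    (by rw [div_pow, hh, hk, div_self ((map_ne_zero_iff _ theta.injective).2 hf0)])
  rw [div_eq_iff hh0] at hζ
  rw [kum_latTors, kum_latTors]
  apply ZMod.injective_stdAddChar (N := n)
  apply merC.injective
  refine mul_right_cancel₀ hk0 ?_
  rw [show γ = Additive.ofMul γ.toMul from rfl, ← kchar γ.toMul, hζ, map_mul, hchar γ.toMul, merSL,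
    merComp_merC]
  ring

theorem addChar_sum {ι A M : Type*} [AddCommMonoid A] [CommMonoid M] (ψ : AddChar A M)
    (s : Finset ι) (x : ι → A) : ψ (∑ i ∈ s, x i) = ∏ i ∈ s, ψ (x i) := by
  classical
  induction s using Finset.induction with
  | empty => simp
  | insert a s ha ih => rw [Finset.sum_insert ha, Finset.prod_insert ha, AddChar.map_add_eq_mul, ih]

theorem _root_.FA.Level.IsGoodMap.comp_smul {φ : ℍ → ℍ} (hφ : IsGoodMap φ) (γ : SL(2, ℤ)) :
    IsGoodMap fun z => φ (γ • z) :=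
  ⟨hφ.surj.comp (MulAction.surjective γ), fun f hf =>
    FA.ModField.mdiff_comp_smul (hφ.mdiff f hf) γ⟩

/-- The Kummer functions of the pullback. -/
theorem IsKum.cpull (C : ICorr V V') (hC : C.Rational L) {φ : cuspLat V} {f : V.fld L}
    (hf : IsKum V n (φ : Additive V.grp →+ ℤ) f) :
    IsKum V' n (latC C.C φ : Additive V'.grp →+ ℤ) (C.cpull hC f) := by
  obtain ⟨hf0, h, hh0, hh, hchar⟩ := hf
  have hmer : ∀ {x : Mer}, x ≠ 0 → C.mer x ≠ 0 := fun hx =>
    Finset.prod_ne_zero_iff.2 fun i _ => (map_ne_zero _).2 hx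
  refine ⟨fun h0 => hmer ((map_ne_zero_iff _ theta.injective).2 hf0) ?_, C.mer h, hmer hh0, ?_,
    fun γ => ?_⟩
  · rw [← C.theta_cpull hC, h0, map_zero]
  · rw [← map_pow, hh, C.theta_cpull]
  · have key : ∀ i, merSL (γ : SL(2, ℤ)) (merComp (C.good i) h) =
        merC (ZMod.stdAddChar (((φ : Additive V.grp →+ ℤ) (Additive.ofMul (C.C.fac γ i)) : ℤ) :
          ZMod n)) * merComp (C.good (C.C.perm γ i)) h := fun i => by
      have e : (fun z => mob (gl (C.X i)) ((γ : SL(2, ℤ)) • z)) =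
          fun z => (C.C.fac γ i : SL(2, ℤ)) • mob (gl (C.X (C.C.perm γ i))) z := funext fun z => by
        rw [← C.α_eq, ← C.α_eq, ← mob_glQ, ← mob_mul, C.C.fac_spec, mob_mul, mob_glQ]
      have g1 := (C.good i).comp_smul (γ : SL(2, ℤ))
      have g2 : IsGoodMap fun z => (C.C.fac γ i : SL(2, ℤ)) • mob (gl (C.X (C.C.perm γ i))) z :=
        e ▸ g1
      rw [merSL, merComp_merComp _ _ g1, merComp_congr g1 g2 e,
        ← merComp_merComp (C.good (C.C.perm γ i)) (isGoodMap_smul _) g2, ← merSL, hchar, map_mul,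
        merComp_merC]
    show merSL (γ : SL(2, ℤ)) (∏ i, merComp (C.good i) h) = _ * ∏ i, merComp (C.good i) h
    rw [map_prod, Finset.prod_congr rfl fun i _ => key i, Finset.prod_mul_distrib,
      Equiv.prod_comp (C.C.perm γ) (fun i => merComp (C.good i) h), ← map_prod]
    congr 2
    rw [coe_latC, show C.C.act (φ : Additive V.grp →+ ℤ) (Additive.ofMul γ) =
        ∑ i, hv (φ : Additive V.grp →+ ℤ) (C.C.fac γ i) from C.C.act_apply _ γ,
      Int.cast_sum]
    exact (addChar_sum _ _ _).symm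

end FA.NebLocal
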